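/-
Core API for the dimension formula project (S20): modular forms of level `Γ₀(N)` as *functions*
`ℍ → ℂ` with weight predicates (no dependent weights), closure properties, vanishing results.
-/
import Mathlib
import Fermat.Prelude.Thm_ModularForm_sturm_bound_Gamma0
import Fermat.Prelude.Thm_CongruenceSubgroup_one_mem_strictPeriods_Gamma0

set_option autoImplicit false
set_option linter.style.haveILetI false

namespace Fermat.Agent.Lib.RR

open UpperHalfPlane ModularForm CongruenceSubgroup Matrix.SpecialLinearGroup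
open scoped MatrixGroups Manifold

noncomputable section

/-- The coercion to functions, as a linear map. -/
def mfCoe (Γ : Subgroup (GL (Fin 2) ℝ)) [Γ.HasDetOne] (k : ℤ) : ModularForm Γ k →ₗ[ℂ] (ℍ → ℂ) where
  toFun f := ⇑f
  map_add' _ _ := rfl
  map_smul' _ _ := rfl

/-- The coercion to functions, as a linear map. -/
def cfCoe (Γ : Subgroup (GL (Fin 2) ℝ)) [Γ.HasDetOne] (k : ℤ) : CuspForm Γ k →ₗ[ℂ] (ℍ → ℂ) where
  toFun f := ⇑f
  map_add' _ _ := rfl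
  map_smul' _ _ := rfl

/-- Functions `ℍ → ℂ` underlying modular forms of weight `k` and level `Γ₀(N)`. -/
def MF (N : ℕ) (k : ℤ) : Submodule ℂ (ℍ → ℂ) := LinearMap.range (mfCoe (Gamma0 N) k)

/-- Functions `ℍ → ℂ` underlying cusp forms of weight `k` and level `Γ₀(N)`. -/
def CF (N : ℕ) (k : ℤ) : Submodule ℂ (ℍ → ℂ) := LinearMap.range (cfCoe (Gamma0 N) k)

/-- Functions `ℍ → ℂ` underlying modular forms of weight `k` and level one (Mathlib's `𝒮ℒ`). -/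
def MF1 (k : ℤ) : Submodule ℂ (ℍ → ℂ) := LinearMap.range (mfCoe 𝒮ℒ k)

/-- Functions `ℍ → ℂ` underlying cusp forms of weight `k` and level one (Mathlib's `𝒮ℒ`). -/
def CF1 (k : ℤ) : Submodule ℂ (ℍ → ℂ) := LinearMap.range (cfCoe 𝒮ℒ k)

variable {N : ℕ} {k : ℤ} {f : ℍ → ℂ}

theorem mem_MF_iff : f ∈ MF N k ↔ ∃ F : ModularForm (Gamma0 N) k, ⇑F = f := Iff.rfl
theorem mem_CF_iff : f ∈ CF N k ↔ ∃ F : CuspForm (Gamma0 N) k, ⇑F = f := Iff.rfl
theorem mem_MF1_iff : f ∈ MF1 k ↔ ∃ F : ModularForm 𝒮ℒ k, ⇑F = f := Iff.rfl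
theorem mem_CF1_iff : f ∈ CF1 k ↔ ∃ F : CuspForm 𝒮ℒ k, ⇑F = f := Iff.rfl

theorem coe_mem_MF (F : ModularForm (Gamma0 N) k) : ⇑F ∈ MF N k := ⟨F, rfl⟩
theorem coe_mem_CF (F : CuspForm (Gamma0 N) k) : ⇑F ∈ CF N k := ⟨F, rfl⟩
theorem coe_mem_MF1 (F : ModularForm 𝒮ℒ k) : ⇑F ∈ MF1 k := ⟨F, rfl⟩
theorem coe_mem_CF1 (F : CuspForm 𝒮ℒ k) : ⇑F ∈ CF1 k := ⟨F, rfl⟩

/-! ### Change of level -/

/-- Restriction of the level of a modular form. -/
def restrictMF {Γ Γ' : Subgroup (GL (Fin 2) ℝ)} (h : Γ ≤ Γ') (F : ModularForm Γ' k) :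
    ModularForm Γ k where
  toFun := F
  slash_action_eq' γ hγ := F.slash_action_eq' γ (h hγ)
  holo' := F.holo'
  bdd_at_cusps' hc := F.bdd_at_cusps' (hc.mono h)

/-- Restriction of the level of a cusp form. -/
def restrictCF {Γ Γ' : Subgroup (GL (Fin 2) ℝ)} (h : Γ ≤ Γ') (F : CuspForm Γ' k) :
    CuspForm Γ k where
  toFun := F
  slash_action_eq' γ hγ := F.slash_action_eq' γ (h hγ)
  holo' := F.holo'
  zero_at_cusps' hc := F.zero_at_cusps' (hc.mono h)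

theorem Gamma0_le_SL (N : ℕ) : ((Gamma0 N : Subgroup SL(2, ℤ)) : Subgroup (GL (Fin 2) ℝ)) ≤ 𝒮ℒ :=
  Subgroup.map_le_range _ _

theorem MF1_le_MF (N : ℕ) (k : ℤ) : MF1 k ≤ MF N k := by
  rintro _ ⟨F, rfl⟩
  exact ⟨restrictMF (Gamma0_le_SL N) F, rfl⟩

theorem CF1_le_CF (N : ℕ) (k : ℤ) : CF1 k ≤ CF N k := by
  rintro _ ⟨F, rfl⟩
  exact ⟨restrictCF (Gamma0_le_SL N) F, rfl⟩

theorem CF_le_MF (N : ℕ) (k : ℤ) : CF N k ≤ MF N k := by
  rintro _ ⟨F, rfl⟩
  exact ⟨ModularFormClass.modularForm F, rfl⟩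

theorem CF1_le_MF1 (k : ℤ) : CF1 k ≤ MF1 k := by
  rintro _ ⟨F, rfl⟩
  exact ⟨ModularFormClass.modularForm F, rfl⟩

/-! ### Products -/

theorem mul_mem_MF {j k : ℤ} {f g : ℍ → ℂ} (hf : f ∈ MF N j) (hg : g ∈ MF N k) :
    f * g ∈ MF N (j + k) := by
  obtain ⟨F, rfl⟩ := hf
  obtain ⟨G, rfl⟩ := hg
  exact ⟨F.mul G, rfl⟩

theorem mul_mem_MF1 {j k : ℤ} {f g : ℍ → ℂ} (hf : f ∈ MF1 j) (hg : g ∈ MF1 k) :
    f * g ∈ MF1 (j + k) := by
  obtain ⟨F, rfl⟩ := hf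
  obtain ⟨G, rfl⟩ := hg
  exact ⟨F.mul G, rfl⟩

theorem mul_mem_CF {j k : ℤ} {f g : ℍ → ℂ} (hf : f ∈ CF N j) (hg : g ∈ MF N k) :
    f * g ∈ CF N (j + k) := by
  obtain ⟨F, rfl⟩ := hf
  obtain ⟨G, rfl⟩ := hg
  exact ⟨F.mulModularForm G, rfl⟩

theorem mul_mem_CF1 {j k : ℤ} {f g : ℍ → ℂ} (hf : f ∈ CF1 j) (hg : g ∈ MF1 k) :
    f * g ∈ CF1 (j + k) := by
  obtain ⟨F, rfl⟩ := hf
  obtain ⟨G, rfl⟩ := hg
  exact ⟨F.mulModularForm G, rfl⟩

/-- Weight-cast: membership only depends on the value of the weight. -/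
theorem mem_MF_of_eq {j k : ℤ} (h : j = k) {f : ℍ → ℂ} (hf : f ∈ MF N j) : f ∈ MF N k := h ▸ hf

theorem const_mem_MF (N : ℕ) (c : ℂ) : (fun _ => c) ∈ MF N 0 :=
  ⟨ModularForm.const c, rfl⟩

theorem const_mem_MF1 (c : ℂ) : (fun _ => c) ∈ MF1 0 :=
  ⟨ModularForm.const c, rfl⟩

theorem one_mem_MF (N : ℕ) : (1 : ℍ → ℂ) ∈ MF N 0 := const_mem_MF N 1

theorem one_mem_MF1 : (1 : ℍ → ℂ) ∈ MF1 0 := const_mem_MF1 1

theorem pow_mem_MF {j : ℤ} {f : ℍ → ℂ} (hf : f ∈ MF N j) (n : ℕ) : f ^ n ∈ MF N (n * j) := by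
  induction n with
  | zero => simpa using one_mem_MF N
  | succ n ih =>
    rw [pow_succ]
    exact mem_MF_of_eq (by push_cast; ring) (mul_mem_MF ih hf)

theorem pow_mem_MF1 {j : ℤ} {f : ℍ → ℂ} (hf : f ∈ MF1 j) (n : ℕ) : f ^ n ∈ MF1 (n * j) := by
  induction n with
  | zero => simpa using one_mem_MF1
  | succ n ih =>
    rw [pow_succ]
    have := mul_mem_MF1 ih hf
    have h : (n : ℤ) * j + j = ((n + 1 : ℕ) : ℤ) * j := by push_cast; ring
    exact h ▸ this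

/-! ### The basic level-one forms -/

/-- The Eisenstein series `E₄` as a function. -/
def E4 : ℍ → ℂ := ⇑ModularForm.E₄
/-- The Eisenstein series `E₆` as a function. -/
def E6 : ℍ → ℂ := ⇑ModularForm.E₆
/-- The discriminant `Δ` as a function. -/
def Dl : ℍ → ℂ := ModularForm.discriminant

theorem E4_mem_MF1 : E4 ∈ MF1 4 := ⟨ModularForm.E₄, rfl⟩
theorem E6_mem_MF1 : E6 ∈ MF1 6 := ⟨ModularForm.E₆, rfl⟩
theorem Dl_mem_CF1 : Dl ∈ CF1 12 := ⟨CuspForm.discriminant, rfl⟩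
theorem Dl_mem_MF1 : Dl ∈ MF1 12 := CF1_le_MF1 12 Dl_mem_CF1
theorem E4_mem_MF (N : ℕ) : E4 ∈ MF N 4 := MF1_le_MF N 4 E4_mem_MF1
theorem E6_mem_MF (N : ℕ) : E6 ∈ MF N 6 := MF1_le_MF N 6 E6_mem_MF1
theorem Dl_mem_CF (N : ℕ) : Dl ∈ CF N 12 := CF1_le_CF N 12 Dl_mem_CF1
theorem Dl_mem_MF (N : ℕ) : Dl ∈ MF N 12 := CF_le_MF N 12 (Dl_mem_CF N)

theorem Dl_ne_zero (z : ℍ) : Dl z ≠ 0 := ModularForm.discriminant_ne_zero z

theorem Dl_apply (z : ℍ) : Dl z = (E4 z ^ 3 - E6 z ^ 2) / 1728 :=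
  ModularForm.discriminant_eq_E₄_cube_sub_E₆_sq z

/-- `E₄` and `E₆` have no common zero. -/
theorem E4_ne_zero_or_E6_ne_zero (z : ℍ) : E4 z ≠ 0 ∨ E6 z ≠ 0 := by
  by_contra h
  simp only [not_or, not_not] at h
  apply Dl_ne_zero z
  rw [Dl_apply, h.1, h.2]
  norm_num

/-! ### Vanishing in small weight -/

section Vanishing

variable [NeZero N]

theorem MF_eq_bot_of_neg (hk : k < 0) : MF N k = ⊥ := by
  rw [eq_bot_iff]
  rintro _ ⟨F, rfl⟩
  rw [ModularForm.isZero_of_neg_weight hk F]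
  rfl

theorem eq_zero_of_mem_MF_of_neg (hk : k < 0) (hf : f ∈ MF N k) : f = 0 := by
  have := MF_eq_bot_of_neg (N := N) hk ▸ hf
  simpa using this

theorem eq_const_of_mem_MF_zero (hf : f ∈ MF N 0) : ∃ c : ℂ, f = fun _ => c := by
  obtain ⟨F, rfl⟩ := hf
  obtain ⟨c, hc⟩ := ModularForm.eq_const_of_weight_zero F
  exact ⟨c, hc⟩

theorem neg_one_mem_Gamma0 (N : ℕ) :
    (-1 : GL (Fin 2) ℝ) ∈ ((Gamma0 N : Subgroup SL(2, ℤ)) : Subgroup (GL (Fin 2) ℝ)) := by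
  refine ⟨-1, ?_, ?_⟩
  · simp [Gamma0_mem]
  · ext i j
    simp

omit [NeZero N] in
theorem eq_zero_of_mem_MF_of_odd (hk : Odd k) (hf : f ∈ MF N k) : f = 0 := by
  obtain ⟨F, rfl⟩ := hf
  rw [ModularForm.eq_zero_of_neg_one_mem (neg_one_mem_Gamma0 N) hk F]
  rfl

end Vanishing

/-! ### Finite dimensionality (Sturm bound) -/

section FiniteDim

theorem one_mem_strictPeriods (N : ℕ) :
    (1 : ℝ) ∈ ((Gamma0 N : Subgroup SL(2, ℤ)) : Subgroup (GL (Fin 2) ℝ)).strictPeriods :=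
  CongruenceSubgroup.one_mem_strictPeriods_Gamma0 N

/-- The `n`-th `q`-expansion coefficient (at `∞`, width `1`) as a linear functional on modular
forms of level `Γ₀(N)`. -/
def qCoeffMF (N : ℕ) (k : ℤ) (n : ℕ) : ModularForm (Gamma0 N) k →ₗ[ℂ] ℂ where
  toFun F := (qExpansion 1 F).coeff n
  map_add' F G := by
    rw [FunLike.coe_add, ModularForm.qExpansion_add one_pos (one_mem_strictPeriods N) F G, map_add]
  map_smul' c F := by
    have h1 : ⇑(c • F) = c • ⇑F := by ext z; simp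
    rw [h1, ModularForm.qExpansion_smul one_pos (one_mem_strictPeriods N) c F]
    simp

theorem finiteDimensional_modularForm (N : ℕ) [NeZero N] (k : ℤ) :
    FiniteDimensional ℂ (ModularForm (Gamma0 N) k) := by
  let B := (k * (Gamma0 N).index).toNat / 12
  let T : ModularForm (Gamma0 N) k →ₗ[ℂ] (Fin (B + 1) → ℂ) :=
    LinearMap.pi fun i => qCoeffMF N k i
  refine FiniteDimensional.of_injective T ((injective_iff_map_eq_zero _).mpr fun F hF => ?_)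
  refine ModularForm.sturm_bound_Gamma0 N F fun n hn => ?_
  have := congrFun hF ⟨n, Nat.lt_succ_of_le hn⟩
  simpa [T, qCoeffMF] using this

theorem finiteDimensional_MF (N : ℕ) [NeZero N] (k : ℤ) : FiniteDimensional ℂ (MF N k) := by
  haveI := finiteDimensional_modularForm N k
  exact LinearMap.finiteDimensional_range _

theorem finiteDimensional_CF (N : ℕ) [NeZero N] (k : ℤ) : FiniteDimensional ℂ (CF N k) := by
  haveI := finiteDimensional_MF N k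
  exact Submodule.finiteDimensional_of_le (CF_le_MF N k)

theorem mfCoe_injective (Γ : Subgroup (GL (Fin 2) ℝ)) [Γ.HasDetOne] (k : ℤ) :
    Function.Injective (mfCoe Γ k) := fun _ _ h => DFunLike.coe_injective h

theorem cfCoe_injective (Γ : Subgroup (GL (Fin 2) ℝ)) [Γ.HasDetOne] (k : ℤ) :
    Function.Injective (cfCoe Γ k) := fun _ _ h => DFunLike.coe_injective h

/-- `MF N k` is linearly equivalent to `ModularForm (Gamma0 N) k`. -/
def equivMF (N : ℕ) (k : ℤ) : ModularForm (Gamma0 N) k ≃ₗ[ℂ] MF N k :=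
  LinearEquiv.ofInjective (mfCoe (Gamma0 N) k) (mfCoe_injective _ k)

/-- `CF N k` is linearly equivalent to `CuspForm (Gamma0 N) k`. -/
def equivCF (N : ℕ) (k : ℤ) : CuspForm (Gamma0 N) k ≃ₗ[ℂ] CF N k :=
  LinearEquiv.ofInjective (cfCoe (Gamma0 N) k) (cfCoe_injective _ k)

theorem finrank_CF (N : ℕ) (k : ℤ) :
    Module.finrank ℂ (CF N k) = Module.finrank ℂ (CuspForm (Gamma0 N) k) :=
  (equivCF N k).finrank_eq.symm

end FiniteDim

/-! ### Holomorphy -/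

theorem mdifferentiable_of_mem_MF (hf : f ∈ MF N k) : MDiff f := by
  obtain ⟨F, rfl⟩ := hf
  exact F.holo'

theorem differentiableOn_of_mem_MF (hf : f ∈ MF N k) :
    DifferentiableOn ℂ (f ∘ ofComplex) {z | 0 < z.im} :=
  UpperHalfPlane.mdifferentiable_iff.mp (mdifferentiable_of_mem_MF hf)

theorem continuous_of_mem_MF (hf : f ∈ MF N k) : Continuous f :=
  (mdifferentiable_of_mem_MF hf).continuous

/-! ### Slash action by `SL(2, ℤ)` -/

section Slash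

theorem slash_eq_of_mem_MF (hf : f ∈ MF N k) {γ : SL(2, ℤ)} (hγ : γ ∈ Gamma0 N) :
    f ∣[k] γ = f := by
  obtain ⟨F, rfl⟩ := hf
  rw [SL_slash]
  exact F.slash_action_eq' _ ⟨γ, hγ, rfl⟩

theorem slash_eq_of_mem_MF1 (hf : f ∈ MF1 k) (γ : SL(2, ℤ)) : f ∣[k] γ = f := by
  obtain ⟨F, rfl⟩ := hf
  rw [SL_slash]
  exact F.slash_action_eq' _ ⟨γ, rfl⟩

theorem mdifferentiable_slash (hf : MDiff f) (γ : SL(2, ℤ)) : MDiff (f ∣[k] γ) := by
  rw [SL_slash]
  exact hf.slash k _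

variable [NeZero N]

theorem isCusp_smul_infty (γ : SL(2, ℤ)) :
    IsCusp (mapGL ℝ γ • OnePoint.infty)
      ((Gamma0 N : Subgroup SL(2, ℤ)) : Subgroup (GL (Fin 2) ℝ)) := by
  rw [Subgroup.IsArithmetic.isCusp_iff_isCusp_SL2Z, isCusp_SL2Z_iff']
  exact ⟨γ, rfl⟩

theorem isBoundedAtImInfty_slash (hf : f ∈ MF N k) (γ : SL(2, ℤ)) :
    IsBoundedAtImInfty (f ∣[k] γ) := by
  obtain ⟨F, rfl⟩ := hf
  have h := F.bdd_at_cusps' (isCusp_smul_infty (N := N) γ)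
  rw [SL_slash]
  exact h _ rfl

theorem isZeroAtImInfty_slash (hf : f ∈ CF N k) (γ : SL(2, ℤ)) :
    IsZeroAtImInfty (f ∣[k] γ) := by
  obtain ⟨F, rfl⟩ := hf
  have h := F.zero_at_cusps' (isCusp_smul_infty (N := N) γ)
  rw [SL_slash]
  exact h _ rfl

theorem isBoundedAtImInfty_of_mem_MF (hf : f ∈ MF N k) : IsBoundedAtImInfty f := by
  have := isBoundedAtImInfty_slash hf 1
  rwa [SlashAction.slash_one] at this

theorem isZeroAtImInfty_of_mem_CF (hf : f ∈ CF N k) : IsZeroAtImInfty f := by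
  have := isZeroAtImInfty_slash hf 1
  rwa [SlashAction.slash_one] at this

/-- Constructor: a holomorphic function, invariant under `Γ₀(N)` and with all `SL(2,ℤ)`-translates
bounded at `i∞`, is a modular form. -/
theorem mem_MF_of (hol : MDiff f) (hinv : ∀ γ ∈ Gamma0 N, f ∣[k] γ = f)
    (hbdd : ∀ γ : SL(2, ℤ), IsBoundedAtImInfty (f ∣[k] γ)) : f ∈ MF N k := by
  refine ⟨{ toFun := f
            slash_action_eq' := ?_
            holo' := hol
            bdd_at_cusps' := ?_ }, rfl⟩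
  · rintro _ ⟨γ, hγ, rfl⟩
    have := hinv γ hγ
    rwa [SL_slash] at this
  · intro c hc
    rw [Subgroup.IsArithmetic.isCusp_iff_isCusp_SL2Z] at hc
    rw [OnePoint.isBoundedAt_iff_forall_SL2Z hc]
    exact fun γ _ => hbdd γ

/-- Constructor for cusp forms. -/
theorem mem_CF_of (hol : MDiff f) (hinv : ∀ γ ∈ Gamma0 N, f ∣[k] γ = f)
    (hzero : ∀ γ : SL(2, ℤ), IsZeroAtImInfty (f ∣[k] γ)) : f ∈ CF N k := by
  refine ⟨{ toFun := f
            slash_action_eq' := ?_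
            holo' := hol
            zero_at_cusps' := ?_ }, rfl⟩
  · rintro _ ⟨γ, hγ, rfl⟩
    have := hinv γ hγ
    rwa [SL_slash] at this
  · intro c hc
    rw [Subgroup.IsArithmetic.isCusp_iff_isCusp_SL2Z] at hc
    rw [OnePoint.isZeroAt_iff_forall_SL2Z hc]
    exact fun γ _ => hzero γ

/-- A modular form all of whose translates vanish at `i∞` is a cusp form. -/
theorem mem_CF_iff_of_mem_MF (hf : f ∈ MF N k) :
    f ∈ CF N k ↔ ∀ γ : SL(2, ℤ), IsZeroAtImInfty (f ∣[k] γ) :=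
  ⟨fun h γ => isZeroAtImInfty_slash h γ, fun h =>
    mem_CF_of (mdifferentiable_of_mem_MF hf) (fun _ hγ => slash_eq_of_mem_MF hf hγ) h⟩

omit [NeZero N] in
/-- Constructor for level one. -/
theorem mem_MF1_of (hol : MDiff f) (hinv : ∀ γ : SL(2, ℤ), f ∣[k] γ = f)
    (hbdd : IsBoundedAtImInfty f) : f ∈ MF1 k := by
  refine ⟨{ toFun := f
            slash_action_eq' := ?_
            holo' := hol
            bdd_at_cusps' := ?_ }, rfl⟩
  · rintro _ ⟨γ, rfl⟩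
    have := hinv γ
    rwa [SL_slash] at this
  · intro c hc
    rw [OnePoint.isBoundedAt_iff_forall_SL2Z hc]
    intro γ _
    rw [hinv γ]
    exact hbdd

end Slash

/-! ### Cancellation -/

theorem E4_ne_zero : E4 ≠ 0 := by
  intro h
  exact EisensteinSeries.E_ne_zero (by norm_num : 3 ≤ 4) ⟨2, rfl⟩ (DFunLike.coe_injective h)

theorem E6_ne_zero : E6 ≠ 0 := by
  intro h
  exact EisensteinSeries.E_ne_zero (by norm_num : 3 ≤ 6) ⟨3, rfl⟩ (DFunLike.coe_injective h)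

theorem Dl_ne_zero' : Dl ≠ 0 := fun h => Dl_ne_zero I (congrFun h I)

theorem mdifferentiable_E4 : MDiff E4 := ModularForm.E₄.holo'
theorem mdifferentiable_E6 : MDiff E6 := ModularForm.E₆.holo'
theorem mdifferentiable_Dl : MDiff Dl := CuspForm.discriminant.holo'

/-- Cancellation of a nonzero holomorphic factor. -/
theorem eq_zero_of_mul_eq_zero {p u : ℍ → ℂ} (hp : MDiff p) (hu : MDiff u) (hp0 : p ≠ 0)
    (h : p * u = 0) : u = 0 :=
  ((UpperHalfPlane.mul_eq_zero_iff hp hu).mp h).resolve_left hp0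

theorem eq_of_mul_eq_mul {p u v : ℍ → ℂ} (hp : MDiff p) (hu : MDiff u) (hv : MDiff v)
    (hp0 : p ≠ 0) (h : p * u = p * v) : u = v := by
  have h1 : p * (u - v) = 0 := by rw [mul_sub, h, sub_self]
  exact sub_eq_zero.mp (eq_zero_of_mul_eq_zero hp (hu.sub hv) hp0 h1)

end

end Fermat.Agent.Lib.RR
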