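/-
Coset vectors: for a function `f` invariant under `Γ₀(N)` (weight `k`), the family of its
`SL(2,ℤ)`-translates indexed by the finite set `SL(2,ℤ) ⧸ Γ₀(N)`; permutation law; products;
the trace to level one.
-/
import Fermat.Agent.Lib.RR.Core

set_option autoImplicit false
set_option linter.style.haveILetI false

namespace Fermat.Agent.Lib.RR

open UpperHalfPlane ModularForm CongruenceSubgroup Matrix.SpecialLinearGroup
open scoped MatrixGroups Manifold

noncomputable section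

/-- The index set of the coset vector: left cosets `g Γ₀(N)`; the translate attached to `g Γ₀(N)`
is `f ∣[k] g⁻¹`. -/
abbrev Q (N : ℕ) : Type := SL(2, ℤ) ⧸ Gamma0 N

instance instFintypeQ (N : ℕ) [NeZero N] : Fintype (Q N) :=
  Subgroup.fintypeQuotientOfFiniteIndex

/-- The translate of `f` attached to the coset `q`. -/
def cosetFun (N : ℕ) (k : ℤ) (f : ℍ → ℂ) (q : Q N) : ℍ → ℂ := f ∣[k] (q.out)⁻¹

variable {N : ℕ} {k : ℤ} {f : ℍ → ℂ}

/-- `f` is invariant under `Γ₀(N)` in weight `k`. -/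
def IsInv (N : ℕ) (k : ℤ) (f : ℍ → ℂ) : Prop := ∀ γ ∈ Gamma0 N, f ∣[k] γ = f

theorem isInv_of_mem_MF (hf : f ∈ MF N k) : IsInv N k f := fun _ hγ => slash_eq_of_mem_MF hf hγ

theorem cosetFun_mk (hf : IsInv N k f) (g : SL(2, ℤ)) :
    cosetFun N k f (g : Q N) = f ∣[k] g⁻¹ := by
  unfold cosetFun
  obtain ⟨γ, hγ⟩ : ∃ γ : Gamma0 N, ((g : Q N).out) = g * γ := by
    have h := QuotientGroup.mk_out_eq_mul (Gamma0 N) g
    obtain ⟨γ, hγ⟩ := h
    exact ⟨γ, hγ⟩
  rw [hγ, mul_inv_rev, SlashAction.slash_mul, hf _ (inv_mem γ.2)]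

/-- The permutation law. -/
theorem cosetFun_slash (hf : IsInv N k f) (q : Q N) (γ : SL(2, ℤ)) :
    (cosetFun N k f q) ∣[k] γ = cosetFun N k f (γ⁻¹ • q) := by
  induction q using QuotientGroup.induction_on with
  | H g =>
    have h1 : γ⁻¹ • (g : Q N) = ((γ⁻¹ * g : SL(2, ℤ)) : Q N) := rfl
    rw [h1, cosetFun_mk hf, cosetFun_mk hf, ← SlashAction.slash_mul, mul_inv_rev, inv_inv]

theorem cosetFun_one (hf : IsInv N k f) : cosetFun N k f ((1 : SL(2, ℤ)) : Q N) = f := by
  rw [cosetFun_mk hf, inv_one, SlashAction.slash_one]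

theorem cosetFun_of_mem_MF1 (hf : f ∈ MF1 k) (q : Q N) : cosetFun N k f q = f :=
  slash_eq_of_mem_MF1 hf _

theorem cosetFun_add (f g : ℍ → ℂ) (q : Q N) :
    cosetFun N k (f + g) q = cosetFun N k f q + cosetFun N k g q :=
  SlashAction.add_slash _ _ _ _

theorem cosetFun_smul (c : ℂ) (f : ℍ → ℂ) (q : Q N) :
    cosetFun N k (c • f) q = c • cosetFun N k f q :=
  ModularForm.SL_smul_slash _ _ _ _

theorem cosetFun_zero (q : Q N) : cosetFun N k 0 q = 0 :=
  SlashAction.zero_slash _ _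

theorem cosetFun_sum {ι : Type*} (s : Finset ι) (f : ι → ℍ → ℂ) (q : Q N) :
    cosetFun N k (∑ i ∈ s, f i) q = ∑ i ∈ s, cosetFun N k (f i) q :=
  SlashAction.sum_slash _ _

theorem cosetFun_mul (j k : ℤ) (f g : ℍ → ℂ) (q : Q N) :
    cosetFun N (j + k) (f * g) q = cosetFun N j f q * cosetFun N k g q :=
  ModularForm.mul_slash_SL2 _ _ _ _ _

theorem mdifferentiable_cosetFun (hf : MDiff f) (q : Q N) : MDiff (cosetFun N k f q) :=
  mdifferentiable_slash hf _

/-- `-1` acts trivially on the cosets. -/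
theorem neg_one_smul_Q (q : Q N) : (-1 : SL(2, ℤ)) • q = q := by
  induction q using QuotientGroup.induction_on with
  | H g =>
    show (((-1 : SL(2, ℤ)) * g : SL(2, ℤ)) : Q N) = (g : Q N)
    rw [QuotientGroup.eq]
    have : ((-1 : SL(2, ℤ)) * g)⁻¹ * g = -1 := by
      rw [mul_inv_rev]
      simp
    rw [this]
    simp [Gamma0_mem]

section Bounded

variable [NeZero N]

theorem isBoundedAtImInfty_cosetFun (hf : f ∈ MF N k) (q : Q N) :
    IsBoundedAtImInfty (cosetFun N k f q) :=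
  isBoundedAtImInfty_slash hf _

theorem isZeroAtImInfty_cosetFun (hf : f ∈ CF N k) (q : Q N) :
    IsZeroAtImInfty (cosetFun N k f q) :=
  isZeroAtImInfty_slash hf _

/-- The trace to level one. -/
def trace (N : ℕ) [NeZero N] (k : ℤ) (f : ℍ → ℂ) : ℍ → ℂ := ∑ q : Q N, cosetFun N k f q

theorem trace_slash (hf : IsInv N k f) (γ : SL(2, ℤ)) : (trace N k f) ∣[k] γ = trace N k f := by
  unfold trace
  rw [SlashAction.sum_slash]
  simp_rw [cosetFun_slash hf]
  exact Equiv.sum_comp (MulAction.toPerm γ⁻¹ : Equiv.Perm (Q N)) (cosetFun N k f)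

theorem trace_mem_MF1 (hf : f ∈ MF N k) : trace N k f ∈ MF1 k := by
  refine mem_MF1_of ?_ (trace_slash (isInv_of_mem_MF hf)) ?_
  · unfold trace
    exact MDifferentiable.sum fun q _ => mdifferentiable_cosetFun (mdifferentiable_of_mem_MF hf) q
  · unfold trace
    rw [IsBoundedAtImInfty, Filter.BoundedAtFilter, Finset.sum_fn]
    exact Asymptotics.IsBigO.fun_sum fun q _ => isBoundedAtImInfty_cosetFun hf q

theorem isZeroAtImInfty_trace (hf : f ∈ CF N k) : IsZeroAtImInfty (trace N k f) := by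
  unfold trace
  rw [IsZeroAtImInfty, Filter.ZeroAtFilter]
  have h0 : (0 : ℂ) = ∑ _q : Q N, (0 : ℂ) := by simp
  rw [h0]
  have : (∑ q : Q N, cosetFun N k f q) = fun z => ∑ q : Q N, cosetFun N k f q z := by
    ext z; simp
  rw [this]
  exact tendsto_finsetSum _ fun q _ => isZeroAtImInfty_cosetFun hf q

theorem trace_mem_CF1 (hf : f ∈ CF N k) : trace N k f ∈ CF1 k := by
  obtain ⟨F, hF⟩ := trace_mem_MF1 (CF_le_MF N k hf)
  have hz := isZeroAtImInfty_trace hf
  refine ⟨{ toFun := F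
            slash_action_eq' := F.slash_action_eq'
            holo' := F.holo'
            zero_at_cusps' := ?_ }, hF⟩
  intro c hc
  rw [OnePoint.isZeroAt_iff_forall_SL2Z hc]
  intro γ _
  have hinv : (⇑F : ℍ → ℂ) ∣[k] γ = F := slash_eq_of_mem_MF1 ⟨F, rfl⟩ γ
  show IsZeroAtImInfty ((⇑F : ℍ → ℂ) ∣[k] γ)
  rw [hinv]
  have hF' : (⇑F : ℍ → ℂ) = trace N k f := hF
  rw [hF']
  exact hz

end Bounded

end

end Fermat.Agent.Lib.RR
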