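import Mathlib

set_option autoImplicit false

/-!
# Level-one Ramanujan identities and simple zeros of `E₄`, `E₆` (S20 work package B)
-/

namespace Fermat.Agent.Lib.RR.Ramanujan

open UpperHalfPlane hiding I
open Real Complex Filter Topology Metric Function
open scoped Manifold MatrixGroups ModularForm
open Derivative EisensteinSeries ModularForm ModularGroup

local notation "𝕢" => Periodic.qParam

/-- Cauchy estimate: if a holomorphic `f` on `ℍ` tends to `c` at `i∞`, then its normalised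
derivative tends to `0` at `i∞`. -/
theorem tendsto_D_atImInfty {f : ℍ → ℂ} (hf : MDiff f) {c : ℂ}
    (h : Tendsto f atImInfty (𝓝 c)) : Tendsto (D f) atImInfty (𝓝 0) := by
  rw [Metric.tendsto_nhds] at h ⊢
  intro ε hε
  have hε' : 0 < ε * (2 * π) / 2 := by positivity
  obtain ⟨A, hA⟩ := (atImInfty_mem _).mp (h _ hε')
  rw [Filter.Eventually, atImInfty_mem]
  refine ⟨max A 0 + 2, fun z hz => ?_⟩
  have hdiff : DifferentiableOn ℂ (f ∘ ofComplex) upperHalfPlaneSet :=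
    UpperHalfPlane.mdifferentiable_iff.mp hf
  set g : ℂ → ℂ := fun w => (f ∘ ofComplex) w - c with hg
  have hzA : max A 0 + 2 ≤ (z : ℂ).im := hz
  have hball : ∀ w ∈ closedBall (z : ℂ) 1, max A 0 + 1 ≤ w.im := by
    intro w hw
    have h1 : |(w - z).im| ≤ 1 :=
      (Complex.abs_im_le_norm _).trans (by simpa [dist_eq_norm] using hw)
    have h2 := abs_le.mp h1
    simp only [Complex.sub_im] at h2
    linarith [h2.1]
  have hsub : closedBall (z : ℂ) 1 ⊆ upperHalfPlaneSet := by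
    intro w hw
    have := hball w hw
    have h0 : (0:ℝ) ≤ max A 0 := le_max_right _ _
    change 0 < w.im
    linarith
  have hgd : DiffContOnCl ℂ g (ball (z : ℂ) 1) := by
    have : DifferentiableOn ℂ g (closedBall (z : ℂ) 1) :=
      (hdiff.mono hsub).sub (differentiableOn_const c)
    exact this.diffContOnCl_ball (subset_refl _)
  have hbound : ∀ w ∈ sphere (z : ℂ) 1, ‖g w‖ ≤ ε * (2 * π) / 2 := by
    intro w hw
    have hw' : w ∈ closedBall (z : ℂ) 1 := sphere_subset_closedBall hw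
    have him : 0 < w.im := hsub hw'
    have hAw : A ≤ (⟨w, him⟩ : ℍ).im := by
      have := hball w hw'
      have h0 : A ≤ max A 0 := le_max_left _ _
      change A ≤ w.im
      linarith
    have := hA ⟨w, him⟩ hAw
    simp only [Set.mem_ofPred_eq, dist_eq_norm] at this
    simp only [hg, Function.comp_apply, ofComplex_apply_of_im_pos him]
    exact this.le
  have hderiv := Complex.norm_deriv_le_of_forall_mem_sphere_norm_le one_pos hgd hbound
  have hdg : deriv g z = deriv (f ∘ ofComplex) z := by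
    simp only [hg]
    rw [deriv_sub_const]
  simp only [Set.mem_ofPred_eq, dist_zero_right, normalizedDerivOfComplex]
  rw [hdg, div_one] at hderiv
  rw [norm_mul, norm_inv]
  have h2pi : ‖(2 * π * I : ℂ)‖ = 2 * π := by
    simp [abs_of_pos Real.pi_pos]
  rw [h2pi]
  have hpi : 0 < 2 * π := by positivity
  calc (2 * π)⁻¹ * ‖deriv (f ∘ ofComplex) z‖ ≤ (2 * π)⁻¹ * (ε * (2 * π) / 2) :=
        mul_le_mul_of_nonneg_left hderiv (inv_nonneg.mpr hpi.le)
    _ = ε / 2 := by field_simp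
    _ < ε := half_lt_self hε

theorem tendsto_atImInfty_of_analyticAt_cuspFunction {f : ℍ → ℂ} {h : ℝ} (hh : 0 < h)
    (hper : Periodic (f ∘ ofComplex) h) (han : AnalyticAt ℂ (cuspFunction h f) 0) :
    Tendsto f atImInfty (𝓝 (valueAtInfty f)) := by
  have : (cuspFunction h f ∘ fun τ : ℍ ↦ 𝕢 h τ : ℍ → ℂ) = f := by
    funext τ
    simpa using eq_cuspFunction τ hh.ne' hper
  rw [← cuspFunction_apply_zero hh han hper]
  simpa [this] using han.continuousAt.tendsto.comp (qParam_tendsto_atImInfty hh)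

theorem tendsto_valueAtInfty_of_modularForm {k : ℤ} (f : ModularForm 𝒮ℒ k) :
    Tendsto f atImInfty (𝓝 (valueAtInfty f)) :=
  tendsto_atImInfty_of_analyticAt_cuspFunction one_pos
    (SlashInvariantFormClass.periodic_comp_ofComplex f one_mem_strictPeriods_SL)
    (ModularFormClass.analyticAt_cuspFunction_zero f one_pos one_mem_strictPeriods_SL)

theorem periodic_of_hasSum_qExpansion {f : ℍ → ℂ} {c : ℕ → ℂ}
    (hf : ∀ τ : ℍ, HasSum (fun m ↦ c m • 𝕢 1 τ ^ m) (f τ)) :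
    Periodic (f ∘ ofComplex) ((1 : ℝ) : ℂ) := by
  intro w
  by_cases hw : 0 < w.im
  · have hw1 : 0 < (w + (1 : ℝ)).im := by simpa using hw
    simp only [comp_apply, ofComplex_apply_of_im_pos hw1, ofComplex_apply_of_im_pos hw]
    have h1 := hf ⟨w + (1:ℝ), hw1⟩
    have h2 := hf ⟨w, hw⟩
    have hq : 𝕢 1 (w + (1:ℝ)) = 𝕢 1 w := by
      simp [Periodic.qParam, mul_add, Complex.exp_add]
    simp only [hq] at h1 h2
    exact h1.unique h2
  · have hw1 : ¬ 0 < (w + (1 : ℝ)).im := by simpa using hw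
    simp only [comp_apply]
    rw [ofComplex_apply_of_im_nonpos (not_lt.mp hw), ofComplex_apply_of_im_nonpos (not_lt.mp hw1)]

theorem tendsto_of_hasSum_qExpansion {f : ℍ → ℂ} {c : ℕ → ℂ} (hfhol : MDiff f)
    (hf : ∀ τ : ℍ, HasSum (fun m ↦ c m • 𝕢 1 τ ^ m) (f τ)) :
    Tendsto f atImInfty (𝓝 (c 0)) := by
  have hper := periodic_of_hasSum_qExpansion hf
  have hbdd := isBoundedAtImInfty_of_hasSum_qExpansion one_pos hf
  have han := analyticAt_cuspFunction_zero one_pos hper hfhol hbdd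
  have h0 : c 0 = valueAtInfty f := by
    rw [← cuspFunction_apply_zero one_pos han hper]
    have := (hasFPowerSeriesOnBall_cuspFunction one_pos han hf).coeff_zero
    simpa using this
  rw [h0]
  exact tendsto_atImInfty_of_analyticAt_cuspFunction one_pos hper han

theorem tendsto_E2_atImInfty : Tendsto E2 atImInfty (𝓝 1) := by
  have := tendsto_of_hasSum_qExpansion E2_mdifferentiable
    (c := fun m : ℕ ↦ (if m = 0 then 1 else -24 * ArithmeticFunction.sigma 1 m : ℂ))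
    (fun τ => by
      simpa only [Function.Periodic.qParam, ofReal_one, div_one] using hasSum_qExpansion_E2 (z := τ))
  simpa using this

theorem tendsto_serreDerivative {k : ℤ} (f : ModularForm 𝒮ℒ k) :
    Tendsto (serreDerivative k f) atImInfty (𝓝 (-(k * 12⁻¹ * valueAtInfty f))) := by
  have h1 := tendsto_D_atImInfty (ModularFormClass.holo f) (tendsto_valueAtInfty_of_modularForm f)
  have h2 := tendsto_valueAtInfty_of_modularForm f
  have h3 := ((tendsto_const_nhds (x := ((k : ℂ) * 12⁻¹))).mul tendsto_E2_atImInfty).mul h2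
  have h4 := h1.sub h3
  simp only [serreDerivative_eq]
  convert h4 using 2
  ring

/-- The Serre derivative of a level-one modular form of weight `k`, as a modular form of weight
`k + 2`. -/
noncomputable def serreDerivativeMF {k : ℤ} (f : ModularForm 𝒮ℒ k) : ModularForm 𝒮ℒ (k + 2) where
  toFun := serreDerivative k f
  slash_action_eq' A hA := by
    obtain ⟨γ, rfl⟩ := hA
    have hf : (f : ℍ → ℂ) ∣[k] γ = f := by
      have := SlashInvariantFormClass.slash_action_eq f _ (MonoidHom.mem_range.mpr ⟨γ, rfl⟩)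
      exact this
    exact serreDerivative_slash_invariant (ModularFormClass.holo f) hf
  holo' := serreDerivative_mdifferentiable k (ModularFormClass.holo f)
  bdd_at_cusps' {c} hc := by
    rw [Subgroup.IsArithmetic.isCusp_iff_isCusp_SL2Z] at hc
    rw [OnePoint.isBoundedAt_iff_forall_SL2Z hc]
    intro γ _
    have hf : (f : ℍ → ℂ) ∣[k] γ = f := by
      have := SlashInvariantFormClass.slash_action_eq f _ (MonoidHom.mem_range.mpr ⟨γ, rfl⟩)
      exact this
    rw [serreDerivative_slash_invariant (ModularFormClass.holo f) hf]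
    exact (tendsto_serreDerivative f).isBigO_one ℝ

@[simp] theorem serreDerivativeMF_apply {k : ℤ} (f : ModularForm 𝒮ℒ k) (z : ℍ) :
    serreDerivativeMF f z = serreDerivative k f z := rfl

theorem coe_serreDerivativeMF {k : ℤ} (f : ModularForm 𝒮ℒ k) :
    (serreDerivativeMF f : ℍ → ℂ) = serreDerivative k f := rfl

theorem valueAtInfty_serreDerivativeMF {k : ℤ} (f : ModularForm 𝒮ℒ k) :
    valueAtInfty (serreDerivativeMF f) = -(k * 12⁻¹ * valueAtInfty f) :=
  (tendsto_serreDerivative f).limUnder_eq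

theorem valueAtInfty_smul_modularForm {k : ℤ} (c : ℂ) (f : ModularForm 𝒮ℒ k) :
    valueAtInfty ((c • f : ModularForm 𝒮ℒ k) : ℍ → ℂ) = c * valueAtInfty f := by
  have h := (tendsto_valueAtInfty_of_modularForm f).const_mul c
  exact Tendsto.limUnder_eq h

theorem valueAtInfty_E {k : ℕ} (hk : 3 ≤ k) (hk2 : Even k) : valueAtInfty (E hk) = 1 := by
  rw [← qExpansion_coeff_zero one_pos
    (ModularFormClass.analyticAt_cuspFunction_zero (E hk) one_pos one_mem_strictPeriods_SL)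
    (SlashInvariantFormClass.periodic_comp_ofComplex (E hk) one_mem_strictPeriods_SL)]
  exact E_qExpansion_coeff_zero hk hk2

theorem eq_smul_of_rank_one {k : ℤ} (hrank : Module.rank ℂ (ModularForm 𝒮ℒ k) = 1)
    (e g : ModularForm 𝒮ℒ k) (he : valueAtInfty e = 1) :
    g = valueAtInfty g • e := by
  obtain ⟨v₀, hv₀, hv⟩ := rank_eq_one_iff.mp hrank
  obtain ⟨re, hre⟩ := hv e
  obtain ⟨rg, hrg⟩ := hv g
  have hre0 : re ≠ 0 := by
    rintro rfl
    rw [zero_smul] at hre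
    rw [← hre] at he
    have h0 : valueAtInfty ((0 : ModularForm 𝒮ℒ k) : ℍ → ℂ) = 0 :=
      Tendsto.limUnder_eq (by
        rw [FunLike.coe_zero]
        exact tendsto_const_nhds)
    rw [h0] at he
    exact zero_ne_one he
  have hg : g = (rg / re) • e := by
    rw [← hre, smul_smul, div_mul_cancel₀ _ hre0, hrg]
  have hval : valueAtInfty g = rg / re := by
    conv_lhs => rw [hg]
    rw [valueAtInfty_smul_modularForm, he, mul_one]
  rw [hval]
  exact hg

/-- Ramanujan: `D E₄ = (E₂ E₄ - E₆) / 3`. -/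
theorem D_E₄ (z : ℍ) : D E₄ z = (E2 z * E₄ z - E₆ z) / 3 := by
  have h46 : ((4 : ℕ) : ℤ) + 2 = ((6 : ℕ) : ℤ) := by norm_num
  have key := eq_smul_of_rank_one levelOne_weight_six_rank_one E₆
    (ModularForm.mcast h46 (serreDerivativeMF E₄)) (valueAtInfty_E _ ⟨3, rfl⟩)
  have hval : valueAtInfty (ModularForm.mcast h46 (serreDerivativeMF E₄)) = -(1/3) := by
    rw [ModularForm.coe_mcast, valueAtInfty_serreDerivativeMF, valueAtInfty_E _ ⟨2, rfl⟩]
    push_cast
    norm_num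
  rw [hval] at key
  have := congrArg (fun g : ModularForm 𝒮ℒ ((6:ℕ):ℤ) => g z) key
  simp only [ModularForm.coe_mcast, coe_serreDerivativeMF, serreDerivative_apply,
    smul_apply, smul_eq_mul] at this
  push_cast at this
  linear_combination this

/-- Ramanujan: `D E₆ = (E₂ E₆ - E₄²) / 2`. -/
theorem D_E₆ (z : ℍ) : D E₆ z = (E2 z * E₆ z - E₄ z ^ 2) / 2 := by
  have h68 : ((6 : ℕ) : ℤ) + 2 = ((4 : ℕ) : ℤ) + ((4 : ℕ) : ℤ) := by norm_num
  have hrank : Module.rank ℂ (ModularForm 𝒮ℒ (((4 : ℕ) : ℤ) + ((4 : ℕ) : ℤ))) = 1 := by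
    have := dimension_level_one 8 (by decide)
    have h8 : (((8 : ℕ) : ℤ)) = ((4 : ℕ) : ℤ) + ((4 : ℕ) : ℤ) := by norm_num
    rw [h8] at this
    rw [this]
    have : ¬ (8 ≡ 2 [MOD 12]) := by decide
    simp [this]
  have he : valueAtInfty (E₄.mul E₄) = 1 := by
    have h4 := tendsto_valueAtInfty_of_modularForm E₄
    rw [valueAtInfty_E _ ⟨2, rfl⟩] at h4
    have := h4.mul h4
    rw [one_mul] at this
    exact Tendsto.limUnder_eq this
  have key := eq_smul_of_rank_one hrank (E₄.mul E₄)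
    (ModularForm.mcast h68 (serreDerivativeMF E₆)) he
  have hval : valueAtInfty (ModularForm.mcast h68 (serreDerivativeMF E₆)) = -(1/2) := by
    rw [ModularForm.coe_mcast, valueAtInfty_serreDerivativeMF, valueAtInfty_E _ ⟨3, rfl⟩]
    push_cast
    norm_num
  rw [hval] at key
  have := congrArg (fun g : ModularForm 𝒮ℒ (((4 : ℕ) : ℤ) + ((4 : ℕ) : ℤ)) => g z) key
  simp only [ModularForm.coe_mcast, coe_serreDerivativeMF, serreDerivative_apply,
    smul_apply, smul_eq_mul, ModularForm.coe_mul, Pi.mul_apply] at this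
  push_cast at this
  linear_combination this

/-- `D Δ = E₂ Δ`. -/
theorem D_discriminant (z : ℍ) :
    D ModularForm.discriminant z = E2 z * ModularForm.discriminant z := by
  have hz : (z : ℂ) ∈ upperHalfPlaneSet := z.im_pos
  have heq : (ModularForm.discriminant ∘ ofComplex) =ᶠ[𝓝 (z : ℂ)] fun w => ModularForm.eta w ^ 24 := by
    filter_upwards [isOpen_upperHalfPlaneSet.mem_nhds hz] with w hw
    simp [ModularForm.discriminant, ofComplex_apply_of_im_pos hw]
  have hη : DifferentiableAt ℂ ModularForm.eta z := differentiableAt_eta_of_mem_upperHalfPlaneSet hz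
  have hη0 : ModularForm.eta z ≠ 0 := eta_ne_zero hz
  have hlog := logDeriv_eta_eq_E2 z
  rw [logDeriv_apply, div_eq_iff hη0] at hlog
  simp only [normalizedDerivOfComplex]
  rw [heq.deriv_eq]
  have hd : deriv (fun w => ModularForm.eta w ^ 24) z = 24 * ModularForm.eta z ^ 23 * deriv ModularForm.eta z := by
    have := (hη.hasDerivAt.pow 24).deriv
    rw [show (ModularForm.eta ^ 24) = fun w => ModularForm.eta w ^ 24 from rfl] at this
    simpa using this
  rw [hd, hlog, ModularForm.discriminant]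
  have h2pi : (2 * π * I : ℂ) ≠ 0 := two_pi_I_ne_zero
  field_simp
  ring

local notation "Δ" => ModularForm.discriminant

/-- `E₄` and `E₆` have no common zero on `ℍ` (since `Δ ≠ 0`). -/
theorem not_E₄_eq_zero_and_E₆_eq_zero (z : ℍ) : ¬ (E₄ z = 0 ∧ E₆ z = 0) := by
  rintro ⟨h4, h6⟩
  have := discriminant_eq_E₄_cube_sub_E₆_sq z
  rw [h4, h6] at this
  exact discriminant_ne_zero z (by simpa using this)

/-- The zeros of `E₄` are simple. -/
theorem D_E₄_ne_zero_of_eq_zero {z : ℍ} (h : E₄ z = 0) : D E₄ z ≠ 0 := by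
  rw [D_E₄, h]
  intro h0
  have h6 : E₆ z = 0 := by
    have : (E2 z * 0 - E₆ z) = 0 := by
      rcases div_eq_zero_iff.mp h0 with h | h
      · exact h
      · norm_num at h
    simpa using this
  exact not_E₄_eq_zero_and_E₆_eq_zero z ⟨h, h6⟩

/-- The zeros of `E₆` are simple. -/
theorem D_E₆_ne_zero_of_eq_zero {z : ℍ} (h : E₆ z = 0) : D E₆ z ≠ 0 := by
  rw [D_E₆, h]
  intro h0
  have h4 : E₄ z = 0 := by
    have : (E2 z * 0 - E₄ z ^ 2) = 0 := by
      rcases div_eq_zero_iff.mp h0 with h | h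
      · exact h
      · norm_num at h
    simpa using this
  exact not_E₄_eq_zero_and_E₆_eq_zero z ⟨h4, h⟩

/-- The numerator `Δ(z₀) E₄³ - E₄(z₀)³ Δ` of `j - j(z₀)` (up to the unit `Δ(z₀) Δ`). -/
noncomputable def jNum (z₀ : ℍ) : ℍ → ℂ :=
  (Δ z₀) • ((E₄ : ℍ → ℂ) ^ 3) - (E₄ z₀ ^ 3) • (Δ : ℍ → ℂ)

theorem jNum_apply (z₀ z : ℍ) : jNum z₀ z = Δ z₀ * E₄ z ^ 3 - E₄ z₀ ^ 3 * Δ z := by
  simp [jNum]

@[simp] theorem jNum_self (z₀ : ℍ) : jNum z₀ z₀ = 0 := by
  rw [jNum_apply]; ring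

theorem mdifferentiable_discriminant : MDiff (Δ : ℍ → ℂ) :=
  ModularFormClass.holo CuspForm.discriminant

theorem mdifferentiable_jNum (z₀ : ℍ) : MDiff (jNum z₀) := by
  have h4 : MDiff ((E₄ : ℍ → ℂ) ^ 3) := (ModularFormClass.holo E₄).pow 3
  exact (h4.const_smul _).sub (mdifferentiable_discriminant.const_smul _)

/-- `D (jNum z₀) = E₂ · jNum z₀ - Δ(z₀) E₄² E₆`. -/
theorem D_jNum (z₀ z : ℍ) :
    D (jNum z₀) z = E2 z * jNum z₀ z - Δ z₀ * E₄ z ^ 2 * E₆ z := by
  have h4 : MDiff ((E₄ : ℍ → ℂ)) := ModularFormClass.holo E₄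
  have h43 : MDiff ((E₄ : ℍ → ℂ) ^ 3) := h4.pow 3
  have hΔ : MDiff (Δ : ℍ → ℂ) := mdifferentiable_discriminant
  rw [jNum, normalizedDerivOfComplex_sub _ _ (h43.const_smul _) (hΔ.const_smul _),
    normalizedDerivOfComplex_smul _ _ h43, normalizedDerivOfComplex_smul _ _ hΔ,
    normalizedDerivOfComplex_pow _ _ h4]
  simp only [Pi.sub_apply, Pi.smul_apply, Pi.mul_apply, Pi.pow_apply, smul_eq_mul, D_E₄,
    D_discriminant]
  simp
  ring

theorem D_jNum_of_eq_zero {z₀ z : ℍ} (h : jNum z₀ z = 0) :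
    D (jNum z₀) z = - (Δ z₀ * E₄ z ^ 2 * E₆ z) := by
  rw [D_jNum, h]; ring

/-- `jNum z₀` has a simple zero at each of its zeros `z` with `E₄ z ≠ 0`, `E₆ z ≠ 0`. -/
theorem D_jNum_ne_zero {z₀ z : ℍ} (h : jNum z₀ z = 0) (h4 : E₄ z ≠ 0) (h6 : E₆ z ≠ 0) :
    D (jNum z₀) z ≠ 0 := by
  rw [D_jNum_of_eq_zero h]
  exact neg_ne_zero.mpr (mul_ne_zero (mul_ne_zero (discriminant_ne_zero z₀) (pow_ne_zero 2 h4)) h6)

theorem D_eq_zero_iff (f : ℍ → ℂ) (z : ℍ) : D f z = 0 ↔ deriv (f ∘ ofComplex) z = 0 := by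
  have h2 : ((2 * π * I : ℂ))⁻¹ ≠ 0 := inv_ne_zero two_pi_I_ne_zero
  simp only [normalizedDerivOfComplex]
  exact mul_eq_zero_iff_left h2 |>.trans Iff.rfl

theorem D_ne_zero_iff (f : ℍ → ℂ) (z : ℍ) : D f z ≠ 0 ↔ deriv (f ∘ ofComplex) z ≠ 0 :=
  (D_eq_zero_iff f z).not

theorem analyticAt_comp_ofComplex {f : ℍ → ℂ} (hf : MDiff f) (z : ℍ) :
    AnalyticAt ℂ (f ∘ ofComplex) z :=
  (UpperHalfPlane.mdifferentiable_iff.mp hf).analyticAt
    (isOpen_upperHalfPlaneSet.mem_nhds z.im_pos)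

/-- A holomorphic function on `ℍ` with `f z = 0` and `D f z ≠ 0` has a zero of exact order one
at `z`. -/
theorem analyticOrderAt_eq_one_of_D_ne_zero {f : ℍ → ℂ} (hf : MDiff f) {z : ℍ} (h0 : f z = 0)
    (h1 : D f z ≠ 0) : analyticOrderAt (f ∘ ofComplex) z = 1 :=
  (analyticAt_comp_ofComplex hf z).analyticOrderAt_eq_one_of_zero_deriv_ne_zero
    (by simpa using h0) ((D_ne_zero_iff f z).mp h1)

theorem deriv_E₄_ne_zero_of_eq_zero {z : ℍ} (h : E₄ z = 0) :
    deriv ((E₄ : ℍ → ℂ) ∘ ofComplex) z ≠ 0 :=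
  (D_ne_zero_iff _ z).mp (D_E₄_ne_zero_of_eq_zero h)

theorem deriv_E₆_ne_zero_of_eq_zero {z : ℍ} (h : E₆ z = 0) :
    deriv ((E₆ : ℍ → ℂ) ∘ ofComplex) z ≠ 0 :=
  (D_ne_zero_iff _ z).mp (D_E₆_ne_zero_of_eq_zero h)

theorem deriv_jNum_ne_zero {z₀ z : ℍ} (h : jNum z₀ z = 0) (h4 : E₄ z ≠ 0) (h6 : E₆ z ≠ 0) :
    deriv (jNum z₀ ∘ ofComplex) z ≠ 0 :=
  (D_ne_zero_iff _ z).mp (D_jNum_ne_zero h h4 h6)

theorem analyticOrderAt_E₄ {z : ℍ} (h : E₄ z = 0) :
    analyticOrderAt ((E₄ : ℍ → ℂ) ∘ ofComplex) z = 1 :=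
  analyticOrderAt_eq_one_of_D_ne_zero (ModularFormClass.holo E₄) h (D_E₄_ne_zero_of_eq_zero h)

theorem analyticOrderAt_E₆ {z : ℍ} (h : E₆ z = 0) :
    analyticOrderAt ((E₆ : ℍ → ℂ) ∘ ofComplex) z = 1 :=
  analyticOrderAt_eq_one_of_D_ne_zero (ModularFormClass.holo E₆) h (D_E₆_ne_zero_of_eq_zero h)

theorem analyticOrderAt_jNum {z₀ z : ℍ} (h : jNum z₀ z = 0) (h4 : E₄ z ≠ 0) (h6 : E₆ z ≠ 0) :
    analyticOrderAt (jNum z₀ ∘ ofComplex) z = 1 :=
  analyticOrderAt_eq_one_of_D_ne_zero (mdifferentiable_jNum z₀) h (D_jNum_ne_zero h h4 h6)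

/-- `jNum z₀` as a level-one modular form of weight 12. -/
noncomputable def jNumMF (z₀ : ℍ) : ModularForm 𝒮ℒ 12 :=
  (Δ z₀) • ModularForm.mcast (by decide) (E₄.pow 3) -
    (E₄ z₀ ^ 3) • (CuspForm.discriminant : ModularForm 𝒮ℒ 12)

theorem coe_jNumMF (z₀ : ℍ) : (jNumMF z₀ : ℍ → ℂ) = jNum z₀ := by
  ext z
  have h : (E₄.pow 3) z = E₄ z ^ 3 := by
    rw [show (E₄.pow 3) z = (⇑(E₄.pow 3)) z from rfl, ModularForm.coe_pow]; rfl
  simp [jNumMF, jNum, h]

/-- `jNum z₀` does not vanish at `i∞` (its value there is `Δ z₀ ≠ 0`). -/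
theorem valueAtInfty_jNum (z₀ : ℍ) : valueAtInfty (jNum z₀) = Δ z₀ := by
  have h4 := tendsto_valueAtInfty_of_modularForm E₄
  rw [valueAtInfty_E _ ⟨2, rfl⟩] at h4
  have hΔ : Tendsto (Δ : ℍ → ℂ) atImInfty (𝓝 0) := discriminant_isZeroAtImInfty
  have := ((h4.pow 3).const_mul (Δ z₀)).sub (hΔ.const_mul (E₄ z₀ ^ 3))
  simp only [one_pow, mul_one, mul_zero, sub_zero] at this
  refine Tendsto.limUnder_eq ?_
  convert this using 2 with z
  exact jNum_apply z₀ _

/-- The modular transformation law of a level-one modular form, for `γ : SL(2, ℤ)`. -/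
theorem levelOne_modular_eqn {k : ℤ} (f : ModularForm 𝒮ℒ k) (γ : SL(2, ℤ)) (z : ℍ) :
    f (γ • z) = denom γ z ^ k * f z := by
  have : SlashInvariantFormClass (ModularForm 𝒮ℒ k) (CongruenceSubgroup.Gamma 1) k :=
    CongruenceSubgroup.Gamma_one_coe_eq_SL ▸ inferInstance
  exact SlashInvariantForm.slash_action_eqn_SL'' f (CongruenceSubgroup.mem_Gamma_one γ) z

theorem S_smul_I : S • UpperHalfPlane.I = UpperHalfPlane.I := by
  rw [UpperHalfPlane.modular_S_smul]
  ext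
  simp [UpperHalfPlane.coe_I]

theorem denom_S_I : denom S UpperHalfPlane.I = Complex.I := by
  rw [ModularGroup.denom_S, UpperHalfPlane.coe_I]

/-- `E₆(i) = 0`. -/
theorem E₆_I : E₆ UpperHalfPlane.I = 0 := by
  have h := levelOne_modular_eqn E₆ S UpperHalfPlane.I
  rw [S_smul_I, denom_S_I] at h
  have h6 : (Complex.I : ℂ) ^ (6 : ℤ) = -1 := by
    rw [show (6 : ℤ) = ((6 : ℕ) : ℤ) from rfl, zpow_natCast]
    calc Complex.I ^ 6 = (Complex.I ^ 2) ^ 3 := by ring
      _ = -1 := by rw [Complex.I_sq]; norm_num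
  rw [h6] at h
  have : (2 : ℂ) * E₆ UpperHalfPlane.I = 0 := by linear_combination h
  simpa using this

/-- The elliptic point `ρ = e^{2πi/3} = -1/2 + (√3/2) i`. -/
noncomputable def rho : ℍ := ⟨-1/2 + (Real.sqrt 3 / 2 : ℝ) * Complex.I, by simp⟩

theorem coe_rho : (rho : ℂ) = -1/2 + (Real.sqrt 3 / 2 : ℝ) * Complex.I := rfl

theorem rho_sq_add_rho_add_one : (rho : ℂ) ^ 2 + rho + 1 = 0 := by
  rw [coe_rho]
  have h3 : ((Real.sqrt 3 : ℝ) : ℂ) ^ 2 = 3 := by
    rw [← Complex.ofReal_pow, Real.sq_sqrt (by norm_num : (0:ℝ) ≤ 3)]; norm_num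
  push_cast
  linear_combination (-(1:ℂ)/4) * h3 + ((Real.sqrt 3 : ℝ) : ℂ) ^ 2 / 4 * Complex.I_sq

theorem rho_cube : (rho : ℂ) ^ 3 = 1 := by
  linear_combination ((rho : ℂ) - 1) * rho_sq_add_rho_add_one

theorem ST_one_zero : (S * T : SL(2, ℤ)) 1 0 = 1 := by decide
theorem ST_one_one : (S * T : SL(2, ℤ)) 1 1 = 1 := by decide

theorem denom_ST (z : ℍ) : denom ((S * T : SL(2, ℤ)) : GL (Fin 2) ℝ) z = (z : ℂ) + 1 := by
  rw [ModularGroup.denom_apply, ST_one_zero, ST_one_one]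
  simp

theorem ST_smul_rho : (S * T) • rho = rho := by
  rw [mul_smul, UpperHalfPlane.modular_T_smul, UpperHalfPlane.modular_S_smul]
  ext
  simp only [UpperHalfPlane.coe_vadd]
  have h := rho_sq_add_rho_add_one
  have hne : (rho : ℂ) ≠ 0 := UpperHalfPlane.ne_zero rho
  change (-(((1:ℝ) : ℂ) + (rho : ℂ)))⁻¹ = (rho : ℂ)
  rw [inv_eq_iff_eq_inv, ← one_div, eq_div_iff hne]
  push_cast
  linear_combination -h

/-- `E₄(ρ) = 0`. -/
theorem E₄_rho : E₄ rho = 0 := by
  have h := levelOne_modular_eqn E₄ (S * T) rho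
  rw [ST_smul_rho, denom_ST] at h
  have hr := rho_sq_add_rho_add_one
  have h3 := rho_cube
  have h4 : ((rho : ℂ) + 1) ^ (4 : ℤ) = (rho : ℂ) ^ 2 := by
    rw [show (4 : ℤ) = ((4 : ℕ) : ℤ) from rfl, zpow_natCast]
    have : (rho : ℂ) + 1 = - (rho : ℂ) ^ 2 := by linear_combination hr
    rw [this]
    calc (-(rho : ℂ) ^ 2) ^ 4 = ((rho : ℂ) ^ 3) ^ 2 * (rho : ℂ) ^ 2 := by ring
      _ = (rho : ℂ) ^ 2 := by rw [h3]; ring
  rw [h4] at h
  have hne : (1 : ℂ) - (rho : ℂ) ^ 2 ≠ 0 := by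
    intro h0
    have h2 : (rho : ℂ) = -2 := by linear_combination hr + h0
    rw [h2] at h0
    norm_num at h0
  have : (1 - (rho : ℂ) ^ 2) * E₄ rho = 0 := by linear_combination h
  rcases mul_eq_zero.mp this with h' | h'
  · exact absurd h' hne
  · exact h'

theorem rho_add_one_sq : ((rho : ℂ) + 1) ^ 2 = (rho : ℂ) := by
  linear_combination rho_sq_add_rho_add_one

theorem rho_add_one_cube : ((rho : ℂ) + 1) ^ 3 = -1 := by
  linear_combination ((rho : ℂ) + 2) * rho_sq_add_rho_add_one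

theorem rho_add_one_pow_six : ((rho : ℂ) + 1) ^ 6 = 1 := by
  calc ((rho : ℂ) + 1) ^ 6 = (((rho : ℂ) + 1) ^ 3) ^ 2 := by ring
    _ = 1 := by rw [rho_add_one_cube]; norm_num

end Fermat.Agent.Lib.RR.Ramanujan
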