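import Fermat.Agent.Lib.RR.CosetsWidth

/-!
# Coset combinatorics of `Γ₀(N)` in `SL(2, ℤ)` (summary)

With `X := SL(2, ℤ) ⧸ Γ₀(N)` (left cosets, left action of `SL(2, ℤ)`), for `N ≠ 0`:

* `Fermat.Agent.Lib.RR.Cosets.card_quotient_Gamma0 : Nat.card X = dedekindPsi N`
* `Fermat.Agent.Lib.RR.Cosets.index_Gamma0 : (Gamma0 N).index = dedekindPsi N`
* `Fermat.Agent.Lib.RR.Cosets.card_fixedBy_S : Nat.card (MulAction.fixedBy X S) = nuTwo N`
* `Fermat.Agent.Lib.RR.Cosets.card_fixedBy_ST : Nat.card (MulAction.fixedBy X (S * T)) = nuThree N`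
* `Fermat.Agent.Lib.RR.Cosets.card_orbits_T :
    Nat.card (MulAction.orbitRel.Quotient (Subgroup.zpowers T) X) = cuspCount N`

* `Fermat.Agent.Lib.RR.Cosets.sigmaEquiv : X ≃ Σ ω : TOrbits N, ZMod (width N ω)` with
  `T_smul_sigmaEquiv_symm : T • (sigmaEquiv N).symm ⟨ω, k⟩ = (sigmaEquiv N).symm ⟨ω, k + 1⟩`,
  `sum_width : ∑ ω : TOrbits N, width N ω = dedekindPsi N`, `width_dvd : width N ω ∣ N`,
  `card_TOrbits : Fintype.card (TOrbits N) = cuspCount N`, `T_pow_smul : T ^ N • x = x`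

Tools: `mk_eq_mk_iff` / `mk_eq_mk_iff_dvd` (two matrices define the same coset iff the cross product
of their first columns vanishes mod `N`), `exists_col_modEq` (lifting of unimodular columns mod `N`
to `SL(2, ℤ)`), `orbitMk_eq_orbitMk_iff` (classification of `T`-orbits).
-/
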