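import Mathlib

/-!
# Graded-free criterion (pure algebra)

`V` is a commutative `k`-algebra (`k` a field), `x y : V` (thought of as homogeneous of weights
`4` and `6`), and `M : ℤ → Submodule k V` a family of finite-dimensional subspaces ("weight-`w`
pieces") vanishing in negative weight, stable under multiplication by `x`, `y`, such that
`(x, y)` is a regular sequence on `M`.  Then `M` is a free graded module over `k[x, y]`:
there is a homogeneous family `b` such that every element of `M w` is a unique combination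
`∑ r * b` with homogeneous coefficients `r` in the weight pieces `wtSpan k x y` of `k[x,y]`.
-/

namespace Fermat.Agent.Lib.RR

open Finset

variable {k : Type*} [Field k] {V : Type*} [CommRing V] [Algebra k V]

/-- Weight-`w` part of `k[x,y] ⊆ V`, `x` of weight `4`, `y` of weight `6`. -/
def wtSpan (k : Type*) [Field k] {V : Type*} [CommRing V] [Algebra k V] (x y : V) (w : ℤ) :
    Submodule k V :=
  Submodule.span k {v | ∃ a c : ℕ, 4 * (a : ℤ) + 6 * (c : ℤ) = w ∧ v = x ^ a * y ^ c}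

/-- `y ^ (n / 6)` if `n` is a nonnegative multiple of `6`, and `0` otherwise. -/
def ypow (y : V) (n : ℤ) : V := if 0 ≤ n ∧ 6 ∣ n then y ^ (n / 6).toNat else 0

lemma ypow_rec (y : V) (n : ℤ) :
    ypow y n = (if n = 0 then 1 else 0) + y * ypow y (n - 6) := by
  unfold ypow
  by_cases h0 : n = 0
  · subst h0; simp
  · by_cases h : 0 ≤ n ∧ 6 ∣ n
    · obtain ⟨hn, m, rfl⟩ := h
      have hm : 1 ≤ m := by omega
      have h2 : 0 ≤ 6 * m - 6 ∧ (6 : ℤ) ∣ 6 * m - 6 := ⟨by omega, ⟨m - 1, by ring⟩⟩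
      rw [if_pos ⟨hn, ⟨m, rfl⟩⟩, if_neg h0, if_pos h2, zero_add, ← pow_succ']
      congr 1
      have e1 : 6 * m / 6 = m := by omega
      have e2 : (6 * m - 6) / 6 = m - 1 := by omega
      rw [e1, e2]; omega
    · have h2 : ¬ (0 ≤ n - 6 ∧ (6 : ℤ) ∣ n - 6) := by
        rintro ⟨h1, m, hm⟩
        exact h ⟨by omega, ⟨m + 1, by linarith⟩⟩
      rw [if_neg h, if_neg h0, if_neg h2]; simp

lemma ypow_of_neg (y : V) {n : ℤ} (hn : n < 0) : ypow y n = 0 := by
  unfold ypow; rw [if_neg]; omega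

lemma wtSpan_neg {x y : V} {n : ℤ} (hn : n < 0) {r : V} (hr : r ∈ wtSpan k x y n) : r = 0 := by
  have : {v : V | ∃ a c : ℕ, 4 * (a : ℤ) + 6 * (c : ℤ) = n ∧ v = x ^ a * y ^ c} = ∅ := by
    ext v; simp only [Set.mem_ofPred_eq, Set.mem_empty_iff_false, iff_false]
    rintro ⟨a, c, h, -⟩; omega
  unfold wtSpan at hr
  rw [this, Submodule.span_empty] at hr
  exact hr

lemma monomial_mem_wtSpan (x y : V) (a c : ℕ) {n : ℤ} (h : 4 * (a : ℤ) + 6 * (c : ℤ) = n) :
    x ^ a * y ^ c ∈ wtSpan k x y n :=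
  Submodule.subset_span ⟨a, c, h, rfl⟩

lemma one_mem_wtSpan_zero (x y : V) : (1 : V) ∈ wtSpan k x y 0 := by
  have := monomial_mem_wtSpan (k := k) x y 0 0 (n := 0) (by simp)
  simpa using this

lemma ypow_mem_wtSpan (x y : V) (n : ℤ) : ypow y n ∈ wtSpan k x y n := by
  unfold ypow
  split_ifs with h
  · obtain ⟨hn, m, rfl⟩ := h
    have := monomial_mem_wtSpan (k := k) x y 0 (6 * m / 6).toNat (n := 6 * m) (by
      have e1 : 6 * m / 6 = m := by omega
      rw [e1]; simp; omega)
    simpa using this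
  · exact Submodule.zero_mem _

lemma x_mul_mem_wtSpan {x y : V} {n : ℤ} {s : V} (hs : s ∈ wtSpan k x y n) :
    x * s ∈ wtSpan k x y (n + 4) := by
  unfold wtSpan at hs
  induction hs using Submodule.span_induction with
  | mem v hv =>
    obtain ⟨a, c, h, rfl⟩ := hv
    have := monomial_mem_wtSpan (k := k) x y (a + 1) c (n := n + 4) (by push_cast; linarith)
    rwa [pow_succ', mul_assoc] at this
  | zero => simp
  | add u v _ _ hu hv => rw [mul_add]; exact Submodule.add_mem _ hu hv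
  | smul a v _ hv => rw [mul_smul_comm]; exact Submodule.smul_mem _ _ hv

lemma y_mul_mem_wtSpan {x y : V} {n : ℤ} {s : V} (hs : s ∈ wtSpan k x y n) :
    y * s ∈ wtSpan k x y (n + 6) := by
  unfold wtSpan at hs
  induction hs using Submodule.span_induction with
  | mem v hv =>
    obtain ⟨a, c, h, rfl⟩ := hv
    have := monomial_mem_wtSpan (k := k) x y a (c + 1) (n := n + 6) (by push_cast; linarith)
    rw [pow_succ'] at this
    have e : y * (x ^ a * y ^ c) = x ^ a * (y * y ^ c) := by ring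
    rwa [e]
  | zero => simp
  | add u v _ _ hu hv => rw [mul_add]; exact Submodule.add_mem _ hu hv
  | smul a v _ hv => rw [mul_smul_comm]; exact Submodule.smul_mem _ _ hv

/-- Every element of weight `n` of `k[x,y]` is `c • y^(n/6) + x * s` with `s` of weight `n-4`. -/
lemma wtSpan_decomp {x y : V} {n : ℤ} {r : V} (hr : r ∈ wtSpan k x y n) :
    ∃ (c : k) (s : V), s ∈ wtSpan k x y (n - 4) ∧ r = c • ypow y n + x * s := by
  unfold wtSpan at hr
  induction hr using Submodule.span_induction with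
  | mem v hv =>
    obtain ⟨a, c, h, rfl⟩ := hv
    rcases Nat.eq_zero_or_pos a with ha | ha
    · subst ha
      refine ⟨1, 0, Submodule.zero_mem _, ?_⟩
      have hn : 0 ≤ n ∧ (6 : ℤ) ∣ n := ⟨by omega, ⟨c, by push_cast at h; linarith⟩⟩
      have e1 : (n / 6).toNat = c := by omega
      unfold ypow
      rw [if_pos hn, e1]; simp
    · obtain ⟨a', rfl⟩ : ∃ a', a = a' + 1 := ⟨a - 1, by omega⟩
      refine ⟨0, x ^ a' * y ^ c, monomial_mem_wtSpan x y a' c (by push_cast at h; linarith), ?_⟩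
      rw [zero_smul, zero_add, pow_succ', mul_assoc]
  | zero => exact ⟨0, 0, Submodule.zero_mem _, by simp⟩
  | add u v _ _ hu hv =>
    obtain ⟨c1, s1, hs1, rfl⟩ := hu
    obtain ⟨c2, s2, hs2, rfl⟩ := hv
    exact ⟨c1 + c2, s1 + s2, Submodule.add_mem _ hs1 hs2, by rw [add_smul, mul_add]; abel⟩
  | smul a v _ hv =>
    obtain ⟨c1, s1, hs1, rfl⟩ := hv
    exact ⟨a * c1, a • s1, Submodule.smul_mem _ _ hs1, by
      rw [smul_add, mul_smul, mul_smul_comm]⟩

/-- The hypotheses of the graded-free criterion. -/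
structure GradedRegular (x y : V) (M : ℤ → Submodule k V) : Prop where
  neg : ∀ w < 0, M w = ⊥
  fin : ∀ w, Module.Finite k (M w)
  mul_x : ∀ w f, f ∈ M w → x * f ∈ M (w + 4)
  mul_y : ∀ w f, f ∈ M w → y * f ∈ M (w + 6)
  x_reg : ∀ w f, f ∈ M w → x * f = 0 → f = 0
  y_reg : ∀ w f g, f ∈ M w → g ∈ M (w + 2) → y * f = x * g → ∃ h ∈ M (w - 4), f = x * h

section Regular

variable {x y : V} {M : ℤ → Submodule k V}

lemma GradedRegular.mul_x' (h : GradedRegular x y M) {w : ℤ} {f : V} (hf : f ∈ M (w - 4)) :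
    x * f ∈ M w := by
  have := h.mul_x (w - 4) f hf
  rwa [sub_add_cancel] at this

lemma GradedRegular.mul_y' (h : GradedRegular x y M) {w : ℤ} {f : V} (hf : f ∈ M (w - 6)) :
    y * f ∈ M w := by
  have := h.mul_y (w - 6) f hf
  rwa [sub_add_cancel] at this

lemma GradedRegular.y_pow_mul_mem (h : GradedRegular x y M) (c : ℕ) {u : ℤ} {f : V}
    (hf : f ∈ M u) : y ^ c * f ∈ M (u + 6 * (c : ℤ)) := by
  induction c with
  | zero => simpa using hf
  | succ c ih =>
    have := h.mul_y _ _ ih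
    rw [pow_succ', mul_assoc]
    convert this using 2
    push_cast; ring

lemma GradedRegular.x_pow_mul_mem (h : GradedRegular x y M) (a : ℕ) {u : ℤ} {f : V}
    (hf : f ∈ M u) : x ^ a * f ∈ M (u + 4 * (a : ℤ)) := by
  induction a with
  | zero => simpa using hf
  | succ a ih =>
    have := h.mul_x _ _ ih
    rw [pow_succ', mul_assoc]
    convert this using 2
    push_cast; ring

lemma GradedRegular.wtSpan_mul_mem (h : GradedRegular x y M) {n u : ℤ} {r f : V}
    (hr : r ∈ wtSpan k x y n) (hf : f ∈ M u) : r * f ∈ M (u + n) := by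
  unfold wtSpan at hr
  induction hr using Submodule.span_induction with
  | mem v hv =>
    obtain ⟨a, c, hac, rfl⟩ := hv
    have := h.x_pow_mul_mem a (h.y_pow_mul_mem c hf)
    rw [mul_assoc]
    convert this using 2
    rw [← hac]; ring
  | zero => simp
  | add u v _ _ hu hv => rw [add_mul]; exact Submodule.add_mem _ hu hv
  | smul a v _ hv => rw [smul_mul_assoc]; exact Submodule.smul_mem _ _ hv

lemma GradedRegular.ypow_mul_mem (h : GradedRegular x y M) (n : ℤ) {u : ℤ} {f : V}
    (hf : f ∈ M u) : ypow y n * f ∈ M (u + n) :=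
  h.wtSpan_mul_mem (ypow_mem_wtSpan x y n) hf

/-- A basis of a complement of `x M_{w-4} + y M_{w-6}` in `M_w`. -/
lemma GradedRegular.exists_compl_basis (h : GradedRegular x y M) (w : ℤ) :
    ∃ (n : ℕ) (b : Fin n → V), (∀ i, b i ∈ M w) ∧
      (∀ f ∈ M w, ∃ (c : Fin n → k) (f1 f2 : V), f1 ∈ M (w - 4) ∧ f2 ∈ M (w - 6) ∧
        f = ∑ i, c i • b i + x * f1 + y * f2) ∧
      (∀ (c : Fin n → k) (f1 f2 : V), f1 ∈ M (w - 4) → f2 ∈ M (w - 6) →
        ∑ i, c i • b i = x * f1 + y * f2 → ∀ i, c i = 0) := by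
  classical
  set N : Submodule k V :=
    (M (w - 4)).map (LinearMap.mulLeft k x) ⊔ (M (w - 6)).map (LinearMap.mulLeft k y) with hN
  have hNM : N ≤ M w := by
    refine sup_le ?_ ?_
    · rintro _ ⟨f, hf, rfl⟩; exact h.mul_x' hf
    · rintro _ ⟨f, hf, rfl⟩; exact h.mul_y' hf
  have hmemN : ∀ f1 f2 : V, f1 ∈ M (w - 4) → f2 ∈ M (w - 6) → x * f1 + y * f2 ∈ N := by
    intro f1 f2 h1 h2
    exact Submodule.add_mem _ (Submodule.mem_sup_left ⟨f1, h1, rfl⟩)
      (Submodule.mem_sup_right ⟨f2, h2, rfl⟩)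
  obtain ⟨q, hq⟩ := Submodule.exists_isCompl N
  set C : Submodule k V := q ⊓ M w with hC
  have hCM : C ≤ M w := inf_le_right
  have hCN : ∀ v, v ∈ C → v ∈ N → v = 0 := by
    intro v hvC hvN
    have : v ∈ N ⊓ q := ⟨hvN, hvC.1⟩
    rw [hq.inf_eq_bot] at this
    exact this
  have hsup : N ⊔ C = M w := by
    rw [hC, ← sup_inf_assoc_of_le q hNM, hq.sup_eq_top, top_inf_eq]
  have := h.fin w
  have : Module.Finite k C := Submodule.finiteDimensional_of_le hCM
  let B := Module.finBasis k C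
  refine ⟨Module.finrank k C, fun i => (B i : V), fun i => hCM (B i).2, ?_, ?_⟩
  · intro f hf
    rw [← hsup] at hf
    obtain ⟨v, hv, c, hc, rfl⟩ := Submodule.mem_sup.mp hf
    obtain ⟨v1, hv1, v2, hv2, rfl⟩ := Submodule.mem_sup.mp hv
    obtain ⟨f1, hf1, rfl⟩ := hv1
    obtain ⟨f2, hf2, rfl⟩ := hv2
    refine ⟨fun i => B.repr ⟨c, hc⟩ i, f1, f2, hf1, hf2, ?_⟩
    have h2 : c = ∑ i, (B.repr ⟨c, hc⟩ i) • (B i : V) := by
      calc c = ((∑ i, B.repr ⟨c, hc⟩ i • B i : C) : V) := by rw [B.sum_repr]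
        _ = _ := by rw [Submodule.coe_sum]; simp only [Submodule.coe_smul]
    simp only [LinearMap.mulLeft_apply]
    rw [← h2]; abel
  · intro c f1 f2 hf1 hf2 hsum
    have hmem : (∑ i, c i • (B i : V)) ∈ C :=
      Submodule.sum_mem _ fun i _ => Submodule.smul_mem _ _ (B i).2
    have hzero : (∑ i, c i • (B i : V)) = 0 := hCN _ hmem (hsum ▸ hmemN f1 f2 hf1 hf2)
    have h3 : (∑ i, c i • B i) = 0 := by
      apply Subtype.ext
      simpa using hzero
    exact Fintype.linearIndependent_iff.mp B.linearIndependent c h3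

/-- Complement bases in every weight. -/
structure ComplBasis (x y : V) (M : ℤ → Submodule k V) (n : ℤ → ℕ)
    (b : (u : ℤ) → Fin (n u) → V) : Prop where
  mem : ∀ u i, b u i ∈ M u
  gen : ∀ w, ∀ f ∈ M w, ∃ (c : Fin (n w) → k) (f1 f2 : V), f1 ∈ M (w - 4) ∧ f2 ∈ M (w - 6) ∧
    f = ∑ i, c i • b w i + x * f1 + y * f2
  indep : ∀ w (c : Fin (n w) → k) (f1 f2 : V), f1 ∈ M (w - 4) → f2 ∈ M (w - 6) →
    ∑ i, c i • b w i = x * f1 + y * f2 → ∀ i, c i = 0

lemma GradedRegular.exists_complBasis (h : GradedRegular x y M) :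
    ∃ (n : ℤ → ℕ) (b : (u : ℤ) → Fin (n u) → V), ComplBasis x y M n b := by
  choose n b h1 h2 h3 using h.exists_compl_basis
  exact ⟨n, b, ⟨h1, h2, h3⟩⟩

variable {n : ℤ → ℕ} {b : (u : ℤ) → Fin (n u) → V}

lemma ComplBasis.n_eq_zero_of_neg (hb : ComplBasis x y M n b) (h : GradedRegular x y M)
    {u : ℤ} (hu : u < 0) : n u = 0 := by
  by_contra hne
  have hb0 : ∀ j, b u j = 0 := by
    intro j
    have := hb.mem u j
    rw [h.neg u hu] at this
    exact this
  have := hb.indep u (fun _ => 1) 0 0 (Submodule.zero_mem _) (Submodule.zero_mem _)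
    (by simp [hb0]) ⟨0, Nat.pos_of_ne_zero hne⟩
  exact one_ne_zero this

lemma ComplBasis.isEmpty_of_neg (hb : ComplBasis x y M n b) (h : GradedRegular x y M)
    {u : ℤ} (hu : u < 0) : IsEmpty (Fin (n u)) := by
  rw [hb.n_eq_zero_of_neg h hu]; infer_instance

/-- Sums of homogeneous combinations of weight `w` only see the weights in `[0, w]`. -/
lemma ComplBasis.sum_subset (hb : ComplBasis x y M n b) (h : GradedRegular x y M) {w : ℤ}
    {r : (u : ℤ) → Fin (n u) → V} (hr : ∀ u i, r u i ∈ wtSpan k x y (w - u))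
    {s t : Finset ℤ} (hst : s ⊆ t) (ht : ∀ u ∈ t, u ∉ s → u < 0 ∨ w < u) :
    ∑ u ∈ s, ∑ i, r u i * b u i = ∑ u ∈ t, ∑ i, r u i * b u i := by
  refine Finset.sum_subset hst fun u hut hus => ?_
  rcases ht u hut hus with hu | hu
  · have := hb.isEmpty_of_neg h hu
    simp
  · refine Finset.sum_eq_zero fun i _ => ?_
    rw [wtSpan_neg (by omega) (hr u i), zero_mul]

lemma ComplBasis.sum_mem (hb : ComplBasis x y M n b) (h : GradedRegular x y M) {w : ℤ}
    {r : (u : ℤ) → Fin (n u) → V} (hr : ∀ u i, r u i ∈ wtSpan k x y (w - u)) (s : Finset ℤ) :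
    ∑ u ∈ s, ∑ i, r u i * b u i ∈ M w := by
  refine Submodule.sum_mem _ fun u _ => Submodule.sum_mem _ fun i _ => ?_
  have := h.wtSpan_mul_mem (hr u i) (hb.mem u i)
  rwa [add_sub_cancel] at this

/-- Generation. -/
theorem ComplBasis.gen_aux (hb : ComplBasis x y M n b) (h : GradedRegular x y M) :
    ∀ (m : ℕ) (w : ℤ), w < m → ∀ f ∈ M w, ∃ r : (u : ℤ) → Fin (n u) → V,
      (∀ u i, r u i ∈ wtSpan k x y (w - u)) ∧ f = ∑ u ∈ Icc 0 w, ∑ i, r u i * b u i := by
  intro m
  induction m with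
  | zero =>
    intro w hw f hf
    have hw' : w < 0 := by exact_mod_cast hw
    rw [h.neg w hw'] at hf
    refine ⟨fun _ _ => 0, fun _ _ => Submodule.zero_mem _, ?_⟩
    rw [(Submodule.mem_bot k).mp hf]; simp
  | succ m ih =>
    intro w hw f hf
    by_cases hw0 : w < 0
    · rw [h.neg w hw0] at hf
      refine ⟨fun _ _ => 0, fun _ _ => Submodule.zero_mem _, ?_⟩
      rw [(Submodule.mem_bot k).mp hf]; simp
    push Not at hw0
    obtain ⟨c, f1, f2, hf1, hf2, rfl⟩ := hb.gen w f hf
    obtain ⟨r1, hr1, rfl⟩ := ih (w - 4) (by push_cast at hw ⊢; omega) f1 hf1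
    obtain ⟨r2, hr2, rfl⟩ := ih (w - 6) (by push_cast at hw ⊢; omega) f2 hf2
    refine ⟨fun u i => (if hu : u = w then algebraMap k V (c (Fin.cast (by rw [hu]) i)) else 0)
      + x * r1 u i + y * r2 u i, ?_, ?_⟩
    · intro u i
      refine Submodule.add_mem _ (Submodule.add_mem _ ?_ ?_) ?_
      · split_ifs with hu
        · subst hu
          rw [Algebra.algebraMap_eq_smul_one, sub_self]
          exact Submodule.smul_mem _ _ (one_mem_wtSpan_zero x y)
        · exact Submodule.zero_mem _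
      · have := x_mul_mem_wtSpan (hr1 u i)
        convert this using 2; ring
      · have := y_mul_mem_wtSpan (hr2 u i)
        convert this using 2; ring
    · have e1 : ∑ u ∈ Icc 0 (w - 4), ∑ i, r1 u i * b u i = ∑ u ∈ Icc 0 w, ∑ i, r1 u i * b u i :=
        hb.sum_subset h hr1 (Finset.Icc_subset_Icc_right (by omega)) (by
          intro u hu1 hu2
          simp only [Finset.mem_Icc, not_and, not_le] at hu1 hu2
          right; exact hu2 hu1.1)
      have e2 : ∑ u ∈ Icc 0 (w - 6), ∑ i, r2 u i * b u i = ∑ u ∈ Icc 0 w, ∑ i, r2 u i * b u i :=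
        hb.sum_subset h hr2 (Finset.Icc_subset_Icc_right (by omega)) (by
          intro u hu1 hu2
          simp only [Finset.mem_Icc, not_and, not_le] at hu1 hu2
          right; exact hu2 hu1.1)
      rw [e1, e2]
      have e3 : ∑ i, c i • b w i = ∑ u ∈ Icc 0 w, ∑ i : Fin (n u),
          (if hu : u = w then algebraMap k V (c (Fin.cast (by rw [hu]) i)) else 0) * b u i := by
        rw [Finset.sum_eq_single_of_mem w (Finset.mem_Icc.mpr ⟨hw0, le_refl _⟩)]
        · simp [Algebra.smul_def]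
        · intro u _ hne
          simp [hne]
      rw [e3, Finset.mul_sum, Finset.mul_sum, ← Finset.sum_add_distrib, ← Finset.sum_add_distrib]
      refine Finset.sum_congr rfl fun u _ => ?_
      rw [Finset.mul_sum, Finset.mul_sum, ← Finset.sum_add_distrib, ← Finset.sum_add_distrib]
      refine Finset.sum_congr rfl fun i _ => ?_
      ring

/-- Independence modulo `x` (over `k[y]`). -/
theorem ComplBasis.indep_mod_x (hb : ComplBasis x y M n b) (h : GradedRegular x y M)
    (s : Finset ℤ) :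
    ∀ (m : ℕ) (w : ℤ), w < m → ∀ (c : (u : ℤ) → Fin (n u) → k) (g : V), g ∈ M (w - 4) →
      ∑ u ∈ s, ∑ i, c u i • (ypow y (w - u) * b u i) = x * g →
      ∀ u ∈ s, ∀ i, c u i • ypow y (w - u) = 0 := by
  intro m
  induction m with
  | zero =>
    intro w hw c g _ _ u _ i
    have hw' : w < 0 := by exact_mod_cast hw
    by_cases hu0 : u < 0
    · exact (hb.isEmpty_of_neg h hu0).elim i
    · rw [ypow_of_neg y (by omega), smul_zero]
  | succ m ih =>
    intro w hw c g hg hsum
    set f' : V := ∑ u ∈ s, ∑ i, c u i • (ypow y (w - 6 - u) * b u i) with hf'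
    have hf'mem : f' ∈ M (w - 6) := by
      refine Submodule.sum_mem _ fun u _ => Submodule.sum_mem _ fun i _ =>
        Submodule.smul_mem _ _ ?_
      have := h.ypow_mul_mem (w - 6 - u) (hb.mem u i)
      rwa [add_sub_cancel] at this
    have hsplit : ∑ u ∈ s, ∑ i, c u i • (ypow y (w - u) * b u i) =
        (∑ u ∈ s, ∑ i, (if u = w then c u i else 0) • b u i) + y * f' := by
      rw [hf', Finset.mul_sum, ← Finset.sum_add_distrib]
      refine Finset.sum_congr rfl fun u _ => ?_
      rw [Finset.mul_sum, ← Finset.sum_add_distrib]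
      refine Finset.sum_congr rfl fun i _ => ?_
      rw [ypow_rec y (w - u)]
      have e : w - u - 6 = w - 6 - u := by ring
      rw [e]
      by_cases huw : u = w
      · subst huw
        simp only [sub_self, if_true, add_mul, one_mul, smul_add, mul_smul_comm, mul_assoc]
      · have hne : w - u ≠ 0 := fun h0 => huw (by omega)
        simp only [if_neg hne, if_neg huw, zero_add, zero_smul, mul_smul_comm, mul_assoc]
    have hcw : w ∈ s → ∀ i, c w i = 0 := by
      intro hws
      have hA : ∑ u ∈ s, ∑ i, (if u = w then c u i else 0) • b u i = ∑ i, c w i • b w i := by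
        rw [Finset.sum_eq_single_of_mem w hws]
        · simp
        · intro u _ hne
          simp [hne]
      have hA2 : ∑ i, c w i • b w i = x * g + y * (-f') := by
        rw [← hA, mul_neg, ← sub_eq_add_neg, ← hsum, hsplit]; abel
      exact hb.indep w (c w) g (-f') hg (Submodule.neg_mem _ hf'mem) hA2
    have hA0 : ∑ u ∈ s, ∑ i, (if u = w then c u i else 0) • b u i = 0 := by
      refine Finset.sum_eq_zero fun u hu => Finset.sum_eq_zero fun i _ => ?_
      by_cases huw : u = w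
      · subst huw; rw [if_pos rfl, hcw hu i, zero_smul]
      · rw [if_neg huw, zero_smul]
    have hyf : y * f' = x * g := by rw [← hsum, hsplit, hA0, zero_add]
    obtain ⟨h', hh', hfh⟩ := h.y_reg (w - 6) f' g hf'mem
      (by rwa [show w - 6 + 2 = w - 4 by ring]) hyf
    have hrec := ih (w - 6) (by push_cast at hw ⊢; omega) c h' hh' (hf' ▸ hfh)
    intro u hu i
    rw [ypow_rec y (w - u)]
    have e : w - u - 6 = w - 6 - u := by ring
    rw [e, smul_add, ← mul_smul_comm, hrec u hu i, mul_zero, add_zero]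
    by_cases huw : u = w
    · subst huw; rw [hcw hu i, zero_smul]
    · have hne : w - u ≠ 0 := fun h0 => huw (by omega)
      rw [if_neg hne, smul_zero]

/-- Independence over `k[x,y]`. -/
theorem ComplBasis.indep_aux (hb : ComplBasis x y M n b) (h : GradedRegular x y M)
    (s : Finset ℤ) :
    ∀ (m : ℕ) (w : ℤ), w < m → ∀ r : (u : ℤ) → Fin (n u) → V,
      (∀ u i, r u i ∈ wtSpan k x y (w - u)) →
      ∑ u ∈ s, ∑ i, r u i * b u i = 0 → ∀ u ∈ s, ∀ i, r u i = 0 := by
  intro m
  induction m with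
  | zero =>
    intro w hw r hr _ u _ i
    have hw' : w < 0 := by exact_mod_cast hw
    by_cases hu0 : u < 0
    · exact (hb.isEmpty_of_neg h hu0).elim i
    · exact wtSpan_neg (by omega) (hr u i)
  | succ m ih =>
    intro w hw r hr hsum
    choose c t ht hrt using fun u i => wtSpan_decomp (hr u i)
    have ht' : ∀ u i, t u i ∈ wtSpan k x y (w - 4 - u) := by
      intro u i
      have := ht u i
      rwa [show w - u - 4 = w - 4 - u by ring] at this
    set g : V := ∑ u ∈ s, ∑ i, t u i * b u i with hgdef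
    have hg : g ∈ M (w - 4) := hb.sum_mem h ht' s
    have hexp : ∑ u ∈ s, ∑ i, r u i * b u i =
        ∑ u ∈ s, ∑ i, c u i • (ypow y (w - u) * b u i) + x * g := by
      rw [hgdef, Finset.mul_sum, ← Finset.sum_add_distrib]
      refine Finset.sum_congr rfl fun u _ => ?_
      rw [Finset.mul_sum, ← Finset.sum_add_distrib]
      refine Finset.sum_congr rfl fun i _ => ?_
      rw [hrt u i, add_mul, smul_mul_assoc, mul_assoc]
    have h1 : ∑ u ∈ s, ∑ i, c u i • (ypow y (w - u) * b u i) = x * (-g) := by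
      rw [mul_neg, eq_neg_iff_add_eq_zero, ← hexp, hsum]
    have h2 := hb.indep_mod_x h s (m + 1) w hw c (-g) (Submodule.neg_mem _ hg) h1
    have h3 : x * g = 0 := by
      have hz : ∑ u ∈ s, ∑ i, c u i • (ypow y (w - u) * b u i) = 0 := by
        refine Finset.sum_eq_zero fun u hu => Finset.sum_eq_zero fun i _ => ?_
        rw [← smul_mul_assoc, h2 u hu i, zero_mul]
      rw [hz, zero_add] at hexp
      rw [← hexp, hsum]
    have hg0 : g = 0 := h.x_reg _ _ hg h3
    have h4 := ih (w - 4) (by push_cast at hw ⊢; omega) t ht' hg0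
    intro u hu i
    rw [hrt u i, h2 u hu i, h4 u hu i, mul_zero, add_zero]

/-- **Graded-free criterion**: `M` is free over `k[x,y]` on a homogeneous family. -/
theorem GradedRegular.exists_graded_basis (h : GradedRegular x y M) :
    ∃ (n : ℤ → ℕ) (b : (u : ℤ) → Fin (n u) → V),
      (∀ u i, b u i ∈ M u) ∧ (∀ u < 0, n u = 0) ∧
      (∀ w f, f ∈ M w → ∃ r : (u : ℤ) → Fin (n u) → V,
        (∀ u i, r u i ∈ wtSpan k x y (w - u)) ∧ f = ∑ u ∈ Icc 0 w, ∑ i, r u i * b u i) ∧
      (∀ (s : Finset ℤ) (w : ℤ) (r : (u : ℤ) → Fin (n u) → V),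
        (∀ u i, r u i ∈ wtSpan k x y (w - u)) →
        ∑ u ∈ s, ∑ i, r u i * b u i = 0 → ∀ u ∈ s, ∀ i, r u i = 0) := by
  obtain ⟨n, b, hb⟩ := h.exists_complBasis
  refine ⟨n, b, hb.mem, fun u hu => hb.n_eq_zero_of_neg h hu, ?_, ?_⟩
  · intro w f hf
    exact hb.gen_aux h (w.toNat + 1) w (by push_cast; omega) f hf
  · intro s w r hr hsum
    exact hb.indep_aux h s (w.toNat + 1) w (by push_cast; omega) r hr hsum

end Regular

section Fintype

variable {x y : V} {M : ℤ → Submodule k V}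

/-- A finite homogeneous basis of `M` over `k[x,y]`, in "single index type" form. -/
structure IsHomBasis (x y : V) (M : ℤ → Submodule k V) {ι : Type*} [Fintype ι]
    (κ : ι → ℤ) (β : ι → V) : Prop where
  mem : ∀ i, β i ∈ M (κ i)
  gen : ∀ w f, f ∈ M w → ∃ r : ι → V, (∀ i, r i ∈ wtSpan k x y (w - κ i)) ∧ f = ∑ i, r i * β i
  indep : ∀ w (r : ι → V), (∀ i, r i ∈ wtSpan k x y (w - κ i)) → ∑ i, r i * β i = 0 →
    ∀ i, r i = 0

/-- If the number of basis elements is bounded, the basis of `exists_graded_basis` can be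
indexed by a single `Fintype`. -/
theorem exists_isHomBasis_of_bounded {n : ℤ → ℕ} {b : (u : ℤ) → Fin (n u) → V}
    (hmem : ∀ u i, b u i ∈ M u) (hneg : ∀ u < 0, n u = 0)
    (hgen : ∀ w f, f ∈ M w → ∃ r : (u : ℤ) → Fin (n u) → V,
        (∀ u i, r u i ∈ wtSpan k x y (w - u)) ∧ f = ∑ u ∈ Icc 0 w, ∑ i, r u i * b u i)
    (hindep : ∀ (s : Finset ℤ) (w : ℤ) (r : (u : ℤ) → Fin (n u) → V),
        (∀ u i, r u i ∈ wtSpan k x y (w - u)) →
        ∑ u ∈ s, ∑ i, r u i * b u i = 0 → ∀ u ∈ s, ∀ i, r u i = 0)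
    (B : ℕ) (hB : ∀ s : Finset ℤ, ∑ u ∈ s, n u ≤ B) :
    ∃ (ι : Type) (_ : Fintype ι) (κ : ι → ℤ) (β : ι → V),
      IsHomBasis x y M κ β ∧ (∀ i, 0 ≤ κ i) ∧
      (∀ u : ℤ, Fintype.card {i : ι // κ i = u} = n u) := by
  classical
  have hfinite : {u : ℤ | n u ≠ 0}.Finite := by
    by_contra hinf
    obtain ⟨t, ht, htc⟩ := Set.Infinite.exists_subset_card_eq hinf (B + 1)
    have h1 : ∑ u ∈ t, 1 ≤ ∑ u ∈ t, n u := by
      refine Finset.sum_le_sum fun u hu => ?_
      have : n u ≠ 0 := ht hu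
      omega
    have h2 := hB t
    simp only [Finset.sum_const, smul_eq_mul, mul_one] at h1
    omega
  set s0 : Finset ℤ := hfinite.toFinset with hs0
  have hs0mem : ∀ u, u ∈ s0 ↔ n u ≠ 0 := by
    intro u; rw [hs0, Set.Finite.mem_toFinset]; rfl
  have hempty : ∀ u, u ∉ s0 → IsEmpty (Fin (n u)) := by
    intro u hu
    have : n u = 0 := by
      by_contra hne; exact hu ((hs0mem u).mpr hne)
    rw [this]; infer_instance
  have hnonneg : ∀ u ∈ s0, 0 ≤ u := by
    intro u hu
    by_contra hlt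
    exact (hs0mem u).mp hu (hneg u (by omega))
  -- sums over `ι` versus double sums
  have hsum : ∀ g : (u : ℤ) → Fin (n u) → V,
      ∑ j : (Σ u : s0, Fin (n u)), g j.1 j.2 = ∑ u ∈ s0, ∑ i, g u i := by
    intro g
    rw [Fintype.sum_sigma, ← Finset.sum_coe_sort s0 (fun u => ∑ i, g u i)]
  refine ⟨Σ u : s0, Fin (n u), inferInstance, fun j => j.1, fun j => b j.1 j.2,
    ⟨fun j => hmem _ _, ?_, ?_⟩, fun j => hnonneg _ j.1.2, ?_⟩
  · intro w f hf
    obtain ⟨r, hr, rfl⟩ := hgen w f hf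
    refine ⟨fun j => r j.1 j.2, fun j => hr _ _, ?_⟩
    rw [hsum (fun u i => r u i * b u i)]
    have e1 : ∑ u ∈ Icc 0 w, ∑ i, r u i * b u i = ∑ u ∈ Icc 0 w ∪ s0, ∑ i, r u i * b u i := by
      refine Finset.sum_subset Finset.subset_union_left fun u hu1 hu2 => ?_
      have hu3 : u ∈ s0 := by
        rcases Finset.mem_union.mp hu1 with h | h
        · exact absurd h hu2
        · exact h
      have h0 := hnonneg u hu3
      have : w < u := by
        simp only [Finset.mem_Icc, not_and, not_le] at hu2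
        exact hu2 h0
      refine Finset.sum_eq_zero fun i _ => ?_
      rw [wtSpan_neg (by omega) (hr u i), zero_mul]
    have e2 : ∑ u ∈ s0, ∑ i, r u i * b u i = ∑ u ∈ Icc 0 w ∪ s0, ∑ i, r u i * b u i := by
      refine Finset.sum_subset Finset.subset_union_right fun u _ hu2 => ?_
      have := hempty u hu2
      simp
    rw [e1, e2]
  · intro w r hr hsum0 j
    -- extend `r` by zero
    let r' : (u : ℤ) → Fin (n u) → V := fun u i =>
      if hu : u ∈ s0 then r ⟨⟨u, hu⟩, i⟩ else 0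
    have hr' : ∀ u i, r' u i ∈ wtSpan k x y (w - u) := by
      intro u i
      simp only [r']
      split_ifs with hu
      · exact hr ⟨⟨u, hu⟩, i⟩
      · exact Submodule.zero_mem _
    have hrr' : ∀ j : (Σ u : s0, Fin (n u)), r j = r' j.1 j.2 := by
      rintro ⟨⟨u, hu⟩, i⟩
      simp [r', hu]
    have h0 : ∑ u ∈ s0, ∑ i, r' u i * b u i = 0 := by
      rw [← hsum (fun u i => r' u i * b u i), ← hsum0]
      refine Finset.sum_congr rfl fun j _ => ?_
      rw [hrr' j]
    have := hindep s0 w r' hr' h0 j.1 j.1.2 j.2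
    rw [hrr' j, this]
  · intro u
    by_cases hu : u ∈ s0
    · have e : {j : (Σ u : s0, Fin (n u)) // (j.1 : ℤ) = u} ≃ Fin (n u) :=
        { toFun := fun j => Fin.cast (by rw [j.2]) j.1.2
          invFun := fun i => ⟨⟨⟨u, hu⟩, i⟩, rfl⟩
          left_inv := by
            rintro ⟨⟨⟨v, hv⟩, i⟩, hj⟩
            simp only at hj
            subst hj
            rfl
          right_inv := by intro i; rfl }
      rw [Fintype.card_congr e, Fintype.card_fin]
    · have h0 : n u = 0 := by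
        by_contra hne; exact hu ((hs0mem u).mpr hne)
      rw [h0, Fintype.card_eq_zero_iff]
      refine ⟨fun j => hu ?_⟩
      rw [← j.2]; exact j.1.1.2

/-- The part of the graded family with weights in a finite set `s` is independent
(single-index form). -/
theorem sigma_family_indep {n : ℤ → ℕ} {b : (u : ℤ) → Fin (n u) → V}
    (hindep : ∀ (s : Finset ℤ) (w : ℤ) (r : (u : ℤ) → Fin (n u) → V),
        (∀ u i, r u i ∈ wtSpan k x y (w - u)) →
        ∑ u ∈ s, ∑ i, r u i * b u i = 0 → ∀ u ∈ s, ∀ i, r u i = 0)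
    (s : Finset ℤ) (w : ℤ) (r : (Σ u : s, Fin (n u)) → V)
    (hr : ∀ j, r j ∈ wtSpan k x y (w - j.1)) (hsum0 : ∑ j, r j * b j.1 j.2 = 0) :
    ∀ j, r j = 0 := by
  classical
  intro j
  have hsum : ∀ g : (u : ℤ) → Fin (n u) → V,
      ∑ j : (Σ u : s, Fin (n u)), g j.1 j.2 = ∑ u ∈ s, ∑ i, g u i := by
    intro g
    rw [Fintype.sum_sigma, ← Finset.sum_coe_sort s (fun u => ∑ i, g u i)]
  let r' : (u : ℤ) → Fin (n u) → V := fun u i =>
    if hu : u ∈ s then r ⟨⟨u, hu⟩, i⟩ else 0
  have hr' : ∀ u i, r' u i ∈ wtSpan k x y (w - u) := by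
    intro u i
    simp only [r']
    split_ifs with hu
    · exact hr ⟨⟨u, hu⟩, i⟩
    · exact Submodule.zero_mem _
  have hrr' : ∀ j : (Σ u : s, Fin (n u)), r j = r' j.1 j.2 := by
    rintro ⟨⟨u, hu⟩, i⟩
    simp [r', hu]
  have h0 : ∑ u ∈ s, ∑ i, r' u i * b u i = 0 := by
    rw [← hsum (fun u i => r' u i * b u i), ← hsum0]
    refine Finset.sum_congr rfl fun j _ => ?_
    rw [hrr' j]
  have := hindep s w r' hr' h0 j.1 j.1.2 j.2
  rw [hrr' j, this]

theorem card_sigma_family (n : ℤ → ℕ) (s : Finset ℤ) :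
    Fintype.card (Σ u : s, Fin (n u)) = ∑ u ∈ s, n u := by
  rw [Fintype.card_sigma]
  simp only [Fintype.card_fin]
  exact Finset.sum_coe_sort s n

lemma wtSpan_eq_bot_of_lt_four (x y : V) {n : ℤ} (hn : n < 4) (hn0 : n ≠ 0) :
    wtSpan k x y n = ⊥ := by
  have : {v : V | ∃ a c : ℕ, 4 * (a : ℤ) + 6 * (c : ℤ) = n ∧ v = x ^ a * y ^ c} = ∅ := by
    ext v; simp only [Set.mem_ofPred_eq, Set.mem_empty_iff_false, iff_false]
    rintro ⟨a, c, h, -⟩; omega
  unfold wtSpan
  rw [this, Submodule.span_empty]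

lemma mem_wtSpan_zero_iff (x y : V) {r : V} : r ∈ wtSpan k x y 0 ↔ ∃ c : k, r = c • (1 : V) := by
  have : {v : V | ∃ a c : ℕ, 4 * (a : ℤ) + 6 * (c : ℤ) = 0 ∧ v = x ^ a * y ^ c} = {1} := by
    ext v; simp only [Set.mem_ofPred_eq, Set.mem_singleton_iff]
    constructor
    · rintro ⟨a, c, h, rfl⟩
      have ha : a = 0 := by omega
      have hc : c = 0 := by omega
      subst ha; subst hc; simp
    · rintro rfl; exact ⟨0, 0, by simp, by simp⟩
  unfold wtSpan
  rw [this, Submodule.mem_span_singleton]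
  constructor
  · rintro ⟨c, rfl⟩; exact ⟨c, rfl⟩
  · rintro ⟨c, rfl⟩; exact ⟨c, rfl⟩

/-- In weights `w < 4` the graded piece `M w` has the basis `{β i | κ i = w}`. -/
theorem IsHomBasis.finrank_eq_card [Nontrivial V] {ι : Type*} [Fintype ι] {κ : ι → ℤ}
    {β : ι → V} (h : IsHomBasis x y M κ β) (hκ : ∀ i, 0 ≤ κ i) {w : ℤ} (hw : w < 4) :
    Module.finrank k (M w) = Fintype.card {i : ι // κ i = w} := by
  classical
  have hmemw : ∀ j : {i : ι // κ i = w}, β j.1 ∈ M w := fun j => by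
    have := h.mem j.1
    rwa [j.2] at this
  let v : {i : ι // κ i = w} → ↥(M w) := fun j => ⟨β j.1, hmemw j⟩
  have hsumsub : ∀ F : ι → V, (∀ i, κ i ≠ w → F i = 0) →
      ∑ i, F i = ∑ j : {i : ι // κ i = w}, F j.1 := by
    intro F hF
    rw [← Finset.sum_subtype (Finset.univ.filter fun i => κ i = w) (by simp) F]
    refine (Finset.sum_subset (Finset.filter_subset _ _) fun i _ hi => ?_).symm
    exact hF i (by simpa using hi)
  have hli : LinearIndependent k v := by
    rw [Fintype.linearIndependent_iff]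
    intro c hc j
    let r : ι → V := fun i => if hi : κ i = w then c ⟨i, hi⟩ • (1 : V) else 0
    have hr : ∀ i, r i ∈ wtSpan k x y (w - κ i) := by
      intro i
      simp only [r]
      split_ifs with hi
      · rw [hi, sub_self]; exact (mem_wtSpan_zero_iff x y).mpr ⟨_, rfl⟩
      · exact Submodule.zero_mem _
    have h0 : ∑ i, r i * β i = 0 := by
      rw [hsumsub (fun i => r i * β i) (fun i hi => by simp [r, hi])]
      have := congrArg (fun z : ↥(M w) => (z : V)) hc
      simp only [Submodule.coe_sum, Submodule.coe_smul, ZeroMemClass.coe_zero] at this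
      rw [← this]
      refine Finset.sum_congr rfl fun j _ => ?_
      simp [r, v, j.2]
    have := h.indep w r hr h0 j.1
    simp only [r, dif_pos j.2] at this
    rcases smul_eq_zero.mp this with h1 | h1
    · exact h1
    · exact absurd h1 one_ne_zero
  have hsp : ⊤ ≤ Submodule.span k (Set.range v) := by
    rintro ⟨f, hf⟩ -
    obtain ⟨r, hr, hfr⟩ := h.gen w f hf
    have hr0 : ∀ i, κ i ≠ w → r i = 0 := by
      intro i hi
      have := hr i
      rw [wtSpan_eq_bot_of_lt_four x y (by have := hκ i; omega) (by omega)] at this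
      exact this
    have hrc : ∀ j : {i : ι // κ i = w}, ∃ c : k, r j.1 = c • (1 : V) := by
      intro j
      have := hr j.1
      rw [j.2, sub_self] at this
      exact (mem_wtSpan_zero_iff x y).mp this
    choose c hc using hrc
    have : (⟨f, hf⟩ : ↥(M w)) = ∑ j, c j • v j := by
      apply Subtype.ext
      simp only [Submodule.coe_sum, Submodule.coe_smul]
      rw [hfr, hsumsub (fun i => r i * β i) (fun i hi => by simp [hr0 i hi])]
      refine Finset.sum_congr rfl fun j _ => ?_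
      simp [hc j, v]
    rw [this]
    exact Submodule.sum_mem _ fun j _ => Submodule.smul_mem _ _ (Submodule.subset_span ⟨j, rfl⟩)
  rw [Module.finrank_eq_card_basis (Module.Basis.mk hli hsp)]

end Fintype

end Fermat.Agent.Lib.RR
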