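/-
S20 (dimension of `S₂(Γ₀(N))` = genus formula): the INTERFACE between the work packages.

Everything here is a definition (mostly `Prop`-valued): the exact shape of what every work
package delivers.  The assembly (`Assembly.lean`) proves S20 from these `Prop`s.
-/
import Fermat.Agent.Lib.RR.Coset
import Fermat.Agent.Lib.RR.Cosets
import Fermat.Agent.Lib.RR.GradedFree

set_option autoImplicit false

namespace Fermat.Agent.Lib.RR

open UpperHalfPlane ModularForm CongruenceSubgroup Matrix.SpecialLinearGroup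
open scoped MatrixGroups Manifold

noncomputable section

/-- The coset vector of `f` (weight `k`) evaluated at the point `z`: an element of `ℂ ^ (Q N)`. -/
def cosetVec (N : ℕ) (k : ℤ) (f : ℍ → ℂ) (z : ℍ) : Q N → ℂ := fun q => cosetFun N k f q z

/-- Number of cusps of `Γ₀(N)`: orbits of `⟨T⟩` on the cosets. -/
def numCusps (N : ℕ) : ℕ :=
  Nat.card (MulAction.orbitRel.Quotient (Subgroup.zpowers ModularGroup.T) (Q N))

/-- The weight-`w` part of `ℂ[E₄, E₆]` as functions on `ℍ`. -/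
abbrev RW (w : ℤ) : Submodule ℂ (ℍ → ℂ) := wtSpan ℂ E4 E6 w

/-- A finite homogeneous family in the graded module `M` (`= MF N` or `CF N`) which is
independent over `ℂ[E₄,E₆]` and *saturated*: a combination divisible by `P ∈ ℂ[E₄,E₆]` inside `M`
has all its coefficients divisible by `P`.  Both a full homogeneous basis (`IsHomBasis`) and every
finite sub-family of helper6's doubly indexed basis are saturated families. -/
structure IsSatFamily (M : ℤ → Submodule ℂ (ℍ → ℂ)) {ι : Type} [Fintype ι]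
    (κ : ι → ℤ) (β : ι → ℍ → ℂ) : Prop where
  mem : ∀ i, β i ∈ M (κ i)
  indep : ∀ w (r : ι → ℍ → ℂ), (∀ i, r i ∈ RW (w - κ i)) → ∑ i, r i * β i = 0 → ∀ i, r i = 0
  sat : ∀ (d : ℤ) (P : ℍ → ℂ), P ∈ RW d → ∀ (w : ℤ) (r : ι → ℍ → ℂ),
    (∀ i, r i ∈ RW (w - κ i)) → ∀ g ∈ M (w - d), ∑ i, r i * β i = P * g →
      ∃ r' : ι → ℍ → ℂ, (∀ i, r' i ∈ RW (w - d - κ i)) ∧ ∀ i, r i = P * r' i

/-! ### Work package E2 (helper4): `(E₄, E₆)` is a regular sequence on `M` -/

/-- WP E2: if `E₆ f = E₄ g` then `f` is divisible by `E₄` inside `M`. -/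
def IfaceE2 (M : ℤ → Submodule ℂ (ℍ → ℂ)) : Prop :=
  ∀ w f g, f ∈ M w → g ∈ M (w + 2) → E6 * f = E4 * g → ∃ h ∈ M (w - 4), f = E4 * h

/-! ### Work package G1 (helper7) -/

/-- WP G1-1: the coset vectors of a homogeneous basis are linearly independent at EVERY point.
(`IsHomBasis` implies `IsSatFamily`, see `Glue.lean`, so a proof from `IsSatFamily` suffices.) -/
def IfaceG1Indep (N : ℕ) (M : ℤ → Submodule ℂ (ℍ → ℂ)) : Prop :=
  ∀ (ι : Type) [Fintype ι] (κ : ι → ℤ) (β : ι → ℍ → ℂ), IsHomBasis (k := ℂ) E4 E6 M κ β →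
    ∀ z0 : ℍ, LinearIndependent ℂ fun i => cosetVec N (κ i) (β i) z0

/-- WP G1-3: the number of basis elements in the residue classes of the weight mod 4 and mod 6. -/
def IfaceG1Counts (N : ℕ) [NeZero N] : Prop :=
  ∀ (ι : Type) [Fintype ι] (κ : ι → ℤ) (β : ι → ℍ → ℂ), IsHomBasis (k := ℂ) E4 E6 (MF N) κ β →
    Fintype.card ι = Fintype.card (Q N) →
    2 * Fintype.card {i // κ i % 4 = 0} = Fintype.card (Q N) + ModularCurve.nuTwo N ∧
    3 * Fintype.card {i // κ i % 6 = 0} = Fintype.card (Q N) + 2 * ModularCurve.nuThree N ∧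
    3 * Fintype.card {i // κ i % 6 = 2} + ModularCurve.nuThree N = Fintype.card (Q N)

/-! ### Work package F (helper1): at least `μ` basis elements -/

/-- WP F: a homogeneous basis of `M` has at least `μ = card (Q N)` elements. -/
def IfaceFLower (N : ℕ) [NeZero N] (M : ℤ → Submodule ℂ (ℍ → ℂ)) : Prop :=
  ∀ (ι : Type) [Fintype ι] (κ : ι → ℤ) (β : ι → ℍ → ℂ), IsHomBasis (k := ℂ) E4 E6 M κ β →
    Fintype.card (Q N) ≤ Fintype.card ι

/-! ### Work package G2 (helper5): sum of the weights -/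

/-- WP G2 for `M = MF N`: `∑ κ = 6 (μ - c)` (stated without subtraction). -/
def IfaceG2MF (N : ℕ) [NeZero N] : Prop :=
  ∀ (ι : Type) [Fintype ι] (κ : ι → ℤ) (β : ι → ℍ → ℂ), IsHomBasis (k := ℂ) E4 E6 (MF N) κ β →
    Fintype.card ι = Fintype.card (Q N) →
    ∑ i, κ i + 6 * (numCusps N : ℤ) = 6 * (Fintype.card (Q N) : ℤ)

/-- WP G2 for `M = CF N`: `∑ κ' = 6 (μ + c)`. -/
def IfaceG2CF (N : ℕ) [NeZero N] : Prop :=
  ∀ (ι : Type) [Fintype ι] (κ : ι → ℤ) (β : ι → ℍ → ℂ), IsHomBasis (k := ℂ) E4 E6 (CF N) κ β →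
    Fintype.card ι = Fintype.card (Q N) →
    ∑ i, κ i = 6 * (Fintype.card (Q N) : ℤ) + 6 * (numCusps N : ℤ)

/-! ### Work package H (helper2): trace duality -/

/-- WP H: the weights of a basis of `MF N` and of a basis of `CF N` pair up to `12`. -/
def IfaceH (N : ℕ) [NeZero N] : Prop :=
  ∀ (ι : Type) [Fintype ι] (κ : ι → ℤ) (β : ι → ℍ → ℂ)
    (ι' : Type) [Fintype ι'] (κ' : ι' → ℤ) (β' : ι' → ℍ → ℂ),
    IsHomBasis (k := ℂ) E4 E6 (MF N) κ β → IsHomBasis (k := ℂ) E4 E6 (CF N) κ' β' →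
    Fintype.card ι = Fintype.card (Q N) → Fintype.card ι' = Fintype.card (Q N) →
    (∀ z0 : ℍ, LinearIndependent ℂ fun i => cosetVec N (κ i) (β i) z0) →
    (∀ z0 : ℍ, LinearIndependent ℂ fun i => cosetVec N (κ' i) (β' i) z0) →
    ∑ i, κ i + ∑ i, κ' i = 12 * (Fintype.card (Q N) : ℤ) →
    ∃ σ : ι ≃ ι', ∀ i, κ i + κ' (σ i) = 12

end

end Fermat.Agent.Lib.RR
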