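import Fermat.Agent.Lib.RR.Duality
import Fermat.Agent.Lib.RR.Interface

/-!
# WP H in the shape of `Interface.lean`
-/

namespace Fermat.Agent.Lib.RR

open UpperHalfPlane ModularForm CongruenceSubgroup Matrix.SpecialLinearGroup
open scoped MatrixGroups Manifold

/-- WP H: trace duality, in the exact shape `IfaceH` of the interface. -/
theorem ifaceH (N : ℕ) [NeZero N] : IfaceH N := by
  intro ι _ κ β ι' _ κ' β' hb hg hι hι' hA hB hK
  exact wpH_exists_equiv_weight_add_eq_twelve κ β hb.mem κ' β' hg.mem UpperHalfPlane.I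
    (hA UpperHalfPlane.I) (hB UpperHalfPlane.I) hι hι' hK

end Fermat.Agent.Lib.RR
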