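import Mathlib

/-!
# Division of analytic functions (WP E of the S20 project)

If `g`, `p` are analytic on an open set `U ⊆ ℂ`, `p` is nowhere locally zero on `U`, and
`ord_z p ≤ ord_z g` for all `z ∈ U`, then `g = p * h` on `U` with `h` analytic on `U`.
-/

set_option autoImplicit false

open Filter Topology

namespace Fermat.Agent.Lib.RR

/-- Division of analytic functions on a set, given the order inequality. -/
theorem div_exists_analyticOnNhd {U : Set ℂ} {g p : ℂ → ℂ}
    (hg : AnalyticOnNhd ℂ g U) (hp : AnalyticOnNhd ℂ p U)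
    (hfin : ∀ z ∈ U, analyticOrderAt p z ≠ ⊤)
    (hord : ∀ z ∈ U, analyticOrderAt p z ≤ analyticOrderAt g z) :
    ∃ h : ℂ → ℂ, AnalyticOnNhd ℂ h U ∧ ∀ z ∈ U, g z = p z * h z := by
  have hmer : MeromorphicOn (g / p) U := hg.meromorphicOn.div hp.meromorphicOn
  have hF : AnalyticOnNhd ℂ (toMeromorphicNFOn (g / p) U) U := by
    intro z hz
    have hNF : MeromorphicNFAt (toMeromorphicNFOn (g / p) U) z :=
      meromorphicNFOn_toMeromorphicNFOn (g / p) U hz
    rw [← hNF.meromorphicOrderAt_nonneg_iff_analyticAt,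
      meromorphicOrderAt_toMeromorphicNFOn hmer hz,
      meromorphicOrderAt_div (hg z hz).meromorphicAt (hp z hz).meromorphicAt,
      (hg z hz).meromorphicOrderAt_eq, (hp z hz).meromorphicOrderAt_eq]
    have h1 := hord z hz
    have h2 := hfin z hz
    revert h1 h2
    cases analyticOrderAt p z with
    | top => intro _ h; exact absurd rfl h
    | coe n =>
      cases analyticOrderAt g z with
      | top => intro _ _; simp
      | coe m =>
        intro h1 _
        have hnm : n ≤ m := by exact_mod_cast h1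
        simp only [ENat.map_natCast]
        have : ((m : ℤ) : WithTop ℤ) - ((n : ℤ) : WithTop ℤ)
            = (((m : ℤ) - (n : ℤ) : ℤ) : WithTop ℤ) := by
          norm_cast
        rw [this]
        have h2 : (0 : ℤ) ≤ (m : ℤ) - n := by omega
        exact_mod_cast h2
  refine ⟨toMeromorphicNFOn (g / p) U, hF, ?_⟩
  intro z hz
  have h1 : toMeromorphicNFOn (g / p) U =ᶠ[𝓝[≠] z] g / p :=
    hmer.toMeromorphicNFOn_eq_self_on_nhdsNE hz
  have h2 : ∀ᶠ w in 𝓝[≠] z, p w ≠ 0 := by
    rcases (hp z hz).eventually_eq_zero_or_eventually_ne_zero with h | h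
    · exact absurd (analyticOrderAt_eq_top.mpr h) (hfin z hz)
    · exact h
  have h3 : ∀ᶠ w in 𝓝[≠] z, p w * toMeromorphicNFOn (g / p) U w = g w := by
    filter_upwards [h1, h2] with w hw1 hw2
    rw [hw1, Pi.div_apply, mul_div_cancel₀ _ hw2]
  have hc1 : Tendsto (fun w => p w * toMeromorphicNFOn (g / p) U w) (𝓝[≠] z)
      (𝓝 (p z * toMeromorphicNFOn (g / p) U z)) :=
    (((hp z hz).continuousAt.mul (hF z hz).continuousAt).tendsto).mono_left nhdsWithin_le_nhds
  have hc2 : Tendsto g (𝓝[≠] z) (𝓝 (g z)) :=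
    ((hg z hz).continuousAt.tendsto).mono_left nhdsWithin_le_nhds
  exact tendsto_nhds_unique hc2 (hc1.congr' h3)

end Fermat.Agent.Lib.RR
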