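import Mathlib
import Fermat.Agent.Lib.RR.DivAnalytic

/-!
# Division of modular forms by level-one forms (WP E of the S20 project): general engine
-/

set_option autoImplicit false

open Filter Topology UpperHalfPlane ModularForm MatrixGroups Matrix.SpecialLinearGroup OnePoint

open scoped Manifold

namespace Fermat.Agent.Lib.RR

/-- The analytic order of a function on `ℍ` at a point of `ℍ` (via `ofComplex`). -/
noncomputable def div_ord (f : ℍ → ℂ) (z : ℍ) : ℕ∞ := analyticOrderAt (f ∘ ofComplex) (z : ℂ)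

/-- A holomorphic function on `ℍ` gives a function analytic on the open upper half plane. -/
theorem div_analyticOnNhd {f : ℍ → ℂ} (hf : MDiff f) :
    AnalyticOnNhd ℂ (f ∘ ofComplex) {z : ℂ | 0 < z.im} :=
  (UpperHalfPlane.mdifferentiable_iff.mp hf).analyticOnNhd isOpen_upperHalfPlaneSet

/-- A nonzero holomorphic function on `ℍ` has finite order everywhere. -/
theorem div_ord_ne_top {f : ℍ → ℂ} (hf : MDiff f) (hf0 : f ≠ 0) (z : ℍ) :
    div_ord f z ≠ ⊤ := by
  intro h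
  apply hf0
  rw [div_ord, analyticOrderAt_eq_top] at h
  apply eq_zero_of_frequently hf (τ := z)
  apply Eventually.frequently
  rw [eventually_nhdsWithin_iff]
  rw [← isOpenEmbedding_coe.map_nhds_eq, eventually_map] at h
  filter_upwards [h] with a ha _
  simpa using ha

/-- Core of the division engine, for plain functions. -/
theorem div_core {G P : ℍ → ℂ} (hG : MDiff G) (hP : MDiff P) (hP0 : P ≠ 0)
    (hord : ∀ z : ℍ, div_ord P z ≤ div_ord G z) :
    ∃ H : ℍ → ℂ, MDiff H ∧ G = P * H := by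
  obtain ⟨h, hh, hgh⟩ := div_exists_analyticOnNhd (div_analyticOnNhd hG) (div_analyticOnNhd hP)
    (fun z hz => by simpa [div_ord] using div_ord_ne_top hP hP0 ⟨z, hz⟩)
    (fun z hz => by simpa [div_ord] using hord ⟨z, hz⟩)
  refine ⟨fun τ => h τ, ?_, ?_⟩
  · rw [UpperHalfPlane.mdifferentiable_iff]
    refine hh.differentiableOn.congr ?_
    intro z hz
    simp [Function.comp_apply, ofComplex_apply_of_im_pos hz]
  · funext τ
    have := hgh τ τ.im_pos
    simpa using this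

variable {K w : ℤ}

/-- The slash action on a product, with the weight of the product split as `w + (K - w)`. -/
theorem div_slash_mul (P H : ℍ → ℂ) (γ : SL(2, ℤ)) :
    (P * H) ∣[K] γ = (P ∣[w] γ) * (H ∣[K - w] γ) := by
  have := mul_slash_SL2 w (K - w) γ P H
  rwa [show w + (K - w) = K by ring] at this

/-- If `G = P * H` with `G`, `P` invariant under `γ`, then so is `H`. -/
theorem div_slash_invariant {G P H : ℍ → ℂ} (hP : MDiff P) (hH : MDiff H) (hP0 : P ≠ 0)
    (hGPH : G = P * H) (γ : SL(2, ℤ)) (hGγ : G ∣[K] γ = G) (hPγ : P ∣[w] γ = P) :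
    H ∣[K - w] γ = H := by
  have h1 : P * (H ∣[K - w] γ) = P * H := by
    rw [← hGPH, ← hGγ]
    conv_rhs => rw [hGPH, div_slash_mul (w := w), hPγ]
  have h2 : P * (H ∣[K - w] γ - H) = 0 := by rw [mul_sub, h1, sub_self]
  have hHγ : MDiff (H ∣[K - w] γ) := by
    rw [SL_slash]; exact hH.slash _ _
  rcases (UpperHalfPlane.mul_eq_zero_iff hP (hHγ.sub hH)).mp h2 with h | h
  · exact absurd h hP0
  · exact sub_eq_zero.mp h

/-- A level one form is invariant under all of `SL(2, ℤ)`. -/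
theorem div_levelOne_slash (P : ModularForm 𝒮ℒ w) (γ : SL(2, ℤ)) : (P : ℍ → ℂ) ∣[w] γ = P := by
  rw [SL_slash]
  exact SlashInvariantForm.slash_action_eqn P _ ⟨γ, rfl⟩

/-- The quotient at the cusps. -/
theorem div_slash_eventuallyEq {G H : ℍ → ℂ} (P : ModularForm 𝒮ℒ w)
    (hGPH : G = P * H) (hPinf : ∀ᶠ z in atImInfty, P z ≠ 0) (γ : SL(2, ℤ)) :
    (H ∣[K - w] γ) =ᶠ[atImInfty] fun z => (G ∣[K] γ) z / P z := by
  filter_upwards [hPinf] with z hz
  rw [hGPH, div_slash_mul (w := w), div_levelOne_slash, Pi.mul_apply, mul_div_cancel_left₀ _ hz]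

/-- **Division engine, modular forms.** -/
theorem div_modularForm {Γ : Subgroup SL(2, ℤ)} [Γ.FiniteIndex] (G : ModularForm Γ K)
    (P : ModularForm 𝒮ℒ w) (hP0 : (P : ℍ → ℂ) ≠ 0)
    (hord : ∀ z : ℍ, div_ord P z ≤ div_ord G z)
    (hPinf : ∀ᶠ z in atImInfty, P z ≠ 0)
    (hbdd : ∀ γ : SL(2, ℤ), IsBoundedAtImInfty (fun z => ((G : ℍ → ℂ) ∣[K] γ) z / P z)) :
    ∃ H : ModularForm Γ (K - w), (G : ℍ → ℂ) = P * H := by
  obtain ⟨H, hH, hGPH⟩ := div_core G.holo' P.holo' hP0 hord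
  refine ⟨{ toFun := H, slash_action_eq' := ?_, holo' := hH, bdd_at_cusps' := ?_ }, hGPH⟩
  · rintro _ ⟨γ, hγ, rfl⟩
    have hGγ : (G : ℍ → ℂ) ∣[K] γ = G := by
      rw [SL_slash]
      exact SlashInvariantForm.slash_action_eqn G _ ⟨γ, hγ, rfl⟩
    have := div_slash_invariant P.holo' hH hP0 hGPH γ hGγ (div_levelOne_slash P γ)
    rwa [SL_slash] at this
  · intro c hc
    rw [Subgroup.IsArithmetic.isCusp_iff_isCusp_SL2Z] at hc
    rw [isBoundedAt_iff_forall_SL2Z hc]
    intro γ _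
    have h1 := div_slash_eventuallyEq (K := K) P hGPH hPinf γ
    exact (hbdd γ).congr' h1.symm (EventuallyEq.refl _ _)

/-- **Division engine, cusp forms.** -/
theorem div_cuspForm {Γ : Subgroup SL(2, ℤ)} [Γ.FiniteIndex] (G : CuspForm Γ K)
    (P : ModularForm 𝒮ℒ w) (hP0 : (P : ℍ → ℂ) ≠ 0)
    (hord : ∀ z : ℍ, div_ord P z ≤ div_ord G z)
    (hPinf : ∀ᶠ z in atImInfty, P z ≠ 0)
    (hzero : ∀ γ : SL(2, ℤ), IsZeroAtImInfty (fun z => ((G : ℍ → ℂ) ∣[K] γ) z / P z)) :
    ∃ H : CuspForm Γ (K - w), (G : ℍ → ℂ) = P * H := by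
  obtain ⟨H, hH, hGPH⟩ := div_core G.holo' P.holo' hP0 hord
  refine ⟨{ toFun := H, slash_action_eq' := ?_, holo' := hH, zero_at_cusps' := ?_ }, hGPH⟩
  · rintro _ ⟨γ, hγ, rfl⟩
    have hGγ : (G : ℍ → ℂ) ∣[K] γ = G := by
      rw [SL_slash]
      exact SlashInvariantForm.slash_action_eqn G _ ⟨γ, hγ, rfl⟩
    have := div_slash_invariant P.holo' hH hP0 hGPH γ hGγ (div_levelOne_slash P γ)
    rwa [SL_slash] at this
  · intro c hc
    rw [Subgroup.IsArithmetic.isCusp_iff_isCusp_SL2Z] at hc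
    rw [isZeroAt_iff_forall_SL2Z hc]
    intro γ _
    have h1 := div_slash_eventuallyEq (K := K) P hGPH hPinf γ
    exact (hzero γ).congr' h1.symm


end Fermat.Agent.Lib.RR
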