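import Mathlib
import Fermat.Agent.Lib.RR.DivModular

/-!
# Division lemmas for modular forms (WP E of the S20 project)

Consequences of the division engine `div_modularForm` / `div_cuspForm`:

* `div_modularForm_of_tendsto`, `div_cuspForm_of_tendsto`: division by a level one form `P` with
  nonzero limit at `i∞`, given the order inequality `ord_z P ≤ ord_z G` for all `z`;
* `div_modularForm_of_simple_zeros`, `div_cuspForm_of_simple_zeros`: the same, for `P` with
  simple zeros and `G` vanishing at the zeros of `P`;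
* `div_modularForm_of_orbit`, `div_cuspForm_of_orbit`: `P` with simple zeros all in the
  `SL(2, ℤ)`-orbit of `z₀`, and `G` vanishing on that orbit;
* `div_E4_of_E6_mul_eq` etc.: the regular sequence check `E₆ f = E₄ g ⟹ E₄ ∣ f`;
* `div_discriminant_modularForm`, `div_discriminant_cuspForm`: division by `Δ`.
-/

set_option autoImplicit false

open Filter Topology UpperHalfPlane ModularForm MatrixGroups Matrix.SpecialLinearGroup OnePoint
  SlashInvariantFormClass ModularFormClass EisensteinSeries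

open scoped Manifold

namespace Fermat.Agent.Lib.RR

variable {K w : ℤ}

local notation "Δ" => ModularForm.discriminant

/-! ### Limits at `i∞` -/

/-- A level-one modular form tends to the constant coefficient of its `q`-expansion at `i∞`. -/
theorem div_tendsto_coeff_zero (P : ModularForm 𝒮ℒ w) :
    Tendsto P atImInfty (𝓝 ((qExpansion 1 P).coeff 0)) := by
  have h1 : AnalyticAt ℂ (cuspFunction 1 P) 0 :=
    ModularFormClass.analyticAt_cuspFunction_zero P one_pos one_mem_strictPeriods_SL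
  have h2 : (cuspFunction 1 P ∘ fun τ : ℍ ↦ Function.Periodic.qParam 1 τ : ℍ → ℂ) = P := by
    funext τ
    simpa using SlashInvariantFormClass.eq_cuspFunction P τ one_mem_strictPeriods_SL one_ne_zero
  have h3 : (qExpansion 1 P).coeff 0 = cuspFunction 1 P 0 := by
    simp [qExpansion_coeff]
  rw [h3]
  have := h1.continuousAt.tendsto.comp (qParam_tendsto_atImInfty one_pos)
  rwa [h2] at this

/-- If `P → c ≠ 0` at `i∞` then `1 / P` is bounded at `i∞`. -/
theorem div_inv_bounded {P : ℍ → ℂ} {c : ℂ} (hc : c ≠ 0) (hP : Tendsto P atImInfty (𝓝 c)) :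
    IsBoundedAtImInfty (fun z => (P z)⁻¹) :=
  (hP.inv₀ hc).isBigO_one ℝ

theorem div_eventually_ne {P : ℍ → ℂ} {c : ℂ} (hc : c ≠ 0) (hP : Tendsto P atImInfty (𝓝 c)) :
    ∀ᶠ z in atImInfty, P z ≠ 0 :=
  hP.eventually_ne hc

theorem div_ne_zero_of_tendsto {P : ℍ → ℂ} {c : ℂ} (hc : c ≠ 0) (hP : Tendsto P atImInfty (𝓝 c)) :
    P ≠ 0 := by
  intro h
  obtain ⟨z, hz⟩ := (div_eventually_ne hc hP).exists
  exact hz (by rw [h]; rfl)

theorem div_tendsto_E4 : Tendsto E₄ atImInfty (𝓝 1) := by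
  have := div_tendsto_coeff_zero E₄
  rwa [E_qExpansion_coeff_zero _ ⟨2, rfl⟩] at this

theorem div_tendsto_E6 : Tendsto E₆ atImInfty (𝓝 1) := by
  have := div_tendsto_coeff_zero E₆
  rwa [E_qExpansion_coeff_zero _ ⟨3, rfl⟩] at this

/-! ### Division by a level-one form not vanishing at `i∞` -/

/-- **Division by a level-one form not vanishing at `i∞`, modular forms.** -/
theorem div_modularForm_of_tendsto {Γ : Subgroup SL(2, ℤ)} [Γ.FiniteIndex] (G : ModularForm Γ K)
    (P : ModularForm 𝒮ℒ w) {c : ℂ} (hc : c ≠ 0) (hPc : Tendsto P atImInfty (𝓝 c))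
    (hord : ∀ z : ℍ, div_ord P z ≤ div_ord G z) :
    ∃ H : ModularForm Γ (K - w), (G : ℍ → ℂ) = P * H := by
  refine div_modularForm G P (div_ne_zero_of_tendsto hc hPc) hord (div_eventually_ne hc hPc) ?_
  intro γ
  have h1 : IsBoundedAtImInfty ((G : ℍ → ℂ) ∣[K] γ) := ModularFormClass.bdd_at_infty_slash G γ
  have := h1.mul (div_inv_bounded hc hPc)
  simp only [div_eq_mul_inv]
  exact this

/-- **Division by a level-one form not vanishing at `i∞`, cusp forms.** -/
theorem div_cuspForm_of_tendsto {Γ : Subgroup SL(2, ℤ)} [Γ.FiniteIndex] (G : CuspForm Γ K)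
    (P : ModularForm 𝒮ℒ w) {c : ℂ} (hc : c ≠ 0) (hPc : Tendsto P atImInfty (𝓝 c))
    (hord : ∀ z : ℍ, div_ord P z ≤ div_ord G z) :
    ∃ H : CuspForm Γ (K - w), (G : ℍ → ℂ) = P * H := by
  refine div_cuspForm G P (div_ne_zero_of_tendsto hc hPc) hord (div_eventually_ne hc hPc) ?_
  intro γ
  have h1 : IsZeroAtImInfty ((G : ℍ → ℂ) ∣[K] γ) := CuspFormClass.zero_at_infty_slash G γ
  have := h1.mul_boundedAtFilter (div_inv_bounded hc hPc)
  simp only [div_eq_mul_inv]
  exact this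

/-! ### Orders -/

theorem div_analyticAt {f : ℍ → ℂ} (hf : MDiff f) (z : ℍ) : AnalyticAt ℂ (f ∘ ofComplex) z :=
  div_analyticOnNhd hf z z.im_pos

theorem div_ord_eq_zero_iff {f : ℍ → ℂ} (hf : MDiff f) (z : ℍ) : div_ord f z = 0 ↔ f z ≠ 0 := by
  rw [div_ord, (div_analyticAt hf z).analyticOrderAt_eq_zero]; simp

theorem div_ord_mul {f g : ℍ → ℂ} (hf : MDiff f) (hg : MDiff g) (z : ℍ) :
    div_ord (f * g) z = div_ord f z + div_ord g z :=
  analyticOrderAt_mul (div_analyticAt hf z) (div_analyticAt hg z)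

/-- If `P` has at most a simple zero at `z` and `G` vanishes at `z` when `P` does, then
`ord_z P ≤ ord_z G`. -/
theorem div_ord_le_of_simple {P G : ℍ → ℂ} (hP : MDiff P) (hG : MDiff G) (z : ℍ)
    (h1 : P z = 0 → div_ord P z ≤ 1) (h0 : P z = 0 → G z = 0) : div_ord P z ≤ div_ord G z := by
  by_cases hz : P z = 0
  · have : div_ord G z ≠ 0 := by rw [Ne, div_ord_eq_zero_iff hG]; simp [h0 hz]
    exact (h1 hz).trans (Order.one_le_iff_ne_zero.mpr this)
  · rw [(div_ord_eq_zero_iff hP z).mpr hz]; exact zero_le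

/-- A zero with nonvanishing derivative is simple. -/
theorem div_ord_le_one_of_deriv_ne_zero {P : ℍ → ℂ} (hP : MDiff P) (z : ℍ)
    (h : deriv (P ∘ ofComplex) z ≠ 0) : div_ord P z ≤ 1 := by
  by_cases hz : P z = 0
  · exact le_of_eq ((div_analyticAt hP z).analyticOrderAt_eq_one_of_zero_deriv_ne_zero
      (by simpa using hz) h)
  · rw [(div_ord_eq_zero_iff hP z).mpr hz]; exact zero_le

open Derivative in
/-- A zero with nonvanishing normalized derivative `D P` is simple. -/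
theorem div_ord_le_one_of_D_ne_zero {P : ℍ → ℂ} (hP : MDiff P) (z : ℍ)
    (h : D P z ≠ 0) : div_ord P z ≤ 1 := by
  refine div_ord_le_one_of_deriv_ne_zero hP z ?_
  intro h0
  exact h (by simp [normalizedDerivOfComplex, h0])

/-- Order inequality from a relation `Q * f = P * g` with `P`, `Q` without common zero. -/
theorem div_ord_le_of_mul_eq {P Q f g : ℍ → ℂ} (hP : MDiff P) (hQ : MDiff Q) (hf : MDiff f)
    (hg : MDiff g) (h : Q * f = P * g) (z : ℍ) (hz : P z = 0 → Q z ≠ 0) :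
    div_ord P z ≤ div_ord f z := by
  by_cases hPz : P z = 0
  · have h1 : div_ord (Q * f) z = div_ord f z := by
      rw [div_ord_mul hQ hf, (div_ord_eq_zero_iff hQ z).mpr (hz hPz), zero_add]
    rw [← h1, h, div_ord_mul hP hg]
    exact le_self_add
  · rw [(div_ord_eq_zero_iff hP z).mpr hPz]; exact zero_le

/-- `(G ∣[K] γ) z = 0 ↔ G (γ • z) = 0`. -/
theorem div_slash_apply_eq_zero_iff (G : ℍ → ℂ) (γ : SL(2, ℤ)) (z : ℍ) :
    (G ∣[K] γ) z = 0 ↔ G (γ • z) = 0 := by
  rw [SL_slash_apply]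
  simp [zpow_ne_zero _ (denom_ne_zero _ z)]

/-! ### Division by forms with simple zeros -/

/-- **Division by a level-one form with simple zeros, modular forms.** -/
theorem div_modularForm_of_simple_zeros {Γ : Subgroup SL(2, ℤ)} [Γ.FiniteIndex]
    (G : ModularForm Γ K) (P : ModularForm 𝒮ℒ w) {c : ℂ} (hc : c ≠ 0)
    (hPc : Tendsto P atImInfty (𝓝 c)) (hsimple : ∀ z : ℍ, P z = 0 → div_ord P z ≤ 1)
    (hzero : ∀ z : ℍ, P z = 0 → G z = 0) :
    ∃ H : ModularForm Γ (K - w), (G : ℍ → ℂ) = P * H :=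
  div_modularForm_of_tendsto G P hc hPc fun z =>
    div_ord_le_of_simple (ModularFormClass.holo P) (ModularFormClass.holo G) z (hsimple z) (hzero z)

/-- **Division by a level-one form with simple zeros, cusp forms.** -/
theorem div_cuspForm_of_simple_zeros {Γ : Subgroup SL(2, ℤ)} [Γ.FiniteIndex]
    (G : CuspForm Γ K) (P : ModularForm 𝒮ℒ w) {c : ℂ} (hc : c ≠ 0)
    (hPc : Tendsto P atImInfty (𝓝 c)) (hsimple : ∀ z : ℍ, P z = 0 → div_ord P z ≤ 1)
    (hzero : ∀ z : ℍ, P z = 0 → G z = 0) :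
    ∃ H : CuspForm Γ (K - w), (G : ℍ → ℂ) = P * H :=
  div_cuspForm_of_tendsto G P hc hPc fun z =>
    div_ord_le_of_simple (ModularFormClass.holo P) (CuspFormClass.holo G) z (hsimple z) (hzero z)

/-- **Division by a level-one form whose zeros are simple and lie in the `SL(2, ℤ)`-orbit of `z₀`,
for a modular form vanishing on that orbit.** -/
theorem div_modularForm_of_orbit {Γ : Subgroup SL(2, ℤ)} [Γ.FiniteIndex]
    (G : ModularForm Γ K) (P : ModularForm 𝒮ℒ w) {c : ℂ} (hc : c ≠ 0)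
    (hPc : Tendsto P atImInfty (𝓝 c)) (hsimple : ∀ z : ℍ, P z = 0 → div_ord P z ≤ 1)
    (z₀ : ℍ) (hPzeros : ∀ z : ℍ, P z = 0 → ∃ γ : SL(2, ℤ), γ • z₀ = z)
    (hG : ∀ γ : SL(2, ℤ), G (γ • z₀) = 0) :
    ∃ H : ModularForm Γ (K - w), (G : ℍ → ℂ) = P * H :=
  div_modularForm_of_simple_zeros G P hc hPc hsimple fun z hz => by
    obtain ⟨γ, rfl⟩ := hPzeros z hz
    exact hG γ

/-- Cusp form version of `div_modularForm_of_orbit`. -/
theorem div_cuspForm_of_orbit {Γ : Subgroup SL(2, ℤ)} [Γ.FiniteIndex]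
    (G : CuspForm Γ K) (P : ModularForm 𝒮ℒ w) {c : ℂ} (hc : c ≠ 0)
    (hPc : Tendsto P atImInfty (𝓝 c)) (hsimple : ∀ z : ℍ, P z = 0 → div_ord P z ≤ 1)
    (z₀ : ℍ) (hPzeros : ∀ z : ℍ, P z = 0 → ∃ γ : SL(2, ℤ), γ • z₀ = z)
    (hG : ∀ γ : SL(2, ℤ), G (γ • z₀) = 0) :
    ∃ H : CuspForm Γ (K - w), (G : ℍ → ℂ) = P * H :=
  div_cuspForm_of_simple_zeros G P hc hPc hsimple fun z hz => by
    obtain ⟨γ, rfl⟩ := hPzeros z hz
    exact hG γ

/-! ### The regular sequence check `E₆ f = E₄ g ⟹ E₄ ∣ f` -/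

/-- `E₄` and `E₆` have no common zero. -/
theorem div_E4_E6_no_common_zero (z : ℍ) (h4 : E₄ z = 0) (h6 : E₆ z = 0) : False := by
  have := discriminant_eq_E₄_cube_sub_E₆_sq z
  rw [h4, h6] at this
  exact discriminant_ne_zero z (by simpa using this)

/-- **(Div4), modular forms**: `E₆ f = E₄ g` implies `E₄ ∣ f`. -/
theorem div_E4_of_E6_mul_eq {Γ : Subgroup SL(2, ℤ)} [Γ.FiniteIndex] {k : ℤ}
    (f : ModularForm Γ k) {g : ℍ → ℂ} (hg : MDiff g) (h : (E₆ : ℍ → ℂ) * f = E₄ * g) :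
    ∃ H : ModularForm Γ (k - 4), (f : ℍ → ℂ) = E₄ * H :=
  div_modularForm_of_tendsto f E₄ one_ne_zero div_tendsto_E4 fun z =>
    div_ord_le_of_mul_eq (ModularFormClass.holo E₄) (ModularFormClass.holo E₆)
      (ModularFormClass.holo f) hg h z fun h4 h6 => div_E4_E6_no_common_zero z h4 h6

/-- **(Div4), cusp forms**: `E₆ f = E₄ g` implies `E₄ ∣ f`. -/
theorem div_E4_of_E6_mul_eq_cusp {Γ : Subgroup SL(2, ℤ)} [Γ.FiniteIndex] {k : ℤ}
    (f : CuspForm Γ k) {g : ℍ → ℂ} (hg : MDiff g) (h : (E₆ : ℍ → ℂ) * f = E₄ * g) :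
    ∃ H : CuspForm Γ (k - 4), (f : ℍ → ℂ) = E₄ * H :=
  div_cuspForm_of_tendsto f E₄ one_ne_zero div_tendsto_E4 fun z =>
    div_ord_le_of_mul_eq (ModularFormClass.holo E₄) (ModularFormClass.holo E₆)
      (CuspFormClass.holo f) hg h z fun h4 h6 => div_E4_E6_no_common_zero z h4 h6

/-- `E₄ f = E₆ g` implies `E₆ ∣ f`, modular forms. -/
theorem div_E6_of_E4_mul_eq {Γ : Subgroup SL(2, ℤ)} [Γ.FiniteIndex] {k : ℤ}
    (f : ModularForm Γ k) {g : ℍ → ℂ} (hg : MDiff g) (h : (E₄ : ℍ → ℂ) * f = E₆ * g) :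
    ∃ H : ModularForm Γ (k - 6), (f : ℍ → ℂ) = E₆ * H :=
  div_modularForm_of_tendsto f E₆ one_ne_zero div_tendsto_E6 fun z =>
    div_ord_le_of_mul_eq (ModularFormClass.holo E₆) (ModularFormClass.holo E₄)
      (ModularFormClass.holo f) hg h z fun h6 h4 => div_E4_E6_no_common_zero z h4 h6

/-- `E₄ f = E₆ g` implies `E₆ ∣ f`, cusp forms. -/
theorem div_E6_of_E4_mul_eq_cusp {Γ : Subgroup SL(2, ℤ)} [Γ.FiniteIndex] {k : ℤ}
    (f : CuspForm Γ k) {g : ℍ → ℂ} (hg : MDiff g) (h : (E₄ : ℍ → ℂ) * f = E₆ * g) :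
    ∃ H : CuspForm Γ (k - 6), (f : ℍ → ℂ) = E₆ * H :=
  div_cuspForm_of_tendsto f E₆ one_ne_zero div_tendsto_E6 fun z =>
    div_ord_le_of_mul_eq (ModularFormClass.holo E₆) (ModularFormClass.holo E₄)
      (CuspFormClass.holo f) hg h z fun h6 h4 => div_E4_E6_no_common_zero z h4 h6

/-! ### Division by `Δ` -/

/-- The discriminant as a level one modular form of weight 12. -/
noncomputable def div_DeltaMF : ModularForm 𝒮ℒ 12 :=
  ModularFormClass.modularForm CuspForm.discriminant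

@[simp] theorem div_coe_DeltaMF : (div_DeltaMF : ℍ → ℂ) = Δ := rfl

/-- **Division by `Δ`, modular forms.** -/
theorem div_discriminant_modularForm {Γ : Subgroup SL(2, ℤ)} [Γ.FiniteIndex] (G : ModularForm Γ K)
    (hbdd : ∀ γ : SL(2, ℤ), IsBoundedAtImInfty (fun z => ((G : ℍ → ℂ) ∣[K] γ) z / Δ z)) :
    ∃ H : ModularForm Γ (K - 12), (G : ℍ → ℂ) = Δ * H := by
  have hne : ∀ z : ℍ, div_DeltaMF z ≠ 0 := fun z => discriminant_ne_zero z
  refine div_modularForm G div_DeltaMF ?_ ?_ (Eventually.of_forall hne) hbdd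
  · intro h
    exact hne I (by rw [h]; rfl)
  · intro z
    rw [(div_ord_eq_zero_iff (ModularFormClass.holo div_DeltaMF) z).mpr (hne z)]; exact zero_le

/-- **Division by `Δ`, cusp forms.** -/
theorem div_discriminant_cuspForm {Γ : Subgroup SL(2, ℤ)} [Γ.FiniteIndex] (G : CuspForm Γ K)
    (hzero : ∀ γ : SL(2, ℤ), IsZeroAtImInfty (fun z => ((G : ℍ → ℂ) ∣[K] γ) z / Δ z)) :
    ∃ H : CuspForm Γ (K - 12), (G : ℍ → ℂ) = Δ * H := by
  have hne : ∀ z : ℍ, div_DeltaMF z ≠ 0 := fun z => discriminant_ne_zero z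
  refine div_cuspForm G div_DeltaMF ?_ ?_ (Eventually.of_forall hne) hzero
  · intro h
    exact hne I (by rw [h]; rfl)
  · intro z
    rw [(div_ord_eq_zero_iff (ModularFormClass.holo div_DeltaMF) z).mpr (hne z)]; exact zero_le

/-- Big-O form of the hypothesis for division by `Δ`: `F = O(q)` implies `F / Δ` bounded. -/
theorem div_bounded_of_isBigO_exp {F : ℍ → ℂ}
    (h : F =O[atImInfty] fun τ : ℍ => Real.exp (-2 * Real.pi * τ.im)) :
    IsBoundedAtImInfty (fun z => F z / Δ z) :=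
  (Asymptotics.div_isBoundedUnder_of_isBigO (h.trans exp_isBigO_discriminant)).isBigO_one ℝ

/-- little-o form of the hypothesis for division by `Δ`: `F = o(q)` implies `F / Δ → 0`. -/
theorem div_zero_of_isLittleO_exp {F : ℍ → ℂ}
    (h : F =o[atImInfty] fun τ : ℍ => Real.exp (-2 * Real.pi * τ.im)) :
    IsZeroAtImInfty (fun z => F z / Δ z) :=
  (h.trans_isBigO exp_isBigO_discriminant).tendsto_div_nhds_zero

end Fermat.Agent.Lib.RR
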