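import Mathlib
import Fermat.Agent.Lib.RR.Core
import Fermat.Agent.Lib.RR.Ramanujan
import Fermat.Agent.Lib.RR.DivLemmas

/-!
# Division lemmas in the `MF N k` / `CF N k` language (WP E of the S20 project)

All simple-zero inputs are discharged here using `Ramanujan.lean` (WP B); the only remaining
hypotheses are vanishing hypotheses on `G`.

* `div4_MF`, `div4_CF`: `E6 * f = E4 * g ⟹ f = E4 * h`, `h ∈ MF N (k - 4)` (regular sequence check);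
* `divE4_MF/CF`: `G` vanishing at all zeros of `E4` ⟹ `G = E4 * H`, `H ∈ MF N (K - 4)`;
* `divE6_MF/CF`: `G` vanishing at all zeros of `E6` ⟹ `G = E6 * H`, `H ∈ MF N (K - 6)`;
* `divJNum_MF/CF`: `E4 z₀ ≠ 0`, `E6 z₀ ≠ 0`, `G` vanishing at all zeros of `jNum z₀`
  ⟹ `G = jNum z₀ * H`, `H ∈ MF N (K - 12)`;
* `divDl_MF/CF`: `(G ∣[K] γ) z * exp (-2πiz)` bounded (resp. `→ 0`) at `i∞` for all `γ`
  ⟹ `G = Dl * H`, `H ∈ MF N (K - 12)` (resp. `CF`).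
-/

set_option autoImplicit false

open Filter Topology UpperHalfPlane ModularForm MatrixGroups Matrix.SpecialLinearGroup OnePoint
  SlashInvariantFormClass ModularFormClass EisensteinSeries CongruenceSubgroup Complex

open scoped Manifold Real

namespace Fermat.Agent.Lib.RR

open Ramanujan

variable {N : ℕ} [NeZero N] {K : ℤ}

local notation "Δ" => ModularForm.discriminant

/-! ### Regular sequence check -/

/-- **(Div4) for `MF`**: `E6 * f = E4 * g` with `f ∈ MF N k`, `g` holomorphic, implies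
`f = E4 * h` with `h ∈ MF N (k - 4)`. -/
theorem div4_MF' {k : ℤ} {f g : ℍ → ℂ} (hf : f ∈ MF N k) (hg : MDiff g)
    (h : E6 * f = E4 * g) : ∃ h' ∈ MF N (k - 4), f = E4 * h' := by
  obtain ⟨F, rfl⟩ := hf
  obtain ⟨H, hH⟩ := div_E4_of_E6_mul_eq F hg h
  exact ⟨H, ⟨H, rfl⟩, hH⟩

/-- **(Div4) for `CF`**. -/
theorem div4_CF' {k : ℤ} {f g : ℍ → ℂ} (hf : f ∈ CF N k) (hg : MDiff g)
    (h : E6 * f = E4 * g) : ∃ h' ∈ CF N (k - 4), f = E4 * h' := by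
  obtain ⟨F, rfl⟩ := hf
  obtain ⟨H, hH⟩ := div_E4_of_E6_mul_eq_cusp F hg h
  exact ⟨H, ⟨H, rfl⟩, hH⟩

/-- **(Div4) for `MF`**, in the shape of `GradedRegular.y_reg`. -/
theorem div4_MF {k : ℤ} {f g : ℍ → ℂ} (hf : f ∈ MF N k) (hg : g ∈ MF N (k + 2))
    (h : E6 * f = E4 * g) : ∃ h' ∈ MF N (k - 4), f = E4 * h' :=
  div4_MF' hf (mdifferentiable_of_mem_MF hg) h

/-- **(Div4) for `CF`**, in the shape of `GradedRegular.y_reg`. -/
theorem div4_CF {k : ℤ} {f g : ℍ → ℂ} (hf : f ∈ CF N k) (hg : g ∈ CF N (k + 2))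
    (h : E6 * f = E4 * g) : ∃ h' ∈ CF N (k - 4), f = E4 * h' :=
  div4_CF' hf (mdifferentiable_of_mem_MF (CF_le_MF N _ hg)) h

/-! ### Division by `E4`, `E6` -/

theorem div_ord_E4_le_one (z : ℍ) (hz : E₄ z = 0) : div_ord E₄ z ≤ 1 :=
  div_ord_le_one_of_deriv_ne_zero (ModularFormClass.holo E₄) z (deriv_E₄_ne_zero_of_eq_zero hz)

theorem div_ord_E6_le_one (z : ℍ) (hz : E₆ z = 0) : div_ord E₆ z ≤ 1 :=
  div_ord_le_one_of_deriv_ne_zero (ModularFormClass.holo E₆) z (deriv_E₆_ne_zero_of_eq_zero hz)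

/-- **(DivE4) for `MF`**: a form vanishing at all zeros of `E4` is divisible by `E4`. -/
theorem divE4_MF {G : ℍ → ℂ} (hG : G ∈ MF N K) (hzero : ∀ z : ℍ, E4 z = 0 → G z = 0) :
    ∃ H ∈ MF N (K - 4), G = E4 * H := by
  obtain ⟨F, rfl⟩ := hG
  obtain ⟨H, hH⟩ := div_modularForm_of_simple_zeros F E₄ one_ne_zero div_tendsto_E4
    div_ord_E4_le_one hzero
  exact ⟨H, ⟨H, rfl⟩, hH⟩

/-- **(DivE4) for `CF`**. -/
theorem divE4_CF {G : ℍ → ℂ} (hG : G ∈ CF N K) (hzero : ∀ z : ℍ, E4 z = 0 → G z = 0) :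
    ∃ H ∈ CF N (K - 4), G = E4 * H := by
  obtain ⟨F, rfl⟩ := hG
  obtain ⟨H, hH⟩ := div_cuspForm_of_simple_zeros F E₄ one_ne_zero div_tendsto_E4
    div_ord_E4_le_one hzero
  exact ⟨H, ⟨H, rfl⟩, hH⟩

/-- **(DivE6) for `MF`**: a form vanishing at all zeros of `E6` is divisible by `E6`. -/
theorem divE6_MF {G : ℍ → ℂ} (hG : G ∈ MF N K) (hzero : ∀ z : ℍ, E6 z = 0 → G z = 0) :
    ∃ H ∈ MF N (K - 6), G = E6 * H := by
  obtain ⟨F, rfl⟩ := hG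
  obtain ⟨H, hH⟩ := div_modularForm_of_simple_zeros F E₆ one_ne_zero div_tendsto_E6
    div_ord_E6_le_one hzero
  exact ⟨H, ⟨H, rfl⟩, hH⟩

/-- **(DivE6) for `CF`**. -/
theorem divE6_CF {G : ℍ → ℂ} (hG : G ∈ CF N K) (hzero : ∀ z : ℍ, E6 z = 0 → G z = 0) :
    ∃ H ∈ CF N (K - 6), G = E6 * H := by
  obtain ⟨F, rfl⟩ := hG
  obtain ⟨H, hH⟩ := div_cuspForm_of_simple_zeros F E₆ one_ne_zero div_tendsto_E6
    div_ord_E6_le_one hzero
  exact ⟨H, ⟨H, rfl⟩, hH⟩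

/-! ### Division by `jNum z₀ = Δ z₀ * E4 ^ 3 - E4 z₀ ^ 3 * Δ` -/

/-- At a zero `z` of `jNum z₀`, `E₄ z = 0` iff `E₄ z₀ = 0`. -/
theorem div_E4_ne_zero_of_jNum_eq_zero {z₀ z : ℍ} (h : jNum z₀ z = 0) (h4 : E₄ z₀ ≠ 0) :
    E₄ z ≠ 0 := by
  intro hz
  rw [jNum_apply, hz] at h
  have : E₄ z₀ ^ 3 * Δ z = 0 := by linear_combination -h
  rcases mul_eq_zero.mp this with h1 | h1
  · exact h4 (pow_eq_zero_iff (by norm_num) |>.mp h1)
  · exact discriminant_ne_zero z h1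

/-- At a zero `z` of `jNum z₀`, `E₆ z = 0` implies `E₆ z₀ = 0`. -/
theorem div_E6_ne_zero_of_jNum_eq_zero {z₀ z : ℍ} (h : jNum z₀ z = 0) (h6 : E₆ z₀ ≠ 0) :
    E₆ z ≠ 0 := by
  intro hz
  rw [jNum_apply] at h
  have e1 := discriminant_eq_E₄_cube_sub_E₆_sq z
  have e0 := discriminant_eq_E₄_cube_sub_E₆_sq z₀
  rw [hz] at e1
  have : Δ z * E₆ z₀ ^ 2 = 0 := by
    have e1' : E₄ z ^ 3 = 1728 * Δ z := by rw [e1]; ring
    have e0' : E₄ z₀ ^ 3 = 1728 * Δ z₀ + E₆ z₀ ^ 2 := by rw [e0]; ring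
    rw [e1', e0'] at h
    linear_combination -h
  rcases mul_eq_zero.mp this with h1 | h1
  · exact discriminant_ne_zero z h1
  · exact h6 (pow_eq_zero_iff (by norm_num) |>.mp h1)

theorem div_ord_jNum_le_one {z₀ : ℍ} (h4 : E₄ z₀ ≠ 0) (h6 : E₆ z₀ ≠ 0) (z : ℍ)
    (hz : jNumMF z₀ z = 0) : div_ord (jNumMF z₀) z ≤ 1 := by
  have hz' : jNum z₀ z = 0 := by rw [← coe_jNumMF]; exact hz
  have := div_ord_le_one_of_deriv_ne_zero (mdifferentiable_jNum z₀) z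
    (deriv_jNum_ne_zero hz' (div_E4_ne_zero_of_jNum_eq_zero hz' h4)
      (div_E6_ne_zero_of_jNum_eq_zero hz' h6))
  rwa [← coe_jNumMF] at this

theorem div_tendsto_jNumMF (z₀ : ℍ) : Tendsto (jNumMF z₀) atImInfty (𝓝 (Δ z₀)) := by
  have := tendsto_valueAtInfty_of_modularForm (jNumMF z₀)
  rwa [coe_jNumMF, valueAtInfty_jNum] at this

/-- **(DivP) for `MF`**: if `E4 z₀ ≠ 0`, `E6 z₀ ≠ 0`, a form vanishing at all zeros of `jNum z₀`
is divisible by `jNum z₀`. -/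
theorem divJNum_MF {G : ℍ → ℂ} (hG : G ∈ MF N K) {z₀ : ℍ} (h4 : E4 z₀ ≠ 0) (h6 : E6 z₀ ≠ 0)
    (hzero : ∀ z : ℍ, jNum z₀ z = 0 → G z = 0) :
    ∃ H ∈ MF N (K - 12), G = jNum z₀ * H := by
  obtain ⟨F, rfl⟩ := hG
  obtain ⟨H, hH⟩ := div_modularForm_of_simple_zeros F (jNumMF z₀) (discriminant_ne_zero z₀)
    (div_tendsto_jNumMF z₀) (div_ord_jNum_le_one h4 h6)
    (fun z hz => hzero z (by rw [← coe_jNumMF]; exact hz))
  exact ⟨H, ⟨H, rfl⟩, by rw [← coe_jNumMF]; exact hH⟩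

/-- **(DivP) for `CF`**. -/
theorem divJNum_CF {G : ℍ → ℂ} (hG : G ∈ CF N K) {z₀ : ℍ} (h4 : E4 z₀ ≠ 0) (h6 : E6 z₀ ≠ 0)
    (hzero : ∀ z : ℍ, jNum z₀ z = 0 → G z = 0) :
    ∃ H ∈ CF N (K - 12), G = jNum z₀ * H := by
  obtain ⟨F, rfl⟩ := hG
  obtain ⟨H, hH⟩ := div_cuspForm_of_simple_zeros F (jNumMF z₀) (discriminant_ne_zero z₀)
    (div_tendsto_jNumMF z₀) (div_ord_jNum_le_one h4 h6)
    (fun z hz => hzero z (by rw [← coe_jNumMF]; exact hz))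
  exact ⟨H, ⟨H, rfl⟩, by rw [← coe_jNumMF]; exact hH⟩

/-! ### Division by `Δ` -/

/-- `F / Δ = F * exp (-2πiz) * (∏ (1 - qⁿ)^24)⁻¹`. -/
theorem div_div_discriminant_eq (F : ℍ → ℂ) (z : ℍ) :
    F z / Δ z = F z * cexp (-2 * π * Complex.I * z) * (∏' n, (1 - eta_q n z) ^ 24)⁻¹ := by
  rw [discriminant_eq_q_prod, div_eq_mul_inv, mul_inv, ← mul_assoc]
  congr 2
  rw [Function.Periodic.qParam, ← Complex.exp_neg]
  congr 1
  simp only [ofReal_one, div_one]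
  ring

theorem div_bounded_of_mul_cexp {F : ℍ → ℂ}
    (h : BoundedAtFilter atImInfty (fun z : ℍ => F z * cexp (-2 * π * Complex.I * z))) :
    IsBoundedAtImInfty (fun z => F z / Δ z) := by
  have h1 : BoundedAtFilter atImInfty (fun z : ℍ => (∏' n, (1 - eta_q n z) ^ 24)⁻¹) :=
    (tendsto_atImInfty_tprod_one_sub_eta_q_pow.inv₀ one_ne_zero).isBigO_one ℝ
  have := h.mul h1
  refine this.congr' (Eventually.of_forall fun z => ?_) (EventuallyEq.refl _ _)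
  simp only [Pi.mul_apply]
  rw [div_div_discriminant_eq]

theorem div_zero_of_mul_cexp {F : ℍ → ℂ}
    (h : ZeroAtFilter atImInfty (fun z : ℍ => F z * cexp (-2 * π * Complex.I * z))) :
    IsZeroAtImInfty (fun z => F z / Δ z) := by
  have h1 : BoundedAtFilter atImInfty (fun z : ℍ => (∏' n, (1 - eta_q n z) ^ 24)⁻¹) :=
    (tendsto_atImInfty_tprod_one_sub_eta_q_pow.inv₀ one_ne_zero).isBigO_one ℝ
  have := h.mul_boundedAtFilter h1
  refine Tendsto.congr (fun z => ?_) this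
  simp only [Pi.mul_apply]
  rw [div_div_discriminant_eq]

/-- **(DivΔ) for `MF`**: if `(G ∣[K] γ) z * exp (-2πiz)` is bounded at `i∞` for all `γ ∈ SL(2, ℤ)`,
then `G = Δ * H` with `H ∈ MF N (K - 12)`. -/
theorem divDl_MF {G : ℍ → ℂ} (hG : G ∈ MF N K)
    (hbdd : ∀ γ : SL(2, ℤ),
      BoundedAtFilter atImInfty (fun z : ℍ => (G ∣[K] γ) z * cexp (-2 * π * Complex.I * z))) :
    ∃ H ∈ MF N (K - 12), G = Dl * H := by
  obtain ⟨F, rfl⟩ := hG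
  obtain ⟨H, hH⟩ := div_discriminant_modularForm F fun γ => div_bounded_of_mul_cexp (hbdd γ)
  exact ⟨H, ⟨H, rfl⟩, hH⟩

/-- **(DivΔ) for `CF`**: if `(G ∣[K] γ) z * exp (-2πiz) → 0` at `i∞` for all `γ ∈ SL(2, ℤ)`,
then `G = Δ * H` with `H ∈ CF N (K - 12)`. (`G` is only assumed to be in `MF N K`.) -/
theorem divDl_CF {G : ℍ → ℂ} (hG : G ∈ MF N K)
    (hzero : ∀ γ : SL(2, ℤ),
      ZeroAtFilter atImInfty (fun z : ℍ => (G ∣[K] γ) z * cexp (-2 * π * Complex.I * z))) :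
    ∃ H ∈ CF N (K - 12), G = Dl * H := by
  obtain ⟨H, hH, hGH⟩ := divDl_MF hG fun γ => (hzero γ).boundedAtFilter
  refine ⟨H, ?_, hGH⟩
  rw [mem_CF_iff_of_mem_MF hH]
  intro γ
  have h1 : (H ∣[K - 12] γ) = fun z => (G ∣[K] γ) z / Δ z := by
    funext z
    have h12 : (Dl : ℍ → ℂ) ∣[(12 : ℤ)] γ = Dl := slash_eq_of_mem_MF1 Dl_mem_MF1 γ
    rw [hGH, div_slash_mul (w := 12), h12, Pi.mul_apply]
    exact (mul_div_cancel_left₀ _ (Dl_ne_zero z)).symm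
  rw [h1]
  exact div_zero_of_mul_cexp (hzero γ)

end Fermat.Agent.Lib.RR
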