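import Mathlib
import Fermat.Agent.Lib.RR.GradedFree
import Fermat.Agent.Lib.RR.DivMF

/-!
# `(E4, E6)` is a regular sequence on `⊕ MF N k` and on `⊕ CF N k`

The concrete input for the graded-free criterion `GradedRegular.exists_graded_basis`.
-/

set_option autoImplicit false

open UpperHalfPlane

namespace Fermat.Agent.Lib.RR

variable (N : ℕ) [NeZero N]

/-- `(E4, E6)` is a regular sequence on the graded module of modular forms for `Γ₀(N)`. -/
theorem div_gradedRegular_MF : GradedRegular (k := ℂ) E4 E6 (MF N) where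
  neg := fun _ hw => MF_eq_bot_of_neg hw
  fin := fun w => finiteDimensional_MF N w
  mul_x := fun w _ hf => mem_MF_of_eq (add_comm 4 w) (mul_mem_MF (E4_mem_MF N) hf)
  mul_y := fun w _ hf => mem_MF_of_eq (add_comm 6 w) (mul_mem_MF (E6_mem_MF N) hf)
  x_reg := fun _ _ hf h =>
    eq_zero_of_mul_eq_zero mdifferentiable_E4 (mdifferentiable_of_mem_MF hf) E4_ne_zero h
  y_reg := fun _ _ _ hf hg h => div4_MF hf hg h

/-- `(E4, E6)` is a regular sequence on the graded module of cusp forms for `Γ₀(N)`. -/
theorem div_gradedRegular_CF : GradedRegular (k := ℂ) E4 E6 (CF N) where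
  neg := fun w hw => by
    rw [eq_bot_iff]
    exact (CF_le_MF N w).trans (le_of_eq (MF_eq_bot_of_neg hw))
  fin := fun w => finiteDimensional_CF N w
  mul_x := fun w f hf => by
    rw [mul_comm]
    exact mul_mem_CF hf (E4_mem_MF N)
  mul_y := fun w f hf => by
    rw [mul_comm]
    exact mul_mem_CF hf (E6_mem_MF N)
  x_reg := fun w _ hf h =>
    eq_zero_of_mul_eq_zero mdifferentiable_E4
      (mdifferentiable_of_mem_MF (CF_le_MF N w hf)) E4_ne_zero h
  y_reg := fun _ _ _ hf hg h => div4_CF hf hg h

end Fermat.Agent.Lib.RR
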