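import Fermat.Agent.Lib.RR.Free
import Fermat.Agent.Lib.RR.DivRegular

/-!
# Freeness of `⨁ MF N k` and `⨁ CF N k` over `ℂ[E4,E6]`, unconditional (S20, WP D output)
-/

namespace Fermat.Agent.Lib.RR

open UpperHalfPlane CongruenceSubgroup
open scoped MatrixGroups

/-- `⨁_k M_k(Γ0(N))` is free over `ℂ[E4,E6]` on a finite homogeneous basis with at most
`[SL2(ℤ):Γ0(N)]` elements, of nonnegative weights. -/
theorem exists_isHomBasis_MF (N : ℕ) [NeZero N] :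
    ∃ (ι : Type) (_ : Fintype ι) (κ : ι → ℤ) (β : ι → ℍ → ℂ),
      IsHomBasis (k := ℂ) E4 E6 (MF N) κ β ∧ (∀ i, 0 ≤ κ i) ∧
      Fintype.card ι ≤ (Gamma0 N).index :=
  exists_isHomBasis N (div_gradedRegular_MF N) fun _ => le_rfl

/-- `⨁_k S_k(Γ0(N))` is free over `ℂ[E4,E6]` on a finite homogeneous basis with at most
`[SL2(ℤ):Γ0(N)]` elements, of nonnegative weights. -/
theorem exists_isHomBasis_CF (N : ℕ) [NeZero N] :
    ∃ (ι : Type) (_ : Fintype ι) (κ : ι → ℤ) (β : ι → ℍ → ℂ),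
      IsHomBasis (k := ℂ) E4 E6 (CF N) κ β ∧ (∀ i, 0 ≤ κ i) ∧
      Fintype.card ι ≤ (Gamma0 N).index :=
  exists_isHomBasis N (div_gradedRegular_CF N) fun w => CF_le_MF N w

/-- `dim M w = #{i | κ i = w}` for `w < 4` (in particular `dim S_2(Γ0(N)) = #{κ' = 2}`). -/
theorem finrank_eq_card_of_lt_four {M : ℤ → Submodule ℂ (ℍ → ℂ)} {ι : Type} [Fintype ι]
    {κ : ι → ℤ} {β : ι → ℍ → ℂ} (h : IsHomBasis (k := ℂ) E4 E6 M κ β) (hκ : ∀ i, 0 ≤ κ i)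
    {w : ℤ} (hw : w < 4) : Module.finrank ℂ (M w) = Fintype.card {i : ι // κ i = w} :=
  h.finrank_eq_card hκ hw

end Fermat.Agent.Lib.RR
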