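import Fermat.Agent.Lib.RR.Core
import Fermat.Agent.Lib.RR.GradedFree
import Fermat.Agent.Lib.RR.Ramanujan

/-!
# Freeness of `⨁ MF N k` and `⨁ CF N k` over `ℂ[E4, E6]` (S20, WP D, concrete part)

* `wtSpan_eq_MF1`: the weight-`w` monomial span of `E4, E6` is the space of level-one forms.
* `gradedRegular_MF`, `gradedRegular_CF`: the hypotheses of the graded-free criterion, modulo
  the regular-sequence check (division by `E4`), which is taken as a hypothesis.
-/

namespace Fermat.Agent.Lib.RR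

open UpperHalfPlane hiding I
open Filter Topology ModularForm EisensteinSeries CongruenceSubgroup
open scoped Manifold MatrixGroups ModularForm

theorem free_tendsto_of_mem_MF1 {k : ℤ} {f : ℍ → ℂ} (hf : f ∈ MF1 k) :
    Tendsto f atImInfty (𝓝 (valueAtInfty f)) := by
  obtain ⟨F, rfl⟩ := hf
  exact Ramanujan.tendsto_valueAtInfty_of_modularForm F

theorem tendsto_E4 : Tendsto E4 atImInfty (𝓝 1) := by
  have h := Ramanujan.tendsto_valueAtInfty_of_modularForm ModularForm.E₄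
  have h1 : valueAtInfty (ModularForm.E₄ : ℍ → ℂ) = 1 :=
    Ramanujan.valueAtInfty_E (by norm_num) ⟨2, rfl⟩
  rw [h1] at h
  exact h

theorem tendsto_E6 : Tendsto E6 atImInfty (𝓝 1) := by
  have h := Ramanujan.tendsto_valueAtInfty_of_modularForm ModularForm.E₆
  have h1 : valueAtInfty (ModularForm.E₆ : ℍ → ℂ) = 1 :=
    Ramanujan.valueAtInfty_E (by norm_num) ⟨3, rfl⟩
  rw [h1] at h
  exact h

theorem mem_CF1_of_tendsto_zero {k : ℤ} {f : ℍ → ℂ} (hf : f ∈ MF1 k)
    (h : Tendsto f atImInfty (𝓝 0)) : f ∈ CF1 k := by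
  obtain ⟨F, rfl⟩ := hf
  have hv : valueAtInfty (F : ℍ → ℂ) = 0 :=
    tendsto_nhds_unique (Ramanujan.tendsto_valueAtInfty_of_modularForm F) h
  have hc : (UpperHalfPlane.qExpansion 1 F).coeff 0 = 0 := by
    rw [UpperHalfPlane.qExpansion_coeff_zero one_pos
      (ModularFormClass.analyticAt_cuspFunction_zero F one_pos
        one_mem_strictPeriods_SL)
      (SlashInvariantFormClass.periodic_comp_ofComplex F one_mem_strictPeriods_SL)]
    exact hv
  exact ⟨ModularForm.toCuspForm F hc, rfl⟩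

theorem exists_mul_Dl_of_mem_CF1 {k : ℤ} {f : ℍ → ℂ} (hf : f ∈ CF1 k) :
    ∃ h ∈ MF1 (k - 12), f = Dl * h := by
  obtain ⟨F, rfl⟩ := hf
  refine ⟨CuspForm.discriminantEquiv F, ⟨CuspForm.discriminantEquiv F, rfl⟩, ?_⟩
  exact (ModularForm.discriminant_mul_discriminantEquiv F).symm

theorem wtSpan_le_MF1 (w : ℤ) : wtSpan ℂ E4 E6 w ≤ MF1 w := by
  unfold wtSpan
  rw [Submodule.span_le]
  rintro _ ⟨a, c, h, rfl⟩
  have h1 := pow_mem_MF1 E4_mem_MF1 a
  have h2 := pow_mem_MF1 E6_mem_MF1 c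
  have h3 := mul_mem_MF1 h1 h2
  have e : (a : ℤ) * 4 + (c : ℤ) * 6 = w := by linarith
  exact e ▸ h3

theorem Dl_mul_mem_wtSpan {w : ℤ} {h : ℍ → ℂ} (hh : h ∈ wtSpan ℂ E4 E6 (w - 12)) :
    Dl * h ∈ wtSpan ℂ E4 E6 w := by
  have e : Dl * h = (1 / 1728 : ℂ) • (E4 * (E4 * (E4 * h)) - E6 * (E6 * h)) := by
    funext z
    simp only [Pi.mul_apply, Pi.smul_apply, Pi.sub_apply, smul_eq_mul, Dl_apply]
    ring
  rw [e]
  refine Submodule.smul_mem _ _ (Submodule.sub_mem _ ?_ ?_)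
  · have := x_mul_mem_wtSpan (x_mul_mem_wtSpan (x_mul_mem_wtSpan hh))
    convert this using 2; ring
  · have := y_mul_mem_wtSpan (y_mul_mem_wtSpan hh)
    convert this using 2; ring

theorem MF1_le_wtSpan_aux : ∀ (m : ℕ) (w : ℤ), w < m → MF1 w ≤ wtSpan ℂ E4 E6 w := by
  intro m
  induction m with
  | zero =>
    intro w hw f hf
    have hw' : w < 0 := by exact_mod_cast hw
    obtain ⟨F, rfl⟩ := mem_MF1_iff.mp hf
    rw [ModularFormClass.levelOne_neg_weight_eq_zero hw' F]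
    exact Submodule.zero_mem _
  | succ m ih =>
    intro w hw f hf
    by_cases hneg : w < 0
    · obtain ⟨F, rfl⟩ := mem_MF1_iff.mp hf
      rw [ModularFormClass.levelOne_neg_weight_eq_zero hneg F]
      exact Submodule.zero_mem _
    push Not at hneg
    rcases Int.even_or_odd w with hev | hodd
    swap
    · obtain ⟨F, rfl⟩ := mem_MF1_iff.mp hf
      rw [ModularForm.levelOne_odd_weight_eq_zero hodd F]
      exact Submodule.zero_mem _
    by_cases h0 : w = 0
    · subst h0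
      obtain ⟨F, rfl⟩ := mem_MF1_iff.mp hf
      obtain ⟨c, hc⟩ := ModularFormClass.levelOne_weight_zero_const F
      have : (F : ℍ → ℂ) = c • (1 : ℍ → ℂ) := by
        rw [hc]; funext z; simp
      rw [this]
      exact Submodule.smul_mem _ _ (one_mem_wtSpan_zero E4 E6)
    by_cases h2 : w = 2
    · subst h2
      obtain ⟨F, rfl⟩ := mem_MF1_iff.mp hf
      have hz : F = 0 := by
        have := ModularForm.levelOne_weight_two_rank_zero
        exact rank_zero_iff_forall_zero.mp this F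
      rw [hz]
      simp
    have h4 : 4 ≤ w := by
      obtain ⟨r, hr⟩ := hev
      omega
    -- a monomial of weight `w`
    obtain ⟨a, c, hac⟩ : ∃ a c : ℕ, 4 * (a : ℤ) + 6 * (c : ℤ) = w := by
      obtain ⟨r, hr⟩ := hev
      rcases Int.even_or_odd r with ⟨t, ht⟩ | ⟨t, ht⟩
      · exact ⟨t.toNat, 0, by push_cast; omega⟩
      · exact ⟨(t - 1).toNat, 1, by push_cast; omega⟩
    set g : ℍ → ℂ := E4 ^ a * E6 ^ c with hg
    have hgspan : g ∈ wtSpan ℂ E4 E6 w := monomial_mem_wtSpan E4 E6 a c hac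
    have hgMF : g ∈ MF1 w := wtSpan_le_MF1 w hgspan
    have hgt : Tendsto g atImInfty (𝓝 1) := by
      have := (tendsto_E4.pow a).mul (tendsto_E6.pow c)
      simp only [one_pow, mul_one] at this
      exact this
    set c0 : ℂ := valueAtInfty f with hc0
    have hft : Tendsto f atImInfty (𝓝 c0) := free_tendsto_of_mem_MF1 hf
    have hdiff : f - c0 • g ∈ MF1 w := Submodule.sub_mem _ hf (Submodule.smul_mem _ _ hgMF)
    have hdt : Tendsto (f - c0 • g) atImInfty (𝓝 0) := by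
      have := hft.sub (hgt.const_smul c0)
      simp only [smul_eq_mul, mul_one, sub_self] at this
      exact this
    obtain ⟨h, hh, hfh⟩ := exists_mul_Dl_of_mem_CF1 (mem_CF1_of_tendsto_zero hdiff hdt)
    have hhspan : h ∈ wtSpan ℂ E4 E6 (w - 12) :=
      ih (w - 12) (by push_cast at hw ⊢; omega) hh
    have : f = c0 • g + Dl * h := by rw [← hfh]; abel
    rw [this]
    exact Submodule.add_mem _ (Submodule.smul_mem _ _ hgspan) (Dl_mul_mem_wtSpan hhspan)

/-- Level-one forms of weight `w` are exactly the weight-`w` polynomials in `E4`, `E6`. -/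
theorem wtSpan_eq_MF1 (w : ℤ) : wtSpan ℂ E4 E6 w = MF1 w :=
  le_antisymm (wtSpan_le_MF1 w) (MF1_le_wtSpan_aux (w.toNat + 1) w (by push_cast; omega))

/-! ### The graded-regularity hypotheses for `MF N` and `CF N` -/

/-- The regular-sequence hypothesis (WP E2): division by `E4` of `f` when `E6 f = E4 g`. -/
def DivE4 (M : ℤ → Submodule ℂ (ℍ → ℂ)) : Prop :=
  ∀ (w : ℤ) (f g : ℍ → ℂ), f ∈ M w → g ∈ M (w + 2) → E6 * f = E4 * g →
    ∃ h ∈ M (w - 4), f = E4 * h

theorem gradedRegular_MF (N : ℕ) [NeZero N] (hdiv : DivE4 (MF N)) :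
    GradedRegular E4 E6 (MF N) where
  neg w hw := MF_eq_bot_of_neg hw
  fin w := finiteDimensional_MF N w
  mul_x w f hf := mem_MF_of_eq (by ring) (mul_mem_MF (E4_mem_MF N) hf)
  mul_y w f hf := mem_MF_of_eq (by ring) (mul_mem_MF (E6_mem_MF N) hf)
  x_reg w f hf h :=
    eq_zero_of_mul_eq_zero mdifferentiable_E4 (mdifferentiable_of_mem_MF hf) E4_ne_zero h
  y_reg := hdiv

theorem gradedRegular_CF (N : ℕ) [NeZero N] (hdiv : DivE4 (CF N)) :
    GradedRegular E4 E6 (CF N) where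
  neg w hw := by
    refine eq_bot_iff.mpr fun f hf => ?_
    have := CF_le_MF N w hf
    rw [MF_eq_bot_of_neg hw] at this
    exact this
  fin w := finiteDimensional_CF N w
  mul_x w f hf := by
    rw [mul_comm]; exact mul_mem_CF hf (E4_mem_MF N)
  mul_y w f hf := by
    rw [mul_comm]; exact mul_mem_CF hf (E6_mem_MF N)
  x_reg w f hf h :=
    eq_zero_of_mul_eq_zero mdifferentiable_E4 (mdifferentiable_of_mem_MF (CF_le_MF N w hf))
      E4_ne_zero h
  y_reg := hdiv

/-! ### Dimension growth: an `R`-independent homogeneous family has at most `index` elements -/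

theorem finrank_MF_le (N : ℕ) [NeZero N] (w : ℤ) :
    Module.finrank ℂ (MF N w) ≤ (w * (Gamma0 N).index).toNat / 12 + 1 := by
  rw [← (equivMF N w).finrank_eq]
  let B := (w * (Gamma0 N).index).toNat / 12
  let T : ModularForm (Gamma0 N) w →ₗ[ℂ] (Fin (B + 1) → ℂ) :=
    LinearMap.pi fun i => qCoeffMF N w i
  have hT : Function.Injective T := (injective_iff_map_eq_zero _).mpr fun F hF => by
    refine ModularForm.sturm_bound_Gamma0 N F fun n hn => ?_
    have := congrFun hF ⟨n, Nat.lt_succ_of_le hn⟩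
    simpa [T, qCoeffMF] using this
  have := LinearMap.finrank_le_finrank_of_injective hT
  simpa using this

theorem le_finrank_MF1 (j : ℕ) (hj : Even j) : j / 12 ≤ Module.finrank ℂ (MF1 (j : ℤ)) := by
  have e : ModularForm 𝒮ℒ (j : ℤ) ≃ₗ[ℂ] MF1 (j : ℤ) :=
    LinearEquiv.ofInjective (mfCoe 𝒮ℒ j) (mfCoe_injective _ j)
  rw [← e.finrank_eq]
  have := ModularForm.dimension_level_one j hj
  unfold Module.finrank
  rw [this]
  split_ifs <;> simp

theorem finiteDimensional_MF1 (k : ℤ) : FiniteDimensional ℂ (MF1 k) :=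
  LinearMap.finiteDimensional_range _

theorem card_le_index_of_indep (N : ℕ) [NeZero N] {ι : Type*} [Fintype ι] (κ : ι → ℤ)
    (β : ι → ℍ → ℂ) (hmem : ∀ i, β i ∈ MF N (κ i))
    (hindep : ∀ w (r : ι → ℍ → ℂ), (∀ i, r i ∈ MF1 (w - κ i)) → ∑ i, r i * β i = 0 →
      ∀ i, r i = 0) :
    Fintype.card ι ≤ (Gamma0 N).index := by
  classical
  have hne : ∀ i, β i ≠ 0 := by
    intro i h0
    have := hindep (κ i) (fun j => if j = i then 1 else 0) (by
      intro j
      split_ifs with hj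
      · subst hj; rw [sub_self]; exact one_mem_MF1
      · exact Submodule.zero_mem _) (by
      rw [Finset.sum_eq_single i]
      · simp [h0]
      · intro j _ hj; simp [hj]
      · intro h; exact absurd (Finset.mem_univ i) h) i
    simp only [if_true] at this
    exact one_ne_zero (congrFun this UpperHalfPlane.I)
  have hnonneg : ∀ i, 0 ≤ κ i := by
    intro i
    by_contra h
    exact hne i (eq_zero_of_mem_MF_of_neg (by omega) (hmem i))
  have heven : ∀ i, Even (κ i) := by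
    intro i
    by_contra h
    exact hne i (eq_zero_of_mem_MF_of_odd (Int.not_even_iff_odd.mp h) (hmem i))
  obtain ⟨U, hU⟩ : ∃ U : ℕ, ∀ i, κ i ≤ U := by
    refine ⟨(Finset.univ.sup fun i => (κ i).toNat), fun i => ?_⟩
    have := Finset.le_sup (f := fun i => (κ i).toNat) (Finset.mem_univ i)
    have h0 := hnonneg i
    omega
  set μ := (Gamma0 N).index with hμ
  by_contra hlt
  push Not at hlt
  set m : ℕ := U * μ + 2 with hm
  set w : ℕ := 12 * (m + U) with hw
  let Φ0 : (∀ i, ↥(MF1 ((w : ℤ) - κ i))) →ₗ[ℂ] (ℍ → ℂ) :=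
    ∑ i, (LinearMap.mulRight ℂ (β i)) ∘ₗ (MF1 ((w : ℤ) - κ i)).subtype ∘ₗ LinearMap.proj i
  have hΦ0 : ∀ r, Φ0 r = ∑ i, (r i : ℍ → ℂ) * β i := by
    intro r
    simp [Φ0, LinearMap.sum_apply]
  have hΦmem : ∀ r, Φ0 r ∈ MF N w := by
    intro r
    rw [hΦ0]
    refine Submodule.sum_mem _ fun i _ => ?_
    exact mem_MF_of_eq (by ring) (mul_mem_MF (MF1_le_MF N _ (r i).2) (hmem i))
  let Φ : (∀ i, ↥(MF1 ((w : ℤ) - κ i))) →ₗ[ℂ] ↥(MF N w) := LinearMap.codRestrict _ Φ0 hΦmem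
  have hΦinj : Function.Injective Φ := by
    rw [← LinearMap.ker_eq_bot, LinearMap.ker_eq_bot']
    intro r hr
    have h0 : Φ0 r = 0 := congrArg Subtype.val hr
    rw [hΦ0] at h0
    have := hindep w (fun i => (r i : ℍ → ℂ)) (fun i => (r i).2) h0
    funext i
    exact Subtype.ext (this i)
  have hfd := finiteDimensional_MF N (w : ℤ)
  have hfd1 : ∀ i, Module.Finite ℂ ↥(MF1 ((w : ℤ) - κ i)) := fun i => finiteDimensional_MF1 _
  have h1 := LinearMap.finrank_le_finrank_of_injective hΦinj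
  rw [Module.finrank_pi_fintype] at h1
  have h2 : ∀ i, m ≤ Module.finrank ℂ (MF1 ((w : ℤ) - κ i)) := by
    intro i
    have hUi := hU i
    have h0i := hnonneg i
    obtain ⟨j, hj⟩ : ∃ j : ℕ, (w : ℤ) - κ i = j :=
      ⟨((w : ℤ) - κ i).toNat, by rw [hw]; push_cast; omega⟩
    rw [hj]
    have hjeven : Even j := by
      have h1 : Even ((w : ℤ) - κ i) := by
        refine Even.sub ?_ (heven i)
        rw [hw]; exact ⟨6 * (m + U), by push_cast; ring⟩
      rw [hj] at h1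
      exact (Int.even_coe_nat j).mp h1
    have hjm : m ≤ j / 12 := by
      have : (j : ℤ) = 12 * ((m : ℤ) + U) - κ i := by rw [← hj, hw]; push_cast; ring
      omega
    exact hjm.trans (le_finrank_MF1 j hjeven)
  have h3 : Fintype.card ι * m ≤ ∑ i, Module.finrank ℂ (MF1 ((w : ℤ) - κ i)) := by
    have := Finset.sum_le_sum (fun i (_ : i ∈ Finset.univ) => h2 i)
    simpa using this
  have h4 := finrank_MF_le N (w : ℤ)
  have h5 : ((w : ℤ) * ((Gamma0 N).index : ℤ)).toNat / 12 = (m + U) * μ := by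
    have e : ((w : ℤ) * ((Gamma0 N).index : ℤ)) = ((12 * ((m + U) * μ) : ℕ) : ℤ) := by
      rw [hw, ← hμ]; push_cast; ring
    rw [e, Int.toNat_natCast]
    omega
  rw [h5] at h4
  have h6 : (μ + 1) * m ≤ Fintype.card ι * m := Nat.mul_le_mul_right m hlt
  have h7 : (μ + 1) * m ≤ (m + U) * μ + 1 := h6.trans (h3.trans (h1.trans h4))
  have h8 : (μ + 1) * m = m * μ + m := by ring
  have h9 : (m + U) * μ = m * μ + U * μ := by ring
  rw [h8, h9] at h7
  omega

/-! ### Consumer-facing form of freeness -/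

/-- `β` (homogeneous of weights `κ`) is a basis of the graded module `M` over the graded ring
of level-one modular forms `⨁ MF1 w = ℂ[E4, E6]`. -/
structure IsFreeBasis (M : ℤ → Submodule ℂ (ℍ → ℂ)) {ι : Type*} [Fintype ι] (κ : ι → ℤ)
    (β : ι → ℍ → ℂ) : Prop where
  mem : ∀ i, β i ∈ M (κ i)
  gen : ∀ w f, f ∈ M w → ∃ r : ι → ℍ → ℂ, (∀ i, r i ∈ MF1 (w - κ i)) ∧ f = ∑ i, r i * β i
  indep : ∀ w (r : ι → ℍ → ℂ), (∀ i, r i ∈ MF1 (w - κ i)) → ∑ i, r i * β i = 0 → ∀ i, r i = 0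

theorem isFreeBasis_of_isHomBasis {M : ℤ → Submodule ℂ (ℍ → ℂ)} {ι : Type*} [Fintype ι]
    {κ : ι → ℤ} {β : ι → ℍ → ℂ} (h : IsHomBasis E4 E6 M κ β) : IsFreeBasis M κ β where
  mem := h.mem
  gen w f hf := by
    obtain ⟨r, hr, hf⟩ := h.gen w f hf
    exact ⟨r, fun i => wtSpan_eq_MF1 (w - κ i) ▸ hr i, hf⟩
  indep w r hr h0 := h.indep w r (fun i => (wtSpan_eq_MF1 (w - κ i)).symm ▸ hr i) h0

theorem IsFreeBasis.unique {M : ℤ → Submodule ℂ (ℍ → ℂ)} {ι : Type*} [Fintype ι]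
    {κ : ι → ℤ} {β : ι → ℍ → ℂ} (h : IsFreeBasis M κ β) {w : ℤ} {r r' : ι → ℍ → ℂ}
    (hr : ∀ i, r i ∈ MF1 (w - κ i)) (hr' : ∀ i, r' i ∈ MF1 (w - κ i))
    (heq : ∑ i, r i * β i = ∑ i, r' i * β i) : r = r' := by
  funext i
  have := h.indep w (fun i => r i - r' i) (fun i => Submodule.sub_mem _ (hr i) (hr' i)) (by
    simp only [sub_mul, Finset.sum_sub_distrib, heq, sub_self]) i
  exact sub_eq_zero.mp this

/-- **Freeness** (S20, WP D), `IsHomBasis` form: a graded-regular family of subspaces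
`M w ≤ MF N w` (e.g. `MF N` or `CF N`) is free over `ℂ[E4,E6]` on a finite homogeneous basis,
with at most `[SL2(ℤ) : Γ0(N)]` elements. -/
theorem exists_isHomBasis (N : ℕ) [NeZero N] {M : ℤ → Submodule ℂ (ℍ → ℂ)}
    (hM : GradedRegular E4 E6 M) (hle : ∀ w, M w ≤ MF N w) :
    ∃ (ι : Type) (_ : Fintype ι) (κ : ι → ℤ) (β : ι → ℍ → ℂ),
      IsHomBasis (k := ℂ) E4 E6 M κ β ∧ (∀ i, 0 ≤ κ i) ∧
      Fintype.card ι ≤ (Gamma0 N).index := by
  obtain ⟨n, b, hmem, hneg, hgen, hindep⟩ := hM.exists_graded_basis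
  have hB : ∀ s : Finset ℤ, ∑ u ∈ s, n u ≤ (Gamma0 N).index := by
    intro s
    rw [← card_sigma_family n s]
    refine card_le_index_of_indep N (fun j : (Σ u : s, Fin (n u)) => (j.1 : ℤ))
      (fun j => b j.1 j.2) (fun j => hle _ (hmem _ _)) ?_
    intro w r hr h0
    exact sigma_family_indep hindep s w r
      (fun j => (wtSpan_eq_MF1 (w - j.1)).symm ▸ hr j) h0
  obtain ⟨ι, hι, κ, β, hbasis, hκ, -⟩ :=
    exists_isHomBasis_of_bounded hmem hneg hgen hindep _ hB
  have hfree := isFreeBasis_of_isHomBasis hbasis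
  exact ⟨ι, hι, κ, β, hbasis, hκ,
    card_le_index_of_indep N κ β (fun i => hle _ (hfree.mem i)) hfree.indep⟩

/-- The same with coefficients described as level-one modular forms (`MF1`). -/
theorem exists_isFreeBasis (N : ℕ) [NeZero N] {M : ℤ → Submodule ℂ (ℍ → ℂ)}
    (hM : GradedRegular E4 E6 M) (hle : ∀ w, M w ≤ MF N w) :
    ∃ (ι : Type) (_ : Fintype ι) (κ : ι → ℤ) (β : ι → ℍ → ℂ),
      IsFreeBasis M κ β ∧ (∀ i, 0 ≤ κ i) ∧ Fintype.card ι ≤ (Gamma0 N).index := by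
  obtain ⟨ι, hι, κ, β, hbasis, hκ, hcard⟩ := exists_isHomBasis N hM hle
  exact ⟨ι, hι, κ, β, isFreeBasis_of_isHomBasis hbasis, hκ, hcard⟩

theorem exists_isFreeBasis_MF (N : ℕ) [NeZero N] (hdiv : DivE4 (MF N)) :
    ∃ (ι : Type) (_ : Fintype ι) (κ : ι → ℤ) (β : ι → ℍ → ℂ),
      IsFreeBasis (MF N) κ β ∧ (∀ i, 0 ≤ κ i) ∧ Fintype.card ι ≤ (Gamma0 N).index :=
  exists_isFreeBasis N (gradedRegular_MF N hdiv) fun _ => le_rfl

theorem exists_isFreeBasis_CF (N : ℕ) [NeZero N] (hdiv : DivE4 (CF N)) :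
    ∃ (ι : Type) (_ : Fintype ι) (κ : ι → ℤ) (β : ι → ℍ → ℂ),
      IsFreeBasis (CF N) κ β ∧ (∀ i, 0 ≤ κ i) ∧ Fintype.card ι ≤ (Gamma0 N).index :=
  exists_isFreeBasis N (gradedRegular_CF N hdiv) fun w => CF_le_MF N w

end Fermat.Agent.Lib.RR
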