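/-
S20 glue, part 1: products and small weights in `ℂ[E₄,E₆]`, saturated families, conversion between
`IsHomBasis` (coefficients in `wtSpan ℂ E4 E6`) and `IsFreeBasis` (coefficients in `MF1`).
-/
import Fermat.Agent.Lib.RR.Interface
import Fermat.Agent.Lib.RR.Free
import Fermat.Agent.Lib.RR.DivRegular

set_option autoImplicit false

namespace Fermat.Agent.Lib.RR

open UpperHalfPlane ModularForm CongruenceSubgroup Matrix.SpecialLinearGroup Finset
open scoped MatrixGroups Manifold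

noncomputable section

/-! ### `ℂ[E₄,E₆]` -/

theorem glue_mem_MF1_of_eq {j k : ℤ} (h : j = k) {f : ℍ → ℂ} (hf : f ∈ MF1 j) : f ∈ MF1 k :=
  h ▸ hf

theorem glue_mem_CF_of_eq {N : ℕ} {j k : ℤ} (h : j = k) {f : ℍ → ℂ} (hf : f ∈ CF N j) :
    f ∈ CF N k := h ▸ hf

theorem glue_mem_RW_of_eq {j k : ℤ} (h : j = k) {f : ℍ → ℂ} (hf : f ∈ RW j) : f ∈ RW k :=
  h ▸ hf

/-- Products in `ℂ[E₄,E₆]`. -/
theorem RW_mul_mem {d e : ℤ} {P r : ℍ → ℂ} (hP : P ∈ RW d) (hr : r ∈ RW e) :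
    P * r ∈ RW (d + e) := by
  unfold RW wtSpan at hP hr ⊢
  have h := Submodule.mul_mem_mul hP hr
  rw [Submodule.span_mul_span] at h
  refine Submodule.span_mono ?_ h
  rintro v ⟨p, ⟨a, c, hac, rfl⟩, q, ⟨a', c', hac', rfl⟩, rfl⟩
  refine ⟨a + a', c + c', by push_cast; linarith, ?_⟩
  simp only [pow_add]
  ring

/-- Constants are in `ℂ[E₄,E₆]_0`. -/
theorem const_mem_RW (c : ℂ) : (fun _ => c : ℍ → ℂ) ∈ RW 0 := by
  have h1 : (1 : ℍ → ℂ) ∈ RW 0 := one_mem_wtSpan_zero (k := ℂ) E4 E6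
  have := Submodule.smul_mem _ c h1
  convert this using 1
  ext z
  simp

/-- `ℂ[E₄,E₆]_0` consists of constants. -/
theorem eq_const_of_mem_RW_zero {r : ℍ → ℂ} (hr : r ∈ RW 0) : ∃ c : ℂ, r = fun _ => c := by
  unfold RW wtSpan at hr
  have hset : {v : ℍ → ℂ | ∃ a c : ℕ, 4 * (a : ℤ) + 6 * (c : ℤ) = 0 ∧ v = E4 ^ a * E6 ^ c} =
      {(1 : ℍ → ℂ)} := by
    ext v
    simp only [Set.mem_ofPred_eq, Set.mem_singleton_iff]
    constructor
    · rintro ⟨a, c, h, rfl⟩
      have ha : a = 0 := by omega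
      have hc : c = 0 := by omega
      subst ha hc
      simp
    · rintro rfl
      exact ⟨0, 0, by simp, by simp⟩
  rw [hset] at hr
  obtain ⟨c, rfl⟩ := Submodule.mem_span_singleton.mp hr
  exact ⟨c, by ext z; simp⟩

/-- `ℂ[E₄,E₆]_2 = 0`. -/
theorem eq_zero_of_mem_RW_two {r : ℍ → ℂ} (hr : r ∈ RW 2) : r = 0 := by
  unfold RW wtSpan at hr
  have hset : {v : ℍ → ℂ | ∃ a c : ℕ, 4 * (a : ℤ) + 6 * (c : ℤ) = 2 ∧ v = E4 ^ a * E6 ^ c} = ∅ := by
    ext v
    simp only [Set.mem_ofPred_eq, Set.mem_empty_iff_false, iff_false]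
    rintro ⟨a, c, h, -⟩
    omega
  rw [hset, Submodule.span_empty] at hr
  exact hr

/-! ### Saturated families -/

section Sat

variable {M : ℤ → Submodule ℂ (ℍ → ℂ)}

/-- A homogeneous basis is a saturated family. -/
theorem IsHomBasis.isSatFamily {ι : Type} [Fintype ι] {κ : ι → ℤ} {β : ι → ℍ → ℂ}
    (hb : IsHomBasis (k := ℂ) E4 E6 M κ β) : IsSatFamily M κ β where
  mem := hb.mem
  indep := hb.indep
  sat d P hP w r hr g hg hsum := by
    obtain ⟨r', hr', rfl⟩ := hb.gen _ g hg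
    refine ⟨r', hr', ?_⟩
    have hPr' : ∀ i, P * r' i ∈ RW (w - κ i) := fun i =>
      glue_mem_RW_of_eq (by ring) (RW_mul_mem hP (hr' i))
    have h0 : ∑ i, (r i - P * r' i) * β i = 0 := by
      have : ∑ i, (r i - P * r' i) * β i = ∑ i, r i * β i - P * ∑ i, r' i * β i := by
        rw [Finset.mul_sum, ← Finset.sum_sub_distrib]
        refine Finset.sum_congr rfl fun i _ => ?_
        ring
      rw [this, hsum, sub_self]
    intro i
    have := hb.indep w (fun i => r i - P * r' i)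
      (fun i => Submodule.sub_mem _ (hr i) (hPr' i)) h0 i
    exact sub_eq_zero.mp this

/-- Every finite sub-family (all the basis elements of the weights in a finite set `s`) of a doubly
indexed graded basis (the shape of `GradedRegular.exists_graded_basis`) is a saturated family. -/
theorem isSatFamily_of_graded_basis {n : ℤ → ℕ} {b : (u : ℤ) → Fin (n u) → ℍ → ℂ}
    (hmem : ∀ u i, b u i ∈ M u)
    (hgen : ∀ w f, f ∈ M w → ∃ r : (u : ℤ) → Fin (n u) → ℍ → ℂ,
        (∀ u i, r u i ∈ RW (w - u)) ∧ f = ∑ u ∈ Icc 0 w, ∑ i, r u i * b u i)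
    (hindep : ∀ (s : Finset ℤ) (w : ℤ) (r : (u : ℤ) → Fin (n u) → ℍ → ℂ),
        (∀ u i, r u i ∈ RW (w - u)) →
        ∑ u ∈ s, ∑ i, r u i * b u i = 0 → ∀ u ∈ s, ∀ i, r u i = 0)
    (s : Finset ℤ) :
    IsSatFamily M (ι := Σ u : s, Fin (n u)) (fun j => (j.1 : ℤ)) (fun j => b j.1 j.2) := by
  classical
  -- sums over the sigma type versus double sums
  have hsum : ∀ g : (u : ℤ) → Fin (n u) → ℍ → ℂ,
      ∑ j : (Σ u : s, Fin (n u)), g j.1 j.2 = ∑ u ∈ s, ∑ i, g u i := by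
    intro g
    rw [Fintype.sum_sigma, ← Finset.sum_coe_sort s (fun u => ∑ i, g u i)]
  -- extension by zero
  have hext : ∀ r : (Σ u : s, Fin (n u)) → ℍ → ℂ, ∃ r' : (u : ℤ) → Fin (n u) → ℍ → ℂ,
      (∀ j : (Σ u : s, Fin (n u)), r j = r' j.1 j.2) ∧ (∀ u, u ∉ s → ∀ i, r' u i = 0) ∧
      (∀ w : ℤ, (∀ j : (Σ u : s, Fin (n u)), r j ∈ RW (w - (j.1 : ℤ))) →
        ∀ u i, r' u i ∈ RW (w - u)) := by
    intro r
    refine ⟨fun u i => if hu : u ∈ s then r ⟨⟨u, hu⟩, i⟩ else 0, ?_, ?_, ?_⟩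
    · rintro ⟨⟨u, hu⟩, i⟩
      simp [hu]
    · intro u hu i
      simp [hu]
    · intro w hr u i
      by_cases hu : u ∈ s
      · simp only [hu, dite_true]
        exact hr ⟨⟨u, hu⟩, i⟩
      · simp only [hu, dite_false]
        exact Submodule.zero_mem _
  refine ⟨fun j => hmem _ _, ?_, ?_⟩
  · intro w r hr hsum0 j
    obtain ⟨r', hrr', -, hr'⟩ := hext r
    have h0 : ∑ u ∈ s, ∑ i, r' u i * b u i = 0 := by
      rw [← hsum (fun u i => r' u i * b u i), ← hsum0]
      refine Finset.sum_congr rfl fun j _ => ?_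
      rw [hrr' j]
    have := hindep s w r' (hr' w hr) h0 j.1 j.1.2 j.2
    rw [hrr' j, this]
  · intro d P hP w r hr g hg hsumg
    obtain ⟨r', hrr', hr'out, hr'⟩ := hext r
    obtain ⟨ρ, hρ, hgρ⟩ := hgen _ g hg
    -- truncate `ρ` to the weights in `Icc 0 (w - d)`
    set ρ' : (u : ℤ) → Fin (n u) → ℍ → ℂ := fun u i => if u ∈ Icc 0 (w - d) then ρ u i else 0
      with hρ'def
    have hρ' : ∀ u i, ρ' u i ∈ RW (w - d - u) := by
      intro u i
      simp only [hρ'def]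
      split_ifs
      · exact hρ u i
      · exact Submodule.zero_mem _
    have hρ'in : ∀ u ∈ Icc 0 (w - d), ∀ i, ρ' u i = ρ u i := by
      intro u hu i
      simp only [hρ'def, if_pos hu]
    have hρ'out : ∀ u, u ∉ Icc 0 (w - d) → ∀ i, ρ' u i = 0 := by
      intro u hu i
      simp only [hρ'def, if_neg hu]
    set t : Finset ℤ := s ∪ Icc 0 (w - d) with ht
    have hPρ' : ∀ u i, P * ρ' u i ∈ RW (w - u) := fun u i =>
      glue_mem_RW_of_eq (by ring) (RW_mul_mem hP (hρ' u i))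
    -- the two sums over `t`
    have e1 : ∑ u ∈ t, ∑ i, r' u i * b u i = P * g := by
      have h1 : (∑ j : (Σ u : s, Fin (n u)), r j * b j.1 j.2) =
          ∑ u ∈ s, ∑ i, r' u i * b u i := by
        rw [← hsum (fun u i => r' u i * b u i)]
        exact Finset.sum_congr rfl fun j _ => by rw [hrr' j]
      rw [← hsumg, h1]
      symm
      refine Finset.sum_subset Finset.subset_union_left fun u _ hu => ?_
      refine Finset.sum_eq_zero fun i _ => ?_
      rw [hr'out u hu i, zero_mul]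
    have e2 : ∑ u ∈ t, ∑ i, (P * ρ' u i) * b u i = P * g := by
      rw [hgρ, Finset.mul_sum]
      symm
      rw [show (∑ u ∈ Icc 0 (w - d), P * ∑ i, ρ u i * b u i) =
        ∑ u ∈ Icc 0 (w - d), ∑ i, (P * ρ' u i) * b u i from
        Finset.sum_congr rfl fun u hu => by
          rw [Finset.mul_sum]
          refine Finset.sum_congr rfl fun i _ => ?_
          rw [hρ'in u hu i, mul_assoc]]
      refine Finset.sum_subset Finset.subset_union_right fun u _ hu => ?_
      refine Finset.sum_eq_zero fun i _ => ?_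
      rw [hρ'out u hu i, mul_zero, zero_mul]
    have h0 : ∑ u ∈ t, ∑ i, (r' u i - P * ρ' u i) * b u i = 0 := by
      have : ∑ u ∈ t, ∑ i, (r' u i - P * ρ' u i) * b u i =
          ∑ u ∈ t, ∑ i, r' u i * b u i - ∑ u ∈ t, ∑ i, (P * ρ' u i) * b u i := by
        rw [← Finset.sum_sub_distrib]
        refine Finset.sum_congr rfl fun u _ => ?_
        rw [← Finset.sum_sub_distrib]
        refine Finset.sum_congr rfl fun i _ => ?_
        ring
      rw [this, e1, e2, sub_self]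
    have hz := hindep t w (fun u i => r' u i - P * ρ' u i)
      (fun u i => Submodule.sub_mem _ (hr' w hr u i) (hPρ' u i)) h0
    refine ⟨fun j => ρ' j.1 j.2, fun j => hρ' _ _, fun j => ?_⟩
    have := hz j.1 (Finset.mem_union_left _ j.1.2) j.2
    rw [hrr' j]
    exact sub_eq_zero.mp this

/-- `IsFreeBasis` (helper6's consumer-facing form) gives back `IsHomBasis`. -/
theorem isHomBasis_of_isFreeBasis {ι : Type} [Fintype ι] {κ : ι → ℤ} {β : ι → ℍ → ℂ}
    (h : IsFreeBasis M κ β) : IsHomBasis (k := ℂ) E4 E6 M κ β where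
  mem := h.mem
  gen w f hf := by
    obtain ⟨r, hr, hf⟩ := h.gen w f hf
    exact ⟨r, fun i => (wtSpan_eq_MF1 (w - κ i)).symm ▸ hr i, hf⟩
  indep w r hr h0 := h.indep w r (fun i => wtSpan_eq_MF1 (w - κ i) ▸ hr i) h0

end Sat

end

end Fermat.Agent.Lib.RR
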