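/-
S20 assembly: the dimension formula for `S₂(Γ₀(N))` from the work-package interfaces.
-/
import Fermat.Agent.Lib.RR.Glue
import Fermat.Agent.Lib.RR.FreeMain
import Fermat.Agent.Lib.RR.DualityIface

set_option autoImplicit false

namespace Fermat.Agent.Lib.RR

open UpperHalfPlane ModularForm CongruenceSubgroup Matrix.SpecialLinearGroup Finset
open scoped MatrixGroups Manifold

noncomputable section

variable (N : ℕ) [NeZero N]

theorem asm_index_eq_card : (Gamma0 N).index = Fintype.card (Q N) := by
  rw [Subgroup.index_eq_card, Nat.card_eq_fintype_card]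

/-- The residue classes `0, 2, 4` mod `6` partition a family of even integers. -/
theorem asm_card_mod_six {ι : Type} [Fintype ι] (κ : ι → ℤ) (heven : ∀ i, Even (κ i)) :
    Fintype.card {i // κ i % 6 = 0} + Fintype.card {i // κ i % 6 = 2} +
      Fintype.card {i // κ i % 6 = 4} = Fintype.card ι := by
  classical
  simp only [Fintype.card_subtype]
  rw [← Finset.card_union_of_disjoint, ← Finset.card_union_of_disjoint]
  · congr 1
    ext i
    simp only [Finset.mem_union, Finset.mem_filter, Finset.mem_univ, true_and, iff_true]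
    obtain ⟨r, hr⟩ := heven i
    omega
  · rw [Finset.disjoint_left]
    intro i hi
    simp only [Finset.mem_union, Finset.mem_filter, Finset.mem_univ, true_and] at hi ⊢
    omega
  · rw [Finset.disjoint_left]
    intro i hi
    simp only [Finset.mem_filter, Finset.mem_univ, true_and] at hi ⊢
    omega

/-- **S20 from the interfaces.** -/
theorem asm_finrank_cuspForm_two
    (hF : IfaceFLower N (MF N)) (hF' : IfaceFLower N (CF N))
    (hG1 : IfaceG1Indep N (MF N)) (hG1' : IfaceG1Indep N (CF N))
    (hG1c : IfaceG1Counts N) (hG2 : IfaceG2MF N) (hG2' : IfaceG2CF N) :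
    (Module.finrank ℂ (CuspForm (Gamma0 N) 2) : ℚ) = ModularCurve.genusFormula N := by
  obtain ⟨ι, hι, κ, β, hb, -, hle⟩ := exists_isHomBasis_MF N
  obtain ⟨ι', hι', κ', β', hg, -, hle'⟩ := exists_isHomBasis_CF N
  rw [asm_index_eq_card] at hle hle'
  have hcard : Fintype.card ι = Fintype.card (Q N) := le_antisymm hle (hF ι κ β hb)
  have hcard' : Fintype.card ι' = Fintype.card (Q N) := le_antisymm hle' (hF' ι' κ' β' hg)
  have hA := hG1 ι κ β hb UpperHalfPlane.I
  have hB := hG1' ι' κ' β' hg UpperHalfPlane.I
  obtain ⟨h4, h60, h62⟩ := hG1c ι κ β hb hcard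
  have hK := hG2 ι κ β hb hcard
  have hK' := hG2' ι' κ' β' hg hcard'
  have h64 : Fintype.card {i // κ i % 6 = 4} * 3 + ModularCurve.nuThree N =
      Fintype.card (Q N) := by
    have := asm_card_mod_six κ (fun i => hb.wpH_weight_even i)
    omega
  have key := wpH_finrank_cuspForm_two_eq_of_bases (N := N) hb hg hcard hcard' UpperHalfPlane.I
    hA hB (ModularCurve.nuTwo N) (ModularCurve.nuThree N) (numCusps N)
    (by linarith) (by linarith) (by omega) (by omega) (by omega) h64
  rw [key]
  have hμ : Fintype.card (Q N) = ModularCurve.dedekindPsi N := by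
    rw [← Nat.card_eq_fintype_card]
    exact Cosets.card_quotient_Gamma0 N
  have hc : numCusps N = ModularCurve.cuspCount N := Cosets.card_orbits_T N
  rw [hμ, hc]
  unfold ModularCurve.genusFormula
  ring

end

end Fermat.Agent.Lib.RR
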