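import Fermat.Agent.Lib.RR.Rank
import Fermat.Agent.Lib.RR.Coset

/-!
# S20, work package F in the language of `Core.lean` / `Coset.lean`

`rankF_h N = E₄ ∣[4] diag(N, 1)` (`= N ^ 3 * E₄ (N z)`) lies in `MF N 4`, and at a suitable point
`z0` its coset vector has pairwise distinct entries; hence the coset vectors of the powers
`h ^ m`, `m < μ = card (Q N)`, evaluated at `z0`, are linearly independent (Vandermonde).
-/

set_option autoImplicit false

namespace Fermat.Agent.Lib.RR

open UpperHalfPlane ModularForm CongruenceSubgroup Matrix.SpecialLinearGroup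
open scoped MatrixGroups Manifold

noncomputable section

variable {N : ℕ} [NeZero N]

theorem rankF_h_mem_MF : rankF_h N ∈ MF N 4 := ⟨rankF_hMF (NeZero.ne N), rfl⟩

theorem rankF_h_isInv : IsInv N 4 (rankF_h N) := isInv_of_mem_MF rankF_h_mem_MF

/-- At a suitable point the entries of the coset vector of `h` are pairwise distinct. -/
theorem rankF_exists_cosetFun_injective :
    ∃ z0 : ℍ, Function.Injective fun q : Q N => cosetFun N 4 (rankF_h N) q z0 := by
  obtain ⟨z0, hz0⟩ := rankF_exists_injective (N := N)
  refine ⟨z0, fun q q' hqq' => ?_⟩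
  induction q using QuotientGroup.induction_on with
  | H g =>
    induction q' using QuotientGroup.induction_on with
    | H g' =>
      simp only [cosetFun_mk rankF_h_isInv] at hqq'
      have := hz0 _ _ hqq'
      rw [inv_inv] at this
      exact QuotientGroup.eq.mpr this

omit [NeZero N] in
/-- The coset vector of a power is the power of the coset vector. -/
theorem rankF_cosetFun_pow (m : ℕ) (q : Q N) (z : ℍ) :
    cosetFun N ((4 * m : ℕ) : ℤ) (rankF_h N ^ m) q z = (cosetFun N 4 (rankF_h N) q z) ^ m :=
  rankF_pow_slash N m _ z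

/-- **Vandermonde**: at a suitable point `z0` the vectors `(q ↦ (h ∣ q)(z0) ^ m)`,
`m < card (Q N)`, are linearly independent in `Q N → ℂ`. -/
theorem rankF_exists_linearIndependent :
    ∃ z0 : ℍ, LinearIndependent ℂ fun m : Fin (Fintype.card (Q N)) =>
      fun q : Q N => (cosetFun N 4 (rankF_h N) q z0) ^ (m : ℕ) := by
  classical
  obtain ⟨z0, hz0⟩ := rankF_exists_cosetFun_injective (N := N)
  refine ⟨z0, ?_⟩
  set e : Q N ≃ Fin (Fintype.card (Q N)) := Fintype.equivFin (Q N) with he
  set v : Fin (Fintype.card (Q N)) → ℂ := fun i => cosetFun N 4 (rankF_h N) (e.symm i) z0 with hv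
  have hvinj : Function.Injective v := fun i j hij => e.symm.injective (hz0 hij)
  have hdet : (Matrix.vandermonde v).det ≠ 0 := Matrix.det_vandermonde_ne_zero_iff.mpr hvinj
  have hcols := Matrix.linearIndependent_cols_of_det_ne_zero hdet
  -- transport along `e`
  have hmap := hcols.map' (LinearMap.funLeft ℂ ℂ e) (LinearMap.ker_eq_bot.mpr
    (LinearMap.funLeft_injective_of_surjective ℂ ℂ e e.surjective))
  have hfun : (fun m : Fin (Fintype.card (Q N)) =>
      fun q : Q N => (cosetFun N 4 (rankF_h N) q z0) ^ (m : ℕ)) =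
      ⇑(LinearMap.funLeft ℂ ℂ ⇑e) ∘ (Matrix.vandermonde v).col := by
    funext m q
    show _ = (Matrix.vandermonde v).col m (e q)
    rw [Matrix.col_apply, Matrix.vandermonde_apply, hv]
    simp
  rw [hfun]
  exact hmap

end

end Fermat.Agent.Lib.RR
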