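import Mathlib
import Fermat.Agent.Lib.RR.Interface
import Fermat.Agent.Lib.RR.Free
import Fermat.Agent.Lib.RR.RankCore

/-!
# S20, work package F in interface form: a homogeneous basis has at least `μ` elements

`flow_MF : IfaceFLower N (MF N)` and `flow_CF : IfaceFLower N (CF N)`.
-/

set_option autoImplicit false

namespace Fermat.Agent.Lib.RR

open UpperHalfPlane ModularForm CongruenceSubgroup Matrix.SpecialLinearGroup
open scoped MatrixGroups Manifold

noncomputable section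

variable {N : ℕ} [NeZero N]

omit [NeZero N] in
/-- The coset vector of a combination `∑ r i * β i` with level-one coefficients. -/
theorem flow_cosetVec_sum {ι : Type} [Fintype ι] (κ : ι → ℤ) (β : ι → ℍ → ℂ) (w : ℤ)
    (r : ι → ℍ → ℂ) (hr : ∀ i, r i ∈ MF1 (w - κ i)) (z0 : ℍ) :
    cosetVec N w (∑ i, r i * β i) z0 = ∑ i, r i z0 • cosetVec N (κ i) (β i) z0 := by
  funext q
  simp only [cosetVec, cosetFun_sum, Finset.sum_apply, Pi.smul_apply, smul_eq_mul]
  refine Finset.sum_congr rfl fun i _ => ?_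
  have h1 : cosetFun N w (r i * β i) q = cosetFun N ((w - κ i) + κ i) (r i * β i) q := by
    rw [sub_add_cancel]
  rw [h1, cosetFun_mul, cosetFun_of_mem_MF1 (hr i), Pi.mul_apply]

omit [NeZero N] in
/-- Counting: linearly independent vectors in the span of a finite family. -/
theorem flow_card_le {ι : Type} [Fintype ι] {μ : ℕ} {V : Type*} [AddCommGroup V] [Module ℂ V]
    (v : Fin μ → V) (hv : LinearIndependent ℂ v) (u : ι → V)
    (hspan : ∀ m, v m ∈ Submodule.span ℂ (Set.range u)) : μ ≤ Fintype.card ι := by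
  classical
  have h1 : Module.finrank ℂ (Submodule.span ℂ (Set.range v)) = μ := by
    rw [finrank_span_eq_card hv, Fintype.card_fin]
  have h2 : Submodule.span ℂ (Set.range v) ≤ Submodule.span ℂ (Set.range u) :=
    Submodule.span_le.mpr (by rintro _ ⟨m, rfl⟩; exact hspan m)
  have : Module.Finite ℂ (Submodule.span ℂ (Set.range u)) :=
    FiniteDimensional.span_of_finite ℂ (Set.finite_range u)
  have h3 : Module.finrank ℂ (Submodule.span ℂ (Set.range v)) ≤
      Module.finrank ℂ (Submodule.span ℂ (Set.range u)) := Submodule.finrank_mono h2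
  have h4 : Module.finrank ℂ (Submodule.span ℂ (Set.range u)) ≤ Fintype.card ι :=
    finrank_range_le_card u
  omega

theorem flow_pow_mem_MF (m : ℕ) : rankF_h N ^ m ∈ MF N ((4 * m : ℕ) : ℤ) :=
  mem_MF_of_eq (by push_cast; ring) (pow_mem_MF rankF_h_mem_MF m)

/-- **WP F, lower bound, for `MF N`.** -/
theorem flow_MF : IfaceFLower N (MF N) := by
  intro ι _ κ β hβ
  obtain ⟨z0, hz0⟩ := rankF_exists_linearIndependent (N := N)
  refine flow_card_le _ hz0 (fun i => cosetVec N (κ i) (β i) z0) fun m => ?_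
  obtain ⟨r, hr, hsum⟩ := hβ.gen _ _ (flow_pow_mem_MF (N := N) (m : ℕ))
  have hr' : ∀ i, r i ∈ MF1 (((4 * (m : ℕ) : ℕ) : ℤ) - κ i) := fun i => wtSpan_le_MF1 _ (hr i)
  have h1 := flow_cosetVec_sum (N := N) κ β _ r hr' z0
  rw [← hsum] at h1
  have h2 : (fun q : Q N => (cosetFun N 4 (rankF_h N) q z0) ^ (m : ℕ)) =
      cosetVec N ((4 * (m : ℕ) : ℕ) : ℤ) (rankF_h N ^ (m : ℕ)) z0 := by
    funext q
    exact (rankF_cosetFun_pow (m : ℕ) q z0).symm
  rw [h2, h1]
  exact Submodule.sum_mem _ fun i _ =>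
    Submodule.smul_mem _ _ (Submodule.subset_span ⟨i, rfl⟩)

/-- **WP F, lower bound, for `CF N`.** -/
theorem flow_CF : IfaceFLower N (CF N) := by
  intro ι _ κ β hβ
  obtain ⟨z0, hz0⟩ := rankF_exists_linearIndependent (N := N)
  have hz0' : LinearIndependent ℂ fun m : Fin (Fintype.card (Q N)) =>
      Dl z0 • fun q : Q N => (cosetFun N 4 (rankF_h N) q z0) ^ (m : ℕ) :=
    hz0.units_smul fun _ => Units.mk0 (Dl z0) (Dl_ne_zero z0)
  refine flow_card_le _ hz0' (fun i => cosetVec N (κ i) (β i) z0) fun m => ?_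
  have hmem : Dl * rankF_h N ^ (m : ℕ) ∈ CF N (12 + ((4 * (m : ℕ) : ℕ) : ℤ)) :=
    mul_mem_CF (Dl_mem_CF N) (flow_pow_mem_MF (N := N) (m : ℕ))
  obtain ⟨r, hr, hsum⟩ := hβ.gen _ _ hmem
  have hr' : ∀ i, r i ∈ MF1 ((12 + ((4 * (m : ℕ) : ℕ) : ℤ)) - κ i) :=
    fun i => wtSpan_le_MF1 _ (hr i)
  have h1 := flow_cosetVec_sum (N := N) κ β _ r hr' z0
  rw [← hsum] at h1
  have h2 : (Dl z0 • fun q : Q N => (cosetFun N 4 (rankF_h N) q z0) ^ (m : ℕ)) =
      cosetVec N (12 + ((4 * (m : ℕ) : ℕ) : ℤ)) (Dl * rankF_h N ^ (m : ℕ)) z0 := by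
    funext q
    simp only [cosetVec, Pi.smul_apply, smul_eq_mul]
    rw [cosetFun_mul, cosetFun_of_mem_MF1 Dl_mem_MF1, Pi.mul_apply, rankF_cosetFun_pow]
  show (Dl z0 • fun q : Q N => (cosetFun N 4 (rankF_h N) q z0) ^ (m : ℕ)) ∈ _
  rw [h2, h1]
  exact Submodule.sum_mem _ fun i _ =>
    Submodule.smul_mem _ _ (Submodule.subset_span ⟨i, rfl⟩)

end

end Fermat.Agent.Lib.RR
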