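import Mathlib

set_option autoImplicit false

/-!
# WP G1, abstract core: independence of the conjugate vectors from freeness + division

`X` plays the role of the upper half plane, `M w` the forms of weight `w` and level `Γ`, `R w` the
level-one forms of weight `w`, `b i` (of weight `d i`) a homogeneous `R`-basis of `M`, `z q` the
translates `γ_q z0` of a point `z0` and `j q` the automorphy factors `j(γ_q, z0)`. If every form in
`M` vanishing at all the `z q` is divisible by `P` (with `P z0 = 0`), then the vectors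
`(j q ^ (-d i) * b i (z q))_q`, `i ∈ s`, are linearly independent, provided the weights `d i`
(`i ∈ s`) admit level-one forms `e i` of weight `K0 - d i` not vanishing at `z0`.
-/

namespace Fermat.Agent.Lib.RR

theorem g1_coeff_eq_zero_of_division {X ι Q : Type*} [Fintype ι] [DecidableEq ι]
    (R M : ℤ → Submodule ℂ (X → ℂ)) (b : ι → X → ℂ) (d : ι → ℤ)
    (hINDEP : ∀ (w : ℤ) (r : ι → X → ℂ), (∀ i, r i ∈ R (w - d i)) → ∑ i, r i * b i = 0 →
      ∀ i, r i = 0)
    (hGEN : ∀ (w : ℤ) (f : X → ℂ), f ∈ M w →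
      ∃ r : ι → X → ℂ, (∀ i, r i ∈ R (w - d i)) ∧ f = ∑ i, r i * b i)
    (hbM : ∀ i, b i ∈ M (d i))
    (hRM : ∀ (w u : ℤ) (r f : X → ℂ), r ∈ R w → f ∈ M u → r * f ∈ M (w + u))
    (z0 : X) (z : Q → X) (j : Q → ℂ) (hj : ∀ q, j q ≠ 0)
    (hR : ∀ (w : ℤ) (r : X → ℂ), r ∈ R w → ∀ q, r (z q) = j q ^ w * r z0)
    (p : ℤ) (P : X → ℂ) (hP0 : P z0 = 0)
    (hPR : ∀ (w : ℤ) (r : X → ℂ), r ∈ R w → P * r ∈ R (w + p))
    (hDiv : ∀ (K : ℤ) (G : X → ℂ), G ∈ M K → (∀ q, G (z q) = 0) → ∃ H ∈ M (K - p), G = P * H)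
    (s : Finset ι) (K0 : ℤ) (e : ι → X → ℂ) (he : ∀ i ∈ s, e i ∈ R (K0 - d i))
    (he0 : ∀ i ∈ s, e i z0 ≠ 0)
    (c : ι → ℂ) (hc : ∀ q, ∑ i ∈ s, c i * (j q ^ (-(d i)) * b i (z q)) = 0) :
    ∀ i ∈ s, c i = 0 := by
  classical
  -- the level-one coefficients with prescribed values at `z0`
  set r : ι → X → ℂ := fun i => if i ∈ s then (c i / e i z0) • e i else 0 with hr
  have hrR : ∀ i, r i ∈ R (K0 - d i) := by
    intro i
    simp only [hr]
    split_ifs with hi
    · exact Submodule.smul_mem _ _ (he i hi)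
    · exact Submodule.zero_mem _
  have hrz0 : ∀ i ∈ s, r i z0 = c i := by
    intro i hi
    simp only [hr, if_pos hi, Pi.smul_apply, smul_eq_mul]
    exact div_mul_cancel₀ _ (he0 i hi)
  have hrz0' : ∀ i ∉ s, r i = 0 := by
    intro i hi
    simp only [hr, if_neg hi]
  set G : X → ℂ := ∑ i, r i * b i with hG
  have hGM : G ∈ M K0 := by
    refine Submodule.sum_mem _ fun i _ => ?_
    have := hRM _ _ _ _ (hrR i) (hbM i)
    rwa [sub_add_cancel] at this
  have hGz : ∀ q, G (z q) = 0 := by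
    intro q
    have h1 : G (z q) = j q ^ K0 * ∑ i ∈ s, c i * (j q ^ (-(d i)) * b i (z q)) := by
      rw [hG, Finset.sum_apply, Finset.mul_sum]
      rw [← Finset.sum_subset (Finset.subset_univ s)]
      · refine Finset.sum_congr rfl fun i hi => ?_
        rw [Pi.mul_apply, hR _ _ (hrR i) q, hrz0 i hi, zpow_sub₀ (hj q), zpow_neg]
        field_simp
      · intro i _ hi
        rw [hrz0' i hi, zero_mul, Pi.zero_apply]
    rw [h1, hc q, mul_zero]
  obtain ⟨H, hHM, hGH⟩ := hDiv K0 G hGM hGz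
  obtain ⟨r', hr'R, hHr'⟩ := hGEN _ H hHM
  have hPr' : ∀ i, P * r' i ∈ R (K0 - d i) := by
    intro i
    have := hPR _ _ (hr'R i)
    have e : K0 - p - d i + p = K0 - d i := by ring
    rwa [e] at this
  have hdiff : ∑ i, (r i - P * r' i) * b i = 0 := by
    have : ∑ i, (r i - P * r' i) * b i = G - P * H := by
      rw [hG, hHr', Finset.mul_sum, ← Finset.sum_sub_distrib]
      refine Finset.sum_congr rfl fun i _ => ?_
      ring
    rw [this, hGH, sub_self]
  have hzero := hINDEP K0 (fun i => r i - P * r' i)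
    (fun i => Submodule.sub_mem _ (hrR i) (hPr' i)) hdiff
  intro i hi
  have h1 : r i = P * r' i := sub_eq_zero.mp (hzero i)
  rw [← hrz0 i hi, h1, Pi.mul_apply, hP0, zero_mul]

end Fermat.Agent.Lib.RR
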