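import Mathlib

set_option autoImplicit false

/-!
# Linear algebra for WP G1 (determinant of conjugates)

* `g1_sum_filter_eq_zero_of_eigen`: a linear dependency among eigenvectors splits along eigenvalues.
* `g1_card_eq_finrank_eigenspace`: if a basis consists of eigenvectors then the number of basis
  vectors with eigenvalue `μ` is the dimension of the `μ`-eigenspace.
-/

namespace Fermat.Agent.Lib.RR

open Module

section eigen

variable {K V : Type*} [Field K] [AddCommGroup V] [Module K V]

/-- A dependency among eigenvectors splits into dependencies for each eigenvalue. -/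
theorem g1_sum_filter_eq_zero_of_eigen {I : Type*} [DecidableEq K] (s : Finset I) (T : End K V)
    (v : I → V) (ε : I → K) (hv : ∀ i ∈ s, T (v i) = ε i • v i) (c : I → K)
    (h : ∑ i ∈ s, c i • v i = 0) (μ : K) :
    ∑ i ∈ s with ε i = μ, c i • v i = 0 := by
  classical
  have hind := (iSupIndep_iff_finsetSum_eq_zero_imp_eq_zero
    (fun μ : K => End.eigenspace T μ)).mp T.eigenspaces_iSupIndep
  set w : K → V := fun μ => ∑ i ∈ s with ε i = μ, c i • v i with hw
  have hwmem : ∀ μ ∈ s.image ε, w μ ∈ End.eigenspace T μ := by
    intro μ _
    refine Submodule.sum_mem _ fun i hi => ?_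
    rw [Finset.mem_filter] at hi
    refine Submodule.smul_mem _ _ ?_
    rw [End.mem_eigenspace_iff, hv i hi.1, hi.2]
  have hsum : ∑ μ ∈ s.image ε, w μ = 0 := by
    rw [← h]
    exact Finset.sum_image' (fun i => c i • v i) fun i _ => rfl
  by_cases hμ : μ ∈ s.image ε
  · exact hind (s.image ε) w hwmem hsum μ hμ
  · have : s.filter (fun i => ε i = μ) = ∅ := by
      rw [Finset.filter_eq_empty_iff]
      intro i hi hiμ
      exact hμ (Finset.mem_image.mpr ⟨i, hi, hiμ⟩)
    rw [this, Finset.sum_empty]

/-- If a basis consists of eigenvectors of `T`, the number of basis vectors with eigenvalue `μ` is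
the dimension of the `μ`-eigenspace. -/
theorem g1_card_eq_finrank_eigenspace {I : Type*} [Fintype I] [DecidableEq K] (T : End K V)
    (b : Basis I K V) (ε : I → K) (hb : ∀ i, T (b i) = ε i • b i) (μ : K) :
    (Finset.univ.filter fun i => ε i = μ).card = finrank K (End.eigenspace T μ) := by
  classical
  -- the eigenspace is spanned by the basis vectors with eigenvalue μ
  have hspan : End.eigenspace T μ =
      Submodule.span K (Set.range fun i : {i // ε i = μ} => b i) := by
    apply le_antisymm
    · intro x hx
      rw [End.mem_eigenspace_iff] at hx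
      -- expand x in the basis
      have hx' : ∑ i, (b.repr x i * (ε i - μ)) • b i = 0 := by
        have h1 : T x = ∑ i, (b.repr x i * ε i) • b i := by
          conv_lhs => rw [← b.sum_repr x]
          rw [map_sum]
          refine Finset.sum_congr rfl fun i _ => ?_
          rw [map_smul, hb i, smul_smul]
        have h2 : μ • x = ∑ i, (b.repr x i * μ) • b i := by
          conv_lhs => rw [← b.sum_repr x]
          rw [Finset.smul_sum]
          refine Finset.sum_congr rfl fun i _ => ?_
          rw [smul_smul, mul_comm]
        have h3 : T x - μ • x = 0 := sub_eq_zero.mpr hx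
        rw [h1, h2, ← Finset.sum_sub_distrib] at h3
        rw [← h3]
        refine Finset.sum_congr rfl fun i _ => ?_
        rw [← sub_smul, mul_sub]
      have hcoef : ∀ i, b.repr x i * (ε i - μ) = 0 := by
        have := Fintype.linearIndependent_iff.mp b.linearIndependent _ hx'
        exact this
      rw [← b.sum_repr x]
      refine Submodule.sum_mem _ fun i _ => ?_
      by_cases hi : ε i = μ
      · exact Submodule.smul_mem _ _ (Submodule.subset_span ⟨⟨i, hi⟩, rfl⟩)
      · have : b.repr x i = 0 := by
          rcases mul_eq_zero.mp (hcoef i) with h | h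
          · exact h
          · exact absurd (sub_eq_zero.mp h) hi
        rw [this, zero_smul]
        exact Submodule.zero_mem _
    · rw [Submodule.span_le]
      rintro _ ⟨⟨i, hi⟩, rfl⟩
      simp only [SetLike.mem_coe, End.mem_eigenspace_iff]
      rw [hb i, hi]
  have hli : LinearIndependent K (fun i : {i // ε i = μ} => b i) :=
    b.linearIndependent.comp _ Subtype.coe_injective
  rw [hspan, finrank_span_eq_card hli, Fintype.card_subtype]

end eigen

end Fermat.Agent.Lib.RR
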