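import Fermat.Agent.Lib.RR.Coset
import Fermat.Agent.Lib.RR.GradedFree
import Fermat.Agent.Lib.RR.G1LinAlg
import Fermat.Agent.Lib.RR.G1Abstract
import Fermat.Agent.Lib.RR.Ramanujan

set_option autoImplicit false

/-!
# WP G1: pointwise independence of the coset vectors of a homogeneous basis

`b i` (of weight `d i`) is a homogeneous basis of `⊕ M w` over `ℂ[E4, E6]`
(`IsHomBasis E4 E6 M d b`), where `M = MF N` or `M = CF N` (abstractly: `G1Mod N M`).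
For every point `z0` of the upper half plane the vectors
`(cosetFun N (d i) (b i) q z0)_q` are linearly independent.
-/

namespace Fermat.Agent.Lib.RR

open UpperHalfPlane ModularForm CongruenceSubgroup Matrix.SpecialLinearGroup
open scoped MatrixGroups Manifold

noncomputable section

variable {N : ℕ} {k : ℤ} {f : ℍ → ℂ}

/-! ### Weight pieces of `ℂ[E4, E6]` -/

theorem g1_wtSpan_le_MF1 (w : ℤ) : wtSpan ℂ E4 E6 w ≤ MF1 w := by
  unfold wtSpan
  rw [Submodule.span_le]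
  rintro _ ⟨a, c, h, rfl⟩
  have h4 := pow_mem_MF1 E4_mem_MF1 a
  have h6 := pow_mem_MF1 E6_mem_MF1 c
  have := mul_mem_MF1 h4 h6
  have e : (a : ℤ) * 4 + (c : ℤ) * 6 = w := by linarith
  rw [e] at this
  exact this

theorem g1_wtSpan_le_MF (N : ℕ) (w : ℤ) : wtSpan ℂ E4 E6 w ≤ MF N w :=
  (g1_wtSpan_le_MF1 w).trans (MF1_le_MF N w)

theorem g1_wtSpan_mul {u w : ℤ} {r s : ℍ → ℂ} (hr : r ∈ wtSpan ℂ E4 E6 u)
    (hs : s ∈ wtSpan ℂ E4 E6 w) : r * s ∈ wtSpan ℂ E4 E6 (u + w) := by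
  unfold wtSpan at hr
  induction hr using Submodule.span_induction with
  | mem v hv =>
    obtain ⟨a, c, h, rfl⟩ := hv
    unfold wtSpan at hs
    induction hs using Submodule.span_induction with
    | mem v' hv' =>
      obtain ⟨a', c', h', rfl⟩ := hv'
      have := monomial_mem_wtSpan (k := ℂ) E4 E6 (a + a') (c + c') (n := u + w)
        (by push_cast; linarith)
      have e : E4 ^ a * E6 ^ c * (E4 ^ a' * E6 ^ c') = E4 ^ (a + a') * E6 ^ (c + c') := by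
        rw [pow_add, pow_add]; ring
      rw [e]
      exact this
    | zero => rw [mul_zero]; exact Submodule.zero_mem _
    | add x y _ _ hx hy => rw [mul_add]; exact Submodule.add_mem _ hx hy
    | smul t x _ hx => rw [mul_smul_comm]; exact Submodule.smul_mem _ _ hx
  | zero => rw [zero_mul]; exact Submodule.zero_mem _
  | add x y _ _ hx hy => rw [add_mul]; exact Submodule.add_mem _ hx hy
  | smul t x _ hx => rw [smul_mul_assoc]; exact Submodule.smul_mem _ _ hx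

theorem g1_E4_pow_mem (m : ℕ) : E4 ^ m ∈ wtSpan ℂ E4 E6 (4 * (m : ℤ)) := by
  have := monomial_mem_wtSpan (k := ℂ) E4 E6 m 0 (n := 4 * (m : ℤ)) (by push_cast; ring)
  rwa [pow_zero, mul_one] at this

theorem g1_E6_pow_mem (m : ℕ) : E6 ^ m ∈ wtSpan ℂ E4 E6 (6 * (m : ℤ)) := by
  have := monomial_mem_wtSpan (k := ℂ) E4 E6 0 m (n := 6 * (m : ℤ)) (by push_cast; ring)
  rwa [pow_zero, one_mul] at this

/-! ### Pointwise form of the coset vector -/

theorem g1_cosetFun_apply (N : ℕ) (k : ℤ) (f : ℍ → ℂ) (q : Q N) (z : ℍ) :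
    cosetFun N k f q z = denom ((q.out)⁻¹ : SL(2, ℤ)) z ^ (-k) * f ((q.out)⁻¹ • z) := by
  unfold cosetFun
  rw [SL_slash_apply, mul_comm]

/-- Values of the coset vector at a translated point. -/
theorem g1_cosetFun_apply_smul (hf : f ∈ MF N k) (γ : SL(2, ℤ)) (q : Q N) (z : ℍ) :
    cosetFun N k f q (γ • z) = denom γ z ^ k * cosetFun N k f (γ⁻¹ • q) z := by
  have h := congrFun (cosetFun_slash (isInv_of_mem_MF hf) q γ) z
  rw [SL_slash_apply] at h
  rw [← h, mul_comm, mul_assoc, ← zpow_add₀ (denom_ne_zero γ z), neg_add_cancel, zpow_zero,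
    mul_one]

theorem g1_apply_smul_of_mem_MF1 {r : ℍ → ℂ} (hr : r ∈ MF1 k) (γ : SL(2, ℤ)) (z : ℍ) :
    r (γ • z) = denom γ z ^ k * r z := by
  have h := congrFun (slash_eq_of_mem_MF1 hr γ) z
  rw [SL_slash_apply] at h
  rw [← h, mul_comm, mul_assoc, ← zpow_add₀ (denom_ne_zero γ z), neg_add_cancel, zpow_zero,
    mul_one]

/-- `f` vanishes on the whole `SL(2, ℤ)`-orbit of `z0` if it vanishes at the points
`(q.out)⁻¹ • z0`. -/
theorem g1_eq_zero_on_orbit (hf : f ∈ MF N k) (z0 : ℍ)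
    (h : ∀ q : Q N, f ((q.out)⁻¹ • z0) = 0) (γ : SL(2, ℤ)) : f (γ • z0) = 0 := by
  have h1 : cosetFun N k f ((γ⁻¹ : SL(2, ℤ)) : Q N) z0 = 0 := by
    rw [g1_cosetFun_apply, h, mul_zero]
  rw [cosetFun_mk (isInv_of_mem_MF hf), inv_inv, SL_slash_apply] at h1
  rcases mul_eq_zero.mp h1 with h2 | h2
  · exact h2
  · exact absurd h2 (zpow_ne_zero _ (denom_ne_zero γ z0))

/-! ### Weights of a homogeneous basis -/

/-- A graded family of spaces of modular forms of level `Γ₀(N)`, stable under multiplication by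
`ℂ[E4, E6]` (examples: `MF N`, `CF N`). -/
structure G1Mod (N : ℕ) (M : ℤ → Submodule ℂ (ℍ → ℂ)) : Prop where
  le : ∀ w, M w ≤ MF N w
  mul : ∀ (w u : ℤ) (r g : ℍ → ℂ), r ∈ wtSpan ℂ E4 E6 w → g ∈ M u → r * g ∈ M (w + u)

theorem g1Mod_MF (N : ℕ) : G1Mod N (MF N) where
  le := fun _ => le_rfl
  mul := fun w _ _ _ hr hg => mul_mem_MF (g1_wtSpan_le_MF N w hr) hg

theorem g1Mod_CF (N : ℕ) : G1Mod N (CF N) where
  le := fun w => CF_le_MF N w
  mul := fun w u r g hr hg => by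
    have := mul_mem_CF hg (g1_wtSpan_le_MF N w hr)
    rwa [mul_comm, add_comm] at this

section basis

variable [NeZero N] {M : ℤ → Submodule ℂ (ℍ → ℂ)} {ι : Type*} [Fintype ι] {d : ι → ℤ}
  {b : ι → ℍ → ℂ}

omit [NeZero N] in
theorem g1_basis_ne_zero (hb : IsHomBasis E4 E6 M d b) (i : ι) : b i ≠ 0 := by
  classical
  intro h0
  have h1 := hb.indep (d i) (fun j => if j = i then 1 else 0) (fun j => by
    split_ifs with hj
    · subst hj
      rw [sub_self]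
      exact one_mem_wtSpan_zero E4 E6
    · exact Submodule.zero_mem _) (by
    refine Finset.sum_eq_zero fun j _ => ?_
    split_ifs with hj
    · subst hj; rw [h0, mul_zero]
    · rw [zero_mul]) i
  rw [if_pos rfl] at h1
  exact one_ne_zero h1

theorem g1_weight_nonneg (hM : G1Mod N M) (hb : IsHomBasis E4 E6 M d b) (i : ι) : 0 ≤ d i := by
  by_contra h
  exact g1_basis_ne_zero hb i (eq_zero_of_mem_MF_of_neg (not_le.mp h) (hM.le _ (hb.mem i)))

omit [NeZero N] in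
theorem g1_weight_even (hM : G1Mod N M) (hb : IsHomBasis E4 E6 M d b) (i : ι) : Even (d i) := by
  by_contra h
  exact g1_basis_ne_zero hb i
    (eq_zero_of_mem_MF_of_odd (Int.not_even_iff_odd.mp h) (hM.le _ (hb.mem i)))

omit [NeZero N] [Fintype ι] in
/-- The row vector of `b i` at `z0`. -/
def g1_row (N : ℕ) (d : ι → ℤ) (b : ι → ℍ → ℂ) (z0 : ℍ) (i : ι) : Q N → ℂ :=
  fun q => cosetFun N (d i) (b i) q z0

omit [NeZero N] [Fintype ι] in
/-- If `σ` fixes `z0`, the row vectors at `z0` are eigenvectors of the permutation operator of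
`σ⁻¹`. -/
theorem g1_row_eigen (hbM : ∀ i, b i ∈ MF N (d i)) (z0 : ℍ) (σ : SL(2, ℤ)) (hσ : σ • z0 = z0)
    (i : ι) :
    (LinearMap.funLeft ℂ ℂ (MulAction.toPerm σ⁻¹ : Equiv.Perm (Q N)) : Module.End ℂ (Q N → ℂ))
      (g1_row N d b z0 i) = (denom σ z0 ^ (-(d i))) • g1_row N d b z0 i := by
  funext q
  have h := g1_cosetFun_apply_smul (hbM i) σ q z0
  rw [hσ] at h
  have h2 : (LinearMap.funLeft ℂ ℂ (MulAction.toPerm σ⁻¹ : Equiv.Perm (Q N)) :
      Module.End ℂ (Q N → ℂ)) (g1_row N d b z0 i) q = g1_row N d b z0 i (σ⁻¹ • q) := rfl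
  rw [h2, Pi.smul_apply, smul_eq_mul]
  unfold g1_row
  rw [h, ← mul_assoc, ← zpow_add₀ (denom_ne_zero σ z0), neg_add_cancel, zpow_zero, one_mul]

theorem g1_indep_of_fixed [DecidableEq ι] (hM : G1Mod N M) (hb : IsHomBasis E4 E6 M d b)
    (z0 : ℍ) (σ : SL(2, ℤ)) (hσ : σ • z0 = z0) (n : ℕ) (hn : 2 ≤ n)
    (hζ : IsPrimitiveRoot (denom σ z0) n)
    (hE : ∀ m : ℤ, 4 ≤ m → (n : ℤ) ∣ m → ∃ e ∈ wtSpan ℂ E4 E6 m, e z0 ≠ 0)
    (p : ℤ) (P : ℍ → ℂ) (hP : P ∈ wtSpan ℂ E4 E6 p) (hP0 : P z0 = 0)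
    (hDiv : ∀ (K : ℤ) (G : ℍ → ℂ), G ∈ M K → (∀ γ : SL(2, ℤ), G (γ • z0) = 0) →
      ∃ H ∈ M (K - p), G = P * H)
    (c : ι → ℂ) (hc : ∀ q : Q N, ∑ i, c i * cosetFun N (d i) (b i) q z0 = 0) :
    ∀ i, c i = 0 := by
  classical
  intro i0
  set ζ : ℂ := denom σ z0 with hζdef
  have hζ0 : ζ ≠ 0 := denom_ne_zero σ z0
  set T : Module.End ℂ (Q N → ℂ) :=
    LinearMap.funLeft ℂ ℂ (MulAction.toPerm σ⁻¹ : Equiv.Perm (Q N)) with hT
  have hsum : ∑ i ∈ Finset.univ, c i • g1_row N d b z0 i = 0 := by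
    funext q
    rw [Finset.sum_apply, Pi.zero_apply, ← hc q]
    refine Finset.sum_congr rfl fun i _ => ?_
    rw [Pi.smul_apply, smul_eq_mul, g1_row]
  have hsplit := g1_sum_filter_eq_zero_of_eigen Finset.univ T (g1_row N d b z0)
    (fun i => ζ ^ (-(d i))) (fun i _ => g1_row_eigen (fun i => hM.le _ (hb.mem i)) z0 σ hσ i) c hsum (ζ ^ (-(d i0)))
  set s : Finset ι := Finset.univ.filter (fun i => ζ ^ (-(d i)) = ζ ^ (-(d i0))) with hs
  have hi0 : i0 ∈ s := by rw [hs, Finset.mem_filter]; exact ⟨Finset.mem_univ _, rfl⟩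
  have hdvd : ∀ i ∈ s, (n : ℤ) ∣ d i0 - d i := by
    intro i hi
    rw [hs, Finset.mem_filter] at hi
    have h1 : ζ ^ (d i0 - d i) = 1 := by
      rw [sub_eq_add_neg, zpow_add₀ hζ0, hi.2, ← zpow_add₀ hζ0, add_neg_cancel, zpow_zero]
    exact (hζ.zpow_eq_one_iff_dvd _).mp h1
  have hd0 : ∀ i, 0 ≤ d i := g1_weight_nonneg hM hb
  set D : ℤ := ∑ j, d j with hD
  have hdD : ∀ i, d i ≤ D := fun i =>
    Finset.single_le_sum (fun j _ => hd0 j) (Finset.mem_univ i)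
  have hD0 : 0 ≤ D := Finset.sum_nonneg fun j _ => hd0 j
  set K0 : ℤ := d i0 + n * (2 + D) with hK0
  have hn' : (2 : ℤ) ≤ n := by exact_mod_cast hn
  have hex : ∀ i, ∃ e : ℍ → ℂ, i ∈ s → (e ∈ wtSpan ℂ E4 E6 (K0 - d i) ∧ e z0 ≠ 0) := by
    intro i
    by_cases hi : i ∈ s
    · have h4 : 4 ≤ K0 - d i := by
        have h1 : (n : ℤ) * (2 + D) = 2 * n + n * D := by ring
        have h2 : D ≤ n * D := by nlinarith
        have := hdD i
        have := hd0 i0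
        rw [hK0, h1]
        linarith
      have hdv : (n : ℤ) ∣ K0 - d i := by
        have e : K0 - d i = (d i0 - d i) + n * (2 + D) := by rw [hK0]; ring
        rw [e]
        exact dvd_add (hdvd i hi) (dvd_mul_right _ _)
      obtain ⟨e, he, he0⟩ := hE _ h4 hdv
      exact ⟨e, fun _ => ⟨he, he0⟩⟩
    · exact ⟨0, fun h => absurd h hi⟩
  choose e he using hex
  have hRM : ∀ (w u : ℤ) (r g : ℍ → ℂ), r ∈ wtSpan ℂ E4 E6 w → g ∈ M u → r * g ∈ M (w + u) :=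
    hM.mul
  have hj : ∀ q : Q N, denom ((q.out)⁻¹ : SL(2, ℤ)) z0 ≠ 0 := fun q => denom_ne_zero _ z0
  have hR : ∀ (w : ℤ) (r : ℍ → ℂ), r ∈ wtSpan ℂ E4 E6 w → ∀ q : Q N,
      r (((q.out)⁻¹ : SL(2, ℤ)) • z0) = denom ((q.out)⁻¹ : SL(2, ℤ)) z0 ^ w * r z0 :=
    fun w r hr q => g1_apply_smul_of_mem_MF1 (g1_wtSpan_le_MF1 w hr) _ z0
  have hPR : ∀ (w : ℤ) (r : ℍ → ℂ), r ∈ wtSpan ℂ E4 E6 w → P * r ∈ wtSpan ℂ E4 E6 (w + p) :=
    fun w r hr => by rw [add_comm]; exact g1_wtSpan_mul hP hr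
  have hDiv' : ∀ (K : ℤ) (G : ℍ → ℂ), G ∈ M K →
      (∀ q : Q N, G (((q.out)⁻¹ : SL(2, ℤ)) • z0) = 0) → ∃ H ∈ M (K - p), G = P * H :=
    fun K G hG hGz => hDiv K G hG (g1_eq_zero_on_orbit (hM.le _ hG) z0 hGz)
  have hc' : ∀ q : Q N, ∑ i ∈ s, c i * (denom ((q.out)⁻¹ : SL(2, ℤ)) z0 ^ (-(d i)) *
      b i (((q.out)⁻¹ : SL(2, ℤ)) • z0)) = 0 := by
    intro q
    have := congrFun hsplit q
    rw [Finset.sum_apply, Pi.zero_apply] at this
    rw [← this]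
    refine Finset.sum_congr rfl fun i _ => ?_
    rw [Pi.smul_apply, smul_eq_mul, g1_row, g1_cosetFun_apply]
  exact g1_coeff_eq_zero_of_division (X := ℍ) (ι := ι) (Q := Q N)
    (fun w => wtSpan ℂ E4 E6 w) M b d
    hb.indep hb.gen hb.mem hRM z0 (fun q => ((q.out)⁻¹ : SL(2, ℤ)) • z0)
    (fun q => denom ((q.out)⁻¹ : SL(2, ℤ)) z0) hj hR p P hP0 hPR hDiv'
    s K0 e (fun i hi => (he i hi).1) (fun i hi => (he i hi).2) c hc' i0 hi0

end basis

/-! ### The three cases and the main theorem -/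

section cases

variable [NeZero N] {M : ℤ → Submodule ℂ (ℍ → ℂ)} {ι : Type*} [Fintype ι] {d : ι → ℤ}
  {b : ι → ℍ → ℂ}

theorem g1_jNum_mem (z0 : ℍ) : Ramanujan.jNum z0 ∈ wtSpan ℂ E4 E6 12 := by
  have h1 : Ramanujan.jNum z0 = (Dl z0 - E4 z0 ^ 3 / 1728) • (E4 ^ 3 * E6 ^ 0) +
      (E4 z0 ^ 3 / 1728) • (E4 ^ 0 * E6 ^ 2) := by
    funext z
    rw [Ramanujan.jNum_apply]
    simp only [Pi.add_apply, Pi.smul_apply, Pi.pow_apply, smul_eq_mul, pow_zero,
      mul_one, one_mul]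
    have hz : (ModularForm.discriminant z : ℂ) = (E4 z ^ 3 - E6 z ^ 2) / 1728 := Dl_apply z
    have hz0 : (ModularForm.discriminant z0 : ℂ) = Dl z0 := rfl
    rw [hz, hz0]
    show Dl z0 * E4 z ^ 3 - E4 z0 ^ 3 * ((E4 z ^ 3 - E6 z ^ 2) / 1728) = _
    ring
  rw [h1]
  refine Submodule.add_mem _ (Submodule.smul_mem _ _ ?_) (Submodule.smul_mem _ _ ?_)
  · exact monomial_mem_wtSpan E4 E6 3 0 (by norm_num)
  · exact monomial_mem_wtSpan E4 E6 0 2 (by norm_num)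

theorem g1_jNum_self (z0 : ℍ) : Ramanujan.jNum z0 z0 = 0 := by
  rw [Ramanujan.jNum_apply]; ring

theorem g1_neg_one_smul (z : ℍ) : (-1 : SL(2, ℤ)) • z = z := by
  rw [ModularGroup.SL_neg_smul, one_smul]

theorem g1_denom_neg_one (z : ℍ) : denom ((-1 : SL(2, ℤ)) : SL(2, ℤ)) z = -1 := by
  rw [ModularGroup.denom_apply]
  simp

/-- Existence of a level-one form of even weight `m ≥ 4` not vanishing at a generic point. -/
theorem g1_exists_generic (z0 : ℍ) (h4 : E4 z0 ≠ 0) (h6 : E6 z0 ≠ 0) (m : ℤ) (hm : 4 ≤ m)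
    (h2 : (2 : ℤ) ∣ m) : ∃ e ∈ wtSpan ℂ E4 E6 m, e z0 ≠ 0 := by
  obtain ⟨t, rfl⟩ := h2
  rcases Int.even_or_odd' t with ⟨u, rfl | rfl⟩
  · refine ⟨E4 ^ u.toNat * E6 ^ 0, monomial_mem_wtSpan E4 E6 u.toNat 0 ?_, ?_⟩
    · have : (u.toNat : ℤ) = u := Int.toNat_of_nonneg (by omega)
      rw [this]; push_cast; ring
    · simp only [pow_zero, mul_one, Pi.pow_apply]
      exact pow_ne_zero _ h4
  · refine ⟨E4 ^ (u - 1).toNat * E6 ^ 1, monomial_mem_wtSpan E4 E6 (u - 1).toNat 1 ?_, ?_⟩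
    · have : ((u - 1).toNat : ℤ) = u - 1 := Int.toNat_of_nonneg (by omega)
      rw [this]; push_cast; ring
    · simp only [pow_one, Pi.mul_apply, Pi.pow_apply]
      exact mul_ne_zero (pow_ne_zero _ h4) h6

/-- Independence at a generic point. -/
theorem g1_indep_generic [DecidableEq ι] (hM : G1Mod N M) (hb : IsHomBasis E4 E6 M d b)
    (z0 : ℍ) (h4 : E4 z0 ≠ 0) (h6 : E6 z0 ≠ 0)
    (hDiv : ∀ (K : ℤ) (G : ℍ → ℂ), G ∈ M K → (∀ γ : SL(2, ℤ), G (γ • z0) = 0) →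
      ∃ H ∈ M (K - 12), G = Ramanujan.jNum z0 * H)
    (c : ι → ℂ) (hc : ∀ q : Q N, ∑ i, c i * cosetFun N (d i) (b i) q z0 = 0) :
    ∀ i, c i = 0 := by
  refine g1_indep_of_fixed hM hb z0 (-1) (g1_neg_one_smul z0) 2 le_rfl ?_ ?_ 12
    (Ramanujan.jNum z0) (g1_jNum_mem z0) (g1_jNum_self z0) hDiv c hc
  · rw [g1_denom_neg_one]
    exact IsPrimitiveRoot.neg_one 0 (by norm_num)
  · intro m hm h2
    exact g1_exists_generic z0 h4 h6 m hm (by exact_mod_cast h2)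

theorem g1_E4_I_ne_zero : E4 UpperHalfPlane.I ≠ 0 := by
  rcases E4_ne_zero_or_E6_ne_zero UpperHalfPlane.I with h | h
  · exact h
  · exact absurd Ramanujan.E₆_I h

theorem g1_E6_rho_ne_zero : E6 Ramanujan.rho ≠ 0 := by
  rcases E4_ne_zero_or_E6_ne_zero Ramanujan.rho with h | h
  · exact absurd Ramanujan.E₄_rho h
  · exact h

/-- Independence at `i`. -/
theorem g1_indep_I [DecidableEq ι] (hM : G1Mod N M) (hb : IsHomBasis E4 E6 M d b)
    (hDiv : ∀ (K : ℤ) (G : ℍ → ℂ), G ∈ M K →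
      (∀ γ : SL(2, ℤ), G (γ • UpperHalfPlane.I) = 0) → ∃ H ∈ M (K - 6), G = E6 * H)
    (c : ι → ℂ)
    (hc : ∀ q : Q N, ∑ i, c i * cosetFun N (d i) (b i) q UpperHalfPlane.I = 0) :
    ∀ i, c i = 0 := by
  refine g1_indep_of_fixed hM hb UpperHalfPlane.I ModularGroup.S Ramanujan.S_smul_I 4 (by norm_num)
    ?_ ?_ 6 E6 ?_ Ramanujan.E₆_I hDiv c hc
  · rw [Ramanujan.denom_S_I]
    exact Complex.isPrimitiveRoot_I
  · rintro m hm ⟨t, rfl⟩
    refine ⟨E4 ^ t.toNat, ?_, ?_⟩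
    · have h := g1_E4_pow_mem t.toNat
      have : (t.toNat : ℤ) = t := Int.toNat_of_nonneg (by omega)
      rw [this] at h
      exact_mod_cast h
    · rw [Pi.pow_apply]
      exact pow_ne_zero _ g1_E4_I_ne_zero
  · have := g1_E6_pow_mem 1
    simpa using this

theorem g1_isPrimitiveRoot_rho_add_one : IsPrimitiveRoot ((Ramanujan.rho : ℂ) + 1) 6 := by
  have h6 := Ramanujan.rho_add_one_pow_six
  have h3 := Ramanujan.rho_add_one_cube
  have h2 := Ramanujan.rho_add_one_sq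
  have hρ1 : (Ramanujan.rho : ℂ) ≠ 1 := by
    intro h
    have := congrArg Complex.re h
    rw [Ramanujan.coe_rho] at this
    simp at this
    norm_num at this
  have hord : orderOf ((Ramanujan.rho : ℂ) + 1) ∣ 6 := orderOf_dvd_of_pow_eq_one h6
  have hn2 : ¬ orderOf ((Ramanujan.rho : ℂ) + 1) ∣ 2 := by
    intro h
    have := (orderOf_dvd_iff_pow_eq_one).mp h
    rw [h2] at this
    exact hρ1 this
  have hn3 : ¬ orderOf ((Ramanujan.rho : ℂ) + 1) ∣ 3 := by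
    intro h
    have := (orderOf_dvd_iff_pow_eq_one).mp h
    rw [h3] at this
    norm_num at this
  have hmem : orderOf ((Ramanujan.rho : ℂ) + 1) ∈ Nat.divisors 6 :=
    Nat.mem_divisors.mpr ⟨hord, by norm_num⟩
  have hdiv : Nat.divisors 6 = {1, 2, 3, 6} := by decide
  rw [hdiv] at hmem
  simp only [Finset.mem_insert, Finset.mem_singleton] at hmem
  have h := IsPrimitiveRoot.orderOf ((Ramanujan.rho : ℂ) + 1)
  rcases hmem with h1 | h1 | h1 | h1
  · exact absurd (by rw [h1]; norm_num) hn2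
  · exact absurd (by rw [h1]) hn2
  · exact absurd (by rw [h1]) hn3
  · rwa [h1] at h

/-- Independence at `ρ`. -/
theorem g1_indep_rho [DecidableEq ι] (hM : G1Mod N M) (hb : IsHomBasis E4 E6 M d b)
    (hDiv : ∀ (K : ℤ) (G : ℍ → ℂ), G ∈ M K →
      (∀ γ : SL(2, ℤ), G (γ • Ramanujan.rho) = 0) → ∃ H ∈ M (K - 4), G = E4 * H)
    (c : ι → ℂ)
    (hc : ∀ q : Q N, ∑ i, c i * cosetFun N (d i) (b i) q Ramanujan.rho = 0) :
    ∀ i, c i = 0 := by
  refine g1_indep_of_fixed hM hb Ramanujan.rho (ModularGroup.S * ModularGroup.T)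
    Ramanujan.ST_smul_rho 6 (by norm_num) ?_ ?_ 4 E4 ?_ Ramanujan.E₄_rho hDiv c hc
  · rw [Ramanujan.denom_ST]
    exact g1_isPrimitiveRoot_rho_add_one
  · rintro m hm ⟨t, rfl⟩
    refine ⟨E6 ^ t.toNat, ?_, ?_⟩
    · have h := g1_E6_pow_mem t.toNat
      have : (t.toNat : ℤ) = t := Int.toNat_of_nonneg (by omega)
      rw [this] at h
      exact_mod_cast h
    · rw [Pi.pow_apply]
      exact pow_ne_zero _ g1_E6_rho_ne_zero
  · have := g1_E4_pow_mem 1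
    simpa using this

omit [NeZero N] [Fintype ι] in
/-- Independence of the rows is invariant under `SL(2, ℤ)`-translation of the point. -/
theorem g1_indep_smul [Fintype ι] (hbM : ∀ i, b i ∈ MF N (d i)) (z0 : ℍ) (γ : SL(2, ℤ))
    (h : ∀ c : ι → ℂ, (∀ q : Q N, ∑ i, c i * cosetFun N (d i) (b i) q z0 = 0) → ∀ i, c i = 0)
    (c : ι → ℂ) (hc : ∀ q : Q N, ∑ i, c i * cosetFun N (d i) (b i) q (γ • z0) = 0) :
    ∀ i, c i = 0 := by
  have h1 := h (fun i => c i * denom γ z0 ^ (d i)) (fun q => by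
    have := hc (γ • q)
    rw [← this]
    refine Finset.sum_congr rfl fun i _ => ?_
    rw [g1_cosetFun_apply_smul (hbM i), inv_smul_smul, mul_assoc])
  intro i
  rcases mul_eq_zero.mp (h1 i) with h2 | h2
  · exact h2
  · exact absurd h2 (zpow_ne_zero _ (denom_ne_zero γ z0))

/-- The inputs of WP G1 from the level-one work packages (C: zero sets of `E4`, `E6`;
E: division lemmas). -/
structure G1Hyp (M : ℤ → Submodule ℂ (ℍ → ℂ)) : Prop where
  zeroE4 : ∀ z : ℍ, E4 z = 0 → ∃ γ : SL(2, ℤ), γ • Ramanujan.rho = z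
  zeroE6 : ∀ z : ℍ, E6 z = 0 → ∃ γ : SL(2, ℤ), γ • UpperHalfPlane.I = z
  divP : ∀ z0 : ℍ, E4 z0 ≠ 0 → E6 z0 ≠ 0 → ∀ (K : ℤ) (G : ℍ → ℂ), G ∈ M K →
    (∀ γ : SL(2, ℤ), G (γ • z0) = 0) → ∃ H ∈ M (K - 12), G = Ramanujan.jNum z0 * H
  divE6 : ∀ (K : ℤ) (G : ℍ → ℂ), G ∈ M K →
    (∀ γ : SL(2, ℤ), G (γ • UpperHalfPlane.I) = 0) → ∃ H ∈ M (K - 6), G = E6 * H
  divE4 : ∀ (K : ℤ) (G : ℍ → ℂ), G ∈ M K →
    (∀ γ : SL(2, ℤ), G (γ • Ramanujan.rho) = 0) → ∃ H ∈ M (K - 4), G = E4 * H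

/-- **Pointwise independence**: at every point of the upper half plane the coset vectors of a
homogeneous basis are linearly independent. -/
theorem g1_indep (hM : G1Mod N M) (hyp : G1Hyp M) (hb : IsHomBasis E4 E6 M d b) (z0 : ℍ)
    (c : ι → ℂ) (hc : ∀ q : Q N, ∑ i, c i * cosetFun N (d i) (b i) q z0 = 0) :
    ∀ i, c i = 0 := by
  classical
  by_cases h4 : E4 z0 = 0
  · obtain ⟨γ, rfl⟩ := hyp.zeroE4 z0 h4
    exact g1_indep_smul (fun i => hM.le _ (hb.mem i)) _ γ (g1_indep_rho hM hb hyp.divE4) c hc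
  by_cases h6 : E6 z0 = 0
  · obtain ⟨γ, rfl⟩ := hyp.zeroE6 z0 h6
    exact g1_indep_smul (fun i => hM.le _ (hb.mem i)) _ γ (g1_indep_I hM hb hyp.divE6) c hc
  exact g1_indep_generic hM hb z0 h4 h6 (hyp.divP z0 h4 h6) c hc

theorem g1_linearIndependent_row (hM : G1Mod N M) (hyp : G1Hyp M)
    (hb : IsHomBasis E4 E6 M d b)
    (z0 : ℍ) : LinearIndependent ℂ (g1_row N d b z0) := by
  rw [Fintype.linearIndependent_iff]
  intro c hc
  refine g1_indep hM hyp hb z0 c fun q => ?_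
  have := congrFun hc q
  rw [Finset.sum_apply, Pi.zero_apply] at this
  rw [← this]
  refine Finset.sum_congr rfl fun i _ => ?_
  rw [Pi.smul_apply, smul_eq_mul, g1_row]

/-- The number of basis elements is at most the index. -/
theorem g1_card_le (hM : G1Mod N M) (hyp : G1Hyp M) (hb : IsHomBasis E4 E6 M d b) :
    Fintype.card ι ≤ Fintype.card (Q N) := by
  have h := (g1_linearIndependent_row hM hyp hb UpperHalfPlane.I).fintype_card_le_finrank
  rwa [Module.finrank_fintype_fun_eq_card] at h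

end cases

end

end Fermat.Agent.Lib.RR
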