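import Mathlib

set_option autoImplicit false

/-!
# Eigenspaces of finite-order operators and of permutation operators (WP G1 / A)

* `g1_finrank_eigenspace_of_pow_eq_one`: if `T ^ n = 1` and `ζ ^ n = 1` then
  `n * dim (eigenspace T ζ) = ∑ j < n, ζ⁻¹ ^ j * trace (T ^ j)`.
* `g1_trace_funLeft`: the trace of the permutation operator `v ↦ v ∘ σ` is the number of fixed
  points of `σ`.
-/

namespace Fermat.Agent.Lib.RR

open Module

section finiteOrder

variable {V : Type*} [AddCommGroup V] [Module ℂ V] [FiniteDimensional ℂ V]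

/-- The averaging projector onto the `ζ`-eigenspace of an operator of finite order. -/
noncomputable def g1_avgProj (T : End ℂ V) (n : ℕ) (ζ : ℂ) : End ℂ V :=
  (n : ℂ)⁻¹ • ∑ j ∈ Finset.range n, (ζ⁻¹) ^ j • T ^ j

omit [FiniteDimensional ℂ V] in
theorem g1_isProj_avgProj (T : End ℂ V) {n : ℕ} (hn : n ≠ 0) {ζ : ℂ} (hT : T ^ n = 1)
    (hζ : ζ ^ n = 1) : LinearMap.IsProj (End.eigenspace T ζ) (g1_avgProj T n ζ) := by
  have hζ0 : ζ ≠ 0 := by
    rintro rfl
    rw [zero_pow hn] at hζ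
    exact zero_ne_one hζ
  have hn' : (n : ℂ) ≠ 0 := Nat.cast_ne_zero.mpr hn
  constructor
  · intro x
    rw [End.mem_eigenspace_iff]
    have key : T * ∑ j ∈ Finset.range n, (ζ⁻¹) ^ j • T ^ j =
        ζ • ∑ j ∈ Finset.range n, (ζ⁻¹) ^ j • T ^ j := by
      have h1 : T * ∑ j ∈ Finset.range n, (ζ⁻¹) ^ j • T ^ j =
          ζ • ∑ j ∈ Finset.range n, (ζ⁻¹) ^ (j + 1) • T ^ (j + 1) := by
        rw [Finset.mul_sum, Finset.smul_sum]
        refine Finset.sum_congr rfl fun j _ => ?_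
        have hsc : ζ * (ζ⁻¹) ^ (j + 1) = (ζ⁻¹) ^ j := by
          rw [pow_succ, ← mul_assoc, mul_comm ζ, mul_assoc, mul_inv_cancel₀ hζ0, mul_one]
        rw [mul_smul_comm, smul_smul, ← pow_succ', hsc]
      have h2 : ∑ j ∈ Finset.range n, (ζ⁻¹) ^ (j + 1) • T ^ (j + 1) =
          ∑ j ∈ Finset.range n, (ζ⁻¹) ^ j • T ^ j := by
        have h3 := Finset.sum_range_succ' (fun j => (ζ⁻¹) ^ j • T ^ j) n
        have h4 := Finset.sum_range_succ (fun j => (ζ⁻¹) ^ j • T ^ j) n
        have hζinv : (ζ⁻¹) ^ n = 1 := by rw [inv_pow, hζ, inv_one]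
        rw [h4] at h3
        simp only [pow_zero, one_smul, hT, hζinv] at h3
        exact (add_right_cancel h3).symm
      rw [h1, h2]
    have := congrArg (fun A : End ℂ V => A x) key
    simp only [g1_avgProj, LinearMap.smul_apply, map_smul] at this ⊢
    rw [smul_comm ζ]
    exact congrArg _ this
  · intro x hx
    rw [End.mem_eigenspace_iff] at hx
    have hpow : ∀ j : ℕ, (T ^ j) x = ζ ^ j • x := by
      intro j
      induction j with
      | zero => simp
      | succ j ih => rw [pow_succ', Module.End.mul_apply, ih, map_smul, hx, smul_smul, pow_succ]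
    simp only [g1_avgProj, LinearMap.smul_apply, LinearMap.sum_apply, hpow, smul_smul]
    have : ∀ j ∈ Finset.range n, ((ζ⁻¹) ^ j * ζ ^ j) • x = x := by
      intro j _
      rw [← mul_pow, inv_mul_cancel₀ hζ0, one_pow, one_smul]
    rw [Finset.sum_congr rfl this, Finset.sum_const, Finset.card_range, ← Nat.cast_smul_eq_nsmul ℂ,
      smul_smul, inv_mul_cancel₀ hn', one_smul]

/-- `n * dim (eigenspace T ζ) = ∑ j < n, ζ⁻¹ ^ j * trace (T ^ j)` for `T ^ n = 1`, `ζ ^ n = 1`. -/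
theorem g1_finrank_eigenspace_of_pow_eq_one (T : End ℂ V) {n : ℕ} (hn : n ≠ 0) {ζ : ℂ}
    (hT : T ^ n = 1) (hζ : ζ ^ n = 1) :
    (n : ℂ) * (finrank ℂ (End.eigenspace T ζ) : ℂ) =
      ∑ j ∈ Finset.range n, (ζ⁻¹) ^ j * LinearMap.trace ℂ V (T ^ j) := by
  have hproj := g1_isProj_avgProj T hn hT hζ
  have htr := hproj.trace
  have hn' : (n : ℂ) ≠ 0 := Nat.cast_ne_zero.mpr hn
  rw [← htr, g1_avgProj, map_smul, map_sum, smul_eq_mul, ← mul_assoc, mul_inv_cancel₀ hn', one_mul]
  refine Finset.sum_congr rfl fun j _ => ?_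
  rw [map_smul, smul_eq_mul]

end finiteOrder

section perm

variable {Q : Type*} [Fintype Q] [DecidableEq Q]

theorem g1_funLeft_eq_toLin' (σ : Equiv.Perm Q) :
    (LinearMap.funLeft ℂ ℂ σ : (Q → ℂ) →ₗ[ℂ] (Q → ℂ)) = Matrix.toLin' (σ.permMatrix ℂ) := by
  refine LinearMap.ext fun v => funext fun q => ?_
  rw [LinearMap.funLeft_apply, Matrix.toLin'_apply, Matrix.permMatrix_mulVec, Function.comp_apply]

/-- The trace of a permutation operator is the number of fixed points. -/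
theorem g1_trace_funLeft (σ : Equiv.Perm Q) :
    LinearMap.trace ℂ (Q → ℂ) (LinearMap.funLeft ℂ ℂ σ) = (Function.fixedPoints σ).ncard := by
  rw [g1_funLeft_eq_toLin', Matrix.trace_toLin'_eq, Matrix.trace_permutation]

omit [Fintype Q] [DecidableEq Q] in
theorem g1_funLeft_pow (σ : Equiv.Perm Q) (j : ℕ) :
    (LinearMap.funLeft ℂ ℂ σ : End ℂ (Q → ℂ)) ^ j = LinearMap.funLeft ℂ ℂ (σ ^ j : Equiv.Perm Q) := by
  induction j with
  | zero =>
    refine LinearMap.ext fun v => funext fun q => ?_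
    simp [LinearMap.funLeft_apply]
  | succ j ih =>
    rw [pow_succ, ih]
    refine LinearMap.ext fun v => funext fun q => ?_
    rw [Module.End.mul_apply, LinearMap.funLeft_apply, LinearMap.funLeft_apply,
      LinearMap.funLeft_apply, pow_succ', Equiv.Perm.mul_apply]

/-- Dimension of the `ζ`-eigenspace of the permutation operator of a permutation of order
dividing `n`. -/
theorem g1_finrank_eigenspace_funLeft (σ : Equiv.Perm Q) {n : ℕ} (hn : n ≠ 0) {ζ : ℂ}
    (hσ : σ ^ n = 1) (hζ : ζ ^ n = 1) :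
    (n : ℂ) * (finrank ℂ (End.eigenspace (LinearMap.funLeft ℂ ℂ σ : End ℂ (Q → ℂ)) ζ) : ℂ) =
      ∑ j ∈ Finset.range n,
        (ζ⁻¹) ^ j * ((Function.fixedPoints (σ ^ j : Equiv.Perm Q)).ncard : ℂ) := by
  have hT : (LinearMap.funLeft ℂ ℂ σ : End ℂ (Q → ℂ)) ^ n = 1 := by
    rw [g1_funLeft_pow, hσ]
    refine LinearMap.ext fun v => funext fun q => ?_
    simp [LinearMap.funLeft_apply]
  rw [g1_finrank_eigenspace_of_pow_eq_one _ hn hT hζ]
  refine Finset.sum_congr rfl fun j _ => ?_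
  rw [g1_funLeft_pow, g1_trace_funLeft]

omit [DecidableEq Q] in
theorem g1_ncard_fixedPoints_one : (Function.fixedPoints ((1 : Equiv.Perm Q) : Q → Q)).ncard =
    Fintype.card Q := by
  have : Function.fixedPoints ((1 : Equiv.Perm Q) : Q → Q) = Set.univ := by
    ext q
    simp
  rw [this, Set.ncard_univ, Nat.card_eq_fintype_card]

/-- Involution: `2 * dim E(1) = |Q| + #Fix`. -/
theorem g1_two_mul_finrank_eigenspace_one (σ : Equiv.Perm Q) (hσ : σ ^ 2 = 1) :
    2 * finrank ℂ (End.eigenspace (LinearMap.funLeft ℂ ℂ σ : End ℂ (Q → ℂ)) 1) =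
      Fintype.card Q + (Function.fixedPoints σ).ncard := by
  have h := g1_finrank_eigenspace_funLeft σ (n := 2) two_ne_zero hσ (one_pow 2)
  simp only [Finset.sum_range_succ, Finset.sum_range_zero, inv_one, one_pow, one_mul, pow_zero,
    pow_one, zero_add, g1_ncard_fixedPoints_one] at h
  exact_mod_cast h

/-- Involution: `2 * dim E(-1) + #Fix = |Q|`. -/
theorem g1_two_mul_finrank_eigenspace_neg_one (σ : Equiv.Perm Q) (hσ : σ ^ 2 = 1) :
    2 * finrank ℂ (End.eigenspace (LinearMap.funLeft ℂ ℂ σ : End ℂ (Q → ℂ)) (-1)) +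
      (Function.fixedPoints σ).ncard = Fintype.card Q := by
  have h := g1_finrank_eigenspace_funLeft σ (n := 2) (ζ := -1) two_ne_zero hσ (by norm_num)
  simp only [Finset.sum_range_succ, Finset.sum_range_zero, pow_zero, pow_one, zero_add, one_mul,
    g1_ncard_fixedPoints_one] at h
  have h' : (2 : ℂ) * (finrank ℂ (End.eigenspace (LinearMap.funLeft ℂ ℂ σ : End ℂ (Q → ℂ)) (-1)) : ℂ)
      + ((Function.fixedPoints σ).ncard : ℂ) = (Fintype.card Q : ℂ) := by
    have e : ((-1 : ℂ))⁻¹ = -1 := by norm_num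
    rw [e] at h
    push_cast at h ⊢
    linear_combination h
  exact_mod_cast h'

omit [Fintype Q] [DecidableEq Q] in
theorem g1_fixedPoints_sq_of_pow_three (σ : Equiv.Perm Q) (hσ : σ ^ 3 = 1) :
    Function.fixedPoints ((σ ^ 2 : Equiv.Perm Q) : Q → Q) = Function.fixedPoints σ := by
  ext q
  simp only [Function.mem_fixedPoints, Function.IsFixedPt]
  constructor
  · intro h
    have h3 : (σ ^ 3) q = q := by rw [hσ]; rfl
    have : (σ ^ 3) q = σ ((σ ^ 2) q) := by rw [pow_succ', Equiv.Perm.mul_apply]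
    rw [this, h] at h3
    exact h3
  · intro h
    rw [pow_two, Equiv.Perm.mul_apply, h, h]

/-- Order three: `3 * dim E(1) = |Q| + 2 #Fix`. -/
theorem g1_three_mul_finrank_eigenspace_one (σ : Equiv.Perm Q) (hσ : σ ^ 3 = 1) :
    3 * finrank ℂ (End.eigenspace (LinearMap.funLeft ℂ ℂ σ : End ℂ (Q → ℂ)) 1) =
      Fintype.card Q + 2 * (Function.fixedPoints σ).ncard := by
  have h := g1_finrank_eigenspace_funLeft σ (n := 3) three_ne_zero hσ (one_pow 3)
  simp only [Finset.sum_range_succ, Finset.sum_range_zero, inv_one, one_pow, one_mul, pow_zero,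
    pow_one, zero_add, g1_ncard_fixedPoints_one, g1_fixedPoints_sq_of_pow_three σ hσ] at h
  have h' : (3 : ℂ) * (finrank ℂ (End.eigenspace (LinearMap.funLeft ℂ ℂ σ : End ℂ (Q → ℂ)) 1) : ℂ) =
      (Fintype.card Q : ℂ) + 2 * ((Function.fixedPoints σ).ncard : ℂ) := by
    push_cast at h ⊢
    linear_combination h
  exact_mod_cast h'

/-- Order three, primitive cube root of unity `ζ`: `3 * dim E(ζ) + #Fix = |Q|`. -/
theorem g1_three_mul_finrank_eigenspace_prim (σ : Equiv.Perm Q) (hσ : σ ^ 3 = 1) {ζ : ℂ}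
    (hζ : ζ ^ 2 + ζ + 1 = 0) :
    3 * finrank ℂ (End.eigenspace (LinearMap.funLeft ℂ ℂ σ : End ℂ (Q → ℂ)) ζ) +
      (Function.fixedPoints σ).ncard = Fintype.card Q := by
  have hζ3 : ζ ^ 3 = 1 := by linear_combination (ζ - 1) * hζ
  have hζ0 : ζ ≠ 0 := by
    rintro rfl
    norm_num at hζ
  have hinv : ζ⁻¹ = ζ ^ 2 := inv_eq_of_mul_eq_one_right (by linear_combination hζ3)
  have h := g1_finrank_eigenspace_funLeft σ (n := 3) three_ne_zero hσ hζ3
  simp only [Finset.sum_range_succ, Finset.sum_range_zero, pow_zero, pow_one, zero_add, one_mul,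
    g1_ncard_fixedPoints_one, g1_fixedPoints_sq_of_pow_three σ hσ, hinv] at h
  have h' : (3 : ℂ) * (finrank ℂ (End.eigenspace (LinearMap.funLeft ℂ ℂ σ : End ℂ (Q → ℂ)) ζ) : ℂ)
      + ((Function.fixedPoints σ).ncard : ℂ) = (Fintype.card Q : ℂ) := by
    have e : ζ ^ 2 + (ζ ^ 2) ^ 2 = -1 := by
      linear_combination hζ + ζ * hζ3
    push_cast at h ⊢
    linear_combination h + ((Function.fixedPoints σ).ncard : ℂ) * e
  exact_mod_cast h'

end perm

end Fermat.Agent.Lib.RR
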