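import Fermat.Agent.Lib.RR.Interface
import Fermat.Agent.Lib.RR.G1Indep
import Fermat.Agent.Lib.RR.G1Perm

/-!
# WP G1-3: counting basis weights mod 4 and mod 6 (S20)

At the elliptic points `i` and `ρ` the rows of the matrix of conjugates are eigenvectors of the
permutation operators of `S`, `ST`; since the rows form a basis, the number of rows with a given
eigenvalue is the dimension of the eigenspace, which is computed from the number of fixed cosets.
-/

namespace Fermat.Agent.Lib.RR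

open UpperHalfPlane ModularForm CongruenceSubgroup Matrix.SpecialLinearGroup Module
open scoped MatrixGroups Manifold

noncomputable section

variable {N : ℕ} [NeZero N] {ι : Type*} [Fintype ι] {κ : ι → ℤ} {β : ι → ℍ → ℂ}

/-- If the rows at a point `z0` fixed by `σ` are linearly independent and `|ι| = |Q N|`, then the
number of `i` with `denom σ z0 ^ (-κ i) = μ` is the dimension of the `μ`-eigenspace of the
permutation operator of `σ⁻¹`. -/
theorem g1c_card_eq_finrank (hmem : ∀ i, β i ∈ MF N (κ i)) (z0 : ℍ) (σ : SL(2, ℤ))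
    (hσ : σ • z0 = z0) (hli : LinearIndependent ℂ fun i => g1_row N κ β z0 i)
    (hcard : Fintype.card ι = Fintype.card (Q N)) (μ : ℂ) :
    (Finset.univ.filter fun i => denom σ z0 ^ (-(κ i)) = μ).card =
      finrank ℂ (End.eigenspace
        (LinearMap.funLeft ℂ ℂ (MulAction.toPerm σ⁻¹ : Equiv.Perm (Q N)) :
          Module.End ℂ (Q N → ℂ)) μ) := by
  classical
  have hfr : Fintype.card ι = finrank ℂ (Q N → ℂ) := by
    rw [hcard, Module.finrank_fintype_fun_eq_card]
  have : Nonempty ι := by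
    rw [← Fintype.card_pos_iff, hcard, Fintype.card_pos_iff]
    exact ⟨((1 : SL(2, ℤ)) : Q N)⟩
  set B := basisOfLinearIndependentOfCardEqFinrank hli hfr with hB
  have hBi : ∀ i, B i = g1_row N κ β z0 i := fun i => by
    rw [hB, coe_basisOfLinearIndependentOfCardEqFinrank]
  refine g1_card_eq_finrank_eigenspace _ B (fun i => denom σ z0 ^ (-(κ i))) (fun i => ?_) μ
  rw [hBi]
  exact g1_row_eigen hmem z0 σ hσ i

omit [NeZero N] in
/-- Fixed points of the permutation of `σ⁻¹` on the cosets. -/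
theorem g1c_ncard_fixedPoints (σ : SL(2, ℤ)) :
    (Function.fixedPoints ((MulAction.toPerm σ⁻¹ : Equiv.Perm (Q N)) : Q N → Q N)).ncard =
      Nat.card (MulAction.fixedBy (Q N) σ) := by
  rw [← Nat.card_coe_set_eq]
  have : Function.fixedPoints ((MulAction.toPerm σ⁻¹ : Equiv.Perm (Q N)) : Q N → Q N)
      = MulAction.fixedBy (Q N) σ := by
    ext q
    rw [← MulAction.fixedBy_inv]
    rfl
  rw [this]

omit [NeZero N] in
theorem g1c_toPerm_inv_pow (σ : SL(2, ℤ)) (n : ℕ) (hσ : σ ^ n = -1) :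
    (MulAction.toPerm σ⁻¹ : Equiv.Perm (Q N)) ^ n = 1 := by
  have hpow : (MulAction.toPerm σ⁻¹ : Equiv.Perm (Q N)) ^ n = MulAction.toPerm ((σ⁻¹) ^ n) :=
    ((MulAction.toPermHom SL(2, ℤ) (Q N)).map_pow σ⁻¹ n).symm
  ext q
  rw [hpow, inv_pow, hσ]
  have : ((-1 : SL(2, ℤ)))⁻¹ = -1 := by
    rw [inv_eq_iff_eq_inv]
    ext i j
    fin_cases i <;> fin_cases j <;> simp
  rw [this]
  exact neg_one_smul_Q q

theorem g1c_S_sq : (ModularGroup.S : SL(2, ℤ)) ^ 2 = -1 := by
  ext i j
  fin_cases i <;> fin_cases j <;>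
    simp [pow_succ, ModularGroup.S, Matrix.mul_apply, Fin.sum_univ_two]

theorem g1c_ST_cube : (ModularGroup.S * ModularGroup.T : SL(2, ℤ)) ^ 3 = -1 := by
  ext i j
  fin_cases i <;> fin_cases j <;>
    simp [pow_succ, ModularGroup.S, ModularGroup.T, Matrix.mul_apply, Fin.sum_univ_two]

/-- Count mod 4 (elliptic point `i`). -/
theorem g1c_count_mod_four (hmem : ∀ i, β i ∈ MF N (κ i))
    (hli : LinearIndependent ℂ fun i => g1_row N κ β UpperHalfPlane.I i)
    (hcard : Fintype.card ι = Fintype.card (Q N)) :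
    2 * Fintype.card {i // κ i % 4 = 0} = Fintype.card (Q N) + ModularCurve.nuTwo N := by
  classical
  have h1 := g1c_card_eq_finrank hmem UpperHalfPlane.I ModularGroup.S Ramanujan.S_smul_I hli
    hcard 1
  have h2 := g1_two_mul_finrank_eigenspace_one (MulAction.toPerm (ModularGroup.S)⁻¹ :
    Equiv.Perm (Q N)) (g1c_toPerm_inv_pow _ 2 g1c_S_sq)
  rw [g1c_ncard_fixedPoints, Cosets.card_fixedBy_S N] at h2
  rw [← h2, ← h1, Fintype.card_subtype]
  congr 2
  refine Finset.filter_congr fun i _ => ?_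
  rw [Ramanujan.denom_S_I, Complex.isPrimitiveRoot_I.zpow_eq_one_iff_dvd]
  constructor
  · intro h
    exact (dvd_neg.mpr (Int.dvd_of_emod_eq_zero h))
  · intro h
    exact Int.emod_eq_zero_of_dvd (dvd_neg.mp h)

theorem g1c_zeta_eq : (((Ramanujan.rho : ℂ) + 1) ^ (-2 : ℤ)) ^ 2
    + ((Ramanujan.rho : ℂ) + 1) ^ (-2 : ℤ) + 1 = 0 := by
  have h2 := Ramanujan.rho_add_one_sq
  have h3 := Ramanujan.rho_cube
  have h0 := Ramanujan.rho_sq_add_rho_add_one
  have hρ0 : (Ramanujan.rho : ℂ) ≠ 0 := by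
    intro h
    rw [h] at h3
    norm_num at h3
  have e : ((Ramanujan.rho : ℂ) + 1) ^ (-2 : ℤ) = (Ramanujan.rho : ℂ) ^ 2 := by
    rw [zpow_neg, show ((2 : ℤ)) = ((2 : ℕ) : ℤ) by norm_num, zpow_natCast, h2]
    exact inv_eq_of_mul_eq_one_right (by linear_combination h3)
  rw [e]
  linear_combination (Ramanujan.rho : ℂ) * h3 + h0

/-- Counts mod 6 (elliptic point `ρ`). -/
theorem g1c_count_mod_six (hmem : ∀ i, β i ∈ MF N (κ i))
    (hli : LinearIndependent ℂ fun i => g1_row N κ β Ramanujan.rho i)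
    (hcard : Fintype.card ι = Fintype.card (Q N)) :
    3 * Fintype.card {i // κ i % 6 = 0} = Fintype.card (Q N) + 2 * ModularCurve.nuThree N ∧
    3 * Fintype.card {i // κ i % 6 = 2} + ModularCurve.nuThree N = Fintype.card (Q N) := by
  classical
  have hprim := g1_isPrimitiveRoot_rho_add_one
  have hσ3 := g1c_toPerm_inv_pow (N := N) _ 3 g1c_ST_cube
  constructor
  · have h1 := g1c_card_eq_finrank hmem Ramanujan.rho (ModularGroup.S * ModularGroup.T)
      Ramanujan.ST_smul_rho hli hcard 1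
    have h2 := g1_three_mul_finrank_eigenspace_one (MulAction.toPerm
      (ModularGroup.S * ModularGroup.T)⁻¹ : Equiv.Perm (Q N)) hσ3
    rw [g1c_ncard_fixedPoints, Cosets.card_fixedBy_ST N] at h2
    rw [← h2, ← h1, Fintype.card_subtype]
    congr 2
    refine Finset.filter_congr fun i _ => ?_
    rw [Ramanujan.denom_ST, hprim.zpow_eq_one_iff_dvd]
    constructor
    · intro h
      exact (dvd_neg.mpr (Int.dvd_of_emod_eq_zero h))
    · intro h
      exact Int.emod_eq_zero_of_dvd (dvd_neg.mp h)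
  · have h1 := g1c_card_eq_finrank hmem Ramanujan.rho (ModularGroup.S * ModularGroup.T)
      Ramanujan.ST_smul_rho hli hcard (((Ramanujan.rho : ℂ) + 1) ^ (-2 : ℤ))
    have h2 := g1_three_mul_finrank_eigenspace_prim (MulAction.toPerm
      (ModularGroup.S * ModularGroup.T)⁻¹ : Equiv.Perm (Q N)) hσ3 g1c_zeta_eq
    rw [g1c_ncard_fixedPoints, Cosets.card_fixedBy_ST N] at h2
    rw [← h2, ← h1, Fintype.card_subtype]
    congr 3
    refine Finset.filter_congr fun i _ => ?_
    rw [Ramanujan.denom_ST]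
    have hne : ((Ramanujan.rho : ℂ) + 1) ≠ 0 := hprim.ne_zero (by norm_num)
    have e : ((Ramanujan.rho : ℂ) + 1) ^ (-(κ i)) = ((Ramanujan.rho : ℂ) + 1) ^ (-2 : ℤ) ↔
        ((Ramanujan.rho : ℂ) + 1) ^ (2 - κ i) = 1 := by
      rw [show (2 - κ i) = (-(κ i)) - (-2 : ℤ) by ring, zpow_sub₀ hne,
        div_eq_one_iff_eq (zpow_ne_zero _ hne)]
    rw [e, hprim.zpow_eq_one_iff_dvd]
    constructor
    · intro h
      exact ⟨-(κ i / 6), by omega⟩
    · rintro ⟨t, ht⟩
      omega

/-- **WP G1-3**: the counts of basis weights mod 4 and mod 6, given pointwise independence of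
the rows (WP G1-1). -/
theorem g1_ifaceCounts (N : ℕ) [NeZero N] (hG1 : IfaceG1Indep N (MF N)) : IfaceG1Counts N := by
  intro ι _ κ β hb hcard
  have h4 := g1c_count_mod_four hb.mem (hG1 ι κ β hb UpperHalfPlane.I) hcard
  have h6 := g1c_count_mod_six hb.mem (hG1 ι κ β hb Ramanujan.rho) hcard
  exact ⟨h4, h6.1, h6.2⟩

end

end Fermat.Agent.Lib.RR
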