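/-
S20 moonshot, level-one facts.
Part 2: a lattice in `ℂ` is determined by its Eisenstein sums `G_k`, `k ≥ 3`
(via the Weierstrass `℘`-function).
-/
import Mathlib

set_option autoImplicit false

namespace Fermat.Agent.Lib.RR

open Filter Topology
open scoped PeriodPair

/-- The lattice sums as sums over `ℤ × ℤ`. -/
lemma G_eq_tsum_prod (L : PeriodPair) (n : ℕ) :
    L.G n = ∑' x : ℤ × ℤ, (((x.1 : ℂ) * L.ω₁ + (x.2 : ℂ) * L.ω₂) ^ n)⁻¹ := by
  rw [PeriodPair.G, ← L.latticeEquivProd.symm.toEquiv.tsum_eq]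
  refine tsum_congr fun x => ?_
  simp [PeriodPair.latticeEquiv_symm_apply]

/-- Scaling a period pair. -/
noncomputable def scalePair (c : ℂ) (hc : c ≠ 0) (L : PeriodPair) : PeriodPair where
  ω₁ := c * L.ω₁
  ω₂ := c * L.ω₂
  indep := by
    have h := L.indep
    rw [LinearIndependent.pair_iff] at h ⊢
    intro s t hst
    apply h s t
    have : c * ((s : ℂ) * L.ω₁ + (t : ℂ) * L.ω₂) = 0 := by
      simp only [Complex.real_smul] at hst
      linear_combination hst
    simpa [Complex.real_smul] using (mul_eq_zero.mp this).resolve_left hc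

lemma G_scalePair (c : ℂ) (hc : c ≠ 0) (L : PeriodPair) (n : ℕ) :
    (scalePair c hc L).G n = (c ^ n)⁻¹ * L.G n := by
  rw [G_eq_tsum_prod, G_eq_tsum_prod, ← tsum_mul_left]
  refine tsum_congr fun x => ?_
  simp only [scalePair]
  rw [← mul_inv, ← mul_pow]
  congr 2
  ring

lemma weierstrassPExcept_zero_zero (L : PeriodPair) : ℘[L - (0 : ℂ)] 0 = 0 := by
  rw [PeriodPair.weierstrassPExcept]
  convert tsum_zero with l
  split_ifs <;> simp

/-- If the lattice sums agree, the `℘`-functions agree near `0`. -/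
lemma weierstrassPExcept_eventuallyEq (L L' : PeriodPair) (h : ∀ k, 3 ≤ k → L.G k = L'.G k) :
    ℘[L - (0 : ℂ)] =ᶠ[𝓝 0] ℘[L' - (0 : ℂ)] := by
  have h1 := L.hasFPowerSeriesAt_weierstrassPExcept 0
  have h2 := L'.hasFPowerSeriesAt_weierstrassPExcept 0
  have heq : (fun i : ℕ ↦ if i = 0 then ℘[L - (0 : ℂ)] 0 else (i + 1) * L.sumInvPow 0 (i + 2))
      = (fun i : ℕ ↦ if i = 0 then ℘[L' - (0 : ℂ)] 0 else (i + 1) * L'.sumInvPow 0 (i + 2)) := by
    funext i
    split_ifs with hi
    · rw [weierstrassPExcept_zero_zero, weierstrassPExcept_zero_zero]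
    · rw [PeriodPair.sumInvPow_zero, PeriodPair.sumInvPow_zero, h (i + 2) (by omega)]
  rw [heq] at h1
  have e1 := h1.eventually_hasSum
  have e2 := h2.eventually_hasSum
  have : ∀ᶠ y in 𝓝 (0 : ℂ), ℘[L - (0 : ℂ)] (0 + y) = ℘[L' - (0 : ℂ)] (0 + y) := by
    filter_upwards [e1, e2] with y hy1 hy2
    exact hy1.unique hy2
  simp only [zero_add] at this
  exact this

lemma weierstrassP_eventuallyEq (L L' : PeriodPair) (h : ∀ k, 3 ≤ k → L.G k = L'.G k) :
    ∀ᶠ z in 𝓝 (0 : ℂ), ℘[L] z = ℘[L'] z := by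
  filter_upwards [weierstrassPExcept_eventuallyEq L L' h] with z hz
  have e1 := L.weierstrassPExcept_add (0 : L.lattice) z
  have e2 := L'.weierstrassPExcept_add (0 : L'.lattice) z
  simp only [ZeroMemClass.coe_zero] at e1 e2
  rw [← e1, ← e2, hz]

lemma countable_lattice (L : PeriodPair) : (L.lattice : Set ℂ).Countable := by
  have : Countable L.lattice := L.latticeEquivProd.toEquiv.countable_iff.mpr inferInstance
  exact Set.countable_coe_iff.mp this

/-- If the lattice sums agree, the lattices are contained in one another. -/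
theorem lattice_le_of_G_eq (L L' : PeriodPair) (h : ∀ k, 3 ≤ k → L.G k = L'.G k) :
    L.lattice ≤ L'.lattice := by
  intro l hl
  by_contra hl'
  set U : Set ℂ := ((L.lattice : Set ℂ) ∪ (L'.lattice : Set ℂ))ᶜ with hU
  have hUopen : IsOpen U := (L.isClosed_lattice.union L'.isClosed_lattice).isOpen_compl
  have hcount : ((L.lattice : Set ℂ) ∪ (L'.lattice : Set ℂ)).Countable :=
    (countable_lattice L).union (countable_lattice L')
  have hUconn : IsPreconnected U :=
    (hcount.isPathConnected_compl_of_one_lt_rank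
      (by rw [Complex.rank_real_complex]; norm_num)).isConnected.isPreconnected
  have hA : AnalyticOnNhd ℂ ℘[L] U := L.analyticOnNhd_weierstrassP.mono (by
    intro x hx
    simp only [hU, Set.mem_compl_iff, Set.mem_union, not_or] at hx
    exact hx.1)
  have hA' : AnalyticOnNhd ℂ ℘[L'] U := L'.analyticOnNhd_weierstrassP.mono (by
    intro x hx
    simp only [hU, Set.mem_compl_iff, Set.mem_union, not_or] at hx
    exact hx.2)
  -- points near any `x`, other than `x`, are in `U`
  have hnearU : ∀ x : ℂ, ∀ᶠ z in 𝓝 x, z ≠ x → z ∈ U := by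
    intro x
    filter_upwards [L.compl_lattice_sdiff_singleton_mem_nhds x,
      L'.compl_lattice_sdiff_singleton_mem_nhds x] with z hz hz' hzx
    simp only [hU, Set.mem_compl_iff, Set.mem_union, not_or]
    simp only [Set.mem_compl_iff, Set.mem_sdiff, Set.mem_singleton_iff, not_and, not_not] at hz hz'
    exact ⟨fun hm => hzx (hz hm), fun hm => hzx (hz' hm)⟩
  -- a point of `U` near which the two functions agree
  obtain ⟨z0, hz0U, hz0⟩ : ∃ z0 ∈ U, ℘[L] =ᶠ[𝓝 z0] ℘[L'] := by
    have hev := (weierstrassP_eventuallyEq L L' h).and (hnearU 0)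
    obtain ⟨ε, hε, hball⟩ := Metric.eventually_nhds_iff.mp hev
    have hz0 : dist ((ε / 2 : ℝ) : ℂ) 0 < ε := by
      rw [dist_zero_right, Complex.norm_real, Real.norm_eq_abs, abs_of_pos (by positivity)]
      linarith
    have hz0ne : ((ε / 2 : ℝ) : ℂ) ≠ 0 := by
      exact_mod_cast (by positivity : (ε / 2 : ℝ) ≠ 0)
    refine ⟨((ε / 2 : ℝ) : ℂ), (hball hz0).2 hz0ne, ?_⟩
    have hopen : Metric.ball (0 : ℂ) ε ∈ 𝓝 (((ε / 2 : ℝ) : ℂ)) :=
      Metric.isOpen_ball.mem_nhds hz0
    filter_upwards [hopen] with z hz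
    exact (hball hz).1
  have hEq := hA.eqOn_of_preconnected_of_eventuallyEq hA' hUconn hz0U hz0
  have hnear : ℘[L] =ᶠ[𝓝[≠] l] ℘[L'] := by
    have := hnearU l
    rw [Filter.EventuallyEq, eventually_nhdsWithin_iff]
    filter_upwards [this] with z hz hzl
    exact hEq (hz hzl)
  have hord := meromorphicOrderAt_congr hnear
  rw [L.order_weierstrassP l hl] at hord
  have hana : AnalyticAt ℂ ℘[L'] l := L'.analyticOnNhd_weierstrassP l hl'
  have hnn : 0 ≤ meromorphicOrderAt ℘[L'] l := hana.meromorphicOrderAt_nonneg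
  rw [← hord] at hnn
  exact absurd hnn (by decide)

theorem lattice_eq_of_G_eq (L L' : PeriodPair) (h : ∀ k, 3 ≤ k → L.G k = L'.G k) :
    L.lattice = L'.lattice :=
  le_antisymm (lattice_le_of_G_eq L L' h) (lattice_le_of_G_eq L' L fun k hk => (h k hk).symm)

end Fermat.Agent.Lib.RR
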