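/-
S20 moonshot, level-one facts.
Part 1: every level-one modular form is weighted homogeneous in `(E₄, E₆)`.
-/
import Mathlib

set_option autoImplicit false

namespace Fermat.Agent.Lib.RR

open UpperHalfPlane ModularForm SlashInvariantForm SlashInvariantFormClass ModularFormClass
  CuspFormClass MatrixGroups OnePoint Filter EisensteinSeries Asymptotics

open scoped Topology

local notation "Δ" => ModularForm.discriminant

/-- the monomial `E₄^a E₆^b` as a modular form of weight `k = 4a + 6b`. -/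
noncomputable def monoE (k : ℕ) (a b : ℕ) (h : 4 * a + 6 * b = k) : ModularForm 𝒮ℒ (k : ℤ) :=
  ModularForm.mcast (by push_cast [← h]; ring) ((E₄.pow a).mul (E₆.pow b))

lemma monoE_apply (k a b : ℕ) (h : 4 * a + 6 * b = k) (z : ℍ) :
    monoE k a b h z = E₄ z ^ a * E₆ z ^ b := by
  simp [monoE]

lemma monoE_coeff_zero (k a b : ℕ) (h : 4 * a + 6 * b = k) :
    (qExpansion 1 (monoE k a b h)).coeff 0 = 1 := by
  rw [monoE, ModularForm.qExpansion_mcast, ModularForm.qExpansion_mul one_pos one_mem_strictPeriods_SL,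
    ModularForm.qExpansion_pow one_pos one_mem_strictPeriods_SL,
    ModularForm.qExpansion_pow one_pos one_mem_strictPeriods_SL]
  have h4 : PowerSeries.constantCoeff (qExpansion 1 (E₄ : ℍ → ℂ)) = 1 := by
    rw [← PowerSeries.coeff_zero_eq_constantCoeff_apply]
    exact E_qExpansion_coeff_zero _ (show Even 4 from ⟨2, rfl⟩)
  have h6 : PowerSeries.constantCoeff (qExpansion 1 (E₆ : ℍ → ℂ)) = 1 := by
    rw [← PowerSeries.coeff_zero_eq_constantCoeff_apply]
    exact E_qExpansion_coeff_zero _ (show Even 6 from ⟨3, rfl⟩)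
  simp [h4, h6]

lemma exists_four_six (k : ℕ) (hk : Even k) (hk4 : 4 ≤ k) : ∃ a b : ℕ, 4 * a + 6 * b = k := by
  obtain ⟨m, rfl⟩ := hk
  rcases Nat.even_or_odd m with ⟨n, rfl⟩ | ⟨n, rfl⟩
  · exact ⟨n, 0, by ring⟩
  · exact ⟨n - 1, 1, by omega⟩

/-- Weighted homogeneity of level-one modular forms in `(E₄, E₆)`. -/
theorem levelOne_homogeneous (z0 z1 : ℍ) (lam : ℂ)
    (h4 : E₄ z1 = lam ^ 4 * E₄ z0) (h6 : E₆ z1 = lam ^ 6 * E₆ z0) :
    ∀ (k : ℕ) (f : ModularForm 𝒮ℒ (k : ℤ)), f z1 = lam ^ k * f z0 := by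
  have hΔ : Δ z1 = lam ^ 12 * Δ z0 := by
    rw [discriminant_eq_E₄_cube_sub_E₆_sq, discriminant_eq_E₄_cube_sub_E₆_sq, h4, h6]; ring
  intro k
  induction k using Nat.strong_induction_on with | h k ih =>
  intro f
  rcases Nat.even_or_odd k with hk | hk
  swap
  · have : f = 0 := ModularForm.levelOne_odd_weight_eq_zero (by exact_mod_cast hk) f
    simp [this]
  rcases (show k = 0 ∨ k = 2 ∨ 4 ≤ k by obtain ⟨m, rfl⟩ := hk; omega) with rfl | rfl | hk4
  · obtain ⟨c, hc⟩ := levelOne_weight_zero_const (F := ModularForm 𝒮ℒ ((0 : ℕ) : ℤ)) f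
    simp [hc]
  · have : f = 0 := by
      have h0 := ModularForm.levelOne_weight_two_rank_zero
      exact rank_zero_iff_forall_zero.mp h0 f
    simp [this]
  · obtain ⟨a, b, hab⟩ := exists_four_six k hk hk4
    set c := (qExpansion 1 f).coeff 0 with hc
    set g : ModularForm 𝒮ℒ (k : ℤ) := f - c • monoE k a b hab with hg
    have hg0 : (qExpansion 1 g).coeff 0 = 0 := by
      rw [hg, FunLike.coe_sub, ModularForm.qExpansion_sub one_pos one_mem_strictPeriods_SL,
        FunLike.coe_smul, ModularForm.qExpansion_smul one_pos one_mem_strictPeriods_SL, map_sub,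
        PowerSeries.coeff_smul, monoE_coeff_zero]
      simp [hc]
    have hgz : ∀ z, g z = Δ z * (CuspForm.discriminantEquiv (toCuspForm g hg0)) z := by
      intro z
      rw [discriminant_mul_discriminantEquiv_apply, toCuspForm_apply]
    have hfz : ∀ z, f z = g z + c * (E₄ z ^ a * E₆ z ^ b) := by
      intro z
      rw [hg]
      simp [monoE_apply]
    have hg' : (CuspForm.discriminantEquiv (toCuspForm g hg0)) z1
        = lam ^ (k - 12) * (CuspForm.discriminantEquiv (toCuspForm g hg0)) z0 := by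
      rcases lt_or_ge k 12 with hk12 | hk12
      · have := levelOne_neg_weight_eq_zero (k := (k : ℤ) - 12) (by omega)
          (CuspForm.discriminantEquiv (toCuspForm g hg0))
        simp [this]
      · have hcast : ((k : ℤ) - 12) = ((k - 12 : ℕ) : ℤ) := by omega
        have := ih (k - 12) (by omega)
          (ModularForm.mcast hcast (CuspForm.discriminantEquiv (toCuspForm g hg0)) rfl)
        simpa using this
    rw [hfz z1, hfz z0, hgz z1, hgz z0, hg', hΔ, h4, h6]
    have e2 : lam ^ k = (lam ^ 4) ^ a * (lam ^ 6) ^ b := by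
      rw [← pow_mul, ← pow_mul, ← pow_add, hab]
    rcases lt_or_ge k 12 with hk12 | hk12
    · have h0 : (CuspForm.discriminantEquiv (toCuspForm g hg0)) z0 = 0 := by
        have := levelOne_neg_weight_eq_zero (k := (k : ℤ) - 12) (by omega)
          (CuspForm.discriminantEquiv (toCuspForm g hg0))
        simp [this]
      rw [h0, e2]
      ring
    · have e1 : lam ^ k = lam ^ 12 * lam ^ (k - 12) := by
        rw [← pow_add]; congr 1; omega
      generalize (CuspForm.discriminantEquiv (toCuspForm g hg0)) z0 = X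
      rw [mul_pow, mul_pow]
      linear_combination (-(Δ z0 * X)) * e1 + (- c * E₄ z0 ^ a * E₆ z0 ^ b) * e2

end Fermat.Agent.Lib.RR
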