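/-
S20 moonshot, level-one facts.
Part 3: the `j`-invariant is injective modulo `SL(2, ℤ)`.
-/
import Fermat.Agent.Lib.RR.LevelOne
import Fermat.Agent.Lib.RR.Lattice
import Fermat.Agent.Lib.RR.Ramanujan

set_option autoImplicit false

namespace Fermat.Agent.Lib.RR

open UpperHalfPlane ModularForm EisensteinSeries MatrixGroups Filter Topology
open scoped PeriodPair

local notation "Δ" => ModularForm.discriminant

/-- The period pair `(z, 1)` attached to a point of the upper half plane. -/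
noncomputable def pairOf (z : ℍ) : PeriodPair where
  ω₁ := z
  ω₂ := 1
  indep := by
    rw [LinearIndependent.pair_iff]
    intro s t hst
    simp only [Complex.real_smul, mul_one] at hst
    have him := congrArg Complex.im hst
    have hre := congrArg Complex.re hst
    simp at him hre
    have hs : s = 0 := by
      rcases him with h | h
      · exact h
      · exact absurd h z.im_ne_zero
    subst hs
    simp at hre
    exact ⟨rfl, hre⟩

lemma G_pairOf (z : ℍ) {k : ℕ} (hk : 3 ≤ k) :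
    (pairOf z).G k = 2 * riemannZeta k * E hk z := by
  have h1 := tsum_eisSummand_eq_riemannZeta_mul_eisensteinSeries hk z
  have h2 : E hk z = (1 / 2 : ℂ) * eisensteinSeries (N := 1) 0 k z := rfl
  have h3 : (pairOf z).G k = ∑' v : Fin 2 → ℤ, eisSummand k v z := by
    rw [G_eq_tsum_prod, ← (finTwoArrowEquiv ℤ).symm.tsum_eq]
    refine tsum_congr fun x => ?_
    simp [eisSummand, pairOf, zpow_neg]
  rw [h3, h1, h2]; ring

lemma int_mul_add_eq_zero (z : ℍ) (m n : ℤ) (h : (m : ℂ) * z + n = 0) : m = 0 ∧ n = 0 := by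
  have him := congrArg Complex.im h
  have hre := congrArg Complex.re h
  simp at him hre
  have hm : m = 0 := by
    rcases him with h | h
    · exact h
    · exact absurd h z.im_ne_zero
  subst hm
  simp at hre
  exact ⟨rfl, hre⟩

/-- If `(E₄, E₆)` at `z1` and `z0` are proportional (with weights), then `z1` and `z0` are
`SL(2, ℤ)`-equivalent. -/
theorem exists_smul_eq_of_E_eq (z0 z1 : ℍ) (lam : ℂ) (hlam : lam ≠ 0)
    (h4 : E₄ z1 = lam ^ 4 * E₄ z0) (h6 : E₆ z1 = lam ^ 6 * E₆ z0) :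
    ∃ γ : SL(2, ℤ), γ • z0 = z1 := by
  have hlam' : lam⁻¹ ≠ 0 := inv_ne_zero hlam
  set L1 := pairOf z1 with hL1
  set L' := scalePair lam⁻¹ hlam' (pairOf z0) with hL'
  have hG : ∀ k, 3 ≤ k → L1.G k = L'.G k := by
    intro k hk
    rw [hL1, hL', G_scalePair, G_pairOf z1 hk, G_pairOf z0 hk,
      levelOne_homogeneous z0 z1 lam h4 h6 k (E hk)]
    rw [inv_pow, inv_inv]
    ring
  have hlat := lattice_eq_of_G_eq L1 L' hG
  -- memberships
  have m1 : (z1 : ℂ) ∈ L'.lattice := hlat ▸ L1.ω₁_mem_lattice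
  have m2 : (1 : ℂ) ∈ L'.lattice := hlat ▸ L1.ω₂_mem_lattice
  have m3 : lam⁻¹ * (z0 : ℂ) ∈ L1.lattice := hlat ▸ L'.ω₁_mem_lattice
  have m4 : lam⁻¹ * (1 : ℂ) ∈ L1.lattice := hlat ▸ L'.ω₂_mem_lattice
  obtain ⟨a, b, hab⟩ := PeriodPair.mem_lattice.mp m1
  obtain ⟨c, d, hcd⟩ := PeriodPair.mem_lattice.mp m2
  obtain ⟨p, q, hpq⟩ := PeriodPair.mem_lattice.mp m3
  obtain ⟨r, s, hrs⟩ := PeriodPair.mem_lattice.mp m4
  simp only [hL', hL1, scalePair, pairOf, mul_one] at hab hcd hpq hrs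
  -- `lam = c z0 + d`
  have hlamcd : (c : ℂ) * z0 + d = lam := by
    field_simp at hcd
    linear_combination hcd
  have hz1 : (a : ℂ) * z0 + b = lam * z1 := by
    field_simp at hab
    linear_combination hab
  -- the product of the two integer matrices is the identity
  have e1 : ((a * p + b * r - 1 : ℤ) : ℂ) * z1 + ((a * q + b * s : ℤ) : ℂ) = 0 := by
    push_cast
    linear_combination (a : ℂ) * hpq + (b : ℂ) * hrs + hab
  have e2 : ((c * p + d * r : ℤ) : ℂ) * z1 + ((c * q + d * s - 1 : ℤ) : ℂ) = 0 := by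
    push_cast
    linear_combination (c : ℂ) * hpq + (d : ℂ) * hrs + hcd
  obtain ⟨f1, f2⟩ := int_mul_add_eq_zero z1 _ _ e1
  obtain ⟨f3, f4⟩ := int_mul_add_eq_zero z1 _ _ e2
  have hdet : (a * d - b * c) * (p * s - q * r) = 1 := by
    linear_combination (c * q + d * s) * f1 + f4 - (c * p + d * r) * f2
  -- the sign of the determinant
  have hIm : ((a * d - b * c : ℤ) : ℝ) * z0.im
      = ((c * z0.re + d) ^ 2 + (c * z0.im) ^ 2) * z1.im := by
    have hz1' : (a : ℂ) * z0 + b = ((c : ℂ) * z0 + d) * z1 := by rw [hlamcd]; exact hz1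
    have hre := congrArg Complex.re hz1'
    have him := congrArg Complex.im hz1'
    simp at hre him
    push_cast
    linear_combination ((c : ℝ) * z0.re + d) * him - ((c : ℝ) * z0.im) * hre
  have hdet1 : a * d - b * c = 1 := by
    rcases Int.eq_one_or_neg_one_of_mul_eq_one hdet with h | h
    · exact h
    · exfalso
      rw [h] at hIm
      have h1 : 0 ≤ ((c * z0.re + d) ^ 2 + (c * z0.im) ^ 2) * z1.im :=
        mul_nonneg (by positivity) z1.im_pos.le
      have h2 := z0.im_pos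
      push_cast at hIm
      linarith
  refine ⟨⟨!![a, b; c, d], by rw [Matrix.det_fin_two_of]; linarith⟩, ?_⟩
  apply UpperHalfPlane.ext
  rw [coe_specialLinearGroup_apply]
  simp only [Matrix.of_apply, Matrix.cons_val', Matrix.cons_val_zero,
    Matrix.cons_val_one, Matrix.cons_val_fin_one, algebraMap_int_eq, eq_intCast]
  push_cast
  rw [hlamcd, hz1]
  field_simp

/-- **Injectivity of `j` modulo `SL(2, ℤ)`**, in the form `E₄(z0)³ Δ(z1) = E₄(z1)³ Δ(z0)`. -/
theorem j_injective (z0 z1 : ℍ) (h : E₄ z0 ^ 3 * Δ z1 = E₄ z1 ^ 3 * Δ z0) :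
    ∃ γ : SL(2, ℤ), γ • z0 = z1 := by
  have hΔ0 := discriminant_ne_zero z0
  have hΔ1 := discriminant_ne_zero z1
  rw [discriminant_eq_E₄_cube_sub_E₆_sq] at hΔ0 hΔ1 h
  rw [discriminant_eq_E₄_cube_sub_E₆_sq] at h
  set a0 := E₄ z0 with ha0
  set b0 := E₆ z0 with hb0
  set a1 := E₄ z1 with ha1
  set b1 := E₆ z1 with hb1
  have hΔ0' : a0 ^ 3 - b0 ^ 2 ≠ 0 := fun h0 => hΔ0 (by rw [h0]; simp)
  have hΔ1' : a1 ^ 3 - b1 ^ 2 ≠ 0 := fun h0 => hΔ1 (by rw [h0]; simp)
  have key : a0 ^ 3 * b1 ^ 2 = a1 ^ 3 * b0 ^ 2 := by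
    field_simp at h
    linear_combination -h
  by_cases ha : a0 = 0
  · -- `E₄ z0 = 0`
    have hb : b0 ≠ 0 := by
      intro hb; apply hΔ0'; rw [ha, hb]; ring
    have ha1' : a1 = 0 := by
      rw [ha] at key
      have : a1 ^ 3 * b0 ^ 2 = 0 := by rw [← key]; ring
      rcases mul_eq_zero.mp this with h | h
      · exact pow_eq_zero_iff (by norm_num) |>.mp h
      · exact absurd (pow_eq_zero_iff (by norm_num) |>.mp h) hb
    have hb1' : b1 ≠ 0 := by
      intro hb; apply hΔ1'; rw [ha1', hb]; ring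
    obtain ⟨lam, hlam⟩ := IsAlgClosed.exists_pow_nat_eq (b1 / b0) (n := 6) (by norm_num)
    have hlam0 : lam ≠ 0 := by
      intro h0; rw [h0] at hlam
      have : b1 / b0 = 0 := by rw [← hlam]; ring
      exact (div_ne_zero hb1' hb) this
    refine exists_smul_eq_of_E_eq z0 z1 lam hlam0 ?_ ?_
    · rw [← ha0, ← ha1, ha, ha1']; ring
    · rw [← hb0, ← hb1, hlam]; field_simp
  by_cases hb : b0 = 0
  · -- `E₆ z0 = 0`
    have hb1' : b1 = 0 := by
      rw [hb] at key
      have : a0 ^ 3 * b1 ^ 2 = 0 := by rw [key]; ring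
      rcases mul_eq_zero.mp this with h | h
      · exact absurd (pow_eq_zero_iff (by norm_num) |>.mp h) ha
      · exact pow_eq_zero_iff (by norm_num) |>.mp h
    have ha1' : a1 ≠ 0 := by
      intro h0; apply hΔ1'; rw [h0, hb1']; ring
    obtain ⟨lam, hlam⟩ := IsAlgClosed.exists_pow_nat_eq (a1 / a0) (n := 4) (by norm_num)
    have hlam0 : lam ≠ 0 := by
      intro h0; rw [h0] at hlam
      have : a1 / a0 = 0 := by rw [← hlam]; ring
      exact (div_ne_zero ha1' ha) this
    refine exists_smul_eq_of_E_eq z0 z1 lam hlam0 ?_ ?_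
    · rw [← ha0, ← ha1, hlam]; field_simp
    · rw [← hb0, ← hb1, hb, hb1']; ring
  -- generic case
  have ha1' : a1 ≠ 0 := by
    intro h0
    rw [h0] at key
    have : a0 ^ 3 * b1 ^ 2 = 0 := by rw [key]; ring
    rcases mul_eq_zero.mp this with h | h
    · exact absurd (pow_eq_zero_iff (by norm_num) |>.mp h) ha
    · apply hΔ1'; rw [h0, pow_eq_zero_iff (by norm_num) |>.mp h]; ring
  have hb1' : b1 ≠ 0 := by
    intro h0
    rw [h0] at key
    have : a1 ^ 3 * b0 ^ 2 = 0 := by rw [← key]; ring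
    rcases mul_eq_zero.mp this with h | h
    · exact absurd (pow_eq_zero_iff (by norm_num) |>.mp h) ha1'
    · exact absurd (pow_eq_zero_iff (by norm_num) |>.mp h) hb
  obtain ⟨lam, hlam⟩ := IsAlgClosed.exists_pow_nat_eq (b1 * a0 / (b0 * a1)) (n := 2) (by norm_num)
  have hlam0 : lam ≠ 0 := by
    intro h0; rw [h0] at hlam
    have : b1 * a0 / (b0 * a1) = 0 := by rw [← hlam]; ring
    exact (div_ne_zero (mul_ne_zero hb1' ha) (mul_ne_zero hb ha1')) this
  have h4 : lam ^ 4 = a1 / a0 := by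
    have : lam ^ 4 = (lam ^ 2) ^ 2 := by ring
    rw [this, hlam]
    field_simp
    linear_combination (a0 ^ 0) * key
  refine exists_smul_eq_of_E_eq z0 z1 lam hlam0 ?_ ?_
  · rw [← ha0, ← ha1, h4]; field_simp
  · have h6 : lam ^ 6 = b1 / b0 := by
      have : lam ^ 6 = lam ^ 4 * lam ^ 2 := by ring
      rw [this, h4, hlam]
      field_simp
    rw [← hb0, ← hb1, h6]; field_simp

/-- The zeros of `E₄` are exactly the `SL(2, ℤ)`-orbit of `ρ` (`Ramanujan.rho`). -/
theorem E₄_eq_zero_iff (z : ℍ) : E₄ z = 0 ↔ ∃ γ : SL(2, ℤ), γ • Ramanujan.rho = z := by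
  constructor
  · intro h
    apply j_injective
    rw [h, Ramanujan.E₄_rho]; ring
  · rintro ⟨γ, rfl⟩
    rw [Ramanujan.levelOne_modular_eqn, Ramanujan.E₄_rho, mul_zero]

/-- The zeros of `E₆` are exactly the `SL(2, ℤ)`-orbit of `i`. -/
theorem E₆_eq_zero_iff (z : ℍ) : E₆ z = 0 ↔ ∃ γ : SL(2, ℤ), γ • UpperHalfPlane.I = z := by
  constructor
  · intro h
    apply j_injective
    rw [discriminant_eq_E₄_cube_sub_E₆_sq, discriminant_eq_E₄_cube_sub_E₆_sq, h,
      Ramanujan.E₆_I]; ring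
  · rintro ⟨γ, rfl⟩
    rw [Ramanujan.levelOne_modular_eqn, Ramanujan.E₆_I, mul_zero]

/-- The zeros of `jNum z₀ = Δ(z₀) E₄³ - E₄(z₀)³ Δ` are exactly the `SL(2, ℤ)`-orbit of `z₀`. -/
theorem jNum_eq_zero_iff (z0 z : ℍ) :
    Ramanujan.jNum z0 z = 0 ↔ ∃ γ : SL(2, ℤ), γ • z0 = z := by
  constructor
  · intro h
    rw [Ramanujan.jNum_apply] at h
    apply j_injective
    linear_combination -h
  · rintro ⟨γ, rfl⟩
    have h := Ramanujan.levelOne_modular_eqn (Ramanujan.jNumMF z0) γ z0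
    rw [Ramanujan.coe_jNumMF, Ramanujan.jNum_self, mul_zero] at h
    exact h

end Fermat.Agent.Lib.RR
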