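import Fermat.Agent.Lib.RR.G1Indep
import Fermat.Agent.Lib.RR.Interface
import Fermat.Agent.Lib.RR.JInjective
import Fermat.Agent.Lib.RR.DivMF

set_option autoImplicit false

/-!
# WP G1-1 in the interface shape

`g1_ifaceIndep_MF : IfaceG1Indep N (MF N)` and `g1_ifaceIndep_CF : IfaceG1Indep N (CF N)`:
the coset vectors of a homogeneous basis are linearly independent at every point.
The hypotheses `G1Hyp` of `G1Indep.lean` are discharged from the zero sets of `E4`, `E6`, `jNum z0`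
(`JInjective.lean`) and the division lemmas (`DivMF.lean`).
-/

namespace Fermat.Agent.Lib.RR

open UpperHalfPlane ModularForm CongruenceSubgroup Matrix.SpecialLinearGroup
open scoped MatrixGroups Manifold

noncomputable section

variable {N : ℕ} [NeZero N]

theorem g1_hyp_MF (N : ℕ) [NeZero N] : G1Hyp (MF N) where
  zeroE4 := fun z hz => (E₄_eq_zero_iff z).mp hz
  zeroE6 := fun z hz => (E₆_eq_zero_iff z).mp hz
  divP := fun z0 h4 h6 K G hG hz => divJNum_MF hG h4 h6 fun z hz0 => by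
    obtain ⟨γ, rfl⟩ := (jNum_eq_zero_iff z0 z).mp hz0
    exact hz γ
  divE6 := fun K G hG hz => divE6_MF hG fun z hz0 => by
    obtain ⟨γ, rfl⟩ := (E₆_eq_zero_iff z).mp hz0
    exact hz γ
  divE4 := fun K G hG hz => divE4_MF hG fun z hz0 => by
    obtain ⟨γ, rfl⟩ := (E₄_eq_zero_iff z).mp hz0
    exact hz γ

theorem g1_hyp_CF (N : ℕ) [NeZero N] : G1Hyp (CF N) where
  zeroE4 := fun z hz => (E₄_eq_zero_iff z).mp hz
  zeroE6 := fun z hz => (E₆_eq_zero_iff z).mp hz
  divP := fun z0 h4 h6 K G hG hz => divJNum_CF hG h4 h6 fun z hz0 => by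
    obtain ⟨γ, rfl⟩ := (jNum_eq_zero_iff z0 z).mp hz0
    exact hz γ
  divE6 := fun K G hG hz => divE6_CF hG fun z hz0 => by
    obtain ⟨γ, rfl⟩ := (E₆_eq_zero_iff z).mp hz0
    exact hz γ
  divE4 := fun K G hG hz => divE4_CF hG fun z hz0 => by
    obtain ⟨γ, rfl⟩ := (E₄_eq_zero_iff z).mp hz0
    exact hz γ

/-- **WP G1-1 for `MF N`.** -/
theorem g1_ifaceIndep_MF (N : ℕ) [NeZero N] : IfaceG1Indep N (MF N) := by
  intro ι _ κ β hb z0
  exact g1_linearIndependent_row (g1Mod_MF N) (g1_hyp_MF N) hb z0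

/-- **WP G1-1 for `CF N`.** -/
theorem g1_ifaceIndep_CF (N : ℕ) [NeZero N] : IfaceG1Indep N (CF N) := by
  intro ι _ κ β hb z0
  exact g1_linearIndependent_row (g1Mod_CF N) (g1_hyp_CF N) hb z0

end

end Fermat.Agent.Lib.RR
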