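import Fermat.Agent.Lib.RR.Core

set_option autoImplicit false

/-!
# The vector of conjugates of a modular form of level `Γ₀(N)`

For `f ∈ MF N k` and a left coset `q = g Γ₀(N)` of `SL(2, ℤ)` the translate `f ∣[k] g⁻¹` only
depends on `q`. We index the conjugates by `X = SL(2, ℤ) ⧸ Γ₀(N)` (left cosets, with Mathlib's left
action), matching the coset combinatorics of WP A:
`(conjVec N k f q) ∣[k] γ = conjVec N k f (γ⁻¹ • q)`.
-/

namespace Fermat.Agent.Lib.RR

open UpperHalfPlane ModularForm CongruenceSubgroup Matrix.SpecialLinearGroup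
open scoped MatrixGroups Manifold

noncomputable section

variable {N : ℕ} {k : ℤ} {f : ℍ → ℂ}

/-- The conjugate of `f` attached to the left coset `q` of `Γ₀(N)`. -/
def conjVec (N : ℕ) (k : ℤ) (f : ℍ → ℂ) (q : SL(2, ℤ) ⧸ Gamma0 N) : ℍ → ℂ :=
  f ∣[k] (q.out)⁻¹

theorem slash_inv_eq_of_mk_eq (hf : f ∈ MF N k) {g h : SL(2, ℤ)}
    (hgh : (QuotientGroup.mk g : SL(2, ℤ) ⧸ Gamma0 N) = QuotientGroup.mk h) :
    f ∣[k] g⁻¹ = f ∣[k] h⁻¹ := by
  have hmem : g⁻¹ * h ∈ Gamma0 N := QuotientGroup.eq.mp hgh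
  have h1 : h⁻¹ = (g⁻¹ * h)⁻¹ * g⁻¹ := by group
  rw [h1, SlashAction.slash_mul, slash_eq_of_mem_MF hf (inv_mem hmem)]

theorem conjVec_mk (hf : f ∈ MF N k) (g : SL(2, ℤ)) :
    conjVec N k f (QuotientGroup.mk g) = f ∣[k] g⁻¹ :=
  slash_inv_eq_of_mk_eq hf (QuotientGroup.out_eq' _)

theorem conjVec_eq_slash_out (q : SL(2, ℤ) ⧸ Gamma0 N) :
    conjVec N k f q = f ∣[k] (q.out)⁻¹ := rfl

/-- The conjugates are permuted by the slash action of `SL(2, ℤ)`. -/
theorem conjVec_slash (hf : f ∈ MF N k) (γ : SL(2, ℤ)) (q : SL(2, ℤ) ⧸ Gamma0 N) :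
    (conjVec N k f q) ∣[k] γ = conjVec N k f (γ⁻¹ • q) := by
  induction q using QuotientGroup.induction_on with
  | H g =>
    have : γ⁻¹ • (QuotientGroup.mk g : SL(2, ℤ) ⧸ Gamma0 N) = QuotientGroup.mk (γ⁻¹ * g) := rfl
    rw [this, conjVec_mk hf, conjVec_mk hf, ← SlashAction.slash_mul, mul_inv_rev, inv_inv]

/-- Values of the conjugates at a translated point. -/
theorem conjVec_apply_smul (hf : f ∈ MF N k) (γ : SL(2, ℤ)) (q : SL(2, ℤ) ⧸ Gamma0 N) (z : ℍ) :
    conjVec N k f q (γ • z) = denom γ z ^ k * conjVec N k f (γ⁻¹ • q) z := by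
  have h := congrFun (conjVec_slash hf γ q) z
  rw [SL_slash_apply] at h
  rw [← h, mul_comm, mul_assoc, ← zpow_add₀ (denom_ne_zero γ z), neg_add_cancel, zpow_zero,
    mul_one]

theorem conjVec_one_coset (hf : f ∈ MF N k) :
    conjVec N k f (QuotientGroup.mk 1) = f := by
  rw [conjVec_mk hf, inv_one, SlashAction.slash_one]

theorem conjVec_add (k : ℤ) (f g : ℍ → ℂ) (q : SL(2, ℤ) ⧸ Gamma0 N) :
    conjVec N k (f + g) q = conjVec N k f q + conjVec N k g q := by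
  simp only [conjVec, SlashAction.add_slash]

theorem conjVec_smul (k : ℤ) (c : ℂ) (f : ℍ → ℂ) (q : SL(2, ℤ) ⧸ Gamma0 N) :
    conjVec N k (c • f) q = c • conjVec N k f q := by
  simp only [conjVec, SL_smul_slash]

theorem conjVec_zero (k : ℤ) (q : SL(2, ℤ) ⧸ Gamma0 N) :
    conjVec N k (0 : ℍ → ℂ) q = 0 := by
  simp only [conjVec, SlashAction.zero_slash]

theorem conjVec_sum {ι : Type*} (s : Finset ι) (k : ℤ) (f : ι → ℍ → ℂ)
    (q : SL(2, ℤ) ⧸ Gamma0 N) :
    conjVec N k (∑ i ∈ s, f i) q = ∑ i ∈ s, conjVec N k (f i) q := by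
  classical
  induction s using Finset.induction_on with
  | empty => simp [conjVec_zero]
  | insert a s ha ih => rw [Finset.sum_insert ha, Finset.sum_insert ha, conjVec_add, ih]

theorem conjVec_mul (j k : ℤ) (f g : ℍ → ℂ) (q : SL(2, ℤ) ⧸ Gamma0 N) :
    conjVec N (j + k) (f * g) q = conjVec N j f q * conjVec N k g q := by
  simp only [conjVec, mul_slash_SL2]

/-- Level-one forms are their own conjugates. -/
theorem conjVec_of_mem_MF1 {r : ℍ → ℂ} (hr : r ∈ MF1 k) (q : SL(2, ℤ) ⧸ Gamma0 N) :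
    conjVec N k r q = r :=
  slash_eq_of_mem_MF1 hr _

theorem mdifferentiable_conjVec (hf : f ∈ MF N k) (q : SL(2, ℤ) ⧸ Gamma0 N) :
    MDiff (conjVec N k f q) :=
  mdifferentiable_slash (mdifferentiable_of_mem_MF hf) _

theorem isBoundedAtImInfty_conjVec [NeZero N] (hf : f ∈ MF N k) (q : SL(2, ℤ) ⧸ Gamma0 N) :
    IsBoundedAtImInfty (conjVec N k f q) :=
  isBoundedAtImInfty_slash hf _

theorem isZeroAtImInfty_conjVec [NeZero N] (hf : f ∈ CF N k) (q : SL(2, ℤ) ⧸ Gamma0 N) :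
    IsZeroAtImInfty (conjVec N k f q) :=
  isZeroAtImInfty_slash hf _

/-- `f` vanishes on the whole `SL(2, ℤ)`-orbit of `z0` iff all conjugates vanish at `z0`. -/
theorem forall_conjVec_eq_zero_iff (hf : f ∈ MF N k) (z0 : ℍ) :
    (∀ q : SL(2, ℤ) ⧸ Gamma0 N, conjVec N k f q z0 = 0) ↔ ∀ γ : SL(2, ℤ), f (γ • z0) = 0 := by
  constructor
  · intro h γ
    have h1 := h (QuotientGroup.mk γ⁻¹)
    rw [conjVec_mk hf, inv_inv, SL_slash_apply] at h1
    rcases mul_eq_zero.mp h1 with h2 | h2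
    · exact h2
    · exact absurd h2 (zpow_ne_zero _ (denom_ne_zero γ z0))
  · intro h q
    induction q using QuotientGroup.induction_on with
    | H g =>
      rw [conjVec_mk hf, SL_slash_apply, h g⁻¹, zero_mul]

end

end Fermat.Agent.Lib.RR
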