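import Mathlib
import Fermat.Agent.Lib.RR.Interface
import Fermat.Agent.Lib.RR.Conj

/-!
# S20, WP G1-2: the determinant of the coset vectors

For a family `β i ∈ MF N (κ i)` indexed by `ι ≃ Q N`, the determinant
`D = det (cosetFun N (κ i) (β i) (e j))_{i j}` (computed in the ring of functions `ℍ → ℂ`)
satisfies `D (γ • z) = ± denom γ z ^ (∑ κ) * D z`, so `D ^ 2` is a level-one modular form of weight
`2 * ∑ κ`; it vanishes nowhere as soon as the coset vectors are pointwise linearly independent.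
-/

set_option autoImplicit false

namespace Fermat.Agent.Lib.RR

open UpperHalfPlane ModularForm CongruenceSubgroup Matrix.SpecialLinearGroup Equiv
open scoped MatrixGroups Manifold

noncomputable section

/-- If all entries of a matrix lie in a subring, so does the determinant. -/
theorem g1d_det_mem {R : Type*} [CommRing R] (S : Subring R) {n : Type*} [Fintype n]
    [DecidableEq n] (A : Matrix n n R) (h : ∀ i j, A i j ∈ S) : A.det ∈ S := by
  rw [Matrix.det_apply]
  refine S.sum_mem fun σ _ => ?_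
  rw [Units.smul_def]
  exact S.zsmul_mem (S.prod_mem fun i _ => h _ _) _

/-- The subring of holomorphic functions on `ℍ`. -/
def g1d_holSubring : Subring (ℍ → ℂ) where
  carrier := {f | MDiff f}
  mul_mem' := fun hf hg => hf.mul hg
  one_mem' := mdifferentiable_const
  add_mem' := fun hf hg => hf.add hg
  zero_mem' := mdifferentiable_const
  neg_mem' := fun hf => hf.neg

variable {N : ℕ} [NeZero N] {ι : Type} [Fintype ι] [DecidableEq ι]

/-- The matrix of coset functions. -/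
def g1d_matF (N : ℕ) (e : ι ≃ Q N) (κ : ι → ℤ) (β : ι → ℍ → ℂ) : Matrix ι ι (ℍ → ℂ) :=
  Matrix.of fun i j => cosetFun N (κ i) (β i) (e j)

/-- The determinant of the coset functions, as a function on `ℍ`. -/
def g1d_detF (N : ℕ) (e : ι ≃ Q N) (κ : ι → ℤ) (β : ι → ℍ → ℂ) : ℍ → ℂ :=
  (g1d_matF N e κ β).det

omit [NeZero N] in
theorem g1d_detF_apply (e : ι ≃ Q N) (κ : ι → ℤ) (β : ι → ℍ → ℂ) (z : ℍ) :
    g1d_detF N e κ β z = (Matrix.of fun i j => cosetFun N (κ i) (β i) (e j) z).det := by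
  have := RingHom.map_det (Pi.evalRingHom (fun _ : ℍ => ℂ) z) (g1d_matF N e κ β)
  simp only [Pi.evalRingHom_apply] at this
  rw [g1d_detF, this]
  rfl

omit [NeZero N] in
theorem g1d_mdifferentiable {e : ι ≃ Q N} {κ : ι → ℤ} {β : ι → ℍ → ℂ}
    (hβ : ∀ i, β i ∈ MF N (κ i)) : MDiff (g1d_detF N e κ β) :=
  g1d_det_mem g1d_holSubring _ fun i j =>
    mdifferentiable_cosetFun (mdifferentiable_of_mem_MF (hβ i)) (e j)

theorem g1d_isBoundedAtImInfty {e : ι ≃ Q N} {κ : ι → ℤ} {β : ι → ℍ → ℂ}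
    (hβ : ∀ i, β i ∈ MF N (κ i)) : IsBoundedAtImInfty (g1d_detF N e κ β) :=
  g1d_det_mem (boundedAtImInftySubalgebra ℂ).toSubring _ fun i j =>
    isBoundedAtImInfty_cosetFun (hβ i) (e j)

/-- The permutation of `ι` induced by `q ↦ γ⁻¹ • q` on `Q N`. -/
def g1d_perm (e : ι ≃ Q N) (γ : SL(2, ℤ)) : Perm ι :=
  (e.trans (MulAction.toPerm γ⁻¹)).trans e.symm

omit [NeZero N] [Fintype ι] [DecidableEq ι] in
theorem g1d_perm_apply (e : ι ≃ Q N) (γ : SL(2, ℤ)) (j : ι) :
    e (g1d_perm e γ j) = γ⁻¹ • e j := by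
  simp [g1d_perm]

omit [NeZero N] in
theorem g1d_prod_zpow (a : ℂ) (ha : a ≠ 0) (κ : ι → ℤ) : ∏ i, a ^ κ i = a ^ ∑ i, κ i := by
  classical
  induction (Finset.univ : Finset ι) using Finset.induction_on with
  | empty => simp
  | insert i s hi ih => rw [Finset.prod_insert hi, Finset.sum_insert hi, ih, zpow_add₀ ha]

omit [NeZero N] in
/-- **Transformation law of the determinant.** -/
theorem g1d_detF_smul {e : ι ≃ Q N} {κ : ι → ℤ} {β : ι → ℍ → ℂ} (hβ : ∀ i, β i ∈ MF N (κ i))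
    (γ : SL(2, ℤ)) (z : ℍ) :
    g1d_detF N e κ β (γ • z) =
      ((Perm.sign (g1d_perm e γ) : ℤ) : ℂ) * denom γ z ^ (∑ i, κ i) * g1d_detF N e κ β z := by
  rw [g1d_detF_apply, g1d_detF_apply]
  have h1 : (Matrix.of fun i j => cosetFun N (κ i) (β i) (e j) (γ • z)) =
      Matrix.of fun i j => denom γ z ^ κ i *
        ((Matrix.of fun i j => cosetFun N (κ i) (β i) (e j) z).submatrix id (g1d_perm e γ)) i j := by
    ext i j
    simp only [Matrix.of_apply, Matrix.submatrix_apply, id_eq]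
    rw [g1d_perm_apply]
    exact conjVec_apply_smul (hβ i) γ (e j) z
  rw [h1, Matrix.det_mul_column, Matrix.det_permute', g1d_prod_zpow _ (denom_ne_zero γ z)]
  ring

omit [NeZero N] in
theorem g1d_sign_sq (σ : Perm ι) : (((Perm.sign σ : ℤˣ) : ℤ) : ℂ) ^ 2 = 1 := by
  rcases Int.units_eq_one_or (Perm.sign σ) with h | h <;> simp [h]

/-- **The square of the determinant is a level-one modular form of weight `2 * ∑ κ`.** -/
theorem g1d_sq_mem_MF1 {e : ι ≃ Q N} {κ : ι → ℤ} {β : ι → ℍ → ℂ}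
    (hβ : ∀ i, β i ∈ MF N (κ i)) : (g1d_detF N e κ β) ^ 2 ∈ MF1 (2 * ∑ i, κ i) := by
  refine mem_MF1_of ((g1d_mdifferentiable hβ).pow 2) ?_ ?_
  · intro γ
    funext z
    rw [SL_slash_apply, Pi.pow_apply, g1d_detF_smul hβ, Pi.pow_apply, mul_pow, mul_pow,
      g1d_sign_sq, one_mul, ← zpow_natCast (denom γ z ^ _) 2, ← zpow_mul, mul_comm _ (_ ^ 2),
      mul_assoc, ← zpow_add₀ (denom_ne_zero γ z)]
    have : (∑ i, κ i) * ((2 : ℕ) : ℤ) + -(2 * ∑ i, κ i) = 0 := by push_cast; ring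
    rw [this, zpow_zero, mul_one]
  · have := (g1d_isBoundedAtImInfty (e := e) hβ).mul (g1d_isBoundedAtImInfty (e := e) hβ)
    rwa [← pow_two] at this

omit [NeZero N] in
/-- **The determinant vanishes nowhere if the coset vectors are pointwise independent.** -/
theorem g1d_detF_ne_zero {e : ι ≃ Q N} {κ : ι → ℤ} {β : ι → ℍ → ℂ} (z0 : ℍ)
    (hindep : LinearIndependent ℂ fun i => cosetVec N (κ i) (β i) z0) :
    g1d_detF N e κ β z0 ≠ 0 := by
  rw [g1d_detF_apply]
  -- rows of the matrix are the coset vectors transported along `e`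
  have h1 : LinearIndependent ℂ
      (Matrix.of fun i j => cosetFun N (κ i) (β i) (e j) z0 : Matrix ι ι ℂ).row := by
    have hmap := hindep.map' (LinearMap.funLeft ℂ ℂ e) (LinearMap.ker_eq_bot.mpr
      (LinearMap.funLeft_injective_of_surjective ℂ ℂ e e.surjective))
    exact hmap
  have h2 : IsUnit (Matrix.of fun i j => cosetFun N (κ i) (β i) (e j) z0 : Matrix ι ι ℂ) :=
    Matrix.linearIndependent_rows_iff_isUnit.mp h1
  exact ((Matrix.isUnit_iff_isUnit_det _).mp h2).ne_zero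

/-! ### The same statements in the shape requested by WP G2 -/

theorem g2s_detSq_mem_MF1 (N : ℕ) [NeZero N] {ι : Type} [Fintype ι] [DecidableEq ι]
    (κ : ι → ℤ) (β : ι → ℍ → ℂ) (hmem : ∀ i, β i ∈ MF N (κ i)) (e : ι ≃ Q N) :
    (fun z : ℍ => (Matrix.det (fun i j : ι => cosetFun N (κ i) (β i) (e j) z)) ^ 2) ∈
      MF1 (2 * ∑ i, κ i) := by
  have h := g1d_sq_mem_MF1 (e := e) hmem
  have h2 : (fun z : ℍ => (Matrix.det (fun i j : ι => cosetFun N (κ i) (β i) (e j) z)) ^ 2) =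
      (g1d_detF N e κ β) ^ 2 := by
    funext z
    rw [Pi.pow_apply, g1d_detF_apply]
    rfl
  rw [h2]
  exact h

theorem g2s_det_ne_zero (N : ℕ) {ι : Type} [Fintype ι] [DecidableEq ι]
    (κ : ι → ℤ) (β : ι → ℍ → ℂ) (e : ι ≃ Q N) (z0 : ℍ)
    (hli : LinearIndependent ℂ fun i => cosetVec N (κ i) (β i) z0) :
    Matrix.det (fun i j : ι => cosetFun N (κ i) (β i) (e j) z0) ≠ 0 := by
  have h := g1d_detF_ne_zero (e := e) z0 hli
  rw [g1d_detF_apply] at h
  exact h

end

end Fermat.Agent.Lib.RR
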