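import Fermat.Agent.Lib.RR.Coset
import Fermat.Agent.Lib.RR.GradedFree

/-!
# Trace duality between `M_*(Γ₀(N))` and `S_*(Γ₀(N))` (WP H of the S20 route)

* `wpH_exists_equiv_ne_zero`: pure linear algebra (Leibniz expansion of `det (A Bᵀ)`).
* `wpH_exists_eq_Dl_mul_of_mem_CF1`: level-one cusp forms are `Δ ·` (level-one forms of weight `k-12`).
* `wpH_exists_equiv_weight_add_eq_twelve`: the permutation `σ` with `κ i + κ' (σ i) = 12`.
* `IsHomBasis.wpH_finrank_eq_card_of_le`: the lowest graded piece has the obvious basis.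
* `wpH_genus_linear_system`: the `6 × 6` linear system.
-/

namespace Fermat.Agent.Lib.RR

open UpperHalfPlane ModularForm CongruenceSubgroup Matrix.SpecialLinearGroup
open scoped MatrixGroups Manifold

noncomputable section

section LinearAlgebra

variable {K : Type*} [Field K] {m n p : Type*} [Fintype m] [Fintype n] [Fintype p]

/-- If `A : m × p` and `B : n × p` have linearly independent rows and `|m| = |n| = |p|`, then
the Leibniz expansion of `det (A Bᵀ) ≠ 0` produces a bijection `τ : n ≃ m` such that all the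
entries `(A Bᵀ) (τ l) l` are nonzero. -/
theorem wpH_exists_equiv_ne_zero (A : Matrix m p K) (B : Matrix n p K)
    (hA : LinearIndependent K A.row) (hB : LinearIndependent K B.row)
    (hm : Fintype.card m = Fintype.card p) (hn : Fintype.card n = Fintype.card p) :
    ∃ τ : n ≃ m, ∀ l, (A * B.transpose) (τ l) l ≠ 0 := by
  classical
  obtain ⟨e⟩ : Nonempty (m ≃ p) := Fintype.card_eq.mp hm
  obtain ⟨e'⟩ : Nonempty (n ≃ p) := Fintype.card_eq.mp hn
  set A' : Matrix p p K := A.submatrix e.symm id with hA'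
  set B' : Matrix p p K := B.submatrix e'.symm id with hB'
  have hA1 : LinearIndependent K A'.row := hA.comp _ e.symm.injective
  have hB1 : LinearIndependent K B'.row := hB.comp _ e'.symm.injective
  have hAu : IsUnit A' := Matrix.linearIndependent_rows_iff_isUnit.mp hA1
  have hBu : IsUnit B' := Matrix.linearIndependent_rows_iff_isUnit.mp hB1
  have hdet : (A' * B'.transpose).det ≠ 0 := by
    rw [Matrix.det_mul, Matrix.det_transpose]
    exact mul_ne_zero ((Matrix.isUnit_iff_isUnit_det _).mp hAu).ne_zero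
      ((Matrix.isUnit_iff_isUnit_det _).mp hBu).ne_zero
  rw [Matrix.det_apply] at hdet
  obtain ⟨σ, -, hσ⟩ := Finset.exists_ne_zero_of_sum_ne_zero hdet
  have hprod : ∏ i, (A' * B'.transpose) (σ i) i ≠ 0 := by
    intro h0
    exact hσ (by rw [h0, smul_zero])
  rw [Finset.prod_ne_zero_iff] at hprod
  refine ⟨e'.trans (σ.trans e.symm), fun l => ?_⟩
  have := hprod (e' l) (Finset.mem_univ _)
  simpa [A', B', Matrix.mul_apply] using this

end LinearAlgebra

section LevelOne

/-- Level-one cusp forms are divisible by `Δ`. -/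
theorem wpH_exists_eq_Dl_mul_of_mem_CF1 {k : ℤ} {f : ℍ → ℂ} (hf : f ∈ CF1 k) :
    ∃ h ∈ MF1 (k - 12), f = Dl * h := by
  obtain ⟨F, rfl⟩ := hf
  refine ⟨⇑(CuspForm.discriminantEquiv F), coe_mem_MF1 _, ?_⟩
  exact (ModularForm.discriminant_mul_discriminantEquiv F).symm

theorem wpH_eq_zero_of_mem_MF1_of_neg {k : ℤ} {f : ℍ → ℂ} (hk : k < 0) (hf : f ∈ MF1 k) : f = 0 :=
  eq_zero_of_mem_MF_of_neg (N := 1) hk (MF1_le_MF 1 k hf)

/-- Level-one cusp forms of weight `< 12` vanish. -/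
theorem wpH_eq_zero_of_mem_CF1_of_lt {k : ℤ} {f : ℍ → ℂ} (hk : k < 12) (hf : f ∈ CF1 k) : f = 0 := by
  obtain ⟨h, hh, rfl⟩ := wpH_exists_eq_Dl_mul_of_mem_CF1 hf
  rw [wpH_eq_zero_of_mem_MF1_of_neg (by omega) hh, mul_zero]

end LevelOne

section Duality

variable {N : ℕ} [NeZero N]

/-- **Trace duality**: if `b i ∈ M_{κ i}(Γ₀(N))` and `g l ∈ S_{κ' l}(Γ₀(N))` are families of
size `μ = [SL₂(ℤ) : Γ₀(N)]` whose vectors of conjugates at some point `z₀` are linearly
independent, and `∑ κ + ∑ κ' = 12 μ`, then the weights are matched by a bijection `σ` with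
`κ i + κ' (σ i) = 12`. -/
theorem wpH_exists_equiv_weight_add_eq_twelve {ι ι' : Type*} [Fintype ι] [Fintype ι']
    (κ : ι → ℤ) (b : ι → ℍ → ℂ) (hb : ∀ i, b i ∈ MF N (κ i))
    (κ' : ι' → ℤ) (g : ι' → ℍ → ℂ) (hg : ∀ l, g l ∈ CF N (κ' l))
    (z₀ : ℍ)
    (hA : LinearIndependent ℂ (fun i => fun q : Q N => cosetFun N (κ i) (b i) q z₀))
    (hB : LinearIndependent ℂ (fun l => fun q : Q N => cosetFun N (κ' l) (g l) q z₀))
    (hι : Fintype.card ι = Fintype.card (Q N)) (hι' : Fintype.card ι' = Fintype.card (Q N))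
    (hK : ∑ i, κ i + ∑ l, κ' l = 12 * (Fintype.card (Q N) : ℤ)) :
    ∃ σ : ι ≃ ι', ∀ i, κ i + κ' (σ i) = 12 := by
  classical
  set A : Matrix ι (Q N) ℂ := Matrix.of fun i q => cosetFun N (κ i) (b i) q z₀ with hAdef
  set B : Matrix ι' (Q N) ℂ := Matrix.of fun l q => cosetFun N (κ' l) (g l) q z₀ with hBdef
  obtain ⟨τ, hτ⟩ := wpH_exists_equiv_ne_zero A B hA hB hι hι'
  -- entries of `A Bᵀ` are values of traces
  have hentry : ∀ i l, (A * B.transpose) i l = trace N (κ i + κ' l) (b i * g l) z₀ := by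
    intro i l
    simp only [Matrix.mul_apply, Matrix.transpose_apply, A, B, Matrix.of_apply, trace,
      Finset.sum_apply, cosetFun_mul, Pi.mul_apply]
  -- hence the weights are `≥ 12`
  have hge : ∀ l, 12 ≤ κ (τ l) + κ' l := by
    intro l
    by_contra hlt
    have h1 : trace N (κ (τ l) + κ' l) (b (τ l) * g l) ∈ CF1 (κ (τ l) + κ' l) := by
      refine trace_mem_CF1 ?_
      rw [mul_comm, add_comm]
      exact mul_mem_CF (hg l) (hb (τ l))
    have h2 := wpH_eq_zero_of_mem_CF1_of_lt (by omega) h1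
    exact hτ l (by rw [hentry, h2]; rfl)
  -- the sum of the excesses vanishes
  have hsum : ∑ l, (κ (τ l) + κ' l - 12) = 0 := by
    rw [Finset.sum_sub_distrib, Finset.sum_add_distrib, Equiv.sum_comp τ κ, hK]
    simp only [Finset.sum_const, Finset.card_univ, hι', nsmul_eq_mul]
    ring
  have hzero := (Finset.sum_eq_zero_iff_of_nonneg (fun l _ => by have := hge l; omega)).mp hsum
  refine ⟨τ.symm, fun i => ?_⟩
  have := hzero (τ.symm i) (Finset.mem_univ _)
  simp only [Equiv.apply_symm_apply] at this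
  omega

end Duality

section HomBasis

variable {k : Type*} [Field k] {V : Type*} [CommRing V] [Algebra k V]
  {x y : V} {M : ℤ → Submodule k V} {ι : Type*} [Fintype ι] {κ : ι → ℤ} {β : ι → V}

theorem wpH_wtSpan_zero_eq {r : V} (hr : r ∈ wtSpan k x y 0) : ∃ c : k, r = c • (1 : V) := by
  obtain ⟨c, s, hs, rfl⟩ := wtSpan_decomp hr
  refine ⟨c, ?_⟩
  rw [wtSpan_neg (by norm_num) hs, mul_zero, add_zero]
  congr 1
  simp [ypow]

theorem IsHomBasis.wpH_ne_zero [Nontrivial V] (h : IsHomBasis (k := k) x y M κ β) (i : ι) :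
    β i ≠ 0 := by
  classical
  intro h0
  have hr : ∀ j, (Pi.single i (1 : V) : ι → V) j ∈ wtSpan k x y (κ i - κ j) := by
    intro j
    by_cases hj : j = i
    · subst hj
      rw [Pi.single_eq_same, sub_self]
      exact one_mem_wtSpan_zero x y
    · rw [Pi.single_eq_of_ne hj]
      exact Submodule.zero_mem _
  have hsum : ∑ j, (Pi.single i (1 : V) : ι → V) j * β j = 0 := by
    rw [Finset.sum_eq_single i]
    · rw [Pi.single_eq_same, one_mul, h0]
    · intro j _ hj
      rw [Pi.single_eq_of_ne hj, zero_mul]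
    · intro hi
      exact absurd (Finset.mem_univ i) hi
  have := h.indep (κ i) _ hr hsum i
  rw [Pi.single_eq_same] at this
  exact one_ne_zero this

/-- In the lowest weight (`w ≤ κ i` for all `i`) the elements of weight `w` of a homogeneous
basis form a `k`-basis of `M w`. -/
theorem IsHomBasis.wpH_finrank_eq_card_of_le [Nontrivial V] (h : IsHomBasis (k := k) x y M κ β)
    (w : ℤ) (hw : ∀ i, w ≤ κ i) :
    Module.finrank k (M w) = Fintype.card {i : ι // κ i = w} := by
  classical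
  -- the family
  set J := {i : ι // κ i = w}
  set v : J → V := fun j => β j.1 with hv
  have hinj : Function.Injective (algebraMap k V) := (algebraMap k V).injective
  -- linear independence
  have hli : LinearIndependent k v := by
    rw [Fintype.linearIndependent_iff]
    intro c hc j
    set r : ι → V := fun i => if hi : κ i = w then c ⟨i, hi⟩ • (1 : V) else 0 with hr
    have hrmem : ∀ i, r i ∈ wtSpan k x y (w - κ i) := by
      intro i
      simp only [hr]
      split_ifs with hi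
      · rw [hi, sub_self]
        exact Submodule.smul_mem _ _ (one_mem_wtSpan_zero x y)
      · exact Submodule.zero_mem _
    have hsum : ∑ i, r i * β i = 0 := by
      have e1 : ∑ i, r i * β i = ∑ i ∈ Finset.univ.filter (fun i => κ i = w), r i * β i := by
        rw [Finset.sum_filter]
        refine Finset.sum_congr rfl fun i _ => ?_
        split_ifs with hi
        · rfl
        · simp only [hr, dif_neg hi, zero_mul]
      have e2 : ∑ i ∈ Finset.univ.filter (fun i => κ i = w), r i * β i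
          = ∑ j : J, r j.1 * β j.1 :=
        Finset.sum_subtype _ (fun i => by simp) (fun i => r i * β i)
      rw [e1, e2, ← hc]
      refine Finset.sum_congr rfl fun j _ => ?_
      simp only [hr, dif_pos j.2, hv, smul_mul_assoc, one_mul, Subtype.coe_eta]
    have h0 := h.indep w r hrmem hsum j.1
    simp only [hr, dif_pos j.2] at h0
    rw [← Algebra.algebraMap_eq_smul_one] at h0
    exact hinj (by rw [h0, map_zero])
  -- spanning
  have hspan : M w = Submodule.span k (Set.range v) := by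
    apply le_antisymm
    · intro f hf
      obtain ⟨r, hr, rfl⟩ := h.gen w f hf
      refine Submodule.sum_mem _ fun i _ => ?_
      rcases (hw i).lt_or_eq with hlt | heq
      · rw [wtSpan_neg (by omega) (hr i), zero_mul]
        exact Submodule.zero_mem _
      · have hr0 := hr i
        rw [← heq, sub_self] at hr0
        obtain ⟨c, hc⟩ := wpH_wtSpan_zero_eq hr0
        rw [hc, smul_mul_assoc, one_mul]
        exact Submodule.smul_mem _ _ (Submodule.subset_span ⟨⟨i, heq.symm⟩, rfl⟩)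
    · rw [Submodule.span_le]
      rintro _ ⟨j, rfl⟩
      have := h.mem j.1
      rwa [j.2] at this
  rw [hspan]
  exact finrank_span_eq_card hli

end HomBasis

section Application

variable {N : ℕ} [NeZero N]

/-- Cusp forms of weight `0` vanish. -/
theorem wpH_eq_zero_of_mem_CF_zero {f : ℍ → ℂ} (hf : f ∈ CF N 0) : f = 0 := by
  obtain ⟨c, rfl⟩ := eq_const_of_mem_MF_zero (CF_le_MF N 0 hf)
  have h0 : Filter.Tendsto (fun _ : ℍ => c) atImInfty (nhds 0) := isZeroAtImInfty_of_mem_CF hf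
  have hc : c = 0 := tendsto_nhds_unique tendsto_const_nhds h0
  subst hc
  rfl

/-- Nonzero cusp forms on `Γ₀(N)` have weight `≥ 2`. -/
theorem wpH_two_le_of_mem_CF_of_ne_zero {k : ℤ} {f : ℍ → ℂ} (hf : f ∈ CF N k) (h0 : f ≠ 0) :
    2 ≤ k := by
  by_contra hlt
  have hk : k < 0 ∨ k = 0 ∨ k = 1 := by omega
  rcases hk with hk | rfl | rfl
  · exact h0 (eq_zero_of_mem_MF_of_neg hk (CF_le_MF N k hf))
  · exact h0 (wpH_eq_zero_of_mem_CF_zero hf)
  · exact h0 (eq_zero_of_mem_MF_of_odd (by decide) (CF_le_MF N 1 hf))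

theorem wpH_nonneg_of_mem_MF_of_ne_zero {k : ℤ} {f : ℍ → ℂ} (hf : f ∈ MF N k) (h0 : f ≠ 0) :
    0 ≤ k := by
  by_contra hlt
  exact h0 (eq_zero_of_mem_MF_of_neg (by omega) hf)

omit [NeZero N] in
theorem wpH_even_of_mem_MF_of_ne_zero {k : ℤ} {f : ℍ → ℂ} (hf : f ∈ MF N k) (h0 : f ≠ 0) :
    Even k := by
  by_contra hodd
  exact h0 (eq_zero_of_mem_MF_of_odd (Int.not_even_iff_odd.mp hodd) hf)

theorem wpH_finrank_MF_zero : Module.finrank ℂ (MF N 0) = 1 := by
  have h : MF N 0 = Submodule.span ℂ {(1 : ℍ → ℂ)} := by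
    apply le_antisymm
    · intro f hf
      obtain ⟨c, rfl⟩ := eq_const_of_mem_MF_zero hf
      rw [Submodule.mem_span_singleton]
      exact ⟨c, by ext z; simp⟩
    · rw [Submodule.span_le, Set.singleton_subset_iff]
      exact one_mem_MF N
  rw [h]
  exact finrank_span_singleton one_ne_zero

variable {ι ι' : Type*} [Fintype ι] [Fintype ι'] {κ : ι → ℤ} {b : ι → ℍ → ℂ}
  {κ' : ι' → ℤ} {g : ι' → ℍ → ℂ}

theorem IsHomBasis.wpH_weight_nonneg (hb : IsHomBasis (k := ℂ) E4 E6 (MF N) κ b) (i : ι) :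
    0 ≤ κ i :=
  wpH_nonneg_of_mem_MF_of_ne_zero (hb.mem i) (hb.wpH_ne_zero i)

omit [NeZero N] in
theorem IsHomBasis.wpH_weight_even (hb : IsHomBasis (k := ℂ) E4 E6 (MF N) κ b) (i : ι) :
    Even (κ i) :=
  wpH_even_of_mem_MF_of_ne_zero (hb.mem i) (hb.wpH_ne_zero i)

theorem IsHomBasis.wpH_two_le_weight (hg : IsHomBasis (k := ℂ) E4 E6 (CF N) κ' g) (l : ι') :
    2 ≤ κ' l :=
  wpH_two_le_of_mem_CF_of_ne_zero (hg.mem l) (hg.wpH_ne_zero l)

omit [NeZero N] in
theorem IsHomBasis.wpH_weight_even_CF (hg : IsHomBasis (k := ℂ) E4 E6 (CF N) κ' g) (l : ι') :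
    Even (κ' l) :=
  wpH_even_of_mem_MF_of_ne_zero (CF_le_MF N _ (hg.mem l)) (hg.wpH_ne_zero l)

/-- Exactly one basis element of `M_*(Γ₀(N))` has weight `0`. -/
theorem IsHomBasis.wpH_card_weight_zero (hb : IsHomBasis (k := ℂ) E4 E6 (MF N) κ b) :
    Fintype.card {i : ι // κ i = 0} = 1 := by
  rw [← hb.wpH_finrank_eq_card_of_le 0 hb.wpH_weight_nonneg, wpH_finrank_MF_zero]

/-- `dim S₂(Γ₀(N))` is the number of basis elements of `S_*(Γ₀(N))` of weight `2`. -/
theorem IsHomBasis.wpH_finrank_CF_two (hg : IsHomBasis (k := ℂ) E4 E6 (CF N) κ' g) :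
    Module.finrank ℂ (CF N 2) = Fintype.card {l : ι' // κ' l = 2} :=
  hg.wpH_finrank_eq_card_of_le 2 hg.wpH_two_le_weight

end Application

section LinearSystem

theorem wpH_card_subtype_eq_sum_ite {ι : Type*} [Fintype ι] (p : ι → Prop) [DecidablePred p] :
    (Fintype.card {i : ι // p i} : ℤ) = ∑ i, if p i then (1 : ℤ) else 0 := by
  rw [Fintype.card_subtype, Finset.card_filter]
  push_cast
  rfl

/-- The `6 × 6` linear system: the number of generators of weight `10` is the genus. -/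
theorem wpH_genus_linear_system {ι : Type*} [Fintype ι] (κ : ι → ℤ) (μ ν₂ ν₃ c : ℕ)
    (hrange : ∀ i, 0 ≤ κ i ∧ κ i ≤ 10 ∧ Even (κ i))
    (h0 : Fintype.card {i // κ i = 0} = 1)
    (h4 : Fintype.card {i // κ i % 4 = 0} * 2 = μ + ν₂)
    (h60 : Fintype.card {i // κ i % 6 = 0} * 3 = μ + 2 * ν₃)
    (h62 : Fintype.card {i // κ i % 6 = 2} * 3 + ν₃ = μ)
    (h64 : Fintype.card {i // κ i % 6 = 4} * 3 + ν₃ = μ)
    (hK : ∑ i, κ i = 6 * ((μ : ℤ) - c)) :
    (Fintype.card {i // κ i = 10} : ℚ)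
      = 1 + (μ : ℚ) / 12 - (ν₂ : ℚ) / 4 - (ν₃ : ℚ) / 3 - (c : ℚ) / 2 := by
  classical
  have hval : ∀ i, κ i = 0 ∨ κ i = 2 ∨ κ i = 4 ∨ κ i = 6 ∨ κ i = 8 ∨ κ i = 10 := by
    intro i
    obtain ⟨h1, h2, ⟨r, hr⟩⟩ := hrange i
    omega
  set v : ℤ → ℤ := fun a => ∑ i, if κ i = a then (1 : ℤ) else 0 with hv
  have e0 : (Fintype.card {i // κ i = 0} : ℤ) = v 0 := wpH_card_subtype_eq_sum_ite _
  have e10 : (Fintype.card {i // κ i = 10} : ℤ) = v 10 := wpH_card_subtype_eq_sum_ite _
  have e4 : (Fintype.card {i // κ i % 4 = 0} : ℤ) = v 0 + v 4 + v 8 := by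
    rw [wpH_card_subtype_eq_sum_ite]
    simp only [hv, ← Finset.sum_add_distrib]
    refine Finset.sum_congr rfl fun i _ => ?_
    rcases hval i with h | h | h | h | h | h <;> rw [h] <;> norm_num
  have e60 : (Fintype.card {i // κ i % 6 = 0} : ℤ) = v 0 + v 6 := by
    rw [wpH_card_subtype_eq_sum_ite]
    simp only [hv, ← Finset.sum_add_distrib]
    refine Finset.sum_congr rfl fun i _ => ?_
    rcases hval i with h | h | h | h | h | h <;> rw [h] <;> norm_num
  have e62 : (Fintype.card {i // κ i % 6 = 2} : ℤ) = v 2 + v 8 := by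
    rw [wpH_card_subtype_eq_sum_ite]
    simp only [hv, ← Finset.sum_add_distrib]
    refine Finset.sum_congr rfl fun i _ => ?_
    rcases hval i with h | h | h | h | h | h <;> rw [h] <;> norm_num
  have e64 : (Fintype.card {i // κ i % 6 = 4} : ℤ) = v 4 + v 10 := by
    rw [wpH_card_subtype_eq_sum_ite]
    simp only [hv, ← Finset.sum_add_distrib]
    refine Finset.sum_congr rfl fun i _ => ?_
    rcases hval i with h | h | h | h | h | h <;> rw [h] <;> norm_num
  have eK : ∑ i, κ i = 2 * v 2 + 4 * v 4 + 6 * v 6 + 8 * v 8 + 10 * v 10 := by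
    simp only [hv, Finset.mul_sum, ← Finset.sum_add_distrib]
    refine Finset.sum_congr rfl fun i _ => ?_
    rcases hval i with h | h | h | h | h | h <;> rw [h] <;> norm_num
  have h0' : v 0 = 1 := by rw [← e0, h0]; rfl
  have h4' : (v 0 + v 4 + v 8) * 2 = μ + ν₂ := by rw [← e4]; exact_mod_cast h4
  have h60' : (v 0 + v 6) * 3 = μ + 2 * ν₃ := by rw [← e60]; exact_mod_cast h60
  have h62' : (v 2 + v 8) * 3 + ν₃ = μ := by rw [← e62]; exact_mod_cast h62
  have h64' : (v 4 + v 10) * 3 + ν₃ = μ := by rw [← e64]; exact_mod_cast h64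
  rw [eK] at hK
  have key : 12 * v 10 = 12 + (μ : ℤ) - 3 * ν₂ - 4 * ν₃ - 6 * c := by linarith
  have e10q : (Fintype.card {i // κ i = 10} : ℚ) = ((v 10 : ℤ) : ℚ) := by
    rw [← e10]; simp
  rw [e10q]
  have keyq : (12 : ℚ) * ((v 10 : ℤ) : ℚ) = 12 + (μ : ℚ) - 3 * ν₂ - 4 * ν₃ - 6 * c := by
    exact_mod_cast key
  linarith

end LinearSystem

section Assembly

variable {N : ℕ} [NeZero N] {ι ι' : Type*} [Fintype ι] [Fintype ι'] {κ : ι → ℤ}
  {b : ι → ℍ → ℂ} {κ' : ι' → ℤ} {g : ι' → ℍ → ℂ}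

/-- **WP H, assembled**: from homogeneous bases of `M_*(Γ₀(N))` and `S_*(Γ₀(N))` over
`ℂ[E₄,E₆]` of size `μ = [SL₂(ℤ):Γ₀(N)]`, linear independence of the conjugate vectors at one
point, the weight sums `K = 6(μ - c)`, `K' = 6(μ + c)` and the eigenvalue counts at `i`, `ρ`,
the dimension of `S₂(Γ₀(N))` is `1 + μ/12 - ν₂/4 - ν₃/3 - c/2`. -/
theorem wpH_finrank_cuspForm_two_eq_of_bases
    (hb : IsHomBasis (k := ℂ) E4 E6 (MF N) κ b) (hg : IsHomBasis (k := ℂ) E4 E6 (CF N) κ' g)
    (hι : Fintype.card ι = Fintype.card (Q N)) (hι' : Fintype.card ι' = Fintype.card (Q N))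
    (z₀ : ℍ)
    (hA : LinearIndependent ℂ (fun i => fun q : Q N => cosetFun N (κ i) (b i) q z₀))
    (hB : LinearIndependent ℂ (fun l => fun q : Q N => cosetFun N (κ' l) (g l) q z₀))
    (ν₂ ν₃ c : ℕ)
    (hK : ∑ i, κ i = 6 * ((Fintype.card (Q N) : ℤ) - c))
    (hK' : ∑ l, κ' l = 6 * ((Fintype.card (Q N) : ℤ) + c))
    (h4 : Fintype.card {i // κ i % 4 = 0} * 2 = Fintype.card (Q N) + ν₂)
    (h60 : Fintype.card {i // κ i % 6 = 0} * 3 = Fintype.card (Q N) + 2 * ν₃)
    (h62 : Fintype.card {i // κ i % 6 = 2} * 3 + ν₃ = Fintype.card (Q N))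
    (h64 : Fintype.card {i // κ i % 6 = 4} * 3 + ν₃ = Fintype.card (Q N)) :
    (Module.finrank ℂ (CuspForm (Gamma0 N) 2) : ℚ)
      = 1 + (Fintype.card (Q N) : ℚ) / 12 - (ν₂ : ℚ) / 4 - (ν₃ : ℚ) / 3 - (c : ℚ) / 2 := by
  obtain ⟨σ, hσ⟩ := wpH_exists_equiv_weight_add_eq_twelve κ b hb.mem κ' g hg.mem z₀ hA hB hι hι'
    (by rw [hK, hK']; ring)
  have hrange : ∀ i, 0 ≤ κ i ∧ κ i ≤ 10 ∧ Even (κ i) := by
    intro i
    refine ⟨hb.wpH_weight_nonneg i, ?_, hb.wpH_weight_even i⟩
    have := hg.wpH_two_le_weight (σ i)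
    have := hσ i
    omega
  have hcard : Fintype.card {i // κ i = 10} = Fintype.card {l // κ' l = 2} :=
    Fintype.card_congr (σ.subtypeEquiv fun i => by have := hσ i; constructor <;> intro h <;> omega)
  rw [← finrank_CF, hg.wpH_finrank_CF_two, ← hcard]
  exact wpH_genus_linear_system κ _ ν₂ ν₃ c hrange hb.wpH_card_weight_zero h4 h60 h62 h64 hK

end Assembly

end

end Fermat.Agent.Lib.RR
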