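import Mathlib
import Fermat.Agent.Lib.RR.Interface
import Fermat.Agent.Lib.RR.Free
import Fermat.Agent.Lib.RR.DivMF
import Fermat.Agent.Lib.RR.Duality

/-!
# S20, WP G2c: independence of the leading coefficient vectors at the cusps

For a homogeneous basis `β` of `⊕ MF N w` (resp. `⊕ CF N w`) over `ℂ[E4, E6]` there are level-one
forms `U i → 1` such that no nontrivial combination `∑ x i * U i * β i` has all its
`SL(2, ℤ)`-translates `O(q)` (resp. `o(q)`) at `i∞`.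
-/

set_option autoImplicit false

namespace Fermat.Agent.Lib.RR

open UpperHalfPlane ModularForm CongruenceSubgroup Matrix.SpecialLinearGroup Filter Topology Complex
open scoped MatrixGroups Manifold Real

noncomputable section

/-- A monomial `E4 ^ a * E6 ^ b` of weight `m` (for `m` even, `m ≥ 4` or `m = 0`). -/
def g2c_U (m : ℤ) : ℍ → ℂ :=
  if m % 4 = 0 then E4 ^ (m / 4).toNat else E6 * E4 ^ ((m - 6) / 4).toNat

theorem g2c_mem_MF1_of_eq {j k : ℤ} (h : j = k) {f : ℍ → ℂ} (hf : f ∈ MF1 j) : f ∈ MF1 k :=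
  h ▸ hf

theorem g2c_U_mem_MF1 {m : ℤ} (hm : Even m) (h4 : 4 ≤ m) : g2c_U m ∈ MF1 m := by
  obtain ⟨t, rfl⟩ := hm
  unfold g2c_U
  split_ifs with h
  · have := pow_mem_MF1 E4_mem_MF1 ((t + t) / 4).toNat
    refine g2c_mem_MF1_of_eq ?_ this
    omega
  · have := mul_mem_MF1 E6_mem_MF1 (pow_mem_MF1 E4_mem_MF1 ((t + t - 6) / 4).toNat)
    refine g2c_mem_MF1_of_eq ?_ this
    omega

theorem g2c_U_tendsto (m : ℤ) : Tendsto (g2c_U m) atImInfty (𝓝 1) := by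
  unfold g2c_U
  split_ifs with h
  · have := tendsto_E4.pow (m / 4).toNat
    rw [one_pow] at this
    exact this
  · have := tendsto_E6.mul (tendsto_E4.pow ((m - 6) / 4).toNat)
    rw [one_pow, one_mul] at this
    exact this

theorem g2c_mdifferentiable_of_mem_MF1 {m : ℤ} {f : ℍ → ℂ} (hf : f ∈ MF1 m) : MDiff f :=
  mdifferentiable_of_mem_MF (MF1_le_MF 1 m hf)

theorem g2c_periodic_of_mem_MF1 {m : ℤ} {f : ℍ → ℂ} (hf : f ∈ MF1 m) (z : ℍ) :
    f ((1 : ℝ) +ᵥ z) = f z := by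
  obtain ⟨F, rfl⟩ := hf
  exact SlashInvariantForm.vAdd_apply_of_mem_strictPeriods F z one_mem_strictPeriods_SL

theorem g2c_isBoundedAtImInfty_of_mem_MF1 {m : ℤ} {f : ℍ → ℂ} (hf : f ∈ MF1 m) :
    IsBoundedAtImInfty f :=
  isBoundedAtImInfty_of_mem_MF (MF1_le_MF 1 m hf)

variable {N : ℕ} [NeZero N] {ι : Type} [Fintype ι]

omit [NeZero N] in
/-- The translate of a combination `∑ x i • (U i * β i)` in terms of coset functions. -/
theorem g2c_slash_sum {κ : ι → ℤ} {β : ι → ℍ → ℂ} (hβ : ∀ i, β i ∈ MF N (κ i)) (k : ℤ)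
    {U : ι → ℍ → ℂ} (hU : ∀ i, U i ∈ MF1 (k - κ i)) (x : ι → ℂ) (γ : SL(2, ℤ)) (z : ℍ) :
    ((∑ i, x i • (U i * β i)) ∣[k] γ) z =
      ∑ i, x i * U i z * cosetFun N (κ i) (β i) ((γ⁻¹ : SL(2, ℤ)) : Q N) z := by
  rw [SlashAction.sum_slash, Finset.sum_apply]
  refine Finset.sum_congr rfl fun i _ => ?_
  rw [SL_smul_slash, Pi.smul_apply, smul_eq_mul, mul_assoc]
  congr 1
  have h1 : (U i * β i) ∣[k] γ = (U i * β i) ∣[(k - κ i) + κ i] γ := by rw [sub_add_cancel]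
  rw [h1, mul_slash_SL2, slash_eq_of_mem_MF1 (hU i), Pi.mul_apply,
    cosetFun_mk (isInv_of_mem_MF (hβ i)), inv_inv]

/-- Core of (G2c): if a combination `∑ x i • (U i * β i)` (`U i → 1`) is divisible by `Δ`
inside `M`, then `x = 0`. -/
theorem g2c_core {M : ℤ → Submodule ℂ (ℍ → ℂ)} {κ : ι → ℤ} {β : ι → ℍ → ℂ}
    (hB : IsHomBasis (k := ℂ) E4 E6 M κ β) (k : ℤ) {U : ι → ℍ → ℂ}
    (hU : ∀ i, U i ∈ MF1 (k - κ i)) (hU1 : ∀ i, Tendsto (U i) atImInfty (𝓝 1)) (x : ι → ℂ)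
    (hdiv : ∃ H ∈ M (k - 12), (∑ i, x i • (U i * β i)) = Dl * H) : x = 0 := by
  obtain ⟨H, hH, hGH⟩ := hdiv
  have hF := isFreeBasis_of_isHomBasis hB
  obtain ⟨r, hr, hHr⟩ := hF.gen _ _ hH
  have h0 : ∑ i, (x i • U i - Dl * r i) * β i = 0 := by
    have e1 : ∑ i, (x i • U i) * β i = ∑ i, x i • (U i * β i) :=
      Finset.sum_congr rfl fun i _ => smul_mul_assoc _ _ _
    have e2 : ∑ i, (Dl * r i) * β i = Dl * H := by
      rw [hHr, Finset.mul_sum]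
      exact Finset.sum_congr rfl fun i _ => mul_assoc _ _ _
    simp only [sub_mul, Finset.sum_sub_distrib, e1, e2, hGH, sub_self]
  have hmem : ∀ i, x i • U i - Dl * r i ∈ MF1 (k - κ i) := fun i => by
    refine Submodule.sub_mem _ (Submodule.smul_mem _ _ (hU i)) ?_
    exact g2c_mem_MF1_of_eq (by ring) (mul_mem_MF1 Dl_mem_MF1 (hr i))
  have hind := hF.indep k _ hmem h0
  funext i
  have hi : x i • U i = Dl * r i := sub_eq_zero.mp (hind i)
  have t1 : Tendsto (x i • U i) atImInfty (𝓝 (x i • 1)) := (hU1 i).const_smul (x i)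
  have t2 : Tendsto (Dl * r i) atImInfty (𝓝 0) :=
    ModularForm.discriminant_isZeroAtImInfty.mul_boundedAtFilter
      (g2c_isBoundedAtImInfty_of_mem_MF1 (hr i))
  rw [hi] at t1
  have := tendsto_nhds_unique t1 t2
  simpa using this

/-- The choice of the level-one multipliers: weight `k - κ i` with `k = ∑ κ + 4`. -/
theorem g2c_exists_U {κ : ι → ℤ} (hnn : ∀ i, 0 ≤ κ i) (hev : ∀ i, Even (κ i)) :
    ∀ i, g2c_U ((∑ j, κ j + 4) - κ i) ∈ MF1 ((∑ j, κ j + 4) - κ i) := by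
  intro i
  have h1 : κ i ≤ ∑ j, κ j := Finset.single_le_sum (fun j _ => hnn j) (Finset.mem_univ i)
  have h2 : Even (∑ j, κ j) := Finset.even_sum _ fun j _ => hev j
  refine g2c_U_mem_MF1 ?_ (by omega)
  exact (h2.add (by decide : Even (4 : ℤ))).sub (hev i)

/-- **(G2c) for `MF N`.** -/
theorem g2c_indep_MF (N : ℕ) [NeZero N] {ι : Type} [Fintype ι] (κ : ι → ℤ) (β : ι → ℍ → ℂ)
    (hB : IsHomBasis (k := ℂ) E4 E6 (MF N) κ β) :
    ∃ U : ι → ℍ → ℂ, (∀ i, MDiff (U i)) ∧ (∀ i (z : ℍ), U i ((1 : ℝ) +ᵥ z) = U i z) ∧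
      (∀ i, Tendsto (U i) atImInfty (𝓝 1)) ∧
      ∀ x : ι → ℂ, (∀ q : Q N, IsBoundedAtImInfty (fun z : ℍ =>
        (∑ i, x i * U i z * cosetFun N (κ i) (β i) q z) *
          cexp (-(2 * π * Complex.I * (z : ℂ))))) → x = 0 := by
  set k : ℤ := ∑ j, κ j + 4 with hk
  have hU := g2c_exists_U (κ := κ) hB.wpH_weight_nonneg hB.wpH_weight_even
  refine ⟨fun i => g2c_U (k - κ i), fun i => g2c_mdifferentiable_of_mem_MF1 (hU i),
    fun i z => g2c_periodic_of_mem_MF1 (hU i) z, fun i => g2c_U_tendsto _, ?_⟩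
  intro x hx
  refine g2c_core hB k hU (fun i => g2c_U_tendsto _) x ?_
  have hG : (∑ i, x i • (g2c_U (k - κ i) * β i)) ∈ MF N k :=
    Submodule.sum_mem _ fun i _ => Submodule.smul_mem _ _ <|
      mem_MF_of_eq (sub_add_cancel k (κ i)) (mul_mem_MF (MF1_le_MF N _ (hU i)) (hB.mem i))
  refine divDl_MF hG fun γ => ?_
  have := hx ((γ⁻¹ : SL(2, ℤ)) : Q N)
  refine this.congr' (Eventually.of_forall fun z => ?_) (EventuallyEq.refl _ _)
  simp only
  rw [g2c_slash_sum hB.mem k hU x γ z]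
  congr 2
  ring

/-- **(G2c) for `CF N`.** -/
theorem g2c_indep_CF (N : ℕ) [NeZero N] {ι : Type} [Fintype ι] (κ : ι → ℤ) (β : ι → ℍ → ℂ)
    (hB : IsHomBasis (k := ℂ) E4 E6 (CF N) κ β) :
    ∃ U : ι → ℍ → ℂ, (∀ i, MDiff (U i)) ∧ (∀ i (z : ℍ), U i ((1 : ℝ) +ᵥ z) = U i z) ∧
      (∀ i, Tendsto (U i) atImInfty (𝓝 1)) ∧
      ∀ x : ι → ℂ, (∀ q : Q N, IsZeroAtImInfty (fun z : ℍ =>
        (∑ i, x i * U i z * cosetFun N (κ i) (β i) q z) *
          cexp (-(2 * π * Complex.I * (z : ℂ))))) → x = 0 := by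
  set k : ℤ := ∑ j, κ j + 4 with hk
  have hU := g2c_exists_U (κ := κ) (fun i => le_trans (by norm_num) (hB.wpH_two_le_weight i))
    hB.wpH_weight_even_CF
  have hβ : ∀ i, β i ∈ MF N (κ i) := fun i => CF_le_MF N _ (hB.mem i)
  refine ⟨fun i => g2c_U (k - κ i), fun i => g2c_mdifferentiable_of_mem_MF1 (hU i),
    fun i z => g2c_periodic_of_mem_MF1 (hU i) z, fun i => g2c_U_tendsto _, ?_⟩
  intro x hx
  refine g2c_core hB k hU (fun i => g2c_U_tendsto _) x ?_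
  have hG : (∑ i, x i • (g2c_U (k - κ i) * β i)) ∈ MF N k :=
    Submodule.sum_mem _ fun i _ => Submodule.smul_mem _ _ <|
      mem_MF_of_eq (sub_add_cancel k (κ i)) (mul_mem_MF (MF1_le_MF N _ (hU i)) (hβ i))
  refine divDl_CF hG fun γ => ?_
  have := hx ((γ⁻¹ : SL(2, ℤ)) : Q N)
  refine Tendsto.congr (fun z => ?_) this
  simp only
  rw [g2c_slash_sum hβ k hU x γ z]
  congr 2
  ring

end

end Fermat.Agent.Lib.RR
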