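import Fermat.Agent.Lib.RR.G2Final
import Fermat.Agent.Lib.RR.G1Det
import Fermat.Agent.Lib.RR.G1Iface
import Fermat.Agent.Lib.RR.G2Indep

/-!
# WP G2 in interface shape: `g2_ifaceMF : IfaceG2MF N`, `g2_ifaceCF : IfaceG2CF N`
-/

set_option autoImplicit false

namespace Fermat.Agent.Lib.RR

open Complex Filter Function Topology Matrix
open UpperHalfPlane hiding I
open ModularForm CongruenceSubgroup Matrix.SpecialLinearGroup ModularGroup
open scoped MatrixGroups Manifold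

open Classical

attribute [local instance] Fermat.Agent.Lib.RR.Cosets.fintypeTOrbits

/-- **WP G2 for `MF N`**: `∑ κ + 6 c = 6 μ`. -/
theorem g2_ifaceMF (N : ℕ) [NeZero N] : IfaceG2MF N := by
  intro ι _ κ β hB hcard
  obtain ⟨U, hUhol, hUper, hU1, hindep⟩ := g2c_indep_MF N κ β hB
  refine g2_sum_weights_MF N κ β hB.mem hcard (g1_ifaceIndep_MF N ι κ β hB) (fun ε => ?_)
    U hUhol hUper hU1 hindep
  have h := g2s_detSq_mem_MF1 N (fun i => κ (ε i)) (fun i => β (ε i)) (fun i => hB.mem (ε i))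
    (g2_equivQ N)
  rw [Equiv.sum_comp ε κ] at h
  exact h

/-- **WP G2 for `CF N`**: `∑ κ = 6 μ + 6 c`. -/
theorem g2_ifaceCF (N : ℕ) [NeZero N] : IfaceG2CF N := by
  intro ι _ κ β hB hcard
  obtain ⟨U, hUhol, hUper, hU1, hindep⟩ := g2c_indep_CF N κ β hB
  refine g2_sum_weights_CF N κ β hB.mem hcard (g1_ifaceIndep_CF N ι κ β hB) (fun ε => ?_)
    U hUhol hUper hU1 hindep
  have h := g2s_detSq_mem_MF1 N (fun i => κ (ε i)) (fun i => β (ε i))
    (fun i => CF_le_MF N _ (hB.mem (ε i))) (g2_equivQ N)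
  rw [Equiv.sum_comp ε κ] at h
  exact h

end Fermat.Agent.Lib.RR
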