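/-
S20 work package G2a: a nowhere-vanishing level-one modular form with `g ~ c qᵐ` at `i∞`
has weight `12 m` and equals `c Δᵐ`.
-/
import Fermat.Agent.Lib.RR.Core

set_option autoImplicit false

namespace Fermat.Agent.Lib.RR

open UpperHalfPlane hiding I
open ModularForm CongruenceSubgroup Matrix.SpecialLinearGroup Filter Asymptotics Complex Real
open scoped MatrixGroups Manifold Topology

noncomputable section

local notation "𝕢" => Function.Periodic.qParam

/-- `Δ(z) e^{-2πiz} → 1` at `i∞`. -/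
theorem g2a_tendsto_Dl_mul_exp :
    Tendsto (fun z : ℍ => Dl z * cexp (-2 * π * I * z)) atImInfty (𝓝 1) := by
  refine Tendsto.congr (fun z => ?_) tendsto_atImInfty_tprod_one_sub_eta_q_pow
  have hq : 𝕢 1 (z : ℂ) * cexp (-2 * π * I * z) = 1 := by
    rw [Function.Periodic.qParam, ← Complex.exp_add]
    simp
  show _ = ModularForm.discriminant z * cexp (-2 * π * I * z)
  rw [discriminant_eq_q_prod, mul_comm (𝕢 1 (z : ℂ)), mul_assoc, hq, mul_one]

/-- Quotient of level-one forms by a nowhere-vanishing one, if bounded at `i∞`. -/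
theorem g2a_div_mem_MF1 {a b : ℤ} {f h : ℍ → ℂ} (hf : f ∈ MF1 a) (hh : h ∈ MF1 b)
    (hne : ∀ z, h z ≠ 0) (hbdd : IsBoundedAtImInfty (f / h)) : f / h ∈ MF1 (a - b) := by
  refine mem_MF1_of ?_ ?_ hbdd
  · have hF : DifferentiableOn ℂ (f ∘ ofComplex) upperHalfPlaneSet := by
      obtain ⟨F, rfl⟩ := hf
      exact UpperHalfPlane.mdifferentiable_iff.mp F.holo'
    have hH : DifferentiableOn ℂ (h ∘ ofComplex) upperHalfPlaneSet := by
      obtain ⟨H, rfl⟩ := hh
      exact UpperHalfPlane.mdifferentiable_iff.mp H.holo'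
    rw [UpperHalfPlane.mdifferentiable_iff]
    have : ((f / h) ∘ ofComplex) = (f ∘ ofComplex) / (h ∘ ofComplex) := rfl
    rw [this]
    exact hF.div hH fun z hz => hne _
  · intro γ
    rw [ModularForm.div_slash_SL2 a b γ f h, slash_eq_of_mem_MF1 hf γ, slash_eq_of_mem_MF1 hh γ]

theorem g2a_eq_zero_of_mem_MF1_of_neg {k : ℤ} {f : ℍ → ℂ} (hf : f ∈ MF1 k) (hk : k < 0) :
    f = 0 := by
  obtain ⟨F, rfl⟩ := hf
  exact ModularFormClass.levelOne_neg_weight_eq_zero hk F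

theorem g2a_eq_const_of_mem_MF1_zero {f : ℍ → ℂ} (hf : f ∈ MF1 0) : ∃ c : ℂ, f = fun _ => c := by
  obtain ⟨F, rfl⟩ := hf
  obtain ⟨c, hc⟩ := ModularFormClass.levelOne_weight_zero_const F
  exact ⟨c, hc⟩

variable {w : ℤ} {g : ℍ → ℂ} {m : ℕ} {c : ℂ}

/-- The quotient `g / Δᵐ` tends to `c`. -/
theorem g2a_tendsto_div (hlim : Tendsto (fun z : ℍ => g z * cexp (-2 * π * I * m * z))
    atImInfty (𝓝 c)) : Tendsto (g / Dl ^ m) atImInfty (𝓝 c) := by
  have h1 := (g2a_tendsto_Dl_mul_exp.pow m)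
  rw [one_pow] at h1
  have h2 := hlim.div h1 one_ne_zero
  rw [div_one] at h2
  refine h2.congr fun z => ?_
  have hexp : cexp (-2 * π * I * m * z) = cexp (-2 * π * I * z) ^ m := by
    rw [← Complex.exp_nat_mul]; congr 1; ring
  have hne : cexp (-2 * π * I * z) ^ m ≠ 0 := pow_ne_zero _ (Complex.exp_ne_zero _)
  simp only [Pi.div_apply, Pi.pow_apply]
  rw [hexp, mul_pow, mul_div_mul_right _ _ hne]

/-- **G2a**: a nowhere-vanishing level-one form `g` of weight `w` with `g ~ c qᵐ` (`c ≠ 0`)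
has weight `12 m`. -/
theorem g2a_weight_eq (hg : g ∈ MF1 w) (hne : ∀ z, g z ≠ 0) (hc : c ≠ 0)
    (hlim : Tendsto (fun z : ℍ => g z * cexp (-2 * π * I * m * z)) atImInfty (𝓝 c)) :
    w = 12 * m := by
  have hD : Dl ^ m ∈ MF1 ((m : ℤ) * 12) := pow_mem_MF1 Dl_mem_MF1 m
  have hDne : ∀ z, (Dl ^ m) z ≠ 0 := fun z => pow_ne_zero _ (Dl_ne_zero z)
  have ht := g2a_tendsto_div hlim
  have hu : g / Dl ^ m ∈ MF1 (w - (m : ℤ) * 12) :=
    g2a_div_mem_MF1 hg hD hDne (ht.isBigO_one ℝ)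
  have ht' : Tendsto (Dl ^ m / g) atImInfty (𝓝 c⁻¹) := by
    have := ht.inv₀ hc
    refine this.congr fun z => ?_
    simp only [Pi.div_apply, inv_div]
  have hv : Dl ^ m / g ∈ MF1 ((m : ℤ) * 12 - w) :=
    g2a_div_mem_MF1 hD hg hne (ht'.isBigO_one ℝ)
  rcases lt_trichotomy w (12 * (m : ℤ)) with h | h | h
  · exfalso
    have h0 := g2a_eq_zero_of_mem_MF1_of_neg hu (by linarith)
    have := congrFun h0 UpperHalfPlane.I
    simp only [Pi.div_apply, Pi.zero_apply, div_eq_zero_iff] at this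
    rcases this with h' | h'
    · exact hne _ h'
    · exact hDne _ h'
  · exact h
  · exfalso
    have h0 := g2a_eq_zero_of_mem_MF1_of_neg hv (by linarith)
    have := congrFun h0 UpperHalfPlane.I
    simp only [Pi.div_apply, Pi.zero_apply, div_eq_zero_iff] at this
    rcases this with h' | h'
    · exact hDne _ h'
    · exact hne _ h'

/-- **G2a**, second half: then `g = c Δᵐ`. -/
theorem g2a_eq_smul_pow (hg : g ∈ MF1 w) (hne : ∀ z, g z ≠ 0) (hc : c ≠ 0)
    (hlim : Tendsto (fun z : ℍ => g z * cexp (-2 * π * I * m * z)) atImInfty (𝓝 c)) :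
    g = c • Dl ^ m := by
  have hw := g2a_weight_eq hg hne hc hlim
  have hD : Dl ^ m ∈ MF1 ((m : ℤ) * 12) := pow_mem_MF1 Dl_mem_MF1 m
  have hDne : ∀ z, (Dl ^ m) z ≠ 0 := fun z => pow_ne_zero _ (Dl_ne_zero z)
  have ht := g2a_tendsto_div hlim
  have hu : g / Dl ^ m ∈ MF1 (w - (m : ℤ) * 12) :=
    g2a_div_mem_MF1 hg hD hDne (ht.isBigO_one ℝ)
  have hw0 : w - (m : ℤ) * 12 = 0 := by rw [hw]; ring
  rw [hw0] at hu
  obtain ⟨c', hc'⟩ := g2a_eq_const_of_mem_MF1_zero hu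
  have hcc : c' = c := by
    rw [hc'] at ht
    exact tendsto_nhds_unique tendsto_const_nhds ht
  ext z
  have := congrFun hc' z
  simp only [Pi.div_apply] at this
  rw [div_eq_iff (hDne z)] at this
  rw [this, hcc]
  rfl

end

end Fermat.Agent.Lib.RR
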