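import Mathlib
import Fermat.Prelude.Def_ModularForm_HeckeOperator

/-!
# S20, work package F: the level-raised Eisenstein series `E₄(N z)` and its conjugates

* `tendsto_E₄` : `E₄ → 1` at `i∞`.
* `rankF_levelRaise φ N` : for a level one form `φ`, `φ ∣[k] diag(N, 1)` (`= N^(k-1) φ(N z)`) is a
  modular form for `Γ₀(N)`.
* `rankF_mem_Gamma0_of_slash_eq` : the stabiliser in `SL(2, ℤ)` of `E₄ ∣[4] diag(N, 1)` is `Γ₀(N)`.
-/

set_option autoImplicit false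

namespace Fermat.Agent.Lib.RR

open UpperHalfPlane ModularForm Filter Topology CongruenceSubgroup Matrix.SpecialLinearGroup
open scoped MatrixGroups ModularForm

noncomputable section

/-- A modular form tends to its value at infinity. -/
theorem rankF_tendsto_valueAtInfty {Γ : Subgroup (GL (Fin 2) ℝ)} {k : ℤ} [Γ.HasDetPlusMinusOne]
    [DiscreteTopology Γ] [Fact (IsCusp OnePoint.infty Γ)] (f : ModularForm Γ k) :
    Tendsto (fun τ : ℍ => f τ) atImInfty (𝓝 (valueAtInfty f)) := by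
  obtain ⟨c, hc, hO⟩ := ModularFormClass.exp_decay_sub_atImInfty' f
  have h0 : Tendsto (fun τ : ℍ => Real.exp (-c * τ.im)) atImInfty (𝓝 0) := by
    have h1 : Tendsto (fun τ : ℍ => τ.im) atImInfty atTop := tendsto_comap
    have h2 : Tendsto (fun y : ℝ => -c * y) atTop atBot := by
      simpa using (tendsto_id.const_mul_atTop_of_neg (neg_lt_zero.mpr hc))
    exact Real.tendsto_exp_atBot.comp (h2.comp h1)
  have := hO.trans_tendsto h0
  simpa using this.add_const (valueAtInfty f)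

theorem rankF_tendsto_E₄ : Tendsto (fun τ : ℍ => E₄ τ) atImInfty (𝓝 1) := by
  have h := rankF_tendsto_valueAtInfty E₄
  have hval : valueAtInfty (E₄ : ℍ → ℂ) = 1 := by
    rw [← UpperHalfPlane.qExpansion_coeff_zero (h := 1) one_pos
      (ModularFormClass.analyticAt_cuspFunction_zero E₄ one_pos (by simp))
      (SlashInvariantFormClass.periodic_comp_ofComplex E₄ (by simp))]
    exact EisensteinSeries.E_qExpansion_coeff_zero (by norm_num) (by decide)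
  rwa [hval] at h

/-- The limit at `i∞` of `f ∣[k] g` for upper triangular `g` of positive determinant. -/
theorem rankF_tendsto_slash_upperTriangular {g : GL (Fin 2) ℝ} (hg : g 1 0 = 0)
    (hdet : 0 < g.det.val) (k : ℤ) {f : ℍ → ℂ} {L : ℂ} (hf : Tendsto f atImInfty (𝓝 L)) :
    Tendsto (f ∣[k] g) atImInfty
      (𝓝 (L * ((g.det.val : ℝ) : ℂ) ^ (k - 1) * ((g 1 1 : ℝ) : ℂ) ^ (-k))) := by
  have h1 := (hf.comp (tendsto_smul_atImInfty hg)).mul_const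
    (((g.det.val : ℝ) : ℂ) ^ (k - 1) * ((g 1 1 : ℝ) : ℂ) ^ (-k))
  rw [← mul_assoc] at h1
  refine h1.congr fun τ => ?_
  rw [ModularForm.slash_apply, UpperHalfPlane.σ, if_pos hdet, abs_of_pos hdet]
  simp [denom, hg, mul_assoc]

/-! ### Hermite normal form of `diag(N, 1) * γ` -/

/-- For an integral `2 × 2` matrix `M` whose first column is nonzero there is `σ ∈ SL(2, ℤ)` with
`σ⁻¹ * M` upper triangular, with top left entry the gcd of the first column. -/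
theorem rankF_exists_upperTriangular (M : Matrix (Fin 2) (Fin 2) ℤ) (hM : M 0 0 ≠ 0 ∨ M 1 0 ≠ 0) :
    ∃ (σ : SL(2, ℤ)) (T : Matrix (Fin 2) (Fin 2) ℤ),
      M = (σ : Matrix (Fin 2) (Fin 2) ℤ) * T ∧ T 1 0 = 0 ∧
        T 0 0 = ((Int.gcd (M 0 0) (M 1 0) : ℕ) : ℤ) := by
  set e : ℤ := ((Int.gcd (M 0 0) (M 1 0) : ℕ) : ℤ) with he
  have he0 : e ≠ 0 := by
    rw [he, Ne, Int.natCast_eq_zero, Int.gcd_eq_zero_iff]
    tauto
  obtain ⟨x, hx⟩ : e ∣ M 0 0 := Int.gcd_dvd_left _ _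
  obtain ⟨y, hy⟩ : e ∣ M 1 0 := Int.gcd_dvd_right _ _
  have hcop : IsCoprime x y := by
    obtain ⟨u, v, huv⟩ : ∃ u v : ℤ, (Int.gcd (M 0 0) (M 1 0) : ℤ) = M 0 0 * u + M 1 0 * v :=
      ⟨_, _, Int.gcd_eq_gcd_ab _ _⟩
    refine ⟨u, v, ?_⟩
    have : e * (u * x + v * y) = e * 1 := by
      rw [mul_one]
      conv_rhs => rw [he, huv, hx, hy]
      ring
    exact mul_left_cancel₀ he0 this
  obtain ⟨σ, hσ0, hσ1⟩ := hcop.exists_SL2_col 0
  have hdet : σ 0 0 * σ 1 1 - σ 0 1 * σ 1 0 = 1 := by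
    have := σ.det_coe
    rwa [Matrix.det_fin_two] at this
  refine ⟨σ, ((σ⁻¹ : SL(2, ℤ)) : Matrix (Fin 2) (Fin 2) ℤ) * M, ?_, ?_, ?_⟩
  · rw [← Matrix.mul_assoc, ← Matrix.SpecialLinearGroup.coe_mul, mul_inv_cancel,
      Matrix.SpecialLinearGroup.coe_one, Matrix.one_mul]
  · rw [Matrix.SpecialLinearGroup.coe_inv, Matrix.adjugate_fin_two, Matrix.mul_apply,
      Fin.sum_univ_two]
    simp only [Matrix.of_apply, Matrix.cons_val', Matrix.cons_val_zero, Matrix.cons_val_one,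
      Matrix.cons_val_fin_one]
    rw [hx, hy, hσ0, hσ1]
    ring
  · rw [Matrix.SpecialLinearGroup.coe_inv, Matrix.adjugate_fin_two, Matrix.mul_apply,
      Fin.sum_univ_two]
    simp only [Matrix.of_apply, Matrix.cons_val', Matrix.cons_val_zero, Matrix.cons_val_one,
      Matrix.cons_val_fin_one]
    rw [hx, hy, ← hσ0, ← hσ1]
    linear_combination e * hdet

/-! ### The stabiliser of `E₄ ∣[4] diag(N, 1)` -/

/-- The function `N ^ 3 * E₄ (N z)`, written as a slash. -/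
def rankF_h (N : ℕ) : ℍ → ℂ := (⇑E₄ : ℍ → ℂ) ∣[(4 : ℤ)] heckeDiagMatrix N

lemma rankF_h_apply {N : ℕ} (hN : N ≠ 0) (τ : ℍ) :
    rankF_h N τ = (N : ℂ) ^ (3 : ℕ) * E₄ (heckeDiagMatrix N • τ) := by
  rw [rankF_h, slash_heckeDiagMatrix_apply 4 hN]
  norm_num

theorem rankF_tendsto_h {N : ℕ} (hN : N ≠ 0) :
    Tendsto (rankF_h N) atImInfty (𝓝 ((N : ℂ) ^ (3 : ℕ))) := by
  have hg : (heckeDiagMatrix N : GL (Fin 2) ℝ) 1 0 = 0 := by
    have := val_heckeDiagMatrix hN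
    simp [this]
  have hd : ((heckeDiagMatrix N).det : ℝ) = N := det_heckeDiagMatrix hN
  have h11 : (heckeDiagMatrix N : GL (Fin 2) ℝ) 1 1 = 1 := by
    have := val_heckeDiagMatrix hN
    simp [this]
  have h := rankF_tendsto_slash_upperTriangular hg (by rw [hd]; exact_mod_cast Nat.pos_of_ne_zero hN)
    4 rankF_tendsto_E₄
  rw [hd, h11] at h
  have h' : Tendsto (rankF_h N) atImInfty
      (𝓝 (1 * ((N : ℝ) : ℂ) ^ ((4 : ℤ) - 1) * ((1 : ℝ) : ℂ) ^ (-(4 : ℤ)))) := h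
  have e : (1 : ℂ) * ((N : ℝ) : ℂ) ^ ((4 : ℤ) - 1) * ((1 : ℝ) : ℂ) ^ (-(4 : ℤ)) =
      (N : ℂ) ^ (3 : ℕ) := by
    norm_num
  rwa [e] at h'

theorem rankF_mem_Gamma0_of_slash_eq {N : ℕ} (hN : N ≠ 0) (γ : SL(2, ℤ))
    (h : rankF_h N ∣[(4 : ℤ)] γ = rankF_h N) : γ ∈ Gamma0 N := by
  set M : Matrix (Fin 2) (Fin 2) ℤ := !![(N : ℤ) * γ 0 0, (N : ℤ) * γ 0 1; γ 1 0, γ 1 1] with hM
  have hdetγ : γ 0 0 * γ 1 1 - γ 0 1 * γ 1 0 = 1 := by
    have := γ.det_coe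
    rwa [Matrix.det_fin_two] at this
  have hN' : (N : ℤ) ≠ 0 := by exact_mod_cast hN
  have hcol : M 0 0 ≠ 0 ∨ M 1 0 ≠ 0 := by
    by_contra hcon
    push Not at hcon
    obtain ⟨h1, h2⟩ := hcon
    simp only [hM, Matrix.of_apply, Matrix.cons_val', Matrix.cons_val_zero, Matrix.cons_val_one,
      Matrix.cons_val_fin_one] at h1 h2
    have h3 : γ 0 0 = 0 := by
      rcases mul_eq_zero.mp h1 with h | h
      · exact absurd h hN'
      · exact h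
    rw [h3, h2] at hdetγ
    simp at hdetγ
  obtain ⟨σ, T, hMT, hT10, hT00⟩ := rankF_exists_upperTriangular M hcol
  have hdetM : M.det = N := by
    rw [hM, Matrix.det_fin_two_of]
    linear_combination (N : ℤ) * hdetγ
  have hdetT : T 0 0 * T 1 1 = N := by
    have h1 : M.det = T.det := by
      rw [hMT, Matrix.det_mul, σ.det_coe, one_mul]
    rw [hdetM, Matrix.det_fin_two, hT10, mul_zero, sub_zero] at h1
    exact h1.symm
  -- the real matrix of `T`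
  have hTdet : (T.map (Int.cast : ℤ → ℝ)).det ≠ 0 := by
    rw [Matrix.det_fin_two]
    simp only [Matrix.map_apply, hT10, Int.cast_zero, mul_zero, sub_zero]
    have : ((T 0 0 * T 1 1 : ℤ) : ℝ) = (N : ℝ) := by rw [hdetT]; simp
    rw [← Int.cast_mul, this]
    exact_mod_cast hN
  set τ : GL (Fin 2) ℝ := Matrix.GeneralLinearGroup.mkOfDetNeZero (T.map (Int.cast : ℤ → ℝ)) hTdet
    with hτ
  have hfac : heckeDiagMatrix N * (mapGL ℝ γ : GL (Fin 2) ℝ) = (mapGL ℝ σ : GL (Fin 2) ℝ) * τ := by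
    apply Units.ext
    rw [Units.val_mul, Units.val_mul, val_heckeDiagMatrix hN]
    have e1 : ((mapGL ℝ σ : GL (Fin 2) ℝ) : Matrix (Fin 2) (Fin 2) ℝ) =
        (σ : Matrix (Fin 2) (Fin 2) ℤ).map (Int.cast : ℤ → ℝ) := by
      ext i j; simp
    have e2 : ((mapGL ℝ γ : GL (Fin 2) ℝ) : Matrix (Fin 2) (Fin 2) ℝ) =
        (γ : Matrix (Fin 2) (Fin 2) ℤ).map (Int.cast : ℤ → ℝ) := by
      ext i j; simp
    have e3 : (τ : Matrix (Fin 2) (Fin 2) ℝ) = T.map (Int.cast : ℤ → ℝ) := rfl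
    rw [e1, e2, e3, ← Matrix.map_mul_intCast, ← hMT, hM]
    ext i j
    fin_cases i <;> fin_cases j <;> simp [Matrix.mul_apply, Fin.sum_univ_two]
  -- slash computation
  have hslash : rankF_h N ∣[(4 : ℤ)] γ = (⇑E₄ : ℍ → ℂ) ∣[(4 : ℤ)] τ := by
    have hfac' : heckeDiagMatrix N * toGL ((Matrix.SpecialLinearGroup.map (Int.castRingHom ℝ)) γ)
        = (mapGL ℝ σ : GL (Fin 2) ℝ) * τ := hfac
    rw [rankF_h, ModularForm.SL_slash, ← SlashAction.slash_mul, hfac', SlashAction.slash_mul]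
    congr 1
    exact SlashInvariantForm.slash_action_eqn E₄ _ ⟨σ, rfl⟩
  -- limits
  have hτ10 : (τ : GL (Fin 2) ℝ) 1 0 = 0 := by
    show (T.map (Int.cast : ℤ → ℝ)) 1 0 = 0
    simp [hT10]
  have hτ11 : (τ : GL (Fin 2) ℝ) 1 1 = (T 1 1 : ℝ) := rfl
  have hτdet : (τ.det : ℝ) = N := by
    rw [Matrix.GeneralLinearGroup.val_det_apply]
    show (T.map (Int.cast : ℤ → ℝ)).det = N
    rw [Matrix.det_fin_two]
    simp only [Matrix.map_apply, hT10, Int.cast_zero, mul_zero, sub_zero]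
    rw [← Int.cast_mul, hdetT]; simp
  have hlim := rankF_tendsto_slash_upperTriangular hτ10
    (by rw [hτdet]; exact_mod_cast Nat.pos_of_ne_zero hN) 4 rankF_tendsto_E₄
  rw [← hslash, h, hτdet, hτ11] at hlim
  have huniq := tendsto_nhds_unique hlim (rankF_tendsto_h hN)
  -- so `T 1 1 ^ 4 = 1`
  have hNC : ((N : ℝ) : ℂ) ≠ 0 := by exact_mod_cast hN
  have hT11ne : (T 1 1 : ℤ) ≠ 0 := by
    rintro h0
    rw [h0, mul_zero] at hdetT
    exact hN' hdetT.symm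
  have hT11C : (((T 1 1 : ℤ) : ℝ) : ℂ) ≠ 0 := by exact_mod_cast hT11ne
  have hpow : (((T 1 1 : ℤ) : ℝ) : ℂ) ^ (4 : ℕ) = 1 := by
    have e : (1 : ℂ) * ((N : ℝ) : ℂ) ^ ((4 : ℤ) - 1) * (((T 1 1 : ℤ) : ℝ) : ℂ) ^ (-(4 : ℤ)) =
        ((N : ℝ) : ℂ) ^ (3 : ℕ) * ((((T 1 1 : ℤ) : ℝ) : ℂ) ^ (4 : ℕ))⁻¹ := by
      rw [one_mul, zpow_neg]
      norm_num
    rw [e] at huniq
    have h3 : ((N : ℝ) : ℂ) ^ (3 : ℕ) ≠ 0 := pow_ne_zero _ hNC
    have h4 : (((T 1 1 : ℤ) : ℝ) : ℂ) ^ (4 : ℕ) ≠ 0 := pow_ne_zero _ hT11C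
    have huniq' : ((N : ℝ) : ℂ) ^ (3 : ℕ) * ((((T 1 1 : ℤ) : ℝ) : ℂ) ^ (4 : ℕ))⁻¹ =
        ((N : ℝ) : ℂ) ^ (3 : ℕ) := by simpa using huniq
    field_simp at huniq'
    exact huniq'.symm
  have hpowZ : (T 1 1) ^ 4 = 1 := by exact_mod_cast hpow
  have hT00pos : 0 < T 0 0 := by
    rw [hT00]
    have : Int.gcd (M 0 0) (M 1 0) ≠ 0 := by
      rw [Ne, Int.gcd_eq_zero_iff]; tauto
    exact_mod_cast Nat.pos_of_ne_zero this
  have hT11 : T 1 1 = 1 := by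
    have hpos : 0 < T 1 1 := by
      have hNpos : (0 : ℤ) < T 0 0 * T 1 1 := by rw [hdetT]; exact_mod_cast Nat.pos_of_ne_zero hN
      exact (mul_pos_iff_of_pos_left hT00pos).mp hNpos
    have : T 1 1 ≤ 1 := by
      by_contra hlt
      push Not at hlt
      have : (2 : ℤ) ^ 4 ≤ (T 1 1) ^ 4 := pow_le_pow_left₀ (by norm_num) (by omega) 4
      omega
    omega
  rw [hT11, mul_one] at hdetT
  -- `N = gcd (N a, c)` divides `c`
  have hdvd : (N : ℤ) ∣ γ 1 0 := by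
    have h1 : ((Int.gcd (M 0 0) (M 1 0) : ℕ) : ℤ) ∣ M 1 0 := Int.gcd_dvd_right _ _
    rw [← hT00, hdetT] at h1
    simpa [hM] using h1
  rw [Gamma0_mem]
  exact (ZMod.intCast_zmod_eq_zero_iff_dvd _ _).mpr hdvd

/-! ### `E₄ ∣[4] diag(N, 1)` is a modular form for `Γ₀(N)` -/

/-- Restriction of a modular form to a smaller group. -/
def rankF_restrict {Γ Γ' : Subgroup (GL (Fin 2) ℝ)} (h : Γ' ≤ Γ) {k : ℤ} (f : ModularForm Γ k) :
    ModularForm Γ' k where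
  toFun := f
  slash_action_eq' γ hγ := f.slash_action_eq' γ (h hγ)
  holo' := f.holo'
  bdd_at_cusps' hc := f.bdd_at_cusps' (hc.mono h)

@[simp] lemma rankF_coe_restrict {Γ Γ' : Subgroup (GL (Fin 2) ℝ)} (h : Γ' ≤ Γ) {k : ℤ}
    (f : ModularForm Γ k) : (⇑(rankF_restrict h f) : ℍ → ℂ) = ⇑f := rfl

open ConjAct Pointwise in
lemma rankF_Gamma0_le_conj {N : ℕ} (hN : N ≠ 0) :
    (Subgroup.map (mapGL ℝ) (Gamma0 N) : Subgroup (GL (Fin 2) ℝ)) ≤
      toConjAct (heckeDiagMatrix N)⁻¹ • 𝒮ℒ := by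
  rintro _ ⟨γ, hγ, rfl⟩
  rw [Subgroup.mem_pointwise_smul_iff_inv_smul_mem, ← map_inv, inv_inv, ConjAct.smul_def,
    ConjAct.ofConjAct_toConjAct]
  obtain ⟨c', hc'⟩ : (N : ℤ) ∣ γ 1 0 :=
    (ZMod.intCast_zmod_eq_zero_iff_dvd _ _).mp (Gamma0_mem.mp hγ)
  have hdetγ : γ 0 0 * γ 1 1 - γ 0 1 * γ 1 0 = 1 := by
    have := γ.det_coe
    rwa [Matrix.det_fin_two] at this
  have hdetσ : (!![γ 0 0, (N : ℤ) * γ 0 1; c', γ 1 1] : Matrix (Fin 2) (Fin 2) ℤ).det = 1 := by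
    rw [Matrix.det_fin_two_of]
    rw [hc'] at hdetγ
    linear_combination hdetγ
  set σ : SL(2, ℤ) := ⟨!![γ 0 0, (N : ℤ) * γ 0 1; c', γ 1 1], hdetσ⟩ with hσ
  refine ⟨σ, ?_⟩
  rw [eq_mul_inv_iff_mul_eq]
  apply Units.ext
  rw [Units.val_mul, Units.val_mul, val_heckeDiagMatrix hN]
  have e1 : ((mapGL ℝ σ : GL (Fin 2) ℝ) : Matrix (Fin 2) (Fin 2) ℝ) =
      (σ : Matrix (Fin 2) (Fin 2) ℤ).map (Int.cast : ℤ → ℝ) := by
    ext i j; simp
  have e2 : ((mapGL ℝ γ : GL (Fin 2) ℝ) : Matrix (Fin 2) (Fin 2) ℝ) =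
      (γ : Matrix (Fin 2) (Fin 2) ℤ).map (Int.cast : ℤ → ℝ) := by
    ext i j; simp
  have e3 : (σ : Matrix (Fin 2) (Fin 2) ℤ) = !![γ 0 0, (N : ℤ) * γ 0 1; c', γ 1 1] := rfl
  rw [e1, e2, e3]
  ext i j
  fin_cases i <;> fin_cases j <;> simp [Matrix.mul_apply, Fin.sum_univ_two, hc', mul_comm]

/-- `N ^ 3 * E₄ (N z)` as a modular form of weight `4` for `Γ₀(N)`. -/
def rankF_hMF {N : ℕ} (hN : N ≠ 0) : ModularForm (Gamma0 N) 4 :=
  rankF_restrict (rankF_Gamma0_le_conj hN) (ModularForm.translate E₄ (heckeDiagMatrix N))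

lemma rankF_coe_hMF {N : ℕ} (hN : N ≠ 0) : (⇑(rankF_hMF hN) : ℍ → ℂ) = rankF_h N := rfl

/-! ### The conjugates of `h` are pairwise distinct at a suitable point -/

/-- Finitely many analytic functions on a preconnected set, none of which vanishes identically,
have a common non-zero. -/
theorem rankF_exists_forall_ne_zero {ι : Type*} (s : Finset ι) (F : ι → ℂ → ℂ) {U : Set ℂ}
    (hU : IsPreconnected U) (hUne : U.Nonempty) (hF : ∀ i ∈ s, AnalyticOnNhd ℂ (F i) U)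
    (hne : ∀ i ∈ s, ∃ z ∈ U, F i z ≠ 0) : ∃ z ∈ U, ∀ i ∈ s, F i z ≠ 0 := by
  classical
  -- the product of the `F i` is analytic and not identically zero
  have key : AnalyticOnNhd ℂ (fun z => ∏ i ∈ s, F i z) U ∧ ∃ z ∈ U, ∏ i ∈ s, F i z ≠ 0 := by
    induction s using Finset.induction_on with
    | empty =>
      obtain ⟨z, hz⟩ := hUne
      exact ⟨by simpa using analyticOnNhd_const, z, hz, by simp⟩
    | insert a s ha ih =>
      have ih' := ih (fun i hi => hF i (Finset.mem_insert_of_mem hi))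
        (fun i hi => hne i (Finset.mem_insert_of_mem hi))
      have hFa := hF a (Finset.mem_insert_self a s)
      refine ⟨?_, ?_⟩
      · simp only [Finset.prod_insert ha]
        exact hFa.mul ih'.1
      · by_contra hcon
        push Not at hcon
        have h0 : ∀ z ∈ U, F a z * ∏ i ∈ s, F i z = 0 := by
          intro z hz
          have := hcon z hz
          rwa [Finset.prod_insert ha] at this
        rcases hFa.eq_zero_or_eq_zero_of_mul_eq_zero ih'.1 h0 hU with h | h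
        · obtain ⟨z, hz, hz'⟩ := hne a (Finset.mem_insert_self a s)
          exact hz' (h z hz)
        · obtain ⟨z, hz, hz'⟩ := ih'.2
          exact hz' (h z hz)
  obtain ⟨z, hz, hz'⟩ := key.2
  exact ⟨z, hz, fun i hi hi0 => hz' (Finset.prod_eq_zero hi hi0)⟩

lemma rankF_slash_eq_of_mem {N : ℕ} (hN : N ≠ 0) {γ γ' : SL(2, ℤ)} (h : γ * γ'⁻¹ ∈ Gamma0 N) :
    rankF_h N ∣[(4 : ℤ)] γ = rankF_h N ∣[(4 : ℤ)] γ' := by
  have h1 : γ = (γ * γ'⁻¹) * γ' := by group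
  have h2 : rankF_h N ∣[(4 : ℤ)] (γ * γ'⁻¹) = rankF_h N := by
    rw [← rankF_coe_hMF hN, ModularForm.SL_slash]
    exact SlashInvariantForm.slash_action_eqn (rankF_hMF hN) _ ⟨_, h, rfl⟩
  conv_lhs => rw [h1, SlashAction.slash_mul, h2]

lemma rankF_analyticOnNhd_slash {N : ℕ} (hN : N ≠ 0) (γ : SL(2, ℤ)) :
    AnalyticOnNhd ℂ ((rankF_h N ∣[(4 : ℤ)] γ) ∘ ofComplex) {z : ℂ | 0 < z.im} := by
  have hopen : IsOpen {z : ℂ | 0 < z.im} := isOpen_lt continuous_const Complex.continuous_im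
  refine DifferentiableOn.analyticOnNhd ?_ hopen
  rw [← UpperHalfPlane.mdifferentiable_iff, ModularForm.SL_slash, ← rankF_coe_hMF hN]
  exact (rankF_hMF hN).holo'.slash 4 _

lemma rankF_slash_eq_iff {N : ℕ} (hN : N ≠ 0) {γ γ' : SL(2, ℤ)} :
    rankF_h N ∣[(4 : ℤ)] γ = rankF_h N ∣[(4 : ℤ)] γ' ↔ γ * γ'⁻¹ ∈ Gamma0 N := by
  refine ⟨fun h => rankF_mem_Gamma0_of_slash_eq hN _ ?_, rankF_slash_eq_of_mem hN⟩
  rw [SlashAction.slash_mul, h, ← SlashAction.slash_mul, mul_inv_cancel, SlashAction.slash_one]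

/-- There is a point of the upper half plane where the conjugates `h ∣[4] γ` of
`h = E₄ ∣[4] diag(N, 1)` take pairwise distinct values (for distinct cosets `Γ₀(N) γ`). -/
theorem rankF_exists_injective {N : ℕ} [NeZero N] :
    ∃ z0 : ℍ, ∀ γ γ' : SL(2, ℤ),
      (rankF_h N ∣[(4 : ℤ)] γ) z0 = (rankF_h N ∣[(4 : ℤ)] γ') z0 → γ * γ'⁻¹ ∈ Gamma0 N := by
  classical
  have hN : N ≠ 0 := NeZero.ne N
  have : Fintype (SL(2, ℤ) ⧸ Gamma0 N) := Subgroup.fintypeQuotientOfFiniteIndex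
  set φ : SL(2, ℤ) ⧸ Gamma0 N → ℍ → ℂ := fun q => rankF_h N ∣[(4 : ℤ)] (q.out)⁻¹ with hφ
  have hφγ : ∀ γ : SL(2, ℤ), rankF_h N ∣[(4 : ℤ)] γ = φ ((γ⁻¹ : SL(2, ℤ)) : SL(2, ℤ) ⧸ Gamma0 N) := by
    intro γ
    rw [hφ]
    apply rankF_slash_eq_of_mem hN
    rw [inv_inv]
    have h1 : (((γ⁻¹ : SL(2, ℤ)) : SL(2, ℤ) ⧸ Gamma0 N).out : SL(2, ℤ) ⧸ Gamma0 N) =
        ((γ⁻¹ : SL(2, ℤ)) : SL(2, ℤ) ⧸ Gamma0 N) := QuotientGroup.out_eq' _
    have h2 := QuotientGroup.eq.mp h1.symm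
    rwa [inv_inv] at h2
  set U : Set ℂ := {z : ℂ | 0 < z.im} with hU
  have hUpre : IsPreconnected U := by
    have : U = Complex.imCLM ⁻¹' (Set.Ioi 0) := by ext; simp [hU]
    rw [this]
    exact ((convex_Ioi (0 : ℝ)).linear_preimage Complex.imCLM.toLinearMap).isPreconnected
  have hUne : U.Nonempty := ⟨Complex.I, by simp [hU]⟩
  set s : Finset ((SL(2, ℤ) ⧸ Gamma0 N) × (SL(2, ℤ) ⧸ Gamma0 N)) :=
    Finset.univ.filter fun p => p.1 ≠ p.2 with hs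
  set F : (SL(2, ℤ) ⧸ Gamma0 N) × (SL(2, ℤ) ⧸ Gamma0 N) → ℂ → ℂ :=
    fun p z => φ p.1 (ofComplex z) - φ p.2 (ofComplex z) with hF
  have hFan : ∀ p ∈ s, AnalyticOnNhd ℂ (F p) U := fun p _ =>
    (rankF_analyticOnNhd_slash hN _).sub (rankF_analyticOnNhd_slash hN _)
  have hFne : ∀ p ∈ s, ∃ z ∈ U, F p z ≠ 0 := by
    intro p hp
    by_contra hcon
    push Not at hcon
    have hpne : p.1 ≠ p.2 := (Finset.mem_filter.mp hp).2
    apply hpne
    have hfun : φ p.1 = φ p.2 := by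
      funext τ
      have := hcon (τ : ℂ) τ.im_pos
      simp only [hF, ofComplex_apply] at this
      exact sub_eq_zero.mp this
    have hmem := (rankF_slash_eq_iff hN).mp hfun
    rw [inv_inv] at hmem
    rw [← QuotientGroup.out_eq' p.1, ← QuotientGroup.out_eq' p.2]
    exact QuotientGroup.eq.mpr hmem
  obtain ⟨z, hz, hzne⟩ := rankF_exists_forall_ne_zero s F hUpre hUne hFan hFne
  refine ⟨⟨z, hz⟩, fun γ γ' hval => ?_⟩
  rw [hφγ γ, hφγ γ'] at hval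
  by_contra hnot
  have hq : ((γ⁻¹ : SL(2, ℤ)) : SL(2, ℤ) ⧸ Gamma0 N) ≠ ((γ'⁻¹ : SL(2, ℤ)) : SL(2, ℤ) ⧸ Gamma0 N) := by
    intro heq
    apply hnot
    have := QuotientGroup.eq.mp heq
    rwa [inv_inv] at this
  have := hzne (_, _) (Finset.mem_filter.mpr ⟨Finset.mem_univ _, hq⟩)
  apply this
  simp only [hF]
  rw [ofComplex_apply_of_im_pos hz]
  exact sub_eq_zero.mpr hval

/-- Vandermonde form: at a suitable point `z0`, for any family `g i` of elements of `SL(2, ℤ)` lying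
in pairwise distinct cosets `Γ₀(N) (g i)`, the Vandermonde determinant of the values
`(h ∣[4] g i) z0` is nonzero. -/
theorem rankF_exists_vandermonde_ne_zero {N : ℕ} [NeZero N] :
    ∃ z0 : ℍ, ∀ {n : ℕ} (g : Fin n → SL(2, ℤ)),
      (∀ i j, g i * (g j)⁻¹ ∈ Gamma0 N → i = j) →
      (Matrix.vandermonde fun i => (rankF_h N ∣[(4 : ℤ)] g i) z0).det ≠ 0 := by
  obtain ⟨z0, hz0⟩ := rankF_exists_injective (N := N)
  refine ⟨z0, fun g hg => ?_⟩
  rw [Matrix.det_vandermonde_ne_zero_iff]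
  intro i j hij
  exact hg i j (hz0 _ _ hij)

/-- The slash of a power of `h`. -/
lemma rankF_pow_slash (N : ℕ) (m : ℕ) (γ : SL(2, ℤ)) (τ : ℍ) :
    ((rankF_h N ^ m) ∣[((4 * m : ℕ) : ℤ)] γ) τ = ((rankF_h N ∣[(4 : ℤ)] γ) τ) ^ m := by
  rw [ModularForm.SL_slash_apply, ModularForm.SL_slash_apply, Pi.pow_apply, mul_pow, ← zpow_natCast,
    ← zpow_natCast (denom _ _ ^ _), ← zpow_mul]
  congr 2

end

end Fermat.Agent.Lib.RR
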