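import Fermat.Agent.Lib.RR.CosetsFix

/-!
# The index of `Γ₀(N)` in `SL(2, ℤ)` is the Dedekind psi function

We show `Nat.card (SL(2, ℤ) ⧸ Γ₀(N)) = ψ(N) = N ∏_{p ∣ N} (1 + 1/p)` by multiplicativity
(Chinese remainder theorem plus lifting to `SL(2, ℤ)`) and an explicit parametrisation for
prime powers.
-/

set_option autoImplicit false

open Matrix Matrix.SpecialLinearGroup CongruenceSubgroup ModularGroup ModularCurve
  ArithmeticFunction

open scoped MatrixGroups

namespace Fermat.Agent.Lib.RR.Cosets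

/-! ### The Dedekind psi function -/

/-- The indicator function of squarefree numbers, as an arithmetic function. -/
def sqfreeInd : ArithmeticFunction ℕ := ⟨fun n => if Squarefree n then 1 else 0, by simp⟩

theorem sqfreeInd_apply (n : ℕ) : sqfreeInd n = if Squarefree n then 1 else 0 := rfl

theorem isMultiplicative_sqfreeInd : IsMultiplicative sqfreeInd := by
  refine ⟨by simp [sqfreeInd_apply], fun {m n} hmn => ?_⟩
  have hmn' : m.gcd n = 1 := hmn
  simp only [sqfreeInd_apply, Nat.squarefree_mul_iff]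
  by_cases hm : Squarefree m <;> by_cases hn : Squarefree n <;> simp [hm, hn, hmn']

theorem dedekindPsi_eq (N : ℕ) : dedekindPsi N = (sqfreeInd * ArithmeticFunction.id) N := by
  rw [ArithmeticFunction.mul_apply, Nat.sum_divisorsAntidiagonal (fun d e => sqfreeInd d * ArithmeticFunction.id e),
    dedekindPsi, Finset.sum_filter]
  refine Finset.sum_congr rfl fun d _ => ?_
  simp only [sqfreeInd_apply, id_apply]
  split_ifs <;> simp

theorem dedekindPsi_mul {m n : ℕ} (h : m.Coprime n) :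
    dedekindPsi (m * n) = dedekindPsi m * dedekindPsi n := by
  simp only [dedekindPsi_eq]
  exact (isMultiplicative_sqfreeInd.mul isMultiplicative_id).map_mul_of_coprime h

theorem dedekindPsi_prime_pow {p k : ℕ} (hp : p.Prime) (hk : 0 < k) :
    dedekindPsi (p ^ k) = p ^ k + p ^ (k - 1) := by
  have hfilter : {d ∈ (p ^ k).divisors | Squarefree d} = {1, p} := by
    ext d
    simp only [Finset.mem_filter, Nat.mem_divisors, Finset.mem_insert, Finset.mem_singleton]
    constructor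
    · rintro ⟨⟨hd, -⟩, hsq⟩
      obtain ⟨j, -, rfl⟩ := (Nat.dvd_prime_pow hp).mp hd
      rcases Nat.lt_or_ge j 2 with hj | hj
      · interval_cases j <;> simp
      · exfalso
        have : p * p ∣ p ^ j := by
          rw [← pow_two]; exact pow_dvd_pow p hj
        exact hp.not_isUnit (hsq p this)
    · rintro (rfl | rfl)
      · exact ⟨⟨one_dvd _, (pow_pos hp.pos k).ne'⟩, squarefree_one⟩
      · exact ⟨⟨dvd_pow_self _ hk.ne', (pow_pos hp.pos k).ne'⟩, hp.squarefree⟩
  rw [dedekindPsi, hfilter, Finset.sum_pair hp.one_lt.ne, Nat.div_one]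
  congr 1
  obtain ⟨j, rfl⟩ : ∃ j, k = j + 1 := ⟨k - 1, by omega⟩
  rw [pow_succ, Nat.mul_div_cancel _ hp.pos, Nat.add_sub_cancel]

/-! ### Multiplicativity of the index -/

theorem mk_eq_mk_iff_dvd {N : ℕ} (g h : SL(2, ℤ)) :
    (QuotientGroup.mk g : SL(2, ℤ) ⧸ Gamma0 N) = QuotientGroup.mk h ↔ (N : ℤ) ∣ cross g h := by
  rw [mk_eq_mk_iff, ZMod.intCast_zmod_eq_zero_iff_dvd]

/-- The natural map `SL(2, ℤ) ⧸ Γ₀(m n) → SL(2, ℤ) ⧸ Γ₀(m) × SL(2, ℤ) ⧸ Γ₀(n)`. -/
def prodMap (m n : ℕ) :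
    SL(2, ℤ) ⧸ Gamma0 (m * n) → (SL(2, ℤ) ⧸ Gamma0 m) × (SL(2, ℤ) ⧸ Gamma0 n) :=
  Quotient.lift (fun g => ((QuotientGroup.mk g : SL(2, ℤ) ⧸ Gamma0 m),
    (QuotientGroup.mk g : SL(2, ℤ) ⧸ Gamma0 n))) (by
    intro g h hgh
    have h1 : (QuotientGroup.mk g : SL(2, ℤ) ⧸ Gamma0 (m * n)) = QuotientGroup.mk h :=
      Quotient.sound hgh
    rw [mk_eq_mk_iff_dvd] at h1
    push_cast at h1
    refine Prod.ext ?_ ?_
    · exact (mk_eq_mk_iff_dvd g h).mpr ((dvd_mul_right _ _).trans h1)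
    · exact (mk_eq_mk_iff_dvd g h).mpr ((dvd_mul_left _ _).trans h1))

theorem prodMap_mk (m n : ℕ) (g : SL(2, ℤ)) :
    prodMap m n (QuotientGroup.mk g) = (QuotientGroup.mk g, QuotientGroup.mk g) := rfl

theorem prodMap_injective {m n : ℕ} (hmn : m.Coprime n) : Function.Injective (prodMap m n) := by
  intro x y hxy
  induction x using QuotientGroup.induction_on with
  | H g =>
    induction y using QuotientGroup.induction_on with
    | H h =>
      rw [prodMap_mk, prodMap_mk, Prod.ext_iff] at hxy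
      obtain ⟨h1, h2⟩ := hxy
      dsimp only at h1 h2
      rw [mk_eq_mk_iff_dvd] at h1 h2 ⊢
      push_cast
      exact (Nat.isCoprime_iff_coprime.mpr hmn).mul_dvd h1 h2

theorem prodMap_surjective {m n : ℕ} [NeZero m] [NeZero n] (hmn : m.Coprime n) :
    Function.Surjective (prodMap m n) := by
  have : NeZero (m * n) := ⟨mul_ne_zero (NeZero.ne m) (NeZero.ne n)⟩
  rintro ⟨x, y⟩
  induction x using QuotientGroup.induction_on with
  | H g₁ =>
    induction y using QuotientGroup.induction_on with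
    | H g₂ =>
      obtain ⟨x, y, hxy⟩ := Nat.isCoprime_iff_coprime.mpr hmn
      -- `x * m + y * n = 1`
      set a : ℤ := g₁ 0 0 * (y * n) + g₂ 0 0 * (x * m) with ha
      set c : ℤ := g₁ 1 0 * (y * n) + g₂ 1 0 * (x * m) with hc
      have ha1 : (m : ℤ) ∣ a - g₁ 0 0 := ⟨x * (g₂ 0 0 - g₁ 0 0), by rw [ha]; linear_combination (g₁ 0 0) * hxy⟩
      have hc1 : (m : ℤ) ∣ c - g₁ 1 0 := ⟨x * (g₂ 1 0 - g₁ 1 0), by rw [hc]; linear_combination (g₁ 1 0) * hxy⟩
      have ha2 : (n : ℤ) ∣ a - g₂ 0 0 := ⟨y * (g₁ 0 0 - g₂ 0 0), by rw [ha]; linear_combination (g₂ 0 0) * hxy⟩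
      have hc2 : (n : ℤ) ∣ c - g₂ 1 0 := ⟨y * (g₁ 1 0 - g₂ 1 0), by rw [hc]; linear_combination (g₂ 1 0) * hxy⟩
      have hprim : ∀ p : ℕ, p.Prime → (p : ℤ) ∣ a → (p : ℤ) ∣ c → ¬ p ∣ m * n := by
        intro p pp hpa hpc hpmn
        have key : ∀ (k : ℕ) (g : SL(2, ℤ)), p ∣ k → (k : ℤ) ∣ a - g 0 0 → (k : ℤ) ∣ c - g 1 0 →
            False := by
          intro k g hpk hka hkc
          have hpk' : (p : ℤ) ∣ (k : ℤ) := Int.natCast_dvd_natCast.mpr hpk
          have h0 : (p : ℤ) ∣ g 0 0 := by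
            have := (dvd_sub_right hpa).mp (hpk'.trans hka)
            exact this
          have h1 : (p : ℤ) ∣ g 1 0 := (dvd_sub_right hpc).mp (hpk'.trans hkc)
          have := (isCoprime_col g).isUnit_of_dvd' h0 h1
          rw [Int.isUnit_iff_natAbs_eq, Int.natAbs_natCast] at this
          exact pp.one_lt.ne' this
        rcases pp.dvd_mul.mp hpmn with h | h
        · exact key m g₁ h ha1 hc1
        · exact key n g₂ h ha2 hc2
      obtain ⟨g, hg0, hg1⟩ := exists_col_modEq (N := m * n) hprim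
      rw [← sub_eq_zero, ← Int.cast_sub, ZMod.intCast_zmod_eq_zero_iff_dvd] at hg0 hg1
      push_cast at hg0 hg1
      refine ⟨QuotientGroup.mk g, ?_⟩
      rw [prodMap_mk]
      refine Prod.ext ?_ ?_
      · rw [mk_eq_mk_iff_dvd]
        have e0 : (m : ℤ) ∣ g 0 0 - g₁ 0 0 := by
          have := dvd_add ((dvd_mul_right _ _).trans hg0) ha1
          rwa [sub_add_sub_cancel] at this
        have e1 : (m : ℤ) ∣ g 1 0 - g₁ 1 0 := by
          have := dvd_add ((dvd_mul_right _ _).trans hg1) hc1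
          rwa [sub_add_sub_cancel] at this
        obtain ⟨s, hs⟩ := e0
        obtain ⟨t, ht⟩ := e1
        exact ⟨s * g₁ 1 0 - t * g₁ 0 0, by rw [cross]; linear_combination (g₁ 1 0) * hs - (g₁ 0 0) * ht⟩
      · rw [mk_eq_mk_iff_dvd]
        have e0 : (n : ℤ) ∣ g 0 0 - g₂ 0 0 := by
          have := dvd_add ((dvd_mul_left _ _).trans hg0) ha2
          rwa [sub_add_sub_cancel] at this
        have e1 : (n : ℤ) ∣ g 1 0 - g₂ 1 0 := by
          have := dvd_add ((dvd_mul_left _ _).trans hg1) hc2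
          rwa [sub_add_sub_cancel] at this
        obtain ⟨s, hs⟩ := e0
        obtain ⟨t, ht⟩ := e1
        exact ⟨s * g₂ 1 0 - t * g₂ 0 0, by rw [cross]; linear_combination (g₂ 1 0) * hs - (g₂ 0 0) * ht⟩

theorem card_quotient_mul {m n : ℕ} [NeZero m] [NeZero n] (hmn : m.Coprime n) :
    Nat.card (SL(2, ℤ) ⧸ Gamma0 (m * n)) =
      Nat.card (SL(2, ℤ) ⧸ Gamma0 m) * Nat.card (SL(2, ℤ) ⧸ Gamma0 n) := by
  rw [← Nat.card_prod]
  exact Nat.card_eq_of_bijective _ ⟨prodMap_injective hmn, prodMap_surjective hmn⟩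

/-! ### Prime powers -/

/-- The matrix `[[1, 0], [c, 1]]`, with first column `(1, c)`. -/
def rowOne (c : ℤ) : SL(2, ℤ) := ⟨!![1, 0; c, 1], by simp [Matrix.det_fin_two]⟩

@[simp] theorem rowOne_apply_zero_zero (c : ℤ) : rowOne c 0 0 = 1 := rfl
@[simp] theorem rowOne_apply_one_zero (c : ℤ) : rowOne c 1 0 = c := rfl

theorem cross_rowOne (c : ℤ) (h : SL(2, ℤ)) : cross (rowOne c) h = h 1 0 - c * h 0 0 := by
  simp [cross]

section primepow

variable (p k : ℕ)

/-- The parametrisation of `SL(2, ℤ) ⧸ Γ₀(p ^ (k + 1))` by `ZMod (p ^ (k + 1)) ⊕ ZMod (p ^ k)`. -/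
noncomputable def primePowMap :
    ZMod (p ^ (k + 1)) ⊕ ZMod (p ^ k) → SL(2, ℤ) ⧸ Gamma0 (p ^ (k + 1))
  | Sum.inl u => QuotientGroup.mk (colOne (u.cast : ℤ))
  | Sum.inr v => QuotientGroup.mk (rowOne (p * (v.cast : ℤ)))

variable {p k}

theorem primePowMap_injective (hp : p.Prime) : Function.Injective (primePowMap p k) := by
  have hp0 : (p : ℤ) ≠ 0 := by exact_mod_cast hp.ne_zero
  rintro (u | v) (u' | v') h
  · exact congrArg Sum.inl (rootToCoset_injective _ h)
  · exfalso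
    rw [primePowMap, primePowMap, mk_eq_mk_iff_dvd, cross_colOne] at h
    simp only [rowOne_apply_zero_zero, rowOne_apply_one_zero] at h
    have hp1 : (p : ℤ) ∣ ((p ^ (k + 1) : ℕ) : ℤ) := by
      push_cast; exact dvd_pow_self _ (Nat.succ_ne_zero k)
    have h2 : (p : ℤ) ∣ 1 := by
      have := hp1.trans h
      have h3 : (p : ℤ) ∣ (u.cast : ℤ) * (p * (v'.cast : ℤ)) := ⟨(u.cast : ℤ) * (v'.cast : ℤ), by ring⟩
      exact (dvd_sub_right h3).mp this
    have := Int.isUnit_iff_natAbs_eq.mp (isUnit_of_dvd_one h2)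
    rw [Int.natAbs_natCast] at this
    exact hp.one_lt.ne' this
  · exfalso
    rw [primePowMap, primePowMap, mk_eq_mk_iff_dvd, cross_rowOne] at h
    simp only [colOne_apply_zero_zero, colOne_apply_one_zero] at h
    have hp1 : (p : ℤ) ∣ ((p ^ (k + 1) : ℕ) : ℤ) := by
      push_cast; exact dvd_pow_self _ (Nat.succ_ne_zero k)
    have h2 : (p : ℤ) ∣ 1 := by
      have := hp1.trans h
      have h3 : (p : ℤ) ∣ (p * (v.cast : ℤ)) * (u'.cast : ℤ) := ⟨(v.cast : ℤ) * (u'.cast : ℤ), by ring⟩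
      exact (dvd_sub_left h3).mp this
    have := Int.isUnit_iff_natAbs_eq.mp (isUnit_of_dvd_one h2)
    rw [Int.natAbs_natCast] at this
    exact hp.one_lt.ne' this
  · rw [primePowMap, primePowMap, mk_eq_mk_iff_dvd, cross_rowOne] at h
    simp only [rowOne_apply_zero_zero, rowOne_apply_one_zero, mul_one] at h
    push_cast at h
    rw [pow_succ, mul_comm, ← mul_sub] at h
    have h2 : ((p ^ k : ℕ) : ℤ) ∣ (v'.cast : ℤ) - (v.cast : ℤ) := by
      push_cast
      exact (mul_dvd_mul_iff_left hp0).mp h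
    rw [← ZMod.intCast_zmod_eq_zero_iff_dvd] at h2
    push_cast at h2
    exact congrArg Sum.inr (sub_eq_zero.mp h2).symm

theorem primePowMap_surjective (hp : p.Prime) : Function.Surjective (primePowMap p k) := by
  have hp0 : (p : ℤ) ≠ 0 := by exact_mod_cast hp.ne_zero
  have hpp : Prime (p : ℤ) := Nat.prime_iff_prime_int.mp hp
  intro x
  induction x using QuotientGroup.induction_on with
  | H g =>
    by_cases hc : (p : ℤ) ∣ g 1 0
    · -- `p ∣ c`, so `a` is a unit
      have ha : ¬ (p : ℤ) ∣ g 0 0 := fun h =>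
        hpp.not_isUnit ((isCoprime_col g).isUnit_of_dvd' h hc)
      have hcop : IsCoprime (g 0 0) ((p ^ k : ℕ) : ℤ) := by
        push_cast
        exact ((hpp.coprime_iff_not_dvd.mpr ha).symm.pow_right)
      have hinv := ZMod.coe_int_mul_inv_eq_one hcop
      obtain ⟨c₀, hc₀⟩ := hc
      refine ⟨Sum.inr ((c₀ : ZMod (p ^ k)) * ((g 0 0 : ℤ) : ZMod (p ^ k))⁻¹), ?_⟩
      rw [primePowMap, mk_eq_mk_iff_dvd, cross_rowOne]
      set v : ZMod (p ^ k) := (c₀ : ZMod (p ^ k)) * ((g 0 0 : ℤ) : ZMod (p ^ k))⁻¹ with hv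
      have h1 : ((p ^ k : ℕ) : ℤ) ∣ c₀ - (v.cast : ℤ) * g 0 0 := by
        rw [← ZMod.intCast_zmod_eq_zero_iff_dvd]
        push_cast
        rw [hv]
        linear_combination (-(c₀ : ZMod (p ^ k))) * hinv
      obtain ⟨t, ht⟩ := h1
      refine ⟨t, ?_⟩
      push_cast at ht ⊢
      rw [hc₀, pow_succ]
      linear_combination (p : ℤ) * ht
    · -- `p ∤ c`, so `c` is a unit
      have hcop : IsCoprime (g 1 0) ((p ^ (k + 1) : ℕ) : ℤ) := by
        push_cast
        exact ((hpp.coprime_iff_not_dvd.mpr hc).symm.pow_right)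
      have hinv := ZMod.coe_int_mul_inv_eq_one hcop
      refine ⟨Sum.inl (((g 0 0 : ℤ) : ZMod (p ^ (k + 1))) * ((g 1 0 : ℤ) : ZMod (p ^ (k + 1)))⁻¹), ?_⟩
      exact (eq_rootToCoset _ g _ hinv).symm

end primepow

theorem card_quotient_prime_pow {p k : ℕ} (hp : p.Prime) :
    Nat.card (SL(2, ℤ) ⧸ Gamma0 (p ^ (k + 1))) = p ^ (k + 1) + p ^ k := by
  have : NeZero (p ^ (k + 1)) := ⟨(pow_pos hp.pos _).ne'⟩
  have : NeZero (p ^ k) := ⟨(pow_pos hp.pos _).ne'⟩
  rw [← Nat.card_eq_of_bijective _ ⟨primePowMap_injective hp, primePowMap_surjective hp⟩,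
    Nat.card_sum, Nat.card_zmod, Nat.card_zmod]

/-! ### The index formula -/

/-- **The index of `Γ₀(N)`**: the number of left cosets of `Γ₀(N)` in `SL(2, ℤ)` is `ψ(N)`. -/
theorem card_quotient_Gamma0 (N : ℕ) [hN : NeZero N] :
    Nat.card (SL(2, ℤ) ⧸ Gamma0 N) = dedekindPsi N := by
  have key : ∀ N : ℕ, N ≠ 0 → Nat.card (SL(2, ℤ) ⧸ Gamma0 N) = dedekindPsi N := by
    intro N
    induction N using Nat.recOnPosPrimePosCoprime with
    | prime_pow p n hp hn =>
      intro _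
      obtain ⟨k, rfl⟩ : ∃ k, n = k + 1 := ⟨n - 1, by omega⟩
      rw [card_quotient_prime_pow hp, dedekindPsi_prime_pow hp hn, Nat.add_sub_cancel]
    | zero => intro h; exact absurd rfl h
    | one =>
      intro _
      rw [dedekindPsi_one]
      have : Subsingleton (SL(2, ℤ) ⧸ Gamma0 1) := by
        refine ⟨fun x y => ?_⟩
        induction x using QuotientGroup.induction_on with
        | H g =>
          induction y using QuotientGroup.induction_on with
          | H h => rw [mk_eq_mk_iff_dvd]; simp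
      exact Nat.card_unique
    | coprime a b ha hb hab iha ihb =>
      intro _
      have : NeZero a := ⟨by omega⟩
      have : NeZero b := ⟨by omega⟩
      rw [card_quotient_mul hab, iha (by omega), ihb (by omega), dedekindPsi_mul hab]
  exact key N (NeZero.ne N)

/-- The index of `Γ₀(N)` in `SL(2, ℤ)` is `ψ(N)`. -/
theorem index_Gamma0 (N : ℕ) [NeZero N] : (Gamma0 N).index = dedekindPsi N := by
  rw [Subgroup.index, card_quotient_Gamma0]

end Fermat.Agent.Lib.RR.Cosets
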