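import Fermat.Agent.Lib.RR.G2Glue

/-!
# WP G2: the sum of the weights of a homogeneous basis (modulo the inputs `G2c`, `G2s`)
-/

set_option autoImplicit false

namespace Fermat.Agent.Lib.RR

open Complex Filter Function Topology Matrix
open UpperHalfPlane hiding I
open ModularForm CongruenceSubgroup Matrix.SpecialLinearGroup ModularGroup
open Fermat.Agent.Lib.RR.Cosets
open scoped MatrixGroups Manifold

theorem g2_tendsto_vadd_atImInfty (a : ℝ) :
    Tendsto (fun z : ℍ => a +ᵥ z) atImInfty atImInfty := by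
  rw [atImInfty, tendsto_comap_iff]
  have : (UpperHalfPlane.im ∘ fun z : ℍ => a +ᵥ z) = UpperHalfPlane.im := by
    ext z; simp [vadd_im]
  rw [this]
  exact tendsto_comap

theorem g2_vadd_nat_periodic {U : ℍ → ℂ} (h : ∀ z : ℍ, U ((1 : ℝ) +ᵥ z) = U z) (m : ℕ) (z : ℍ) :
    U ((m : ℝ) +ᵥ z) = U z := by
  induction m with
  | zero => simp
  | succ m ih =>
    have : ((m + 1 : ℕ) : ℝ) +ᵥ z = (1 : ℝ) +ᵥ ((m : ℝ) +ᵥ z) := by
      rw [vadd_vadd]; congr 1; push_cast; ring
    rw [this, h, ih]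

theorem g2_exp_vadd_nat (m : ℕ) (z : ℍ) :
    cexp (-(2 * Real.pi * I * (((m : ℝ) +ᵥ z : ℍ) : ℂ))) = cexp (-(2 * Real.pi * I * (z : ℂ))) := by
  rw [coe_vadd]
  have : -(2 * Real.pi * I * (((m : ℝ) : ℂ) + (z : ℂ)))
      = -(2 * Real.pi * I * (z : ℂ)) + 2 * Real.pi * I * ((-(m : ℤ) : ℤ) : ℂ) := by
    push_cast; ring
  rw [this, Complex.exp_add, g2_exp_int, mul_one]

theorem g2_det_ne_zero_of_li {n m : Type} [Fintype n] [DecidableEq n] (v : n → m → ℂ) (e : n ≃ m)
    (hli : LinearIndependent ℂ v) : Matrix.det (Matrix.of fun i j : n => v i (e j)) ≠ 0 := by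
  have h2 : LinearIndependent ℂ (fun i : n => LinearMap.funLeft ℂ ℂ e (v i)) :=
    hli.map' _ (LinearMap.ker_eq_bot.mpr
      (LinearMap.funLeft_injective_of_surjective ℂ ℂ _ e.surjective))
  have h3 : LinearIndependent ℂ (Matrix.row (Matrix.of fun i j : n => v i (e j))) := h2
  rw [Matrix.linearIndependent_rows_iff_isUnit, Matrix.isUnit_iff_isUnit_det] at h3
  exact h3.ne_zero

section

open Classical

attribute [local instance] Fermat.Agent.Lib.RR.Cosets.fintypeTOrbits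

variable (N : ℕ) [NeZero N]

/-- The determinant of the coset vectors, columns indexed by pairs (cusp, translate). -/
noncomputable def g2_D {ι : Type} (κ : ι → ℤ) (β : ι → ℍ → ℂ) (ε : g2_J N ≃ ι) (z : ℍ) : ℂ :=
  Matrix.det (Matrix.of fun i j : g2_J N => cosetFun N (κ (ε i)) (β (ε i)) (g2_equivQ N j) z)

theorem g2_D_ne_zero {ι : Type} (κ : ι → ℤ) (β : ι → ℍ → ℂ) (ε : g2_J N ≃ ι) (z : ℍ)
    (hli : LinearIndependent ℂ fun i => cosetVec N (κ i) (β i) z) : g2_D N κ β ε z ≠ 0 := by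
  unfold g2_D
  have h1 : LinearIndependent ℂ (fun i : g2_J N => cosetVec N (κ (ε i)) (β (ε i)) z) :=
    hli.comp ε ε.injective
  exact g2_det_ne_zero_of_li _ (g2_equivQ N) h1

theorem g2_card_J : Fintype.card (g2_J N) = Fintype.card (Q N) :=
  Fintype.card_congr (g2_equivQ N)

theorem g2_sum_width_eq : (∑ ω : TOrbits N, width N ω) = Fintype.card (Q N) := by
  rw [sum_width, fintype_card_quotient_Gamma0]

theorem g2_numCusps_eq : numCusps N = Fintype.card (TOrbits N) := by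
  unfold numCusps
  rw [Nat.card_eq_fintype_card]

/-- The sum of the weights, `MF` case, from the two inputs `G2s` (`hdet`) and `G2c` (`hU…`). -/
theorem g2_sum_weights_MF {ι : Type} [Fintype ι] (κ : ι → ℤ) (β : ι → ℍ → ℂ)
    (hmem : ∀ i, β i ∈ MF N (κ i))
    (hcard : Fintype.card ι = Fintype.card (Q N))
    (hli : ∀ z0 : ℍ, LinearIndependent ℂ fun i => cosetVec N (κ i) (β i) z0)
    (hdet : ∀ ε : g2_J N ≃ ι, (fun z : ℍ => (Matrix.det (Matrix.of fun i j : g2_J N =>
      cosetFun N (κ (ε i)) (β (ε i)) (g2_equivQ N j) z)) ^ 2) ∈ MF1 (2 * ∑ i, κ i))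
    (U : ι → ℍ → ℂ) (hUhol : ∀ i, MDiff (U i)) (hUper : ∀ i (z : ℍ), U i ((1 : ℝ) +ᵥ z) = U i z)
    (hU1 : ∀ i, Tendsto (U i) atImInfty (𝓝 1))
    (hindep : ∀ x : ι → ℂ, (∀ q : Q N, IsBoundedAtImInfty (fun z : ℍ =>
        (∑ i, x i * U i z * cosetFun N (κ i) (β i) q z) *
          cexp (-(2 * Real.pi * I * (z : ℂ))))) → x = 0) :
    ∑ i, κ i + 6 * (numCusps N : ℤ) = 6 * (Fintype.card (Q N) : ℤ) := by
  have ε : g2_J N ≃ ι := Fintype.equivOfCardEq ((g2_card_J N).trans hcard.symm)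
  have hinv : ∀ i, IsInv N (κ i) (β i) := fun i => isInv_of_mem_MF (hmem i)
  obtain ⟨L, hL, hlim⟩ := g2_det_M_upper (S := TOrbits N) (width N) (width_pos N)
    (fun i ω => cosetFun N (κ (ε i)) (β (ε i)) ω.out) (fun i => U (ε i))
    (fun i ω z => by
      have := g2_cosetFun_T (hinv (ε i)) ω.out (width N ω : ℤ) z
      rw [g2_T_width_smul] at this
      simpa using this.symm)
    (fun i ω => mdifferentiable_cosetFun (mdifferentiable_of_mem_MF (hmem (ε i))) _)
    (fun i ω => isBoundedAtImInfty_cosetFun (hmem (ε i)) _)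
    (fun i => hUper (ε i)) (fun i => hUhol (ε i)) (fun i => hU1 (ε i))
    (fun x hx => by
      have h0 : x ∘ ε.symm = 0 := by
        refine hindep (x ∘ ε.symm) fun q => ?_
        obtain ⟨⟨ω, m⟩, rfl⟩ := (g2_equivQ N).surjective q
        have h1 := (hx ω).comp_tendsto (g2_tendsto_vadd_atImInfty ((m : ℕ) : ℝ))
        refine h1.congr' ?_ (EventuallyEq.refl _ _)
        filter_upwards with z
        simp only [Function.comp_apply]
        rw [g2_exp_vadd_nat, ← Equiv.sum_comp ε]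
        congr 1
        refine Finset.sum_congr rfl fun i _ => ?_
        rw [g2_vadd_nat_periodic (hUper (ε i)), Equiv.symm_apply_apply, g2_equivQ_apply,
          g2_toQ, g2_cosetFun_T (hinv (ε i))]
        simp
      funext j
      have := congrFun h0 (ε j)
      simpa using this)
  -- identify the determinant
  have hD : ∀ z : ℍ, Matrix.det (fun i j : g2_J N =>
      cosetFun N (κ (ε i)) (β (ε i)) j.1.out (((j.2 : ℕ) : ℝ) +ᵥ z)) = g2_D N κ β ε z := by
    intro z
    unfold g2_D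
    congr 1
    ext i j
    simp only [Matrix.of_apply]
    rw [g2_equivQ_apply, g2_toQ, g2_cosetFun_T (hinv (ε i))]
    simp
  simp_rw [hD] at hlim
  have hw := g2_weight_eq_of_ne_zero (w := 2 * ∑ i, κ i) (g := fun z => g2_D N κ β ε z ^ 2)
    (hdet ε) (fun z => pow_ne_zero _ (g2_D_ne_zero N κ β ε z (hli z))) _ hL hlim
  rw [g2_numCusps_eq]
  have h3 := g2_sum_width_eq N
  have h4 : ((∑ ω : TOrbits N, width N ω : ℕ) : ℤ) = (Fintype.card (Q N) : ℤ) := by
    exact_mod_cast h3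
  rw [h4] at hw
  linarith

/-- The sum of the weights, `CF` case. -/
theorem g2_sum_weights_CF {ι : Type} [Fintype ι] (κ : ι → ℤ) (β : ι → ℍ → ℂ)
    (hmem : ∀ i, β i ∈ CF N (κ i))
    (hcard : Fintype.card ι = Fintype.card (Q N))
    (hli : ∀ z0 : ℍ, LinearIndependent ℂ fun i => cosetVec N (κ i) (β i) z0)
    (hdet : ∀ ε : g2_J N ≃ ι, (fun z : ℍ => (Matrix.det (Matrix.of fun i j : g2_J N =>
      cosetFun N (κ (ε i)) (β (ε i)) (g2_equivQ N j) z)) ^ 2) ∈ MF1 (2 * ∑ i, κ i))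
    (U : ι → ℍ → ℂ) (hUhol : ∀ i, MDiff (U i)) (hUper : ∀ i (z : ℍ), U i ((1 : ℝ) +ᵥ z) = U i z)
    (hU1 : ∀ i, Tendsto (U i) atImInfty (𝓝 1))
    (hindep : ∀ x : ι → ℂ, (∀ q : Q N, IsZeroAtImInfty (fun z : ℍ =>
        (∑ i, x i * U i z * cosetFun N (κ i) (β i) q z) *
          cexp (-(2 * Real.pi * I * (z : ℂ))))) → x = 0) :
    ∑ i, κ i = 6 * (Fintype.card (Q N) : ℤ) + 6 * (numCusps N : ℤ) := by
  have ε : g2_J N ≃ ι := Fintype.equivOfCardEq ((g2_card_J N).trans hcard.symm)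
  have hmem' : ∀ i, β i ∈ MF N (κ i) := fun i => CF_le_MF N (κ i) (hmem i)
  have hinv : ∀ i, IsInv N (κ i) (β i) := fun i => isInv_of_mem_MF (hmem' i)
  obtain ⟨L, hL, hlim⟩ := g2_det_S_upper (S := TOrbits N) (width N) (width_pos N)
    (fun i ω => cosetFun N (κ (ε i)) (β (ε i)) ω.out) (fun i => U (ε i))
    (fun i ω z => by
      have := g2_cosetFun_T (hinv (ε i)) ω.out (width N ω : ℤ) z
      rw [g2_T_width_smul] at this
      simpa using this.symm)
    (fun i ω => mdifferentiable_cosetFun (mdifferentiable_of_mem_MF (hmem' (ε i))) _)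
    (fun i ω => isZeroAtImInfty_cosetFun (hmem (ε i)) _)
    (fun i => hUper (ε i)) (fun i => hUhol (ε i)) (fun i => hU1 (ε i))
    (fun x hx => by
      have h0 : x ∘ ε.symm = 0 := by
        refine hindep (x ∘ ε.symm) fun q => ?_
        obtain ⟨⟨ω, m⟩, rfl⟩ := (g2_equivQ N).surjective q
        have h1 := (hx ω).comp (g2_tendsto_vadd_atImInfty ((m : ℕ) : ℝ))
        refine h1.congr' ?_
        filter_upwards with z
        simp only [Function.comp_apply]
        rw [g2_exp_vadd_nat, ← Equiv.sum_comp ε]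
        congr 1
        refine Finset.sum_congr rfl fun i _ => ?_
        rw [g2_vadd_nat_periodic (hUper (ε i)), Equiv.symm_apply_apply, g2_equivQ_apply,
          g2_toQ, g2_cosetFun_T (hinv (ε i))]
        simp
      funext j
      have := congrFun h0 (ε j)
      simpa using this)
  have hD : ∀ z : ℍ, Matrix.det (fun i j : g2_J N =>
      cosetFun N (κ (ε i)) (β (ε i)) j.1.out (((j.2 : ℕ) : ℝ) +ᵥ z)) = g2_D N κ β ε z := by
    intro z
    unfold g2_D
    congr 1
    ext i j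
    simp only [Matrix.of_apply]
    rw [g2_equivQ_apply, g2_toQ, g2_cosetFun_T (hinv (ε i))]
    simp
  simp_rw [hD] at hlim
  have hw := g2_weight_eq_of_ne_zero (w := 2 * ∑ i, κ i) (g := fun z => g2_D N κ β ε z ^ 2)
    (hdet ε) (fun z => pow_ne_zero _ (g2_D_ne_zero N κ β ε z (hli z))) _ hL hlim
  rw [g2_numCusps_eq]
  have h3 := g2_sum_width_eq N
  have h4 : ((∑ ω : TOrbits N, width N ω : ℕ) : ℤ) = (Fintype.card (Q N) : ℤ) := by
    exact_mod_cast h3
  rw [h4] at hw
  linarith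

end

end Fermat.Agent.Lib.RR
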