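/-
S20 assembly: the two `IfaceG2*` interfaces from `G2Final` (helper5), `G2Indep`, `G1Det` (helper4)
and `G1Iface` (helper7).
-/
import Fermat.Agent.Lib.RR.G2Final
import Fermat.Agent.Lib.RR.G2Indep
import Fermat.Agent.Lib.RR.G1Det
import Fermat.Agent.Lib.RR.G1Iface

set_option autoImplicit false

namespace Fermat.Agent.Lib.RR

open UpperHalfPlane ModularForm CongruenceSubgroup Matrix.SpecialLinearGroup
open Fermat.Agent.Lib.RR.Cosets
open scoped MatrixGroups Manifold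

noncomputable section

open Classical

attribute [local instance] Fermat.Agent.Lib.RR.Cosets.fintypeTOrbits

variable (N : ℕ) [NeZero N]

theorem asm_hdet {ι : Type} [Fintype ι] (κ : ι → ℤ) (β : ι → ℍ → ℂ)
    (hmem : ∀ i, β i ∈ MF N (κ i)) (ε : g2_J N ≃ ι) :
    (fun z : ℍ => (Matrix.det (Matrix.of fun i j : g2_J N =>
      cosetFun N (κ (ε i)) (β (ε i)) (g2_equivQ N j) z)) ^ 2) ∈ MF1 (2 * ∑ i, κ i) := by
  have h := g2s_detSq_mem_MF1 N (fun i : g2_J N => κ (ε i)) (fun i => β (ε i))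
    (fun i => hmem (ε i)) (g2_equivQ N)
  have hsum : ∑ i : g2_J N, κ (ε i) = ∑ i, κ i := Equiv.sum_comp ε κ
  rw [hsum] at h
  exact h

theorem asm_ifaceG2MF : IfaceG2MF N := by
  intro ι _ κ β hB hcard
  obtain ⟨U, hUhol, hUper, hU1, hindep⟩ := g2c_indep_MF N κ β hB
  exact g2_sum_weights_MF N κ β hB.mem hcard (g1_ifaceIndep_MF N ι κ β hB)
    (fun ε => asm_hdet N κ β hB.mem ε) U hUhol hUper hU1 hindep

theorem asm_ifaceG2CF : IfaceG2CF N := by
  intro ι _ κ β hB hcard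
  obtain ⟨U, hUhol, hUper, hU1, hindep⟩ := g2c_indep_CF N κ β hB
  exact g2_sum_weights_CF N κ β hB.mem hcard (g1_ifaceIndep_CF N ι κ β hB)
    (fun ε => asm_hdet N κ β (fun i => CF_le_MF N _ (hB.mem i)) ε) U hUhol hUper hU1 hindep

end

end Fermat.Agent.Lib.RR
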