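import Mathlib

/-!
# Cosets of `Γ₀(N)` in `SL(2, ℤ)`: basic tools

The left cosets `g Γ₀(N)` are classified by the first column of `g` modulo `N`, up to a unit:
`g Γ₀(N) = h Γ₀(N)` iff the "cross product" `g₀₀ h₁₀ - g₁₀ h₀₀` vanishes modulo `N`.
-/

set_option autoImplicit false

open Matrix Matrix.SpecialLinearGroup CongruenceSubgroup

open scoped MatrixGroups

namespace Fermat.Agent.Lib.RR.Cosets

variable {N : ℕ}

/-- The cross product of the first columns of two matrices. -/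
def cross (g h : SL(2, ℤ)) : ℤ := g 0 0 * h 1 0 - g 1 0 * h 0 0

theorem inv_mul_apply_one_zero (g h : SL(2, ℤ)) : (g⁻¹ * h) 1 0 = cross g h := by
  have h1 := (Matrix.two_mul_expl (g⁻¹).1 h.1).2.2.1
  simp only [coe_mul]
  rw [h1, SL2_inv_expl]
  simp [cross]
  ring

/-- Two matrices define the same left coset of `Γ₀(N)` iff the cross product of their first
columns vanishes modulo `N`. -/
theorem mk_eq_mk_iff (g h : SL(2, ℤ)) :
    (QuotientGroup.mk g : SL(2, ℤ) ⧸ Gamma0 N) = QuotientGroup.mk h ↔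
      ((cross g h : ℤ) : ZMod N) = 0 := by
  rw [QuotientGroup.eq, Gamma0_mem, inv_mul_apply_one_zero]

theorem smul_mk (γ g : SL(2, ℤ)) :
    γ • (QuotientGroup.mk g : SL(2, ℤ) ⧸ Gamma0 N) = QuotientGroup.mk (γ * g) := rfl

/-- The determinant relation for the entries of an element of `SL(2, ℤ)`. -/
theorem det_eq (g : SL(2, ℤ)) : g 0 0 * g 1 1 - g 0 1 * g 1 0 = 1 := by
  have := g.det_coe
  rwa [Matrix.det_fin_two] at this

theorem isCoprime_col (g : SL(2, ℤ)) : IsCoprime (g 0 0) (g 1 0) :=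
  ⟨g 1 1, -g 0 1, by linarith [det_eq g]⟩

/-- An explicit matrix with prescribed coprime first column. -/
theorem exists_col {a c : ℤ} (h : IsCoprime a c) : ∃ g : SL(2, ℤ), g 0 0 = a ∧ g 1 0 = c :=
  h.exists_SL2_col 0

/-- **Lifting lemma**: if `gcd(a, c, N) = 1` then there is `k` with `gcd(a + k N, c) = 1`
(for `c ≠ 0`). -/
theorem exists_isCoprime_add_mul {a c : ℤ} {N : ℕ} (hc : c ≠ 0)
    (h : ∀ p : ℕ, p.Prime → (p : ℤ) ∣ a → (p : ℤ) ∣ c → ¬ p ∣ N) :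
    ∃ k : ℤ, IsCoprime (a + k * N) c := by
  classical
  let ps : Finset ℕ := {p ∈ c.natAbs.primeFactors | ¬ (p : ℤ) ∣ a}
  refine ⟨((ps.prod id : ℕ) : ℤ), ?_⟩
  rw [Int.isCoprime_iff_gcd_eq_one]
  by_contra hne
  obtain ⟨p, pp, hp⟩ := Nat.exists_prime_and_dvd hne
  have hpc : (p : ℤ) ∣ c := (Int.natCast_dvd_natCast.mpr hp).trans (Int.gcd_dvd_right _ _)
  have hpa : (p : ℤ) ∣ a + ((ps.prod id : ℕ) : ℤ) * N :=
    (Int.natCast_dvd_natCast.mpr hp).trans (Int.gcd_dvd_left _ _)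
  have hpc' : p ∈ c.natAbs.primeFactors := by
    rw [Nat.mem_primeFactors]
    exact ⟨pp, Int.natCast_dvd.mp hpc, by simpa using hc⟩
  by_cases hpx : (p : ℤ) ∣ a
  · -- then `p ∤ N` and `p ∤ k`
    have hpN : ¬ p ∣ N := h p pp hpx hpc
    have h1 : (p : ℤ) ∣ ((ps.prod id : ℕ) : ℤ) * N := (dvd_add_right hpx).mp hpa
    rw [← Nat.cast_mul, Int.natCast_dvd_natCast, pp.dvd_mul] at h1
    rcases h1 with h1 | h1
    · obtain ⟨q, hq, hq'⟩ := (pp.prime.dvd_finsetProd_iff id).mp h1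
      rw [Finset.mem_filter, Nat.mem_primeFactors] at hq
      have : p = q := (Nat.prime_dvd_prime_iff_eq pp hq.1.1).mp hq'
      subst this
      exact hq.2 hpx
    · exact hpN h1
  · -- then `p ∣ k`
    have hps : p ∈ ps := Finset.mem_filter.mpr ⟨hpc', hpx⟩
    have h1 : (p : ℤ) ∣ ((ps.prod id : ℕ) : ℤ) * N :=
      Dvd.dvd.mul_right (Int.natCast_dvd_natCast.mpr (Finset.dvd_prod_of_mem id hps)) _
    exact hpx ((dvd_add_left h1).mp hpa)

/-- **Lifting lemma**: every pair `(a, c)` of integers with `gcd(a, c, N) = 1` is congruent modulo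
`N` to the first column of an element of `SL(2, ℤ)`. -/
theorem exists_col_modEq [NeZero N] {a c : ℤ}
    (h : ∀ p : ℕ, p.Prime → (p : ℤ) ∣ a → (p : ℤ) ∣ c → ¬ p ∣ N) :
    ∃ g : SL(2, ℤ), ((g 0 0 : ℤ) : ZMod N) = a ∧ ((g 1 0 : ℤ) : ZMod N) = c := by
  by_cases hc : c = 0
  · -- replace `c = 0` by `N`
    subst hc
    have h' : ∀ p : ℕ, p.Prime → (p : ℤ) ∣ a → (p : ℤ) ∣ (N : ℤ) → ¬ p ∣ N :=
      fun p pp hpa _ => h p pp hpa (dvd_zero _)
    have hcop : IsCoprime a (N : ℤ) := by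
      rw [Int.isCoprime_iff_gcd_eq_one]
      by_contra hne
      obtain ⟨p, pp, hp⟩ := Nat.exists_prime_and_dvd hne
      have hpa : (p : ℤ) ∣ a := (Int.natCast_dvd_natCast.mpr hp).trans (Int.gcd_dvd_left _ _)
      have hpN : (p : ℤ) ∣ (N : ℤ) :=
        (Int.natCast_dvd_natCast.mpr hp).trans (Int.gcd_dvd_right _ _)
      exact h' p pp hpa hpN (Int.natCast_dvd_natCast.mp hpN)
    obtain ⟨g, hg0, hg1⟩ := exists_col hcop
    exact ⟨g, by rw [hg0], by rw [hg1]; simp⟩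
  · obtain ⟨k, hk⟩ := exists_isCoprime_add_mul hc h
    obtain ⟨g, hg0, hg1⟩ := exists_col hk
    exact ⟨g, by rw [hg0]; simp, by rw [hg1]⟩

end Fermat.Agent.Lib.RR.Cosets
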