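import Fermat.Agent.Lib.RR.CosetsIndex

/-!
# The number of cusps of `Γ₀(N)`

The orbits of `T` on `SL(2, ℤ) ⧸ Γ₀(N)` are classified by the invariants `d = gcd(c, N)` and
`a (c / d)⁻¹ ∈ (ℤ / gcd(d, N / d))ˣ`, where `(a, c)` is the first column. Hence their number is
`∑_{d ∣ N} φ(gcd(d, N / d))`.
-/

set_option autoImplicit false

open Matrix Matrix.SpecialLinearGroup CongruenceSubgroup ModularGroup ModularCurve

open scoped MatrixGroups

namespace Fermat.Agent.Lib.RR.Cosets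

/-- Number-theoretic core of the classification of cusps: solvability of a linear congruence. -/
theorem exists_dvd_add_mul_iff {a₁ c₁ a₂ c₂ d N' e : ℤ} (hc₁ : IsCoprime c₁ N')
    (hc₂ : IsCoprime c₂ N') (hed : e ∣ d) (heN : e ∣ N') (hbez : ∃ x y : ℤ, x * d + y * N' = e) :
    (∃ k : ℤ, N' ∣ (a₂ * c₁ - c₂ * a₁) + k * (d * c₂ * c₁)) ↔ e ∣ a₂ * c₁ - c₂ * a₁ := by
  constructor
  · rintro ⟨k, hk⟩
    have h1 : e ∣ k * (d * c₂ * c₁) :=
      Dvd.dvd.mul_left (Dvd.dvd.mul_right (Dvd.dvd.mul_right hed _) _) _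
    exact (dvd_add_left h1).mp (heN.trans hk)
  · rintro ⟨r, hr⟩
    obtain ⟨x, y, hxy⟩ := hbez
    obtain ⟨w, z, hwz⟩ := hc₂.mul_left hc₁
    refine ⟨-(r * x * w), r * (y + x * d * z), ?_⟩
    rw [hr]
    linear_combination (-(r : ℤ)) * hxy - (r * x * d) * hwz

variable {N : ℕ}

theorem T_zpow_mul_apply_zero_zero (k : ℤ) (g : SL(2, ℤ)) :
    (T ^ k * g) 0 0 = g 0 0 + k * g 1 0 := by
  have h1 := (Matrix.two_mul_expl (T ^ k).1 g.1).1
  simp only [coe_mul]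
  rw [h1, coe_T_zpow]
  simp

theorem T_zpow_mul_apply_one_zero (k : ℤ) (g : SL(2, ℤ)) : (T ^ k * g) 1 0 = g 1 0 := by
  have h1 := (Matrix.two_mul_expl (T ^ k).1 g.1).2.2.1
  simp only [coe_mul]
  rw [h1, coe_T_zpow]
  simp

theorem cross_T_zpow_mul (k : ℤ) (g h : SL(2, ℤ)) :
    cross (T ^ k * g) h = cross g h + k * (g 1 0 * h 1 0) := by
  rw [cross, cross, T_zpow_mul_apply_zero_zero, T_zpow_mul_apply_one_zero]
  ring

variable (N) in
/-- The type of orbits of `T` on `SL(2, ℤ) ⧸ Γ₀(N)` ("cusps of `Γ₀(N)`"). -/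
abbrev TOrbits : Type := MulAction.orbitRel.Quotient (Subgroup.zpowers T) (SL(2, ℤ) ⧸ Gamma0 N)

/-- The orbit of the coset of `g`. -/
def orbitMk (g : SL(2, ℤ)) : TOrbits N :=
  Quotient.mk'' (QuotientGroup.mk g : SL(2, ℤ) ⧸ Gamma0 N)

theorem orbitMk_surjective : Function.Surjective (orbitMk (N := N)) := by
  intro o
  induction o using Quotient.inductionOn' with
  | h x =>
    induction x using QuotientGroup.induction_on with
    | H g => exact ⟨g, rfl⟩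

theorem orbitMk_eq_iff (g h : SL(2, ℤ)) :
    orbitMk (N := N) g = orbitMk h ↔ ∃ k : ℤ, (N : ℤ) ∣ cross (T ^ k * h) g := by
  rw [orbitMk, orbitMk, Quotient.eq'', MulAction.orbitRel_apply, MulAction.mem_orbit_iff]
  constructor
  · rintro ⟨⟨γ, hγ⟩, hγg⟩
    obtain ⟨k, rfl⟩ := Subgroup.mem_zpowers_iff.mp hγ
    refine ⟨k, ?_⟩
    rw [← mk_eq_mk_iff_dvd]
    exact hγg
  · rintro ⟨k, hk⟩
    refine ⟨⟨T ^ k, Subgroup.zpow_mem_zpowers T k⟩, ?_⟩
    rw [← mk_eq_mk_iff_dvd] at hk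
    exact hk

/-! ### The invariants of a cusp -/

variable (N)

/-- The first invariant: `gcd(c, N)` where `c` is the lower left entry. -/
def dInv (g : SL(2, ℤ)) : ℕ := Int.gcd (g 1 0) N

/-- `gcd(d, N / d)`. -/
def eOf (d : ℕ) : ℕ := Nat.gcd d (N / d)

/-- The cofactor `c / gcd(c, N)`. -/
def cof (g : SL(2, ℤ)) : ℤ := g 1 0 / (dInv N g : ℤ)

variable {N}

theorem dInv_dvd (g : SL(2, ℤ)) : dInv N g ∣ N :=
  Int.natCast_dvd_natCast.mp (Int.gcd_dvd_right _ _)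

theorem dInv_dvd_entry (g : SL(2, ℤ)) : (dInv N g : ℤ) ∣ g 1 0 := Int.gcd_dvd_left _ _

theorem dInv_pos [NeZero N] (g : SL(2, ℤ)) : 0 < dInv N g :=
  Nat.pos_of_dvd_of_pos (dInv_dvd g) (NeZero.pos N)

theorem dInv_mul_cof (g : SL(2, ℤ)) : (dInv N g : ℤ) * cof N g = g 1 0 :=
  Int.mul_ediv_cancel' (dInv_dvd_entry g)

theorem dInv_mul_div (g : SL(2, ℤ)) : dInv N g * (N / dInv N g) = N :=
  Nat.mul_div_cancel' (dInv_dvd g)

theorem isCoprime_cof [NeZero N] (g : SL(2, ℤ)) :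
    IsCoprime (cof N g) ((N / dInv N g : ℕ) : ℤ) := by
  rw [Int.isCoprime_iff_gcd_eq_one, cof, Int.natCast_div]
  exact Int.gcd_div_gcd_div_gcd (dInv_pos g)

theorem isCoprime_entry_dInv (g : SL(2, ℤ)) : IsCoprime (g 0 0) (dInv N g : ℤ) :=
  (isCoprime_col g).of_isCoprime_of_dvd_right (dInv_dvd_entry g)

theorem eOf_dvd_left (d : ℕ) : eOf N d ∣ d := Nat.gcd_dvd_left _ _

theorem eOf_dvd_right (d : ℕ) : eOf N d ∣ N / d := Nat.gcd_dvd_right _ _

theorem eOf_bezout (d : ℕ) : ∃ x y : ℤ, x * (d : ℤ) + y * ((N / d : ℕ) : ℤ) = (eOf N d : ℤ) :=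
  ⟨Nat.gcdA d (N / d), Nat.gcdB d (N / d), by rw [eOf, Nat.gcd_eq_gcd_ab]; ring⟩

/-- If `g` and `h` define the same coset then `dInv g` divides `dInv h`. -/
theorem dInv_dvd_dInv_of_dvd_cross {g h : SL(2, ℤ)} (hgh : (N : ℤ) ∣ cross g h) :
    dInv N g ∣ dInv N h := by
  have h1 : (dInv N g : ℤ) ∣ (N : ℤ) := Int.natCast_dvd_natCast.mpr (dInv_dvd g)
  have h2 : (dInv N g : ℤ) ∣ g 0 0 * h 1 0 := by
    have := h1.trans hgh
    rw [cross] at this
    exact (dvd_sub_left (Dvd.dvd.mul_right (dInv_dvd_entry g) _)).mp this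
  have h3 : (dInv N g : ℤ) ∣ h 1 0 := (isCoprime_entry_dInv g).symm.dvd_of_dvd_mul_left h2
  exact Int.natCast_dvd_natCast.mp (Int.dvd_coe_gcd h3 h1)

theorem dInv_eq_of_dvd_cross {g h : SL(2, ℤ)} (hgh : (N : ℤ) ∣ cross g h) :
    dInv N g = dInv N h := by
  refine Nat.dvd_antisymm (dInv_dvd_dInv_of_dvd_cross hgh) (dInv_dvd_dInv_of_dvd_cross ?_)
  have : cross h g = -cross g h := by rw [cross, cross]; ring
  rw [this]
  exact (dvd_neg).mpr hgh

theorem dInv_T_zpow_mul (k : ℤ) (g : SL(2, ℤ)) : dInv N (T ^ k * g) = dInv N g := by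
  rw [dInv, dInv, T_zpow_mul_apply_one_zero]

/-- **Classification of the orbits of `T`**: two matrices define the same cusp iff they have the
same `d`-invariant and their "numerators" agree modulo `gcd(d, N / d)`. -/
theorem orbitMk_eq_orbitMk_iff [NeZero N] (g h : SL(2, ℤ)) :
    orbitMk (N := N) g = orbitMk h ↔ dInv N g = dInv N h ∧
      (eOf N (dInv N g) : ℤ) ∣ h 0 0 * cof N g - cof N h * g 0 0 := by
  rw [orbitMk_eq_iff]
  have hd0 : (dInv N g : ℤ) ≠ 0 := by exact_mod_cast (dInv_pos g).ne'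
  have hN : (N : ℤ) = (dInv N g : ℤ) * ((N / dInv N g : ℕ) : ℤ) := by
    exact_mod_cast (dInv_mul_div g).symm
  -- the key rewriting of the cross product
  have hcross : dInv N g = dInv N h → ∀ k : ℤ, cross (T ^ k * h) g =
      (dInv N g : ℤ) * ((h 0 0 * cof N g - cof N h * g 0 0) +
        k * ((dInv N g : ℤ) * cof N h * cof N g)) := by
    intro hd k
    rw [cross_T_zpow_mul, cross, ← dInv_mul_cof g, ← dInv_mul_cof h, ← hd]
    ring
  have hNT : dInv N g = dInv N h →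
      ((∃ k : ℤ, ((N / dInv N g : ℕ) : ℤ) ∣ (h 0 0 * cof N g - cof N h * g 0 0) +
        k * ((dInv N g : ℤ) * cof N h * cof N g)) ↔
      (eOf N (dInv N g) : ℤ) ∣ h 0 0 * cof N g - cof N h * g 0 0) := by
    intro hd
    refine exists_dvd_add_mul_iff (isCoprime_cof g) ?_ ?_ ?_ (eOf_bezout _)
    · rw [hd]; exact isCoprime_cof h
    · exact Int.natCast_dvd_natCast.mpr (eOf_dvd_left _)
    · exact Int.natCast_dvd_natCast.mpr (eOf_dvd_right _)
  constructor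
  · rintro ⟨k, hk⟩
    have hd : dInv N g = dInv N h := by
      rw [← dInv_T_zpow_mul k h]
      exact (dInv_eq_of_dvd_cross hk).symm
    refine ⟨hd, (hNT hd).mp ⟨k, ?_⟩⟩
    rw [hcross hd k, hN] at hk
    exact (mul_dvd_mul_iff_left hd0).mp hk
  · rintro ⟨hd, he⟩
    obtain ⟨k, hk⟩ := (hNT hd).mpr he
    refine ⟨k, ?_⟩
    rw [hcross hd k, hN]
    exact mul_dvd_mul_left _ hk

/-! ### Representatives and the count -/

/-- A representative of the cusp with invariants `(d, t)`. -/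
theorem exists_repr [NeZero N] {d : ℕ} (hd : d ∣ N) (t : (ZMod (eOf N d))ˣ) :
    ∃ g : SL(2, ℤ), g 1 0 = d ∧ ((g 0 0 : ℤ) : ZMod (eOf N d)) = t := by
  have : NeZero d := ⟨fun h => NeZero.ne N (by rw [h] at hd; exact Nat.eq_zero_of_zero_dvd hd)⟩
  obtain ⟨u, hu⟩ := ZMod.unitsMap_surjective (eOf_dvd_left (N := N) d) t
  have hcop : IsCoprime (((u : ZMod d).val : ℕ) : ℤ) (d : ℤ) :=
    Nat.isCoprime_iff_coprime.mpr (ZMod.val_coe_unit_coprime u)
  obtain ⟨g, hg0, hg1⟩ := exists_col hcop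
  refine ⟨g, hg1, ?_⟩
  rw [hg0, ← hu, ZMod.unitsMap_val, Int.cast_natCast, ZMod.natCast_val]

theorem dInv_eq_of_entry_eq {d : ℕ} (hd : d ∣ N) {g : SL(2, ℤ)} (hg : g 1 0 = d) :
    dInv N g = d := by
  rw [dInv, hg, Int.gcd_natCast_natCast, Nat.gcd_eq_left hd]

theorem cof_eq_one_of_entry_eq [NeZero N] {d : ℕ} (hd : d ∣ N) {g : SL(2, ℤ)} (hg : g 1 0 = d) :
    cof N g = 1 := by
  have h0 : (d : ℤ) ≠ 0 := by
    have := dInv_pos (N := N) g
    rw [dInv_eq_of_entry_eq hd hg] at this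
    exact_mod_cast this.ne'
  rw [cof, dInv_eq_of_entry_eq hd hg, hg, Int.ediv_self h0]

variable (N) in
/-- The index type for the cusps of `Γ₀(N)`. -/
abbrev CuspIndex : Type := Σ d : N.divisors, (ZMod (eOf N d))ˣ

/-- The chosen representative of a cusp. -/
noncomputable def reprOf [NeZero N] (x : CuspIndex N) : SL(2, ℤ) :=
  Classical.choose (exists_repr (Nat.dvd_of_mem_divisors x.1.2) x.2)

theorem reprOf_apply_one_zero [NeZero N] (x : CuspIndex N) : reprOf x 1 0 = (x.1 : ℕ) :=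
  (Classical.choose_spec (exists_repr (Nat.dvd_of_mem_divisors x.1.2) x.2)).1

theorem reprOf_apply_zero_zero [NeZero N] (x : CuspIndex N) :
    ((reprOf x 0 0 : ℤ) : ZMod (eOf N x.1)) = x.2 :=
  (Classical.choose_spec (exists_repr (Nat.dvd_of_mem_divisors x.1.2) x.2)).2

theorem dInv_reprOf [NeZero N] (x : CuspIndex N) : dInv N (reprOf x) = x.1 :=
  dInv_eq_of_entry_eq (Nat.dvd_of_mem_divisors x.1.2) (reprOf_apply_one_zero x)

theorem cof_reprOf [NeZero N] (x : CuspIndex N) : cof N (reprOf x) = 1 :=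
  cof_eq_one_of_entry_eq (Nat.dvd_of_mem_divisors x.1.2) (reprOf_apply_one_zero x)

theorem orbitMk_reprOf_injective [NeZero N] :
    Function.Injective (fun x : CuspIndex N => orbitMk (N := N) (reprOf x)) := by
  rintro ⟨⟨d, hd⟩, t⟩ ⟨⟨d', hd'⟩, t'⟩ h
  rw [orbitMk_eq_orbitMk_iff] at h
  obtain ⟨h1, h2⟩ := h
  rw [dInv_reprOf, dInv_reprOf] at h1
  dsimp only at h1
  subst h1
  rw [cof_reprOf, cof_reprOf, dInv_reprOf, mul_one, one_mul,
    ← ZMod.intCast_zmod_eq_zero_iff_dvd] at h2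
  push_cast at h2
  rw [reprOf_apply_zero_zero, reprOf_apply_zero_zero, sub_eq_zero] at h2
  dsimp only at h2
  have : t = t' := Units.ext h2.symm
  rw [this]

theorem orbitMk_reprOf_surjective [NeZero N] :
    Function.Surjective (fun x : CuspIndex N => orbitMk (N := N) (reprOf x)) := by
  intro o
  obtain ⟨g, rfl⟩ := orbitMk_surjective o
  have hdmem : dInv N g ∈ N.divisors := Nat.mem_divisors.mpr ⟨dInv_dvd g, NeZero.ne N⟩
  have hA : IsCoprime (g 0 0) ((eOf N (dInv N g) : ℕ) : ℤ) :=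
    (isCoprime_entry_dInv g).of_isCoprime_of_dvd_right
      (Int.natCast_dvd_natCast.mpr (eOf_dvd_left _))
  have hC : IsCoprime (cof N g) ((eOf N (dInv N g) : ℕ) : ℤ) :=
    (isCoprime_cof g).of_isCoprime_of_dvd_right
      (Int.natCast_dvd_natCast.mpr (eOf_dvd_right _))
  let uA : (ZMod (eOf N (dInv N g)))ˣ :=
    Units.mkOfMulEqOne _ _ (ZMod.coe_int_mul_inv_eq_one hA)
  let uC : (ZMod (eOf N (dInv N g)))ˣ :=
    Units.mkOfMulEqOne _ _ (ZMod.coe_int_mul_inv_eq_one hC)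
  set x : CuspIndex N := ⟨⟨dInv N g, hdmem⟩, uA * uC⁻¹⟩ with hx
  refine ⟨x, ?_⟩
  dsimp only
  rw [eq_comm, orbitMk_eq_orbitMk_iff]
  have hdx : dInv N (reprOf x) = dInv N g := dInv_reprOf x
  refine ⟨hdx.symm, ?_⟩
  rw [cof_reprOf, one_mul, ← ZMod.intCast_zmod_eq_zero_iff_dvd]
  push_cast
  have h0 : ((reprOf x 0 0 : ℤ) : ZMod (eOf N (dInv N g))) =
      ((uA * uC⁻¹ : (ZMod (eOf N (dInv N g)))ˣ) : ZMod (eOf N (dInv N g))) :=
    reprOf_apply_zero_zero x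
  rw [h0]
  have h1 : ((uA * uC⁻¹ : (ZMod (eOf N (dInv N g)))ˣ) : ZMod (eOf N (dInv N g))) *
      ((cof N g : ℤ) : ZMod (eOf N (dInv N g))) = ((g 0 0 : ℤ) : ZMod (eOf N (dInv N g))) := by
    have hC' : ((cof N g : ℤ) : ZMod (eOf N (dInv N g))) = (uC : ZMod (eOf N (dInv N g))) := rfl
    have hA' : ((g 0 0 : ℤ) : ZMod (eOf N (dInv N g))) = (uA : ZMod (eOf N (dInv N g))) := rfl
    rw [hC', hA', ← Units.val_mul, inv_mul_cancel_right]
  rw [h1, sub_self]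

/-- **The number of cusps of `Γ₀(N)`**: the number of orbits of `T` on `SL(2, ℤ) ⧸ Γ₀(N)` is
`∑_{d ∣ N} φ(gcd(d, N / d))`. -/
theorem card_orbits_T (N : ℕ) [NeZero N] :
    Nat.card (MulAction.orbitRel.Quotient (Subgroup.zpowers T) (SL(2, ℤ) ⧸ Gamma0 N)) =
      cuspCount N := by
  have hne : ∀ d : N.divisors, NeZero (eOf N d) := fun d =>
    ⟨Nat.gcd_ne_zero_left (Nat.pos_of_mem_divisors d.2).ne'⟩
  rw [← Nat.card_eq_of_bijective _ ⟨orbitMk_reprOf_injective (N := N), orbitMk_reprOf_surjective⟩,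
    Nat.card_sigma, cuspCount,
    ← Finset.sum_coe_sort N.divisors (fun d => Nat.totient (Nat.gcd d (N / d)))]
  refine Finset.sum_congr rfl fun d _ => ?_
  have := hne d
  rw [Nat.card_eq_fintype_card, ZMod.card_units_eq_totient, eOf]

end Fermat.Agent.Lib.RR.Cosets
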