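import Fermat.Agent.Lib.RR.CosetsBasic
import Fermat.Prelude.Def_ModularCurve_GenusNumerics

/-!
# Fixed points of `S` and `S T` on `SL(2, ℤ) ⧸ Γ₀(N)`

The fixed points of `S` correspond to the solutions of `x² + 1 = 0` in `ZMod N`, those of `S T` to
the solutions of `x² + x + 1 = 0`.
-/

set_option autoImplicit false

open Matrix Matrix.SpecialLinearGroup CongruenceSubgroup ModularGroup

open scoped MatrixGroups

namespace Fermat.Agent.Lib.RR.Cosets

variable {N : ℕ}

/-- The matrix `[[a, -1], [1, 0]]`, with first column `(a, 1)`. -/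
def colOne (a : ℤ) : SL(2, ℤ) := ⟨!![a, -1; 1, 0], by simp [Matrix.det_fin_two]⟩

@[simp] theorem colOne_apply_zero_zero (a : ℤ) : colOne a 0 0 = a := rfl
@[simp] theorem colOne_apply_one_zero (a : ℤ) : colOne a 1 0 = 1 := rfl

theorem cross_colOne (a : ℤ) (h : SL(2, ℤ)) : cross (colOne a) h = a * h 1 0 - h 0 0 := by
  simp [cross]

theorem cross_colOne_colOne (a b : ℤ) : cross (colOne a) (colOne b) = a - b := by
  simp [cross]

theorem S_mul_apply_zero_zero (g : SL(2, ℤ)) : (S * g) 0 0 = -g 1 0 := by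
  have h1 := (Matrix.two_mul_expl S.1 g.1).1
  simp only [coe_mul]
  rw [h1, coe_S]
  simp

theorem S_mul_apply_one_zero (g : SL(2, ℤ)) : (S * g) 1 0 = g 0 0 := by
  have h1 := (Matrix.two_mul_expl S.1 g.1).2.2.1
  simp only [coe_mul]
  rw [h1, coe_S]
  simp

theorem T_mul_apply_zero_zero (g : SL(2, ℤ)) : (T * g) 0 0 = g 0 0 + g 1 0 := by
  have h1 := (Matrix.two_mul_expl T.1 g.1).1
  simp only [coe_mul]
  rw [h1, coe_T]
  simp

theorem T_mul_apply_one_zero (g : SL(2, ℤ)) : (T * g) 1 0 = g 1 0 := by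
  have h1 := (Matrix.two_mul_expl T.1 g.1).2.2.1
  simp only [coe_mul]
  rw [h1, coe_T]
  simp

theorem cross_S_mul (g : SL(2, ℤ)) : cross (S * g) g = -(g 0 0 ^ 2 + g 1 0 ^ 2) := by
  rw [cross, S_mul_apply_zero_zero, S_mul_apply_one_zero]
  ring

theorem cross_ST_mul (g : SL(2, ℤ)) :
    cross (S * T * g) g = -(g 0 0 ^ 2 + g 0 0 * g 1 0 + g 1 0 ^ 2) := by
  rw [cross, mul_assoc, S_mul_apply_zero_zero, S_mul_apply_one_zero, T_mul_apply_zero_zero,
    T_mul_apply_one_zero]
  ring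

/-- If `A² = C W` and `(A, C)` is unimodular then `C` is a unit. -/
theorem isUnit_of_sq_eq_mul {R : Type*} [CommRing R] {A C W x y : R} (h : A ^ 2 = C * W)
    (hxy : x * A + y * C = 1) : IsUnit C := by
  refine IsUnit.of_mul_eq_one (x ^ 2 * W + 2 * x * y * A + y ^ 2 * C) ?_
  have : (x * A + y * C) ^ 2 = 1 := by rw [hxy, one_pow]
  rw [← this]
  linear_combination (-(x ^ 2)) * h

/-- The first column of `g`, reduced modulo `N`, is unimodular. -/
theorem col_unimodular (g : SL(2, ℤ)) :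
    ((g 1 1 : ℤ) : ZMod N) * ((g 0 0 : ℤ) : ZMod N) +
      ((-g 0 1 : ℤ) : ZMod N) * ((g 1 0 : ℤ) : ZMod N) = 1 := by
  have := congrArg (Int.cast : ℤ → ZMod N) (det_eq g)
  push_cast at this ⊢
  linear_combination this

section fixedpoints

variable (N)

/-- The map from the roots of a quadratic polynomial to cosets. -/
noncomputable def rootToCoset (u : ZMod N) : SL(2, ℤ) ⧸ Gamma0 N :=
  QuotientGroup.mk (colOne (u.cast : ℤ))

theorem rootToCoset_injective : Function.Injective (rootToCoset N) := by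
  intro u v h
  rw [rootToCoset, rootToCoset, mk_eq_mk_iff, cross_colOne_colOne] at h
  push_cast at h
  exact sub_eq_zero.mp h

/-- A coset `g Γ₀(N)` such that the lower left entry of `g` is a unit modulo `N` is of the form
`rootToCoset u` with `u = g₀₀ / g₁₀`. -/
theorem eq_rootToCoset (g : SL(2, ℤ)) (C' : ZMod N) (hC : ((g 1 0 : ℤ) : ZMod N) * C' = 1) :
    (QuotientGroup.mk g : SL(2, ℤ) ⧸ Gamma0 N) = rootToCoset N (((g 0 0 : ℤ) : ZMod N) * C') := by
  rw [rootToCoset, eq_comm, mk_eq_mk_iff, cross_colOne]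
  push_cast
  linear_combination ((g 0 0 : ℤ) : ZMod N) * hC

theorem smul_S_rootToCoset_iff (u : ZMod N) :
    S • rootToCoset N u = rootToCoset N u ↔ u ^ 2 + 1 = 0 := by
  rw [rootToCoset, smul_mk, mk_eq_mk_iff, cross_S_mul]
  push_cast
  simp only [colOne_apply_zero_zero, colOne_apply_one_zero]
  push_cast
  rw [neg_eq_zero, one_pow]

theorem smul_ST_rootToCoset_iff (u : ZMod N) :
    (S * T) • rootToCoset N u = rootToCoset N u ↔ u ^ 2 + u + 1 = 0 := by
  rw [rootToCoset, smul_mk, mk_eq_mk_iff, cross_ST_mul]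
  push_cast
  simp only [colOne_apply_zero_zero, colOne_apply_one_zero]
  push_cast
  rw [neg_eq_zero, one_pow, mul_one]

/-- The fixed points of `S` on `SL(2, ℤ) ⧸ Γ₀(N)` are in bijection with the square roots of `-1`
modulo `N`. -/
theorem card_fixedBy_S :
    Nat.card (MulAction.fixedBy (SL(2, ℤ) ⧸ Gamma0 N) S) = ModularCurve.nuTwo N := by
  rw [ModularCurve.nuTwo]
  symm
  refine Nat.card_eq_of_bijective
    (fun u => ⟨rootToCoset N u.1, (smul_S_rootToCoset_iff N u.1).mpr u.2⟩) ⟨?_, ?_⟩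
  · intro u v h
    exact Subtype.ext (rootToCoset_injective N (congrArg Subtype.val h))
  · rintro ⟨x, hx⟩
    induction x using QuotientGroup.induction_on with
    | H g =>
      rw [MulAction.mem_fixedBy, smul_mk, mk_eq_mk_iff, cross_S_mul] at hx
      push_cast at hx
      rw [neg_eq_zero] at hx
      obtain ⟨C', hC'⟩ := (isUnit_of_sq_eq_mul (A := ((g 0 0 : ℤ) : ZMod N))
        (C := ((g 1 0 : ℤ) : ZMod N)) (W := -((g 1 0 : ℤ) : ZMod N))
        (by linear_combination hx) (col_unimodular g)).exists_right_inv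
      have hg := eq_rootToCoset N g C' hC'
      refine ⟨⟨((g 0 0 : ℤ) : ZMod N) * C', ?_⟩, Subtype.ext hg.symm⟩
      have hC2 : (((g 1 0 : ℤ) : ZMod N) * C') ^ 2 = 1 := by rw [hC', one_pow]
      linear_combination C' ^ 2 * hx - hC2

/-- The fixed points of `S T` on `SL(2, ℤ) ⧸ Γ₀(N)` are in bijection with the roots of
`x² + x + 1` modulo `N`. -/
theorem card_fixedBy_ST :
    Nat.card (MulAction.fixedBy (SL(2, ℤ) ⧸ Gamma0 N) (S * T)) = ModularCurve.nuThree N := by
  rw [ModularCurve.nuThree]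
  symm
  refine Nat.card_eq_of_bijective
    (fun u => ⟨rootToCoset N u.1, (smul_ST_rootToCoset_iff N u.1).mpr u.2⟩) ⟨?_, ?_⟩
  · intro u v h
    exact Subtype.ext (rootToCoset_injective N (congrArg Subtype.val h))
  · rintro ⟨x, hx⟩
    induction x using QuotientGroup.induction_on with
    | H g =>
      rw [MulAction.mem_fixedBy, smul_mk, mk_eq_mk_iff, cross_ST_mul] at hx
      push_cast at hx
      rw [neg_eq_zero] at hx
      obtain ⟨C', hC'⟩ := (isUnit_of_sq_eq_mul (A := ((g 0 0 : ℤ) : ZMod N))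
        (C := ((g 1 0 : ℤ) : ZMod N)) (W := -((g 0 0 : ℤ) : ZMod N) - ((g 1 0 : ℤ) : ZMod N))
        (by linear_combination hx) (col_unimodular g)).exists_right_inv
      have hg := eq_rootToCoset N g C' hC'
      refine ⟨⟨((g 0 0 : ℤ) : ZMod N) * C', ?_⟩, Subtype.ext hg.symm⟩
      have hC2 : (((g 1 0 : ℤ) : ZMod N) * C') ^ 2 = 1 := by rw [hC', one_pow]
      linear_combination C' ^ 2 * hx - ((g 0 0 : ℤ) : ZMod N) * C' * hC' - hC2

end fixedpoints

end Fermat.Agent.Lib.RR.Cosets
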