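import Fermat.Agent.Lib.RR.CosetsCusps

/-!
# Widths of the cusps of `Γ₀(N)`

The set `X = SL(2, ℤ) ⧸ Γ₀(N)` decomposes into orbits of `T`; the orbit `ω` is a cycle whose
length is the *width* of the corresponding cusp. We record:

* `T_zpow_smul`: `T ^ N` acts trivially on `X`, hence every width divides `N`;
* `sigmaEquiv`: the equivalence `X ≃ Σ ω : TOrbits N, ZMod (width N ω)`, under which `T` acts by
  `(ω, k) ↦ (ω, k + 1)`;
* `sum_width`: `∑ ω, width N ω = ψ(N)`;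
* `card_TOrbits`: the number of orbits is `cuspCount N`.
-/

set_option autoImplicit false

open Matrix Matrix.SpecialLinearGroup CongruenceSubgroup ModularGroup ModularCurve

open scoped MatrixGroups

namespace Fermat.Agent.Lib.RR.Cosets

variable (N : ℕ)

theorem cross_self (g : SL(2, ℤ)) : cross g g = 0 := by
  rw [cross]; ring

/-- `T ^ N` acts trivially on `SL(2, ℤ) ⧸ Γ₀(N)`. -/
theorem T_zpow_smul (x : SL(2, ℤ) ⧸ Gamma0 N) : (T ^ (N : ℤ)) • x = x := by
  induction x using QuotientGroup.induction_on with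
  | H g =>
    rw [smul_mk, mk_eq_mk_iff_dvd, cross_T_zpow_mul, cross_self, zero_add]
    exact dvd_mul_right _ _

/-- `T ^ N` acts trivially on `SL(2, ℤ) ⧸ Γ₀(N)`. -/
theorem T_pow_smul (x : SL(2, ℤ) ⧸ Gamma0 N) : (T ^ N) • x = x := by
  have := T_zpow_smul N x
  rwa [zpow_natCast] at this

/-- The width of the cusp `ω`: the length of the `T`-orbit `ω`. -/
noncomputable def width (ω : TOrbits N) : ℕ :=
  Function.minimalPeriod (T • · : SL(2, ℤ) ⧸ Gamma0 N → SL(2, ℤ) ⧸ Gamma0 N) ω.out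

theorem isPeriodicPt_T (x : SL(2, ℤ) ⧸ Gamma0 N) :
    Function.IsPeriodicPt (T • · : SL(2, ℤ) ⧸ Gamma0 N → SL(2, ℤ) ⧸ Gamma0 N) N x := by
  rw [Function.IsPeriodicPt, Function.IsFixedPt, smul_iterate]
  exact T_pow_smul N x

theorem width_dvd (ω : TOrbits N) : width N ω ∣ N :=
  (isPeriodicPt_T N ω.out).minimalPeriod_dvd

theorem width_pos [NeZero N] (ω : TOrbits N) : 0 < width N ω :=
  Nat.pos_of_dvd_of_pos (width_dvd N ω) (NeZero.pos N)

instance [NeZero N] (ω : TOrbits N) : NeZero (width N ω) := ⟨(width_pos N ω).ne'⟩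

/-- The decomposition of `SL(2, ℤ) ⧸ Γ₀(N)` into `T`-orbits, each a cycle of length the width. -/
noncomputable def sigmaEquiv : (SL(2, ℤ) ⧸ Gamma0 N) ≃ Σ ω : TOrbits N, ZMod (width N ω) :=
  Subgroup.quotientEquivSigmaZMod (Gamma0 N) T

theorem sigmaEquiv_symm_apply (ω : TOrbits N) (k : ZMod (width N ω)) :
    (sigmaEquiv N).symm ⟨ω, k⟩ = T ^ (ZMod.cast k : ℤ) • ω.out := rfl

theorem sigmaEquiv_symm_intCast (ω : TOrbits N) (k : ℤ) :
    (sigmaEquiv N).symm ⟨ω, (k : ZMod (width N ω))⟩ = T ^ k • ω.out := by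
  rw [Equiv.symm_apply_eq]
  exact (Subgroup.quotientEquivSigmaZMod_apply (Gamma0 N) T ω k).symm

theorem sigmaEquiv_zpow_smul (ω : TOrbits N) (k : ℤ) :
    sigmaEquiv N (T ^ k • ω.out) = ⟨ω, (k : ZMod (width N ω))⟩ :=
  Subgroup.quotientEquivSigmaZMod_apply (Gamma0 N) T ω k

/-- Under `sigmaEquiv`, `T ^ m` acts by `(ω, k) ↦ (ω, k + m)`. -/
theorem T_zpow_smul_sigmaEquiv_symm (m : ℤ) (ω : TOrbits N) (k : ZMod (width N ω)) :
    T ^ m • (sigmaEquiv N).symm ⟨ω, k⟩ = (sigmaEquiv N).symm ⟨ω, k + (m : ZMod (width N ω))⟩ := by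
  obtain ⟨j, rfl⟩ := ZMod.intCast_surjective k
  rw [← Int.cast_add, sigmaEquiv_symm_intCast, sigmaEquiv_symm_intCast, smul_smul, ← _root_.zpow_add,
    add_comm]

/-- Under `sigmaEquiv`, `T` acts by `(ω, k) ↦ (ω, k + 1)`. -/
theorem T_smul_sigmaEquiv_symm (ω : TOrbits N) (k : ZMod (width N ω)) :
    T • (sigmaEquiv N).symm ⟨ω, k⟩ = (sigmaEquiv N).symm ⟨ω, k + 1⟩ := by
  have := T_zpow_smul_sigmaEquiv_symm N 1 ω k
  rwa [zpow_one, Int.cast_one] at this

/-- Under `sigmaEquiv`, `T⁻¹` acts by `(ω, k) ↦ (ω, k - 1)`. -/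
theorem T_inv_smul_sigmaEquiv_symm (ω : TOrbits N) (k : ZMod (width N ω)) :
    T⁻¹ • (sigmaEquiv N).symm ⟨ω, k⟩ = (sigmaEquiv N).symm ⟨ω, k - 1⟩ := by
  have := T_zpow_smul_sigmaEquiv_symm N (-1) ω k
  rwa [_root_.zpow_neg_one, Int.cast_neg, Int.cast_one, ← sub_eq_add_neg] at this

instance [NeZero N] : Finite (TOrbits N) := inferInstance

/-- A `Fintype` structure on the set of `T`-orbits (not an instance, to avoid diamonds; the
theorems below hold for any `Fintype` instance). -/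
@[instance_reducible]
noncomputable def fintypeTOrbits [NeZero N] : Fintype (TOrbits N) := Fintype.ofFinite _

/-- The number of `T`-orbits on `SL(2, ℤ) ⧸ Γ₀(N)` is `cuspCount N`. -/
theorem card_TOrbits [NeZero N] [Fintype (TOrbits N)] :
    Fintype.card (TOrbits N) = cuspCount N := by
  rw [← Nat.card_eq_fintype_card, card_orbits_T]

/-- The widths of the cusps of `Γ₀(N)` sum to the index `ψ(N)`. -/
theorem sum_width [NeZero N] [Fintype (TOrbits N)] :
    ∑ ω : TOrbits N, width N ω = dedekindPsi N := by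
  rw [← index_Gamma0 N]
  exact (Subgroup.index_eq_sum_minimalPeriod (Gamma0 N) T).symm

/-- `Fintype.card` form of the index formula. -/
theorem fintype_card_quotient_Gamma0 [NeZero N] [Fintype (SL(2, ℤ) ⧸ Gamma0 N)] :
    Fintype.card (SL(2, ℤ) ⧸ Gamma0 N) = dedekindPsi N := by
  rw [← Nat.card_eq_fintype_card, card_quotient_Gamma0]

end Fermat.Agent.Lib.RR.Cosets
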