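import Mathlib

/-!
# WP G2 (b1): twisted averages (finite Fourier transform over translates) of periodic functions

For `ϕ : ℂ → ℂ` with period `h`, the function
`ψ_r(z) = h⁻¹ ∑_{m<h} e^{-2πi r m / h} ϕ(z+m)` satisfies `ψ_r(z+1) = e^{2πi r/h} ψ_r(z)`,
`∑_{r<h} ψ_r = ϕ`, and `ψ_r(z) e^{-2πi ρ z}` has a limit at `i∞` under a mild decay hypothesis.
-/

set_option autoImplicit false

namespace Fermat.Agent.Lib.RR

open Complex Filter Function Topology Asymptotics

local notation "I∞" => comap Complex.im atTop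

/-- The twisted average of the translates of `ϕ`. -/
noncomputable def g2_dft (h r : ℕ) (ϕ : ℂ → ℂ) (z : ℂ) : ℂ :=
  (h : ℂ)⁻¹ * ∑ m ∈ Finset.range h, cexp (-(2 * Real.pi * I * r * m / h)) * ϕ (z + m)

theorem g2_exp_int (n : ℤ) : cexp (2 * Real.pi * I * n) = 1 := by
  have := Complex.exp_int_mul_two_pi_mul_I n
  rw [← this]; congr 1; ring

theorem g2_dft_add_one {h : ℕ} (hh : 0 < h) (r : ℕ) {ϕ : ℂ → ℂ} (hper : Periodic ϕ h) (z : ℂ) :
    g2_dft h r ϕ (z + 1) = cexp (2 * Real.pi * I * r / h) * g2_dft h r ϕ z := by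
  unfold g2_dft
  have hh0 : (h : ℂ) ≠ 0 := by exact_mod_cast hh.ne'
  rw [mul_left_comm]
  congr 1
  rw [Finset.mul_sum]
  -- shift the index
  have e1 : ∀ m : ℕ, cexp (2 * Real.pi * I * r / h) *
      (cexp (-(2 * Real.pi * I * r * (m + 1 : ℕ) / h)) * ϕ (z + (m + 1 : ℕ)))
      = cexp (-(2 * Real.pi * I * r * m / h)) * ϕ (z + 1 + m) := by
    intro m
    rw [← mul_assoc, ← Complex.exp_add]
    congr 2
    · push_cast; field_simp; ring
    · push_cast; ring
  have e2 : ∑ m ∈ Finset.range h, cexp (-(2 * Real.pi * I * r * m / h)) * ϕ (z + 1 + m)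
      = ∑ m ∈ Finset.range h, cexp (2 * Real.pi * I * r / h) *
        (cexp (-(2 * Real.pi * I * r * (m + 1 : ℕ) / h)) * ϕ (z + (m + 1 : ℕ))) :=
    Finset.sum_congr rfl fun m _ => (e1 m).symm
  rw [e2]
  set g : ℕ → ℂ := fun m => cexp (2 * Real.pi * I * r / h) *
        (cexp (-(2 * Real.pi * I * r * m / h)) * ϕ (z + m)) with hg
  have e3 : ∑ m ∈ Finset.range h, g (m + 1) = ∑ m ∈ Finset.range h, g m := by
    have h1 := Finset.sum_range_succ' g h
    have h2 := Finset.sum_range_succ g h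
    have h3 : g h = g 0 := by
      simp only [hg]
      congr 1
      have : cexp (-(2 * Real.pi * I * r * h / h)) = 1 := by
        have : -(2 * Real.pi * I * (r : ℂ) * h / h) = 2 * Real.pi * I * ((-(r : ℤ) : ℤ) : ℂ) := by
          push_cast; field_simp
        rw [this, g2_exp_int]
      rw [this]
      have h4 : ϕ (z + h) = ϕ z := hper z
      simp [h4]
    rw [h1] at h2
    rw [h3] at h2
    exact add_right_cancel h2
  exact e3

theorem g2_sum_exp_eq_zero {h : ℕ} {m : ℕ} (hm0 : 0 < m) (hmh : m < h) :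
    ∑ r ∈ Finset.range h, cexp (-(2 * Real.pi * I * r * m / h)) = 0 := by
  have hh0 : (h : ℂ) ≠ 0 := by
    have : 0 < h := by omega
    exact_mod_cast this.ne'
  set x : ℂ := cexp (-(2 * Real.pi * I * m / h)) with hx
  have e1 : ∀ r : ℕ, cexp (-(2 * Real.pi * I * r * m / h)) = x ^ r := by
    intro r
    rw [hx, ← Complex.exp_nat_mul]
    congr 1; ring
  simp_rw [e1]
  have hx1 : x ≠ 1 := by
    intro h1
    rw [hx, Complex.exp_eq_one_iff] at h1
    obtain ⟨n, hn⟩ := h1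
    have h2 : -(m : ℂ) = n * h := by
      have h2pi : (2 * Real.pi * I : ℂ) ≠ 0 := Complex.two_pi_I_ne_zero
      have h6 := congrArg (· * (h : ℂ)) hn
      simp only [neg_mul] at h6
      rw [div_mul_cancel₀ _ hh0] at h6
      have : (2 * Real.pi * I : ℂ) * (-(m : ℂ)) = (2 * Real.pi * I : ℂ) * (n * h) := by
        linear_combination h6
      exact mul_left_cancel₀ h2pi this
    have h3 : -(m : ℤ) = n * h := by exact_mod_cast h2
    have h4 : (h : ℤ) ∣ m := ⟨-n, by linarith⟩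
    have h5 := Int.le_of_dvd (by exact_mod_cast hm0) h4
    omega
  have hxh : x ^ h = 1 := by
    rw [hx, ← Complex.exp_nat_mul]
    have : (h : ℂ) * -(2 * Real.pi * I * m / h) = 2 * Real.pi * I * ((-(m : ℤ) : ℤ) : ℂ) := by
      push_cast; field_simp
    rw [this, g2_exp_int]
  rw [geom_sum_eq hx1, hxh, sub_self, zero_div]

theorem g2_sum_dft {h : ℕ} (hh : 0 < h) (ϕ : ℂ → ℂ) (z : ℂ) :
    ∑ r ∈ Finset.range h, g2_dft h r ϕ z = ϕ z := by
  unfold g2_dft
  have hh0 : (h : ℂ) ≠ 0 := by exact_mod_cast hh.ne'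
  rw [← Finset.mul_sum, Finset.sum_comm]
  simp_rw [← Finset.sum_mul]
  have : ∀ m ∈ Finset.range h, (∑ r ∈ Finset.range h, cexp (-(2 * Real.pi * I * r * m / h)))
      * ϕ (z + m) = if m = 0 then (h : ℂ) * ϕ z else 0 := by
    intro m hm
    rw [Finset.mem_range] at hm
    split_ifs with h0
    · subst h0
      simp
    · rw [g2_sum_exp_eq_zero (Nat.pos_of_ne_zero h0) hm, zero_mul]
  rw [Finset.sum_congr rfl this, Finset.sum_ite_eq' (Finset.range h) 0]
  simp [hh]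
  field_simp

theorem g2_dft_differentiableAt {h : ℕ} (r : ℕ) {ϕ : ℂ → ℂ} {z : ℂ}
    (hd : ∀ m : ℕ, DifferentiableAt ℂ ϕ (z + m)) : DifferentiableAt ℂ (g2_dft h r ϕ) z := by
  unfold g2_dft
  refine DifferentiableAt.const_mul ?_ _
  refine DifferentiableAt.fun_sum fun m _ => ?_
  refine DifferentiableAt.const_mul ?_ _
  exact (hd m).comp z (by fun_prop : DifferentiableAt ℂ (fun z : ℂ => z + m) z)

theorem g2_eventually_add {p : ℂ → Prop} (hp : ∀ᶠ z in I∞, p z) (a : ℝ) :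
    ∀ᶠ z in I∞, p (z + a) := by
  have : Tendsto (fun z : ℂ => z + a) I∞ I∞ := by
    rw [tendsto_comap_iff]
    have : (Complex.im ∘ fun z : ℂ => z + a) = Complex.im := by
      ext z; simp
    rw [this]
    exact tendsto_comap
  exact this.eventually hp

theorem g2_eventually_add_nat {p : ℂ → Prop} (hp : ∀ᶠ z in I∞, p z) :
    ∀ᶠ z in I∞, ∀ m : ℕ, p (z + m) := by
  rw [Filter.eventually_comap] at hp ⊢
  filter_upwards [hp] with t ht z hz m
  exact ht (z + m) (by simp [hz])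

theorem g2_dft_eventually_differentiableAt {h : ℕ} (r : ℕ) {ϕ : ℂ → ℂ}
    (hd : ∀ᶠ z in I∞, DifferentiableAt ℂ ϕ z) :
    ∀ᶠ z in I∞, DifferentiableAt ℂ (g2_dft h r ϕ) z := by
  filter_upwards [g2_eventually_add_nat hd] with z hz
  exact g2_dft_differentiableAt r hz

theorem g2_tendsto_add (a : ℝ) : Tendsto (fun z : ℂ => z + a) I∞ I∞ := by
  rw [tendsto_comap_iff]
  have : (Complex.im ∘ fun z : ℂ => z + a) = Complex.im := by
    ext z; simp
  rw [this]
  exact tendsto_comap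

/-- `g2_dft` preserves `O(g)` bounds for translation-invariant comparison functions. -/
theorem g2_dft_isBigO {h : ℕ} (r : ℕ) {ϕ : ℂ → ℂ} {g : ℂ → ℝ}
    (hg : ∀ (z : ℂ) (m : ℕ), g (z + m) = g z) (hϕ : ϕ =O[I∞] g) :
    g2_dft h r ϕ =O[I∞] g := by
  change (fun z : ℂ => (h : ℂ)⁻¹ * ∑ m ∈ Finset.range h,
    cexp (-(2 * Real.pi * I * r * m / h)) * ϕ (z + m)) =O[I∞] g
  refine IsBigO.const_mul_left ?_ _
  refine IsBigO.fun_sum fun m _ => ?_
  refine IsBigO.const_mul_left ?_ _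
  have h1 := hϕ.comp_tendsto (g2_tendsto_add (m : ℝ))
  refine (h1.congr_left ?_).congr_right ?_
  · intro z; simp
  · intro z; simpa using hg z m

theorem g2_dft_isLittleO {h : ℕ} (r : ℕ) {ϕ : ℂ → ℂ} {g : ℂ → ℝ}
    (hg : ∀ (z : ℂ) (m : ℕ), g (z + m) = g z) (hϕ : ϕ =o[I∞] g) :
    g2_dft h r ϕ =o[I∞] g := by
  change (fun z : ℂ => (h : ℂ)⁻¹ * ∑ m ∈ Finset.range h,
    cexp (-(2 * Real.pi * I * r * m / h)) * ϕ (z + m)) =o[I∞] g
  refine IsLittleO.const_mul_left ?_ _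
  refine IsLittleO.fun_sum fun m _ => ?_
  refine IsLittleO.const_mul_left ?_ _
  have h1 := hϕ.comp_tendsto (g2_tendsto_add (m : ℝ))
  refine (h1.congr_left ?_).congr_right ?_
  · intro z; simp
  · intro z; simpa using hg z m

/-- `e(ρ z) = exp(2πiρz)`. -/
noncomputable def g2_e (ρ : ℝ) (z : ℂ) : ℂ := cexp (2 * Real.pi * I * ρ * z)

theorem g2_e_add (ρ σ : ℝ) (z : ℂ) : g2_e (ρ + σ) z = g2_e ρ z * g2_e σ z := by
  unfold g2_e
  rw [← Complex.exp_add]
  congr 1; push_cast; ring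

theorem g2_e_zero (z : ℂ) : g2_e 0 z = 1 := by simp [g2_e]

theorem g2_e_ne_zero (ρ : ℝ) (z : ℂ) : g2_e ρ z ≠ 0 := Complex.exp_ne_zero _

theorem g2_e_neg_mul (ρ : ℝ) (z : ℂ) : g2_e (-ρ) z * g2_e ρ z = 1 := by
  rw [← g2_e_add, neg_add_cancel, g2_e_zero]

theorem g2_e_mul_neg (ρ : ℝ) (z : ℂ) : g2_e ρ z * g2_e (-ρ) z = 1 := by
  rw [← g2_e_add, add_neg_cancel, g2_e_zero]

theorem g2_norm_e (ρ : ℝ) (z : ℂ) : ‖g2_e ρ z‖ = Real.exp (-(2 * Real.pi * ρ * z.im)) := by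
  unfold g2_e
  rw [Complex.norm_exp]
  congr 1
  simp [mul_re, mul_im]

theorem g2_e_add_one (ρ : ℝ) (z : ℂ) : g2_e ρ (z + 1) = cexp (2 * Real.pi * I * ρ) * g2_e ρ z := by
  unfold g2_e
  rw [← Complex.exp_add]
  congr 1; ring

theorem g2_e_add_nat (n : ℤ) (z : ℂ) (m : ℕ) : g2_e n (z + m) = g2_e n z := by
  unfold g2_e
  have : 2 * Real.pi * I * ((n : ℝ) : ℂ) * (z + m)
      = 2 * Real.pi * I * ((n : ℝ) : ℂ) * z + 2 * Real.pi * I * ((n * m : ℤ) : ℂ) := by
    push_cast; ring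
  rw [this, Complex.exp_add, g2_exp_int, mul_one]

theorem g2_e_one_periodic (n : ℤ) : Periodic (g2_e n) 1 := by
  intro z
  have := g2_e_add_nat n z 1
  simpa using this

theorem g2_e_differentiable (ρ : ℝ) : Differentiable ℂ (g2_e ρ) := by
  unfold g2_e
  fun_prop

theorem g2_isBigO_one_iff {f : ℂ → ℂ} : BoundedAtFilter I∞ f ↔ f =O[I∞] (fun _ => (1 : ℝ)) :=
  Iff.rfl

/-- A `1`-periodic function, holomorphic near `i∞` and tending to `0` there, is `O(e^{2πiz})`. -/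
theorem g2_periodic_decay {χ : ℂ → ℂ} (hper : Periodic χ 1)
    (hhol : ∀ᶠ z in I∞, DifferentiableAt ℂ χ z) (h0 : Tendsto χ I∞ (𝓝 0)) :
    BoundedAtFilter I∞ (fun z => χ z * g2_e (-1) z) := by
  have h1 := hper.exp_decay_of_zero_at_inf one_pos hhol h0
  rw [g2_isBigO_one_iff]
  have h2 : (fun z => χ z * g2_e (-1) z) =O[I∞]
      (fun z : ℂ => Real.exp (-2 * Real.pi * im z / 1) * ‖g2_e (-1) z‖) :=
    h1.mul (isBigO_refl _ _).norm_right
  refine h2.trans (isBigO_of_le _ fun z => ?_)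
  rw [g2_norm_e, ← Real.exp_add]
  have : -2 * Real.pi * z.im / 1 + -(2 * Real.pi * (-1 : ℝ) * z.im) = 0 := by ring
  rw [this]
  simp

theorem g2_e_bounded {ρ : ℝ} (hρ : 0 ≤ ρ) : BoundedAtFilter I∞ (g2_e ρ) := by
  rw [g2_isBigO_one_iff]
  refine IsBigO.of_bound 1 ?_
  have : ∀ᶠ z : ℂ in I∞, 0 ≤ z.im := by
    rw [Filter.eventually_comap]
    filter_upwards [eventually_ge_atTop (0 : ℝ)] with t ht z hz
    rw [hz]; exact ht
  filter_upwards [this] with z hz
  rw [g2_norm_e]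
  simp only [norm_one, mul_one]
  rw [Real.exp_le_one_iff]
  have := Real.pi_pos
  have : 0 ≤ 2 * Real.pi * ρ * z.im := by positivity
  linarith

theorem g2_e_tendsto_zero {ρ : ℝ} (hρ : 0 < ρ) : Tendsto (g2_e ρ) I∞ (𝓝 0) := by
  rw [tendsto_zero_iff_norm_tendsto_zero]
  simp_rw [g2_norm_e]
  refine Real.tendsto_exp_atBot.comp ?_
  have h1 : Tendsto (fun z : ℂ => z.im) I∞ atTop := tendsto_comap
  have h2 : Tendsto (fun z : ℂ => (2 * Real.pi * ρ) * z.im) I∞ atTop :=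
    h1.const_mul_atTop (by have := Real.pi_pos; positivity)
  exact tendsto_neg_atTop_atBot.comp h2

theorem g2_twisted_periodic {g : ℂ → ℂ} {ρ : ℝ}
    (hper : ∀ z, g (z + 1) = cexp (2 * Real.pi * I * ρ) * g z) :
    Periodic (fun z => g z * g2_e (-ρ) z) 1 := by
  intro z
  simp only
  rw [hper, g2_e_add_one, mul_mul_mul_comm, ← Complex.exp_add]
  have : 2 * Real.pi * I * (ρ : ℂ) + 2 * Real.pi * I * ((-ρ : ℝ) : ℂ) = 0 := by
    push_cast; ring
  rw [this, Complex.exp_zero, one_mul]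

/-- Twisted periodic functions with a mild growth bound have a limit at `i∞` after untwisting. -/
theorem g2_twisted_tendsto {g : ℂ → ℂ} {ρ : ℝ}
    (hper : ∀ z, g (z + 1) = cexp (2 * Real.pi * I * ρ) * g z)
    (hhol : ∀ᶠ z in I∞, DifferentiableAt ℂ g z)
    (hdec : Tendsto (fun z => g z * g2_e (1 - ρ) z) I∞ (𝓝 0)) :
    ∃ a, Tendsto (fun z => g z * g2_e (-ρ) z) I∞ (𝓝 a) := by
  set χ : ℂ → ℂ := fun z => g z * g2_e (-ρ) z with hχ
  have hχper : Periodic χ 1 := g2_twisted_periodic hper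
  have hχhol : ∀ᶠ z in I∞, DifferentiableAt ℂ χ z := by
    filter_upwards [hhol] with z hz
    exact hz.mul (g2_e_differentiable _ z)
  have hχ2 : (fun z => χ z * g2_e ((1 : ℤ) : ℝ) z) = fun z => g z * g2_e (1 - ρ) z := by
    ext z
    simp only [hχ]
    rw [mul_assoc, ← g2_e_add]
    congr 2
    push_cast; ring
  have hb := g2_periodic_decay (χ := fun z => χ z * g2_e ((1 : ℤ) : ℝ) z)
    (hχper.mul (g2_e_one_periodic 1))
    (by
      filter_upwards [hχhol] with z hz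
      exact hz.mul (g2_e_differentiable _ z))
    (by rw [hχ2]; exact hdec)
  have hb' : BoundedAtFilter I∞ χ := by
    refine hb.congr' ?_ (EventuallyEq.refl _ _)
    filter_upwards with z
    rw [mul_assoc]
    have : g2_e ((1 : ℤ) : ℝ) z * g2_e (-1) z = 1 := by
      have := g2_e_mul_neg 1 z
      simpa using this
    rw [this, mul_one]
  exact ⟨_, hχper.tendsto_at_I_inf one_pos hχhol hb'⟩

end Fermat.Agent.Lib.RR
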