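import Mathlib
import Fermat.Agent.Lib.RR.G2Fourier

/-!
# WP G2 (b2): asymptotics at `i∞` of the determinant of translates

Cusps `s : S` with widths `h s`; index set `J = Σ s, Fin (h s)`; the matrix
`F z i (s, m) = ϕ i s (z + m)` for `h s`-periodic functions `ϕ i s`.
-/

set_option autoImplicit false

namespace Fermat.Agent.Lib.RR

open Complex Filter Function Topology Asymptotics Matrix

local notation "I∞" => comap Complex.im atTop

section

variable {S : Type*} [Fintype S] [DecidableEq S] (h : S → ℕ)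

/-- The matrix of translates. -/
noncomputable def g2_F (ϕ : (Σ s : S, Fin (h s)) → S → ℂ → ℂ) (z : ℂ) :
    Matrix (Σ s : S, Fin (h s)) (Σ s : S, Fin (h s)) ℂ :=
  fun i j => ϕ i j.1 (z + ((j.2 : ℕ) : ℂ))

/-- The block Fourier matrix. -/
noncomputable def g2_C : Matrix (Σ s : S, Fin (h s)) (Σ s : S, Fin (h s)) ℂ :=
  fun j' j => if j'.1 = j.1 then
    (h j.1 : ℂ)⁻¹ * cexp (-(2 * Real.pi * I * ((j.2 : ℕ) : ℂ) * ((j'.2 : ℕ) : ℂ) / (h j.1 : ℂ))) else 0

/-- The matrix of twisted averages. -/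
noncomputable def g2_Psi (ϕ : (Σ s : S, Fin (h s)) → S → ℂ → ℂ) (z : ℂ) :
    Matrix (Σ s : S, Fin (h s)) (Σ s : S, Fin (h s)) ℂ :=
  fun i j => g2_dft (h j.1) j.2 (ϕ i j.1) z

theorem g2_F_mul_C (ϕ : (Σ s : S, Fin (h s)) → S → ℂ → ℂ) (z : ℂ) :
    g2_F h ϕ z * g2_C h = g2_Psi h ϕ z := by
  ext i j
  rw [Matrix.mul_apply, Fintype.sum_sigma]
  rw [Finset.sum_eq_single j.1]
  · simp only [g2_F, g2_C, g2_Psi, g2_dft, if_true]
    rw [← Fin.sum_univ_eq_sum_range (fun m : ℕ => cexp (-(2 * Real.pi * I * ((j.2 : ℕ) : ℂ)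
      * (m : ℂ) / (h j.1 : ℂ))) * ϕ i j.1 (z + m)) (h j.1), Finset.mul_sum]
    refine Finset.sum_congr rfl fun m _ => ?_
    ring
  · intro s _ hs
    refine Finset.sum_eq_zero fun m _ => ?_
    simp [g2_C, hs]
  · intro hj
    exact absurd (Finset.mem_univ _) hj

/-- Generic determinant asymptotics: exponents `ρ j` with `e(ρ j) = e(r/h)`. -/
theorem g2_det_generic (hh : ∀ s, 0 < h s)
    (ϕ : (Σ s : S, Fin (h s)) → S → ℂ → ℂ) (u : (Σ s : S, Fin (h s)) → ℂ → ℂ)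
    (ρ : (Σ s : S, Fin (h s)) → ℝ)
    (hρ : ∀ j : (Σ s : S, Fin (h s)), cexp (2 * Real.pi * I * (ρ j : ℂ))
      = cexp (2 * Real.pi * I * ((j.2 : ℕ) : ℂ) / (h j.1 : ℂ)))
    (hper : ∀ i s, Periodic (ϕ i s) (h s))
    (hhol : ∀ i s, ∀ᶠ z in I∞, DifferentiableAt ℂ (ϕ i s) z)
    (hdec : ∀ i (j : (Σ s : S, Fin (h s))),
      Tendsto (fun z => g2_dft (h j.1) j.2 (ϕ i j.1) z * g2_e (1 - ρ j) z) I∞ (𝓝 0))
    (huper : ∀ i, Periodic (u i) 1) (huhol : ∀ i, ∀ᶠ z in I∞, DifferentiableAt ℂ (u i) z)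
    (hu1 : ∀ i, Tendsto (u i) I∞ (𝓝 1))
    (hindep : ∀ x : (Σ s : S, Fin (h s)) → ℂ,
      (∀ j : (Σ s : S, Fin (h s)), BoundedAtFilter I∞ (fun z =>
        (∑ i, x i * u i z * g2_dft (h j.1) j.2 (ϕ i j.1) z) * g2_e (-ρ j) z * g2_e (-1) z))
      → x = 0) :
    ∃ L : ℂ, L ≠ 0 ∧
      Tendsto (fun z => (g2_F h ϕ z).det ^ 2 * g2_e (-(2 * ∑ j, ρ j)) z) I∞ (𝓝 L) := by
  classical
  have : (comap Complex.im atTop).NeBot :=
    Filter.NeBot.comap_of_surj atTop_neBot (fun y => ⟨y * I, by simp⟩)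
  -- twisted periodicity of the averages
  have hper' : ∀ i (j : (Σ s : S, Fin (h s))) (z : ℂ),
      g2_dft (h j.1) j.2 (ϕ i j.1) (z + 1)
        = cexp (2 * Real.pi * I * (ρ j : ℂ)) * g2_dft (h j.1) j.2 (ϕ i j.1) z := by
    intro i j z
    rw [g2_dft_add_one (hh j.1) _ (hper i j.1), hρ j]
  have hhol' : ∀ i (j : (Σ s : S, Fin (h s))),
      ∀ᶠ z in I∞, DifferentiableAt ℂ (g2_dft (h j.1) j.2 (ϕ i j.1)) z :=
    fun i j => g2_dft_eventually_differentiableAt _ (hhol i j.1)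
  -- the limits
  have hex : ∀ i (j : (Σ s : S, Fin (h s))), ∃ a : ℂ,
      Tendsto (fun z => g2_dft (h j.1) j.2 (ϕ i j.1) z * g2_e (-ρ j) z) I∞ (𝓝 a) :=
    fun i j => g2_twisted_tendsto (hper' i j) (hhol' i j) (hdec i j)
  choose A hA using hex
  set A' : Matrix (Σ s : S, Fin (h s)) (Σ s : S, Fin (h s)) ℂ := Matrix.of A with hA'
  -- the untwisted matrix
  set Pt : ℂ → Matrix (Σ s : S, Fin (h s)) (Σ s : S, Fin (h s)) ℂ :=
    fun z => Matrix.of fun i j => g2_e (-ρ j) z * g2_Psi h ϕ z i j with hPt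
  have hPt_lim : Tendsto Pt I∞ (𝓝 A') := by
    refine tendsto_pi_nhds.mpr fun i => tendsto_pi_nhds.mpr fun j => ?_
    refine (hA i j).congr fun z => ?_
    simp [hPt, g2_Psi, mul_comm]
  have hdet_lim : Tendsto (fun z => (Pt z).det) I∞ (𝓝 A'.det) :=
    ((continuous_id.matrix_det).tendsto A').comp hPt_lim
  have hdet_eq : ∀ z, (Pt z).det = g2_e (-(∑ j, ρ j)) z * ((g2_F h ϕ z).det * (g2_C h).det) := by
    intro z
    rw [hPt]
    simp only
    rw [Matrix.det_mul_row, ← Matrix.det_mul, g2_F_mul_C]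
    congr 1
    unfold g2_e
    rw [← Complex.exp_sum]
    congr 1
    push_cast
    rw [← Finset.sum_mul, ← Finset.mul_sum, Finset.sum_neg_distrib]
  -- the limit matrix is invertible
  have hAdet : A'.det ≠ 0 := by
    intro h0
    obtain ⟨x, hx0, hx⟩ := Matrix.exists_vecMul_eq_zero_iff.mpr h0
    refine hx0 (hindep x fun j => ?_)
    have hχper : Periodic (fun z => ∑ i, x i * (u i z *
        (g2_dft (h j.1) j.2 (ϕ i j.1) z * g2_e (-ρ j) z))) 1 := by
      intro z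
      simp only
      refine Finset.sum_congr rfl fun i _ => ?_
      have h1 := g2_twisted_periodic (hper' i j) z
      simp only at h1
      rw [huper i z, h1]
    have hχhol : ∀ᶠ z in I∞, DifferentiableAt ℂ (fun z => ∑ i, x i * (u i z *
        (g2_dft (h j.1) j.2 (ϕ i j.1) z * g2_e (-ρ j) z))) z := by
      have h1 : ∀ᶠ z in I∞, ∀ i, DifferentiableAt ℂ (u i) z := eventually_all.mpr huhol
      have h2 : ∀ᶠ z in I∞, ∀ i, DifferentiableAt ℂ (g2_dft (h j.1) j.2 (ϕ i j.1)) z :=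
        eventually_all.mpr fun i => hhol' i j
      filter_upwards [h1, h2] with z hz1 hz2
      refine DifferentiableAt.fun_sum fun i _ => ?_
      exact ((hz1 i).mul ((hz2 i).mul (g2_e_differentiable _ z))).const_mul _
    have hχlim : Tendsto (fun z => ∑ i, x i * (u i z *
        (g2_dft (h j.1) j.2 (ϕ i j.1) z * g2_e (-ρ j) z))) I∞ (𝓝 0) := by
      have h1 : Tendsto (fun z => ∑ i, x i * (u i z *
          (g2_dft (h j.1) j.2 (ϕ i j.1) z * g2_e (-ρ j) z))) I∞ (𝓝 (∑ i, x i * (1 * A i j))) :=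
        tendsto_finsetSum _ fun i _ => ((hu1 i).mul (hA i j)).const_mul _
      have h2 : ∑ i, x i * (1 * A i j) = 0 := by
        have := congrFun hx j
        simpa [Matrix.vecMul, dotProduct, hA'] using this
      rwa [h2] at h1
    have hb := g2_periodic_decay hχper hχhol hχlim
    refine hb.congr' ?_ (EventuallyEq.refl _ _)
    filter_upwards with z
    simp only [Finset.sum_mul]
    refine Finset.sum_congr rfl fun i _ => ?_
    ring
  have hCdet : (g2_C h).det ≠ 0 := by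
    intro h0
    apply hAdet
    have : (fun z => (Pt z).det) = fun _ => 0 := by
      ext z
      rw [hdet_eq, h0, mul_zero, mul_zero]
    rw [this] at hdet_lim
    exact tendsto_nhds_unique hdet_lim tendsto_const_nhds
  refine ⟨(A'.det / (g2_C h).det) ^ 2, pow_ne_zero _ (div_ne_zero hAdet hCdet), ?_⟩
  refine ((hdet_lim.div_const (g2_C h).det).pow 2).congr fun z => ?_
  rw [hdet_eq]
  have : g2_e (-(2 * ∑ j, ρ j)) z = g2_e (-(∑ j, ρ j)) z ^ 2 := by
    rw [pow_two, ← g2_e_add]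
    congr 1; ring
  rw [this]
  field_simp

theorem g2_sum_range_cast (n : ℕ) : ∑ r ∈ Finset.range n, (r : ℝ) = (n : ℝ) * ((n : ℝ) - 1) / 2 := by
  induction n with
  | zero => simp
  | succ n ih =>
    rw [Finset.sum_range_succ, ih]
    push_cast
    ring

/-- The case of forms bounded at all cusps: exact order `(μ - c)/2` of the determinant. -/
theorem g2_det_M (hh : ∀ s, 0 < h s)
    (ϕ : (Σ s : S, Fin (h s)) → S → ℂ → ℂ) (u : (Σ s : S, Fin (h s)) → ℂ → ℂ)
    (hper : ∀ i s, Periodic (ϕ i s) (h s))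
    (hhol : ∀ i s, ∀ᶠ z in I∞, DifferentiableAt ℂ (ϕ i s) z)
    (hbdd : ∀ i s, BoundedAtFilter I∞ (ϕ i s))
    (huper : ∀ i, Periodic (u i) 1) (huhol : ∀ i, ∀ᶠ z in I∞, DifferentiableAt ℂ (u i) z)
    (hu1 : ∀ i, Tendsto (u i) I∞ (𝓝 1))
    (hindep : ∀ x : (Σ s : S, Fin (h s)) → ℂ,
      (∀ s : S, BoundedAtFilter I∞ (fun z => (∑ i, x i * u i z * ϕ i s z) * g2_e (-1) z))
      → x = 0) :
    ∃ L : ℂ, L ≠ 0 ∧
      Tendsto (fun z => (g2_F h ϕ z).det ^ 2 *
        g2_e (-((∑ s, (h s : ℝ)) - (Fintype.card S : ℝ))) z) I∞ (𝓝 L) := by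
  classical
  set ρ : (Σ s : S, Fin (h s)) → ℝ := fun j => ((j.2 : ℕ) : ℝ) / (h j.1 : ℝ) with hρdef
  have hρ0 : ∀ j, 0 ≤ ρ j := fun j => by simp only [hρdef]; positivity
  have hρ1 : ∀ j, ρ j < 1 := fun j => by
    simp only [hρdef]
    rw [div_lt_one (by exact_mod_cast hh j.1)]
    exact_mod_cast j.2.2
  have hsum : 2 * ∑ j, ρ j = (∑ s, (h s : ℝ)) - (Fintype.card S : ℝ) := by
    rw [Fintype.sum_sigma]
    simp only [hρdef]
    have : ∀ s : S, ∑ r : Fin (h s), ((r : ℕ) : ℝ) / (h s : ℝ) = ((h s : ℝ) - 1) / 2 := by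
      intro s
      rw [Fin.sum_univ_eq_sum_range (fun r : ℕ => (r : ℝ) / (h s : ℝ)) (h s), ← Finset.sum_div,
        g2_sum_range_cast]
      have : (h s : ℝ) ≠ 0 := by exact_mod_cast (hh s).ne'
      field_simp
    simp_rw [this]
    rw [← Finset.sum_div, Finset.sum_sub_distrib]
    simp
    ring
  obtain ⟨L, hL, hlim⟩ := g2_det_generic h hh ϕ u ρ
    (fun j => by simp only [hρdef]; congr 1; push_cast; ring)
    hper hhol
    (fun i j => by
      have h1 : BoundedAtFilter I∞ (g2_dft (h j.1) j.2 (ϕ i j.1)) :=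
        g2_dft_isBigO _ (fun _ _ => rfl) (hbdd i j.1)
      exact h1.mul_zeroAtFilter (g2_e_tendsto_zero (by linarith [hρ1 j])))
    huper huhol hu1
    (fun x hx => hindep x fun s => by
      -- decompose ϕ into its twisted averages
      have h1 : (fun z => (∑ i, x i * u i z * ϕ i s z) * g2_e (-1) z)
          = fun z => ∑ r : Fin (h s), ((∑ i, x i * u i z * g2_dft (h s) r (ϕ i s) z) *
            g2_e (-ρ ⟨s, r⟩) z * g2_e (-1) z) * g2_e (ρ ⟨s, r⟩) z := by
        ext z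
        have h2 : ∀ r : Fin (h s), ((∑ i, x i * u i z * g2_dft (h s) r (ϕ i s) z) *
            g2_e (-ρ ⟨s, r⟩) z * g2_e (-1) z) * g2_e (ρ ⟨s, r⟩) z
            = (∑ i, x i * u i z * g2_dft (h s) r (ϕ i s) z) * g2_e (-1) z := by
          intro r
          have := g2_e_neg_mul (ρ ⟨s, r⟩) z
          linear_combination ((∑ i, x i * u i z * g2_dft (h s) r (ϕ i s) z) * g2_e (-1) z) * this
        simp_rw [h2]
        rw [← Finset.sum_mul, Finset.sum_comm]
        congr 1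
        refine Finset.sum_congr rfl fun i _ => ?_
        rw [← Finset.mul_sum, Fin.sum_univ_eq_sum_range (fun r : ℕ => g2_dft (h s) r (ϕ i s) z) (h s),
          g2_sum_dft (hh s)]
      rw [h1]
      have h3 : ∀ r : Fin (h s), BoundedAtFilter I∞ (fun z =>
          ((∑ i, x i * u i z * g2_dft (h s) r (ϕ i s) z) *
            g2_e (-ρ ⟨s, r⟩) z * g2_e (-1) z) * g2_e (ρ ⟨s, r⟩) z) :=
        fun r => (hx ⟨s, r⟩).mul (g2_e_bounded (hρ0 _))
      have h4 : ∀ (t : Finset (Fin (h s))), BoundedAtFilter I∞ (fun z => ∑ r ∈ t,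
          ((∑ i, x i * u i z * g2_dft (h s) r (ϕ i s) z) *
            g2_e (-ρ ⟨s, r⟩) z * g2_e (-1) z) * g2_e (ρ ⟨s, r⟩) z) := by
        intro t
        exact IsBigO.fun_sum fun r _ => h3 r
      exact h4 Finset.univ)
  refine ⟨L, hL, ?_⟩
  rwa [hsum] at hlim

/-- The cuspidal case: exact order `(μ + c)/2` of the determinant. -/
theorem g2_det_S (hh : ∀ s, 0 < h s)
    (ϕ : (Σ s : S, Fin (h s)) → S → ℂ → ℂ) (u : (Σ s : S, Fin (h s)) → ℂ → ℂ)
    (hper : ∀ i s, Periodic (ϕ i s) (h s))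
    (hhol : ∀ i s, ∀ᶠ z in I∞, DifferentiableAt ℂ (ϕ i s) z)
    (hzero : ∀ i s, Tendsto (ϕ i s) I∞ (𝓝 0))
    (huper : ∀ i, Periodic (u i) 1) (huhol : ∀ i, ∀ᶠ z in I∞, DifferentiableAt ℂ (u i) z)
    (hu1 : ∀ i, Tendsto (u i) I∞ (𝓝 1))
    (hindep : ∀ x : (Σ s : S, Fin (h s)) → ℂ,
      (∀ s : S, Tendsto (fun z => (∑ i, x i * u i z * ϕ i s z) * g2_e (-1) z) I∞ (𝓝 0))
      → x = 0) :
    ∃ L : ℂ, L ≠ 0 ∧
      Tendsto (fun z => (g2_F h ϕ z).det ^ 2 *
        g2_e (-((∑ s, (h s : ℝ)) + (Fintype.card S : ℝ))) z) I∞ (𝓝 L) := by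
  classical
  set ρ : (Σ s : S, Fin (h s)) → ℝ := fun j =>
    if (j.2 : ℕ) = 0 then 1 else ((j.2 : ℕ) : ℝ) / (h j.1 : ℝ) with hρdef
  have hρ0 : ∀ j, 0 < ρ j := fun j => by
    simp only [hρdef]
    split_ifs with h0
    · exact one_pos
    · have : 0 < (j.2 : ℕ) := Nat.pos_of_ne_zero h0
      have h1 : (0 : ℝ) < ((j.2 : ℕ) : ℝ) := by exact_mod_cast this
      have h2 : (0 : ℝ) < (h j.1 : ℝ) := by exact_mod_cast hh j.1
      positivity
  have hρ1 : ∀ j, ρ j ≤ 1 := fun j => by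
    simp only [hρdef]
    split_ifs with h0
    · exact le_refl _
    · rw [div_le_one (by exact_mod_cast hh j.1)]
      exact_mod_cast j.2.2.le
  have hsum : 2 * ∑ j, ρ j = (∑ s, (h s : ℝ)) + (Fintype.card S : ℝ) := by
    rw [Fintype.sum_sigma]
    simp only [hρdef]
    have : ∀ s : S, ∑ r : Fin (h s), (if (r : ℕ) = 0 then (1 : ℝ) else ((r : ℕ) : ℝ) / (h s : ℝ))
        = ((h s : ℝ) + 1) / 2 := by
      intro s
      rw [Fin.sum_univ_eq_sum_range
        (fun r : ℕ => if r = 0 then (1 : ℝ) else (r : ℝ) / (h s : ℝ)) (h s)]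
      have e1 : ∀ r ∈ Finset.range (h s), (if r = 0 then (1 : ℝ) else (r : ℝ) / (h s : ℝ))
          = (r : ℝ) / (h s : ℝ) + (if r = 0 then (1 : ℝ) else 0) := by
        intro r _
        split_ifs with h0
        · subst h0; simp
        · simp
      rw [Finset.sum_congr rfl e1, Finset.sum_add_distrib, ← Finset.sum_div, g2_sum_range_cast,
        Finset.sum_ite_eq' (Finset.range (h s)) 0]
      simp only [Finset.mem_range, hh s, if_true]
      have : (h s : ℝ) ≠ 0 := by exact_mod_cast (hh s).ne'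
      field_simp
      ring
    simp_rw [this]
    rw [← Finset.sum_div, Finset.sum_add_distrib]
    simp
    ring
  obtain ⟨L, hL, hlim⟩ := g2_det_generic h hh ϕ u ρ
    (fun j => by
      simp only [hρdef]
      split_ifs with h0
      · rw [h0]
        have := g2_exp_int 1
        simp only [Int.cast_one] at this
        simp
      · congr 1; push_cast; ring)
    hper hhol
    (fun i j => by
      have h1 : Tendsto (g2_dft (h j.1) j.2 (ϕ i j.1)) I∞ (𝓝 0) := by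
        have h2 : (ϕ i j.1) =o[I∞] (fun _ : ℂ => (1 : ℝ)) :=
          (isLittleO_one_iff ℝ).mpr (hzero i j.1)
        exact (isLittleO_one_iff ℝ).mp (g2_dft_isLittleO _ (fun _ _ => rfl) h2)
      exact ZeroAtFilter.mul_boundedAtFilter h1 (g2_e_bounded (by linarith [hρ1 j])))
    huper huhol hu1
    (fun x hx => hindep x fun s => by
      have h1 : (fun z => (∑ i, x i * u i z * ϕ i s z) * g2_e (-1) z)
          = fun z => ∑ r : Fin (h s), ((∑ i, x i * u i z * g2_dft (h s) r (ϕ i s) z) *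
            g2_e (-ρ ⟨s, r⟩) z * g2_e (-1) z) * g2_e (ρ ⟨s, r⟩) z := by
        ext z
        have h2 : ∀ r : Fin (h s), ((∑ i, x i * u i z * g2_dft (h s) r (ϕ i s) z) *
            g2_e (-ρ ⟨s, r⟩) z * g2_e (-1) z) * g2_e (ρ ⟨s, r⟩) z
            = (∑ i, x i * u i z * g2_dft (h s) r (ϕ i s) z) * g2_e (-1) z := by
          intro r
          have := g2_e_neg_mul (ρ ⟨s, r⟩) z
          linear_combination ((∑ i, x i * u i z * g2_dft (h s) r (ϕ i s) z) * g2_e (-1) z) * this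
        simp_rw [h2]
        rw [← Finset.sum_mul, Finset.sum_comm]
        congr 1
        refine Finset.sum_congr rfl fun i _ => ?_
        rw [← Finset.mul_sum, Fin.sum_univ_eq_sum_range (fun r : ℕ => g2_dft (h s) r (ϕ i s) z) (h s),
          g2_sum_dft (hh s)]
      rw [h1]
      have h3 : ∀ r : Fin (h s), Tendsto (fun z =>
          ((∑ i, x i * u i z * g2_dft (h s) r (ϕ i s) z) *
            g2_e (-ρ ⟨s, r⟩) z * g2_e (-1) z) * g2_e (ρ ⟨s, r⟩) z) I∞ (𝓝 0) :=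
        fun r => (hx ⟨s, r⟩).mul_zeroAtFilter (g2_e_tendsto_zero (hρ0 _))
      have h4 : Tendsto (fun z => ∑ r : Fin (h s),
          ((∑ i, x i * u i z * g2_dft (h s) r (ϕ i s) z) *
            g2_e (-ρ ⟨s, r⟩) z * g2_e (-1) z) * g2_e (ρ ⟨s, r⟩) z) I∞ (𝓝 (∑ _r : Fin (h s), (0 : ℂ))) :=
        tendsto_finsetSum _ fun r _ => h3 r
      simpa using h4)
  refine ⟨L, hL, ?_⟩
  rwa [hsum] at hlim

end

end Fermat.Agent.Lib.RR
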