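import Mathlib
import Fermat.Agent.Lib.RR.G2Det

/-!
# WP G2 (b3): the determinant asymptotics for functions on the upper half plane
-/

set_option autoImplicit false

namespace Fermat.Agent.Lib.RR

open Complex Filter Function Topology Asymptotics Matrix
open UpperHalfPlane hiding I
open scoped Manifold

local notation "I∞" => comap Complex.im atTop

theorem g2_ofComplex_add_nat (z : ℍ) (m : ℕ) : ofComplex ((z : ℂ) + (m : ℂ)) = (m : ℝ) +ᵥ z := by
  have h : 0 < ((z : ℂ) + (m : ℂ)).im := by simpa using z.im_pos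
  rw [ofComplex_apply_of_im_pos h]
  ext
  simp [add_comm]

theorem g2_periodic_comp_ofComplex {f : ℍ → ℂ} {a : ℝ} (hf : ∀ z : ℍ, f (a +ᵥ z) = f z) :
    Periodic (f ∘ ofComplex) a := by
  intro w
  by_cases hw : 0 < im w
  · have : 0 < im (w + a) := by simp [hw]
    simp only [Function.comp_apply, ofComplex_apply_of_im_pos this, ofComplex_apply_of_im_pos hw]
    rw [← hf ⟨w, hw⟩]
    congr 1
    ext
    simp [add_comm]
  · have hw' : im w ≤ 0 := not_lt.mp hw
    have : im (w + a) ≤ 0 := by simpa using hw'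
    simp [ofComplex_apply_of_im_nonpos this, ofComplex_apply_of_im_nonpos hw']

theorem g2_eventually_differentiableAt_comp_ofComplex {f : ℍ → ℂ} (hf : MDiff f) :
    ∀ᶠ z in I∞, DifferentiableAt ℂ (f ∘ ofComplex) z :=
  eventually_of_mem (preimage_mem_comap (Ioi_mem_atTop 0))
    (fun z hz ↦ UpperHalfPlane.mdifferentiableAt_iff.mp (hf ⟨z, hz⟩))

theorem g2_e_coe (n : ℤ) (z : ℍ) :
    g2_e (-(n : ℝ)) (z : ℂ) = cexp (-(2 * Real.pi * I * n * (z : ℂ))) := by
  unfold g2_e
  congr 1
  push_cast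
  ring

section

variable {S : Type*} [Fintype S] [DecidableEq S] (h : S → ℕ)

/-- Determinant asymptotics on `ℍ`, case of forms bounded at the cusps. -/
theorem g2_det_M_upper (hh : ∀ s, 0 < h s)
    (Φ : (Σ s : S, Fin (h s)) → S → ℍ → ℂ) (U : (Σ s : S, Fin (h s)) → ℍ → ℂ)
    (hper : ∀ i s (z : ℍ), Φ i s ((h s : ℝ) +ᵥ z) = Φ i s z)
    (hhol : ∀ i s, MDiff (Φ i s))
    (hbdd : ∀ i s, IsBoundedAtImInfty (Φ i s))
    (hUper : ∀ i (z : ℍ), U i ((1 : ℝ) +ᵥ z) = U i z) (hUhol : ∀ i, MDiff (U i))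
    (hU1 : ∀ i, Tendsto (U i) atImInfty (𝓝 1))
    (hindep : ∀ x : (Σ s : S, Fin (h s)) → ℂ,
      (∀ s : S, IsBoundedAtImInfty (fun z : ℍ => (∑ i, x i * U i z * Φ i s z) *
        cexp (-(2 * Real.pi * I * (z : ℂ))))) → x = 0) :
    ∃ L : ℂ, L ≠ 0 ∧
      Tendsto (fun z : ℍ => (Matrix.det (fun i j : (Σ s : S, Fin (h s)) =>
          Φ i j.1 (((j.2 : ℕ) : ℝ) +ᵥ z))) ^ 2 *
        cexp (-(2 * Real.pi * I * (((∑ s, h s : ℕ) : ℤ) - (Fintype.card S : ℤ) : ℤ) * (z : ℂ))))
        atImInfty (𝓝 L) := by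
  obtain ⟨L, hL, hlim⟩ := g2_det_M h hh (fun i s => Φ i s ∘ ofComplex) (fun i => U i ∘ ofComplex)
    (fun i s => g2_periodic_comp_ofComplex (hper i s))
    (fun i s => g2_eventually_differentiableAt_comp_ofComplex (hhol i s))
    (fun i s => (hbdd i s).comp_tendsto tendsto_comap_im_ofComplex)
    (fun i => by
      have := g2_periodic_comp_ofComplex (hUper i)
      simpa using this)
    (fun i => g2_eventually_differentiableAt_comp_ofComplex (hUhol i))
    (fun i => (hU1 i).comp tendsto_comap_im_ofComplex)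
    (fun x hx => hindep x fun s => by
      have h1 := (hx s).comp_tendsto tendsto_coe_atImInfty
      refine h1.congr' ?_ (EventuallyEq.refl _ _)
      filter_upwards with z
      simp only [Function.comp_apply, ofComplex_apply]
      congr 1
      have := g2_e_coe 1 z
      simpa using this)
  refine ⟨L, hL, ?_⟩
  have h2 := hlim.comp tendsto_coe_atImInfty
  refine h2.congr fun z => ?_
  simp only [Function.comp_apply]
  congr 1
  · congr 1
    unfold g2_F
    congr 1
    ext i j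
    simp only [Function.comp_apply]
    rw [g2_ofComplex_add_nat]
  · rw [← g2_e_coe]
    congr 2
    push_cast
    ring

/-- Determinant asymptotics on `ℍ`, cuspidal case. -/
theorem g2_det_S_upper (hh : ∀ s, 0 < h s)
    (Φ : (Σ s : S, Fin (h s)) → S → ℍ → ℂ) (U : (Σ s : S, Fin (h s)) → ℍ → ℂ)
    (hper : ∀ i s (z : ℍ), Φ i s ((h s : ℝ) +ᵥ z) = Φ i s z)
    (hhol : ∀ i s, MDiff (Φ i s))
    (hzero : ∀ i s, IsZeroAtImInfty (Φ i s))
    (hUper : ∀ i (z : ℍ), U i ((1 : ℝ) +ᵥ z) = U i z) (hUhol : ∀ i, MDiff (U i))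
    (hU1 : ∀ i, Tendsto (U i) atImInfty (𝓝 1))
    (hindep : ∀ x : (Σ s : S, Fin (h s)) → ℂ,
      (∀ s : S, IsZeroAtImInfty (fun z : ℍ => (∑ i, x i * U i z * Φ i s z) *
        cexp (-(2 * Real.pi * I * (z : ℂ))))) → x = 0) :
    ∃ L : ℂ, L ≠ 0 ∧
      Tendsto (fun z : ℍ => (Matrix.det (fun i j : (Σ s : S, Fin (h s)) =>
          Φ i j.1 (((j.2 : ℕ) : ℝ) +ᵥ z))) ^ 2 *
        cexp (-(2 * Real.pi * I * (((∑ s, h s : ℕ) : ℤ) + (Fintype.card S : ℤ) : ℤ) * (z : ℂ))))
        atImInfty (𝓝 L) := by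
  obtain ⟨L, hL, hlim⟩ := g2_det_S h hh (fun i s => Φ i s ∘ ofComplex) (fun i => U i ∘ ofComplex)
    (fun i s => g2_periodic_comp_ofComplex (hper i s))
    (fun i s => g2_eventually_differentiableAt_comp_ofComplex (hhol i s))
    (fun i s => (hzero i s).comp tendsto_comap_im_ofComplex)
    (fun i => by
      have := g2_periodic_comp_ofComplex (hUper i)
      simpa using this)
    (fun i => g2_eventually_differentiableAt_comp_ofComplex (hUhol i))
    (fun i => (hU1 i).comp tendsto_comap_im_ofComplex)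
    (fun x hx => hindep x fun s => by
      have h1 := (hx s).comp tendsto_coe_atImInfty
      refine h1.congr' ?_
      filter_upwards with z
      simp only [Function.comp_apply, ofComplex_apply]
      congr 1
      have := g2_e_coe 1 z
      simpa using this)
  refine ⟨L, hL, ?_⟩
  have h2 := hlim.comp tendsto_coe_atImInfty
  refine h2.congr fun z => ?_
  simp only [Function.comp_apply]
  congr 1
  · congr 1
    unfold g2_F
    congr 1
    ext i j
    simp only [Function.comp_apply]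
    rw [g2_ofComplex_add_nat]
  · rw [← g2_e_coe]
    congr 2
    push_cast
    ring

end

end Fermat.Agent.Lib.RR
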