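import Mathlib

/-!
# WP G2 (a): a nowhere vanishing level-one form with exact `q`-order `m` has weight `12 m`
-/

set_option autoImplicit false

namespace Fermat.Agent.Lib.RR

open ModularForm Complex Filter Topology MatrixGroups CongruenceSubgroup
  SlashInvariantForm SlashInvariantFormClass ModularFormClass
open UpperHalfPlane hiding I

/-- `Δ(z) e^{-2πiz} → 1` at `i∞`. -/
theorem g2_tendsto_discriminant_mul_exp :
    Tendsto (fun z : ℍ => discriminant z * cexp (-(2 * Real.pi * I * (z : ℂ)))) atImInfty (𝓝 1) := by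
  have h := tendsto_atImInfty_tprod_one_sub_eta_q_pow
  refine h.congr fun z => ?_
  rw [discriminant_eq_q_prod z]
  have : Function.Periodic.qParam 1 (z : ℂ) * cexp (-(2 * Real.pi * I * (z : ℂ))) = 1 := by
    rw [Function.Periodic.qParam, ← Complex.exp_add]
    simp
  rw [mul_right_comm, this, one_mul]

/-- The inverse of a nowhere vanishing level-one form that has a nonzero limit at `i∞`. -/
noncomputable def g2_invMF {w : ℤ} (g : ModularForm 𝒮ℒ w) (hg : ∀ z, g z ≠ 0) {L : ℂ}
    (hL : L ≠ 0) (hlim : Tendsto g atImInfty (𝓝 L)) : ModularForm 𝒮ℒ (-w) where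
  toFun z := (g z)⁻¹
  slash_action_eq' := by
    rintro _ ⟨γ, rfl⟩
    have h1 : (fun z => (g z)⁻¹) = (1 : ℍ → ℂ) / ⇑g := by
      ext z; simp
    have h2 : (-w) = 0 - w := by ring
    rw [h1, h2]
    change ((1 : ℍ → ℂ) / ⇑g) ∣[(0 : ℤ) - w] γ = _
    rw [div_slash_SL2, is_invariant_one]
    have : (⇑g ∣[w] γ) = ⇑g := g.slash_action_eq' _ ⟨γ, rfl⟩
    rw [this]
  holo' := by
    have h1 : (fun z => (g z)⁻¹) = (1 : ℍ → ℂ) / ⇑g := by
      ext z; simp
    change MDifferentiable _ _ (fun z => (g z)⁻¹)
    rw [h1]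
    exact (mdifferentiable_const (c := (1:ℂ))).div g.holo' hg
  bdd_at_cusps' {c} hc := by
    rw [Subgroup.IsArithmetic.isCusp_iff_isCusp_SL2Z] at hc
    rw [OnePoint.isBoundedAt_iff_forall_SL2Z hc]
    intro γ _
    have h1 : (fun z => (g z)⁻¹) = (1 : ℍ → ℂ) / ⇑g := by
      ext z; simp
    have h2 : (-w) = 0 - w := by ring
    change IsBoundedAtImInfty ((fun z => (g z)⁻¹) ∣[-w] γ)
    rw [h1, h2, div_slash_SL2, is_invariant_one]
    have : (⇑g ∣[w] γ) = ⇑g := g.slash_action_eq' _ ⟨γ, rfl⟩
    rw [this]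
    have : Tendsto ((1 : ℍ → ℂ) / ⇑g) atImInfty (𝓝 (1 / L)) := by
      exact (tendsto_const_nhds (x := (1:ℂ))).div hlim hL
    exact this.isBigO_one ℝ

theorem g2_invMF_apply {w : ℤ} (g : ModularForm 𝒮ℒ w) (hg : ∀ z, g z ≠ 0) {L : ℂ}
    (hL : L ≠ 0) (hlim : Tendsto g atImInfty (𝓝 L)) (z : ℍ) :
    g2_invMF g hg hL hlim z = (g z)⁻¹ := rfl

/-- A nowhere vanishing level-one modular form `g` with `g(z) e^{-2πimz} → L ≠ 0` has
weight `12 m`. -/
theorem g2_weight_eq_of_ne_zero_nat : ∀ (m : ℕ) {w : ℤ} (g : ModularForm 𝒮ℒ w)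
    (_ : ∀ z, g z ≠ 0) {L : ℂ} (_ : L ≠ 0)
    (_ : Tendsto (fun z : ℍ => g z * cexp (-(2 * Real.pi * I * m * (z : ℂ)))) atImInfty (𝓝 L)),
    w = 12 * m := by
  intro m
  induction m with
  | zero =>
    intro w g hg L hL hlim
    have hlim' : Tendsto g atImInfty (𝓝 L) := by
      refine hlim.congr fun z => ?_
      simp
    rcases lt_trichotomy w 0 with hw | hw | hw
    · exfalso
      have := levelOne_neg_weight_eq_zero hw g
      exact hg UpperHalfPlane.I (by rw [this]; rfl)
    · simpa using hw
    · exfalso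
      have hw' : -w < 0 := by omega
      have := levelOne_neg_weight_eq_zero hw' (g2_invMF g hg hL hlim')
      have h2 := congrFun this UpperHalfPlane.I
      rw [g2_invMF_apply] at h2
      exact inv_ne_zero (hg _) h2
  | succ m ih =>
    intro w g hg L hL hlim
    -- g tends to zero at infinity
    have hq : Tendsto (fun z : ℍ => cexp (2 * Real.pi * I * ((m + 1 : ℕ) : ℂ) * (z : ℂ)))
        atImInfty (𝓝 0) := by
      rw [tendsto_zero_iff_norm_tendsto_zero]
      simp only [Complex.norm_exp]
      have : ∀ z : ℍ, (2 * Real.pi * I * ((m + 1 : ℕ) : ℂ) * (z : ℂ)).re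
          = -(2 * Real.pi * (m + 1 : ℕ)) * z.im := by
        intro z
        simp [mul_re, mul_im]
      simp_rw [this]
      refine Real.tendsto_exp_atBot.comp ?_
      refine Tendsto.const_mul_atTop_of_neg ?_ tendsto_comap
      have : (0 : ℝ) < 2 * Real.pi * (m + 1 : ℕ) := by positivity
      linarith
    have hzero : IsZeroAtImInfty g := by
      have := hlim.mul hq
      rw [mul_zero] at this
      refine this.congr fun z => ?_
      rw [mul_assoc, ← Complex.exp_add]
      simp
    have hc0 : (qExpansion 1 g).coeff 0 = 0 := by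
      rw [qExpansion_coeff_zero one_pos
        (ModularFormClass.analyticAt_cuspFunction_zero g one_pos one_mem_strictPeriods_SL)
        (periodic_comp_ofComplex g one_mem_strictPeriods_SL)]
      exact hzero.valueAtInfty_eq_zero
    set g' : ModularForm 𝒮ℒ (w - 12) := CuspForm.discriminantEquiv (toCuspForm g hc0) with hg'
    have hg'z : ∀ z, g' z = g z / discriminant z := fun z => by
      rw [hg', CuspForm.discriminantEquiv_apply, toCuspForm_apply]
    have h1 : ∀ z, g' z ≠ 0 := fun z => by
      rw [hg'z]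
      exact div_ne_zero (hg z) (discriminant_ne_zero z)
    have h2 : Tendsto (fun z : ℍ => g' z * cexp (-(2 * Real.pi * I * m * (z : ℂ))))
        atImInfty (𝓝 (L / 1)) := by
      refine (hlim.div g2_tendsto_discriminant_mul_exp one_ne_zero).congr fun z => ?_
      rw [hg'z]
      simp only [Pi.div_apply]
      have e1 : cexp (-(2 * Real.pi * I * ((m + 1 : ℕ) : ℂ) * (z : ℂ)))
          = cexp (-(2 * Real.pi * I * m * (z : ℂ))) * cexp (-(2 * Real.pi * I * (z : ℂ))) := by
        rw [← Complex.exp_add]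
        congr 1
        push_cast
        ring
      rw [e1]
      have hd := discriminant_ne_zero z
      have he := Complex.exp_ne_zero (-(2 * Real.pi * I * (z : ℂ)))
      field_simp
    have := ih g' h1 (by simpa using hL) h2
    push_cast
    linarith

/-- Function version: a nowhere vanishing level-one modular form `g` (given as a function with
a modular form realising it) with `g(z) e^{-2πimz} → L ≠ 0`, `m : ℤ`, has weight `12 m`. -/
theorem g2_weight_eq_of_ne_zero {w : ℤ} {g : ℍ → ℂ} (hg : ∃ G : ModularForm 𝒮ℒ w, ⇑G = g)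
    (hne : ∀ z, g z ≠ 0) (m : ℤ) {L : ℂ} (hL : L ≠ 0)
    (hlim : Tendsto (fun z : ℍ => g z * cexp (-(2 * Real.pi * I * m * (z : ℂ)))) atImInfty (𝓝 L)) :
    w = 12 * m := by
  obtain ⟨G, rfl⟩ := hg
  rcases le_or_gt 0 m with hm | hm
  · lift m to ℕ using hm
    have := g2_weight_eq_of_ne_zero_nat m G hne hL (by simpa using hlim)
    simpa using this
  · exfalso
    -- G is bounded, and the exponential factor tends to zero, so L = 0
    have hbd : IsBoundedAtImInfty G := ModularFormClass.bdd_at_infty G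
    have hq : Tendsto (fun z : ℍ => cexp (-(2 * Real.pi * I * m * (z : ℂ))))
        atImInfty (𝓝 0) := by
      rw [tendsto_zero_iff_norm_tendsto_zero]
      simp only [Complex.norm_exp]
      have : ∀ z : ℍ, (-(2 * Real.pi * I * (m : ℂ) * (z : ℂ))).re
          = (2 * Real.pi * m) * z.im := by
        intro z
        simp [mul_re, mul_im]
      simp_rw [this]
      refine Real.tendsto_exp_atBot.comp ?_
      refine Tendsto.const_mul_atTop_of_neg ?_ tendsto_comap
      have : (m : ℝ) < 0 := by exact_mod_cast hm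
      have hpi := Real.pi_pos
      nlinarith
    have h0 : Tendsto (fun z : ℍ => G z * cexp (-(2 * Real.pi * I * m * (z : ℂ))))
        atImInfty (𝓝 0) := by
      have := hbd.mul_zeroAtFilter hq
      exact this
    exact hL (tendsto_nhds_unique hlim h0)

end Fermat.Agent.Lib.RR
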