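import Fermat.Agent.Lib.RR.Interface
import Fermat.Agent.Lib.RR.CosetsWidth
import Fermat.Agent.Lib.RR.G2Upper
import Fermat.Agent.Lib.RR.G2Weight

/-!
# WP G2 (d): the cosets of `Γ₀(N)` as pairs (cusp, translate), and the sum of the weights
-/

set_option autoImplicit false

namespace Fermat.Agent.Lib.RR

open Complex Filter Function Topology Matrix
open UpperHalfPlane hiding I
open ModularForm CongruenceSubgroup Matrix.SpecialLinearGroup ModularGroup
open Fermat.Agent.Lib.RR.Cosets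
open scoped MatrixGroups Manifold

theorem g2_slash_T_zpow (g : ℍ → ℂ) (k n : ℤ) (z : ℍ) :
    (g ∣[k] (T ^ n : SL(2, ℤ))) z = g ((n : ℝ) +ᵥ z) := by
  rw [SL_slash_apply, modular_T_zpow_smul]
  have : denom ((T ^ n : SL(2, ℤ)) : GL (Fin 2) ℝ) z = 1 := by
    rw [ModularGroup.denom_apply, coe_T_zpow]
    simp
  rw [this, _root_.one_zpow, mul_one]

variable {N : ℕ} {k : ℤ} {f : ℍ → ℂ}

theorem g2_cosetFun_T (hf : IsInv N k f) (q : Q N) (m : ℤ) (z : ℍ) :
    cosetFun N k f ((T ^ (-m) : SL(2, ℤ)) • q) z = cosetFun N k f q ((m : ℝ) +ᵥ z) := by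
  have h := cosetFun_slash hf q (T ^ m)
  rw [← _root_.zpow_neg] at h
  rw [← h, g2_slash_T_zpow]

section

variable (N) [NeZero N]

/-- The pairs (cusp, translate). -/
abbrev g2_J : Type := Σ ω : TOrbits N, Fin (width N ω)

/-- `(ω, m) ↦ T^(-m) • ω.out`. -/
noncomputable def g2_toQ (j : g2_J N) : Q N := (T ^ (-((j.2 : ℕ) : ℤ)) : SL(2, ℤ)) • j.1.out

theorem g2_sigmaEquiv_toQ (j : g2_J N) :
    sigmaEquiv N (g2_toQ N j) = ⟨j.1, ((-((j.2 : ℕ) : ℤ) : ℤ) : ZMod (width N j.1))⟩ :=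
  sigmaEquiv_zpow_smul N j.1 _

theorem g2_toQ_bijective : Function.Bijective (g2_toQ N) := by
  constructor
  · rintro ⟨ω, m⟩ ⟨ω', m'⟩ hjj
    have h1 := congrArg (sigmaEquiv N) hjj
    rw [g2_sigmaEquiv_toQ, g2_sigmaEquiv_toQ] at h1
    simp only at h1
    obtain ⟨rfl, h2⟩ := Sigma.mk.inj_iff.mp h1
    have h3 := eq_of_heq h2
    have h4 : (((m : ℕ) : ℤ) : ZMod (width N ω)) = (((m' : ℕ) : ℤ) : ZMod (width N ω)) := by
      have := congrArg (fun x => -x) h3
      simpa using this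
    rw [Int.cast_natCast, Int.cast_natCast, ZMod.natCast_eq_natCast_iff'] at h4
    rw [Nat.mod_eq_of_lt m.2, Nat.mod_eq_of_lt m'.2] at h4
    have : m = m' := Fin.ext h4
    rw [this]
  · intro q
    obtain ⟨⟨ω, k⟩, hk⟩ : ∃ p, (sigmaEquiv N).symm p = q := ⟨sigmaEquiv N q, by simp⟩
    refine ⟨⟨ω, ⟨(-k).val, ZMod.val_lt _⟩⟩, ?_⟩
    rw [← hk, Equiv.eq_symm_apply, g2_sigmaEquiv_toQ]
    simp

/-- The cosets as pairs (cusp, translate). -/
noncomputable def g2_equivQ : g2_J N ≃ Q N := Equiv.ofBijective _ (g2_toQ_bijective N)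

theorem g2_equivQ_apply (j : g2_J N) : g2_equivQ N j = g2_toQ N j := rfl

theorem g2_T_width_smul (ω : TOrbits N) :
    (T ^ (-(width N ω : ℤ)) : SL(2, ℤ)) • ω.out = ω.out := by
  have h1 : Function.IsPeriodicPt (T • · : Q N → Q N) (width N ω) ω.out :=
    Function.isPeriodicPt_minimalPeriod _ _
  rw [Function.IsPeriodicPt, Function.IsFixedPt, smul_iterate] at h1
  rw [_root_.zpow_neg, inv_smul_eq_iff, zpow_natCast]
  exact h1.symm

end

end Fermat.Agent.Lib.RR
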