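import Mathlib
import Fermat.Agent.Lib.RR.Interface
import Fermat.Agent.Lib.RR.Free

/-!
# A homogeneous basis is a saturated family
-/

set_option autoImplicit false

namespace Fermat.Agent.Lib.RR

open UpperHalfPlane

/-- The weight pieces of `ℂ[E4, E6]` multiply. -/
theorem sat_mul_mem_RW {d e : ℤ} {P r : ℍ → ℂ} (hP : P ∈ RW d) (hr : r ∈ RW e) :
    P * r ∈ RW (d + e) := by
  rw [RW, wtSpan_eq_MF1] at *
  exact mul_mem_MF1 hP hr

/-- A homogeneous basis of `M` over `ℂ[E4, E6]` is a saturated family. -/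
theorem sat_of_isHomBasis {M : ℤ → Submodule ℂ (ℍ → ℂ)} {ι : Type} [Fintype ι] {κ : ι → ℤ}
    {β : ι → ℍ → ℂ} (h : IsHomBasis (k := ℂ) E4 E6 M κ β) : IsSatFamily M κ β where
  mem := h.mem
  indep := h.indep
  sat := by
    intro d P hP w r hr g hg hsum
    obtain ⟨r', hr', hg'⟩ := h.gen _ _ hg
    refine ⟨r', hr', ?_⟩
    have h0 : ∑ i, (r i - P * r' i) * β i = 0 := by
      simp only [sub_mul, Finset.sum_sub_distrib, hsum, hg', Finset.mul_sum, mul_assoc, sub_self]
    have hmem : ∀ i, r i - P * r' i ∈ RW (w - κ i) := fun i => by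
      refine Submodule.sub_mem _ (hr i) ?_
      have := sat_mul_mem_RW hP (hr' i)
      rwa [show d + (w - d - κ i) = w - κ i by ring] at this
    intro i
    exact sub_eq_zero.mp (h.indep w _ hmem h0 i)

end Fermat.Agent.Lib.RR
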