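import Mathlib

set_option autoImplicit false

/-!
# Weierstrass uniqueness: the invariants `g₂`, `g₃` determine the period lattice
(S20 work package C2).

Main result: `Fermat.Agent.Lib.RR.WP.lattice_eq_of_g₂_g₃_eq`.
-/

open Filter Topology PeriodPair

namespace Fermat.Agent.Lib.RR.WP

/-- Uniqueness for a first-order linear ODE with a regular singular point at `0`:
if `z P(z) u'(z) = Q(z) u(z)` near `0` (`z ≠ 0`), with `u` analytic, `P, Q` continuous at `0`
and no natural number `m` satisfies the indicial equation `m P(0) = Q(0)`, then `u = 0` near `0`. -/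
theorem eventually_eq_zero_of_singular_ode {u P Q : ℂ → ℂ} (hu : AnalyticAt ℂ u 0)
    (hP : ContinuousAt P 0) (hQ : ContinuousAt Q 0)
    (hode : ∀ᶠ z in 𝓝[≠] (0 : ℂ), z * P z * deriv u z = Q z * u z)
    (hind : ∀ m : ℕ, (m : ℂ) * P 0 ≠ Q 0) : ∀ᶠ z in 𝓝 (0 : ℂ), u z = 0 := by
  by_contra hne
  have htop : analyticOrderAt u 0 ≠ ⊤ := fun h => hne (analyticOrderAt_eq_top.mp h)
  obtain ⟨v, hv, hv0, huv⟩ := hu.analyticOrderAt_ne_top.mp htop
  set m := analyticOrderNatAt u 0 with hm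
  simp only [sub_zero, smul_eq_mul] at huv
  -- derivative of `u` near 0
  have hderiv : ∀ᶠ z in 𝓝 (0 : ℂ), deriv u z = (m : ℂ) * z ^ (m - 1) * v z + z ^ m * deriv v z := by
    have h1 : ∀ᶠ z in 𝓝 (0 : ℂ), u =ᶠ[𝓝 z] fun w => w ^ m * v w := huv.eventually_nhds
    have h2 : ∀ᶠ z in 𝓝 (0 : ℂ), AnalyticAt ℂ v z := hv.eventually_analyticAt
    filter_upwards [h1, h2] with z hz hvz
    rw [hz.deriv_eq]
    have hd : HasDerivAt (fun w => w ^ m * v w)
        ((m : ℂ) * z ^ (m - 1) * v z + z ^ m * deriv v z) z := by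
      have := (hasDerivAt_pow m z).mul hvz.differentiableAt.hasDerivAt
      exact this
    exact hd.deriv
  -- the reduced identity on a punctured neighbourhood
  have hred : ∀ᶠ z in 𝓝[≠] (0 : ℂ),
      P z * ((m : ℂ) * v z + z * deriv v z) - Q z * v z = 0 := by
    filter_upwards [hode, (huv.filter_mono nhdsWithin_le_nhds),
      (hderiv.filter_mono nhdsWithin_le_nhds), self_mem_nhdsWithin] with z h1 h2 h3 hz
    have hz0 : z ≠ 0 := hz
    rw [h2, h3] at h1
    have hzm : z ^ m ≠ 0 := pow_ne_zero m hz0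
    have hpow : z * ((m : ℂ) * z ^ (m - 1)) = (m : ℂ) * z ^ m := by
      rcases Nat.eq_zero_or_pos m with h0 | hpos
      · simp [h0]
      · have : z ^ m = z * z ^ (m - 1) := by
          rw [← pow_succ', Nat.sub_add_cancel hpos]
        rw [this]; ring
    have : z ^ m * (P z * ((m : ℂ) * v z + z * deriv v z) - Q z * v z) = 0 := by
      have e : z ^ m * (P z * ((m : ℂ) * v z + z * deriv v z) - Q z * v z)
          = P z * (z * ((m : ℂ) * z ^ (m - 1))) * v z + z * P z * (z ^ m * deriv v z)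
            - Q z * (z ^ m * v z) := by
        rw [hpow]; ring
      rw [e]
      linear_combination h1
    exact (mul_eq_zero.mp this).resolve_left hzm
  -- pass to the limit
  have hcont : ContinuousAt (fun z => P z * ((m : ℂ) * v z + z * deriv v z) - Q z * v z) 0 := by
    have hv' : ContinuousAt v 0 := hv.continuousAt
    have hdv : ContinuousAt (deriv v) 0 := hv.deriv.continuousAt
    exact (hP.mul ((continuousAt_const.mul hv').add (continuousAt_id.mul hdv))).sub (hQ.mul hv')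
  have hlim : (P 0 * ((m : ℂ) * v 0 + 0 * deriv v 0) - Q 0 * v 0) = 0 := by
    have h1 := hcont.tendsto.mono_left (nhdsWithin_le_nhds (s := {0}ᶜ))
    have h2 : Tendsto (fun z => P z * ((m : ℂ) * v z + z * deriv v z) - Q z * v z)
        (𝓝[≠] (0 : ℂ)) (𝓝 0) := by
      refine Tendsto.congr' ?_ tendsto_const_nhds
      filter_upwards [hred] with z hz using hz.symm
    exact tendsto_nhds_unique h1 h2
  have : ((m : ℂ) * P 0 - Q 0) * v 0 = 0 := by linear_combination hlim
  rcases mul_eq_zero.mp this with h | h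
  · exact hind m (sub_eq_zero.mp h)
  · exact hv0 h


variable (L L' : PeriodPair)

theorem weierstrassP_eq_except_add (z : ℂ) : ℘[L] z = ℘[L - (0 : ℂ)] z + 1 / z ^ 2 := by
  have := L.weierstrassPExcept_def (0 : L.lattice) z
  simp only [ZeroMemClass.coe_zero, sub_zero] at this
  rw [this]
  simp

theorem derivWeierstrassP_eq_except_sub (z : ℂ) : ℘'[L] z = ℘'[L - (0 : ℂ)] z - 2 / z ^ 3 := by
  have := L.derivWeierstrassPExcept_def (0 : L.lattice) z
  simp only [ZeroMemClass.coe_zero, sub_zero] at this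
  rw [this]
  ring

/-- Algebraic core: subtracting the two Weierstrass ODEs. -/
theorem ode_sub_aux {z a b c d g2 g3 : ℂ} (hz : z ≠ 0)
    (E1 : (c - 2 / z ^ 3) ^ 2 = 4 * (a + 1 / z ^ 2) ^ 3 - g2 * (a + 1 / z ^ 2) - g3)
    (E2 : (d - 2 / z ^ 3) ^ 2 = 4 * (b + 1 / z ^ 2) ^ 3 - g2 * (b + 1 / z ^ 2) - g3) :
    z * (z ^ 3 * (c + d) - 4) * (c - d) =
      (12 + 12 * (a + b) * z ^ 2 + 4 * z ^ 4 * (a ^ 2 + a * b + b ^ 2) - g2 * z ^ 4) * (a - b) := by
  have E1' : (c * z ^ 3 - 2) ^ 2 =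
      4 * (a * z ^ 2 + 1) ^ 3 - g2 * (a * z ^ 2 + 1) * z ^ 4 - g3 * z ^ 6 := by
    field_simp at E1
    linear_combination E1
  have E2' : (d * z ^ 3 - 2) ^ 2 =
      4 * (b * z ^ 2 + 1) ^ 3 - g2 * (b * z ^ 2 + 1) * z ^ 4 - g3 * z ^ 6 := by
    field_simp at E2
    linear_combination E2
  have hz2 : z ^ 2 ≠ 0 := pow_ne_zero 2 hz
  apply mul_left_cancel₀ hz2
  linear_combination E1' - E2'


/-- Two period lattices with the same `g₂`, `g₃` have the same regularised `℘` near `0`. -/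
theorem eventually_weierstrassPExcept_eq (h2 : L.g₂ = L'.g₂) (h3 : L.g₃ = L'.g₃) :
    ∀ᶠ z in 𝓝 (0 : ℂ), ℘[L - (0 : ℂ)] z = ℘[L' - (0 : ℂ)] z := by
  have ha1 : AnalyticAt ℂ ℘[L - (0 : ℂ)] 0 := L.analyticAt_weierstrassPExcept 0
  have ha2 : AnalyticAt ℂ ℘[L' - (0 : ℂ)] 0 := L'.analyticAt_weierstrassPExcept 0
  have hb1 : AnalyticAt ℂ ℘'[L - (0 : ℂ)] 0 := L.analyticAt_derivWeierstrassPExcept 0
  have hb2 : AnalyticAt ℂ ℘'[L' - (0 : ℂ)] 0 := L'.analyticAt_derivWeierstrassPExcept 0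
  have hN1 := L.compl_lattice_sdiff_singleton_mem_nhds 0
  have hN2 := L'.compl_lattice_sdiff_singleton_mem_nhds 0
  have key := eventually_eq_zero_of_singular_ode
    (u := fun z => ℘[L - (0 : ℂ)] z - ℘[L' - (0 : ℂ)] z)
    (P := fun z => z ^ 3 * (℘'[L - (0 : ℂ)] z + ℘'[L' - (0 : ℂ)] z) - 4)
    (Q := fun z => 12 + 12 * (℘[L - (0 : ℂ)] z + ℘[L' - (0 : ℂ)] z) * z ^ 2
      + 4 * z ^ 4 * (℘[L - (0 : ℂ)] z ^ 2 + ℘[L - (0 : ℂ)] z * ℘[L' - (0 : ℂ)] z
        + ℘[L' - (0 : ℂ)] z ^ 2) - L.g₂ * z ^ 4)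
    (ha1.sub ha2)
    (by
      have := hb1.continuousAt; have := hb2.continuousAt
      fun_prop)
    (by
      have := ha1.continuousAt; have := ha2.continuousAt
      fun_prop)
    (by
      filter_upwards [mem_nhdsWithin_of_mem_nhds hN1, mem_nhdsWithin_of_mem_nhds hN2,
        self_mem_nhdsWithin] with z hz1 hz2 hz0
      have hz : z ≠ 0 := hz0
      have hzL : z ∉ L.lattice := fun hmem => hz1 ⟨hmem, hz⟩
      have hzL' : z ∉ L'.lattice := fun hmem => hz2 ⟨hmem, hz⟩
      have E1 := L.derivWeierstrassP_sq z hzL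
      have E2 := L'.derivWeierstrassP_sq z hzL'
      rw [weierstrassP_eq_except_add, derivWeierstrassP_eq_except_sub] at E1 E2
      rw [← h2, ← h3] at E2
      have hd1 : HasDerivAt ℘[L - (0 : ℂ)] (℘'[L - (0 : ℂ)] z) z := by
        have hdiff : DifferentiableAt ℂ ℘[L - (0 : ℂ)] z :=
          (L.differentiableOn_weierstrassPExcept 0).differentiableAt
            (L.isOpen_compl_lattice_sdiff.mem_nhds hz1)
        have := L.eqOn_deriv_weierstrassPExcept_derivWeierstrassPExcept 0 hz1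
        rw [← this]
        exact hdiff.hasDerivAt
      have hd2 : HasDerivAt ℘[L' - (0 : ℂ)] (℘'[L' - (0 : ℂ)] z) z := by
        have hdiff : DifferentiableAt ℂ ℘[L' - (0 : ℂ)] z :=
          (L'.differentiableOn_weierstrassPExcept 0).differentiableAt
            (L'.isOpen_compl_lattice_sdiff.mem_nhds hz2)
        have := L'.eqOn_deriv_weierstrassPExcept_derivWeierstrassPExcept 0 hz2
        rw [← this]
        exact hdiff.hasDerivAt
      have hd : deriv (fun z => ℘[L - (0 : ℂ)] z - ℘[L' - (0 : ℂ)] z) z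
          = ℘'[L - (0 : ℂ)] z - ℘'[L' - (0 : ℂ)] z := (hd1.sub hd2).deriv
      rw [hd]
      exact ode_sub_aux hz E1 E2)
    (by
      intro m hm
      simp only [ne_eq, OfNat.ofNat_ne_zero, not_false_eq_true, zero_pow, zero_mul, zero_sub,
        mul_zero, add_zero, sub_zero] at hm
      have h' : ((m + 3 : ℕ) : ℂ) = 0 := by push_cast; linear_combination (-(1:ℂ)/4) * hm
      exact absurd (Nat.cast_eq_zero.mp h') (by omega))
  filter_upwards [key] with z hz using sub_eq_zero.mp hz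


theorem countable_lattice : (L.lattice : Set ℂ).Countable := by
  have : Countable L.lattice := Countable.of_equiv _ L.latticeEquivProd.toEquiv.symm
  exact Set.countable_coe_iff.mp this

theorem isPreconnected_compl_lattice_union :
    IsPreconnected ((L.lattice : Set ℂ) ∪ (L'.lattice : Set ℂ))ᶜ := by
  have hc : ((L.lattice : Set ℂ) ∪ (L'.lattice : Set ℂ)).Countable :=
    (countable_lattice L).union (countable_lattice L')
  have hrank : 1 < Module.rank ℝ ℂ := by
    rw [Complex.rank_real_complex]; norm_num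
  exact (hc.isConnected_compl_of_one_lt_rank hrank).isPreconnected

/-- Same `g₂`, `g₃` ⟹ the two `℘`-functions agree off the union of the lattices. -/
theorem eqOn_weierstrassP (h2 : L.g₂ = L'.g₂) (h3 : L.g₃ = L'.g₃) :
    Set.EqOn ℘[L] ℘[L'] ((L.lattice : Set ℂ) ∪ (L'.lattice : Set ℂ))ᶜ := by
  set U : Set ℂ := ((L.lattice : Set ℂ) ∪ (L'.lattice : Set ℂ))ᶜ with hU
  have hUopen : IsOpen U :=
    (L.isClosed_lattice.union L'.isClosed_lattice).isOpen_compl
  have hA1 : AnalyticOnNhd ℂ ℘[L] U :=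
    L.analyticOnNhd_weierstrassP.mono (by
      intro z hz hmem; exact hz (Or.inl hmem))
  have hA2 : AnalyticOnNhd ℂ ℘[L'] U :=
    L'.analyticOnNhd_weierstrassP.mono (by
      intro z hz hmem; exact hz (Or.inr hmem))
  -- a punctured neighbourhood of `0` on which both agree and which lies in `U`
  have hev : ∀ᶠ z in 𝓝 (0 : ℂ), z ≠ 0 → (℘[L] z = ℘[L'] z ∧ z ∈ U) := by
    filter_upwards [eventually_weierstrassPExcept_eq L L' h2 h3,
      L.compl_lattice_sdiff_singleton_mem_nhds 0,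
      L'.compl_lattice_sdiff_singleton_mem_nhds 0] with z hz hz1 hz2 hz0
    refine ⟨by rw [weierstrassP_eq_except_add, weierstrassP_eq_except_add, hz], ?_⟩
    rintro (hmem | hmem)
    · exact hz1 ⟨hmem, hz0⟩
    · exact hz2 ⟨hmem, hz0⟩
  obtain ⟨ε, hε, hball⟩ := Metric.eventually_nhds_iff.mp hev
  -- the point `z₀ = ε / 2`
  set z₀ : ℂ := ((ε / 2 : ℝ) : ℂ) with hz₀
  have hz₀norm : ‖z₀‖ = ε / 2 := by
    rw [hz₀, Complex.norm_real, Real.norm_eq_abs, abs_of_pos (by positivity)]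
  have hz₀U : z₀ ∈ U := by
    have : dist z₀ 0 < ε := by rw [dist_zero_right, hz₀norm]; linarith
    exact (hball this (by
      intro h0; rw [h0, norm_zero] at hz₀norm; linarith)).2
  have hnear : ℘[L] =ᶠ[𝓝 z₀] ℘[L'] := by
    have hmem : Metric.ball z₀ (ε / 2) ∈ 𝓝 z₀ := Metric.ball_mem_nhds _ (by positivity)
    filter_upwards [hmem] with w hw
    have hw0 : w ≠ 0 := by
      rintro rfl
      rw [Metric.mem_ball, dist_comm, dist_zero_right, hz₀norm] at hw
      exact lt_irrefl _ hw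
    have hwε : dist w 0 < ε := by
      have h1 : dist w 0 ≤ dist w z₀ + dist z₀ 0 := dist_triangle _ _ _
      have h2 : dist z₀ 0 = ε / 2 := by rw [dist_zero_right, hz₀norm]
      have h3 : dist w z₀ < ε / 2 := hw
      linarith
    exact (hball hwε hw0).1
  exact hA1.eqOn_of_preconnected_of_eventuallyEq hA2
    (isPreconnected_compl_lattice_union L L') hz₀U hnear

/-- Same `g₂`, `g₃` ⟹ `L ⊆ L'`. -/
theorem lattice_le_of_g₂_g₃_eq (h2 : L.g₂ = L'.g₂) (h3 : L.g₃ = L'.g₃) :
    L.lattice ≤ L'.lattice := by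
  intro x hx
  by_contra hx'
  have heq := eqOn_weierstrassP L L' h2 h3
  -- near `x` (punctured), points lie off both lattices
  have hpunct : ℘[L] =ᶠ[𝓝[≠] x] ℘[L'] := by
    have h1 : (↑L.lattice \ {x})ᶜ ∈ 𝓝 x := L.compl_lattice_sdiff_singleton_mem_nhds x
    have h2' : (L'.lattice : Set ℂ)ᶜ ∈ 𝓝 x := L'.isClosed_lattice.isOpen_compl.mem_nhds hx'
    filter_upwards [mem_nhdsWithin_of_mem_nhds h1, mem_nhdsWithin_of_mem_nhds h2',
      self_mem_nhdsWithin] with z hz1 hz2 hz0
    apply heq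
    rintro (hmem | hmem)
    · exact hz1 ⟨hmem, hz0⟩
    · exact hz2 hmem
  have hord := meromorphicOrderAt_congr hpunct
  rw [L.order_weierstrassP x hx] at hord
  have hnonneg := (L'.analyticOnNhd_weierstrassP x hx').meromorphicOrderAt_nonneg
  rw [← hord] at hnonneg
  exact absurd hnonneg (by decide)

/-- **Weierstrass uniqueness**: two period lattices with the same invariants `g₂`, `g₃`
coincide. -/
theorem lattice_eq_of_g₂_g₃_eq (h2 : L.g₂ = L'.g₂) (h3 : L.g₃ = L'.g₃) :
    L.lattice = L'.lattice :=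
  le_antisymm (lattice_le_of_g₂_g₃_eq L L' h2 h3) (lattice_le_of_g₂_g₃_eq L' L h2.symm h3.symm)


end Fermat.Agent.Lib.RR.WP
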